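import Fermat.Prelude.Def_ModularCurve_HeckeOperator
import Fermat.Prelude.Thm_ModularCurve_coeffMap_qExpand
import Mathlib.FieldTheory.Relrank

/-!
Degeneracy maps `f(q) ↦ f(q^d)` between the base-changed modular function fields, for all pairs of
levels `M * d ∣ M'`, their composition law and their images.
-/

set_option autoImplicit false

noncomputable section

open AlgebraicCurve ModularCurve IntermediateField HahnSeries

namespace Fermat.Agent.HK.Corr

variable (L : Type*) [Field L] [Algebra ℚ L]

/-- The function field of `X₀(M)` with constants extended to `L`. -/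
abbrev modField (M : ℕ) : IntermediateField L (LaurentSeries L) :=
  laurentBaseChange L (modularFunctionFieldFull M)

/-- The expansion of `j` with coefficients in `L`. -/
def jSer : LaurentSeries L := coeffEmb L jq

/-- The subfield `L(j)`. -/
def jLine : IntermediateField L (LaurentSeries L) := adjoin L {jSer L}

/-- Substitution `q ↦ q^d` as an `L`-algebra map. -/
def qExpandAlg (d : ℕ) [NeZero d] : LaurentSeries L →ₐ[L] LaurentSeries L where
  __ := qExpand L d
  commutes' a := by
    show qExpand L d (algebraMap L (LaurentSeries L) a) = algebraMap L (LaurentSeries L) a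
    rw [algebraMap_laurentSeries_eq_single, qExpand_single, mul_zero]

variable {L}

theorem qExpandAlg_apply (d : ℕ) [NeZero d] (x : LaurentSeries L) :
    qExpandAlg L d x = qExpand L d x := rfl

theorem coeffEmb_qExpand_eq (d : ℕ) [NeZero d] (x : LaurentSeries ℚ) :
    coeffEmb L (qExpand ℚ d x) = qExpand L d (coeffEmb L x) :=
  ModularCurve.coeffMap_qExpand (algebraMap ℚ L) d x

variable (L) in
theorem laurentBaseChange_adjoin (S : Set (LaurentSeries ℚ)) :
    laurentBaseChange L (adjoin ℚ S) = adjoin L (⇑(coeffEmb L) '' S) := by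
  refine le_antisymm ?_ (adjoin.mono _ _ _ (Set.image_mono (subset_adjoin ℚ S)))
  rw [laurentBaseChange, adjoin_le_iff]
  rintro _ ⟨y, hy, rfl⟩
  show coeffEmb L y ∈ adjoin L (⇑(coeffEmb L) '' S)
  induction hy using adjoin_induction with
  | mem x hx => exact subset_adjoin L _ ⟨x, hx, rfl⟩
  | algebraMap c =>
    rw [algebraMap_apply_eq_single, coeffEmb, coeffMap_single,
      ← algebraMap_laurentSeries_eq_single]
    exact IntermediateField.algebraMap_mem _ _
  | add x y _ _ hx hy => simpa using add_mem hx hy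
  | inv x _ hx => simpa using inv_mem hx
  | mul x y _ _ hx hy => simpa using mul_mem hx hy

variable (L) in
theorem modField_eq_adjoin (M : ℕ) :
    modField L M = adjoin L (⇑(coeffEmb L) '' divisorExpansions M) :=
  laurentBaseChange_adjoin L _

theorem qExpand_jSer_mem {M : ℕ} {d : ℕ} [NeZero d] (hd : d ∣ M) :
    qExpand L d (jSer L) ∈ modField L M := by
  rw [jSer, ← coeffEmb_qExpand_eq]
  exact coeffEmb_mem_laurentBaseChange L (jqd_mem_full M hd)

theorem modField_le_iff {M : ℕ} {E : IntermediateField L (LaurentSeries L)} :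
    modField L M ≤ E ↔ ∀ d, d ∣ M → ∀ (_ : NeZero d), qExpand L d (jSer L) ∈ E := by
  rw [modField_eq_adjoin, adjoin_le_iff]
  constructor
  · intro h d hd hne
    have := h ⟨_, mem_divisorExpansions M hd, rfl⟩
    rwa [coeffEmb_qExpand_eq] at this
  · rintro h _ ⟨x, ⟨d, hne, hd, rfl⟩, rfl⟩
    show coeffEmb L (qExpand ℚ d jq) ∈ E
    rw [coeffEmb_qExpand_eq]
    exact h d hd hne

theorem jSer_mem_modField (M : ℕ) : jSer L ∈ modField L M := by
  simpa [qExpand_one_apply] using qExpand_jSer_mem (L := L) (one_dvd M)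

theorem jLine_le_modField (M : ℕ) : jLine L ≤ modField L M := by
  rw [jLine, adjoin_le_iff]
  exact Set.singleton_subset_iff.mpr (jSer_mem_modField M)

theorem modField_mono {M M' : ℕ} (h : M ∣ M') : modField L M ≤ modField L M' :=
  modField_le_iff.mpr fun _ hd _ => qExpand_jSer_mem (hd.trans h)

theorem map_qExpandAlg_modField_le {M M' d : ℕ} [NeZero d] (h : M * d ∣ M') :
    (modField L M).map (qExpandAlg L d) ≤ modField L M' := by
  rw [map_le_iff_le_comap, modField_le_iff]
  intro e he hne
  haveI : NeZero (d * e) := ⟨Nat.mul_ne_zero (NeZero.ne d) (NeZero.ne e)⟩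
  show qExpand L d (qExpand L e (jSer L)) ∈ modField L M'
  rw [qExpand_qExpand]
  exact qExpand_jSer_mem ((mul_comm d e ▸ mul_dvd_mul_right he d).trans h)

variable (L) in
/-- The degeneracy map `f(q) ↦ f(q^d)` from level `M` to level `M'`. -/
def degenMap {M M' : ℕ} (d : ℕ) [NeZero d] (h : M * d ∣ M') :
    modField L M →ₐ[L] modField L M' :=
  ((qExpandAlg L d).comp (modField L M).val).codRestrict (modField L M').toSubalgebra
    fun x => map_qExpandAlg_modField_le h ⟨x, x.2, rfl⟩

theorem coe_degenMap {M M' : ℕ} (d : ℕ) [NeZero d] (h : M * d ∣ M') (x : modField L M) :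
    (degenMap L d h x : LaurentSeries L) = qExpand L d (x : LaurentSeries L) := rfl

theorem degenMap_congr {M M' d d' : ℕ} [NeZero d] [NeZero d'] (hd : d = d') (h : M * d ∣ M')
    (h' : M * d' ∣ M') : degenMap L d h = degenMap L d' h' := by
  subst hd
  rfl

theorem degenMap_comp {M M' M'' : ℕ} (d e de : ℕ) [NeZero d] [NeZero e] [NeZero de]
    (h : M * d ∣ M') (h' : M' * e ∣ M'') (hde : de = e * d) (h'' : M * de ∣ M'') :
    (degenMap L e h').comp (degenMap L d h) = degenMap L de h'' := by
  refine AlgHom.ext fun x => Subtype.ext ?_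
  rw [AlgHom.comp_apply, coe_degenMap, coe_degenMap, coe_degenMap, qExpand_qExpand]
  exact qExpand_congr hde.symm _

theorem fieldRange_degenMap {M M' : ℕ} (d : ℕ) [NeZero d] (h : M * d ∣ M') :
    (degenMap L d h).fieldRange.map (modField L M').val = (modField L M).map (qExpandAlg L d) := by
  apply le_antisymm
  · rintro _ ⟨_, ⟨x, rfl⟩, rfl⟩
    exact ⟨x, x.2, rfl⟩
  · rintro _ ⟨x, hx, rfl⟩
    exact ⟨_, ⟨⟨x, hx⟩, rfl⟩, rfl⟩

section Hecke

variable (N ℓ : ℕ) [NeZero N] [NeZero ℓ]

theorem heckeAlphaBar_eq_degenMap (h : N * 1 ∣ N * ℓ) :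
    heckeAlphaBar L N ℓ = degenMap L 1 h := by
  refine AlgHom.ext fun x => Subtype.ext ?_
  rw [coe_heckeAlphaBar, coe_degenMap, qExpand_one_apply]

theorem heckeBetaBar_eq_degenMap (h : N * ℓ ∣ N * ℓ) :
    heckeBetaBar L N ℓ = degenMap L ℓ h := by
  refine AlgHom.ext fun x => Subtype.ext ?_
  rw [coe_heckeBetaBar, coe_degenMap]

end Hecke

/-! ### `j` is transcendental over the constants -/

theorem coeff_jSer_pow_self (n : ℕ) : (jSer L ^ n).coeff (-(n : ℤ)) = 1 := by
  rw [jSer, ← map_pow, coeffEmb_coeff, coeff_jq_pow_self, map_one]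

theorem coeff_jSer_pow_of_lt {n : ℕ} {m : ℤ} (hm : m < -(n : ℤ)) : (jSer L ^ n).coeff m = 0 := by
  rw [jSer, ← map_pow, coeffEmb_coeff, coeff_jq_pow_of_lt hm, map_zero]

theorem transcendental_jSer : Transcendental L (jSer L) := by
  rw [transcendental_iff]
  intro p hp
  by_contra hp0
  have hlead : p.leadingCoeff ≠ 0 := Polynomial.leadingCoeff_ne_zero.mpr hp0
  apply hlead
  have h := congrArg (fun x : LaurentSeries L => x.coeff (-(p.natDegree : ℤ))) hp
  rw [Polynomial.aeval_eq_sum_range] at h
  simp only [HahnSeries.coeff_sum, HahnSeries.coeff_zero] at h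
  rw [Finset.sum_eq_single p.natDegree] at h
  · rwa [Algebra.smul_def, algebraMap_laurentSeries_eq_single, HahnSeries.coeff_single_mul,
      sub_zero, coeff_jSer_pow_self, mul_one] at h
  · intro i hi hne
    rw [Algebra.smul_def, algebraMap_laurentSeries_eq_single, HahnSeries.coeff_single_mul,
      sub_zero, coeff_jSer_pow_of_lt, mul_zero]
    have := Finset.mem_range.mp hi
    omega
  · intro hn
    exact absurd (Finset.self_mem_range_succ _) hn

theorem transcendental_jSer_modField (M : ℕ) :
    Transcendental L (⟨jSer L, jSer_mem_modField M⟩ : modField L M) := fun h =>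
  transcendental_jSer (L := L) (h.algHom (modField L M).val)

end Fermat.Agent.HK.Corr
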