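import Fermat.Agent.HK.Degen
import Fermat.Agent.MF.Degeneracy
import Fermat.Agent.MF.JExpansion
import Fermat.Agent.MF.KleinJ

/-!
The Fricke symmetry: algebraic relations between `j(τ)` and `j(dτ)` over any field of
characteristic zero are symmetric, so the field they generate has an endomorphism exchanging them.
-/

set_option autoImplicit false

noncomputable section

open ModularCurve IntermediateField MvPolynomial UpperHalfPlane ModularForm EisensteinSeries
open Fermat.Agent.MF
open scoped MatrixGroups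

namespace Fermat.Agent.HK.Corr

section Analytic

/-- A homogenised two-variable evaluation. -/
theorem map_sum_bihom {A B : Type*} [CommRing A] [Field B] [Algebra ℂ A] [Algebra ℂ B]
    (φ : A →ₐ[ℂ] B) (P : MvPolynomial (Fin 2) ℂ) (n : ℕ) (hn : P.totalDegree ≤ n)
    (a b a' b' : A) (u v : B) (hu : φ a = u * φ b) (hv : φ a' = v * φ b') :
    φ (∑ e ∈ P.support,
        P.coeff e • (a ^ e 0 * b ^ (n - e 0) * (a' ^ e 1 * b' ^ (n - e 1))))
      = MvPolynomial.aeval ![u, v] P * (φ b ^ n * φ b' ^ n) := by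
  rw [map_sum, MvPolynomial.aeval_def, MvPolynomial.eval₂_eq', Finset.sum_mul]
  refine Finset.sum_congr rfl fun e he => ?_
  have hle : e 0 + e 1 ≤ n := by
    refine le_trans ?_ ((MvPolynomial.le_totalDegree he).trans hn)
    rw [Finsupp.sum_fintype _ _ (fun _ => rfl), Fin.sum_univ_two]
  obtain ⟨i, hi⟩ := Nat.exists_eq_add_of_le (show e 0 ≤ n by omega)
  obtain ⟨k, hk⟩ := Nat.exists_eq_add_of_le (show e 1 ≤ n by omega)
  rw [show n - e 0 = i by omega, show n - e 1 = k by omega, map_smul, map_mul, map_mul, map_mul,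
    map_pow, map_pow, map_pow, map_pow, hu, hv, Fin.prod_univ_two, Algebra.smul_def]
  simp only [Matrix.cons_val_zero, Matrix.cons_val_one]
  have p0 : φ b ^ n = φ b ^ e 0 * φ b ^ i := by rw [← pow_add, ← hi]
  have p1 : φ b' ^ n = φ b' ^ e 1 * φ b' ^ k := by rw [← pow_add, ← hk]
  rw [p0, p1]
  ring

variable (d : ℕ) [NeZero d]

/-- `P(j, j_d)` vanishes as a series iff it vanishes as a function. -/
theorem aeval_jC_jdC_eq_zero_iff (P : MvPolynomial (Fin 2) ℂ) :
    MvPolynomial.aeval ![jC, jdC d] P = 0 ↔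
      ∀ τ : ℍ, MvPolynomial.aeval ![kleinJ τ, kleinJ (scaleH d τ)] P = 0 := by
  let a : qFunctions := ⟨⇑E₄, coe_levelOne_mem_qFunctions E₄⟩ ^ 3
  let b : qFunctions := ⟨discriminant, mem_qFunctions_discriminant⟩
  let a' : qFunctions :=
    ⟨⇑E₄ ∘ scaleH d, mem_qFunctions_comp_scaleH (coe_levelOne_mem_qFunctions E₄) d⟩ ^ 3
  let b' : qFunctions :=
    ⟨discriminant ∘ scaleH d, mem_qFunctions_comp_scaleH mem_qFunctions_discriminant d⟩
  let n := P.totalDegree
  let G : qFunctions := ∑ e ∈ P.support,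
    P.coeff e • (a ^ e 0 * b ^ (n - e 0) * (a' ^ e 1 * b' ^ (n - e 1)))
  have hL : qLHom G = MvPolynomial.aeval ![jC, jdC d] P * (qLHom b ^ n * qLHom b' ^ n) := by
    refine map_sum_bihom qLHom P n le_rfl a b a' b' jC (jdC d) ?_ ?_
    · exact (jC_mul_discriminant).symm
    · exact (jdC_mul_discriminant d).symm
  have hF : ∀ τ : ℍ, (G : ℍ → ℂ) τ
      = MvPolynomial.aeval ![kleinJ τ, kleinJ (scaleH d τ)] P *
        (discriminant τ ^ n * discriminant (scaleH d τ) ^ n) := fun τ => by
    refine map_sum_bihom ((Pi.evalAlgHom ℂ (fun _ : ℍ => ℂ) τ).comp qFunctions.val) P n le_rfl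
      a b a' b' _ _ ?_ ?_
    · exact (kleinJ_mul_discriminant τ).symm
    · exact (kleinJ_mul_discriminant (scaleH d τ)).symm
  constructor
  · intro h τ
    rw [h, zero_mul] at hL
    have hG : G = 0 := qLHom_injective (hL.trans (map_zero qLHom).symm)
    have := hF τ
    rw [hG] at this
    exact (mul_eq_zero.mp this.symm).resolve_right
      (mul_ne_zero (pow_ne_zero _ (discriminant_ne_zero τ))
        (pow_ne_zero _ (discriminant_ne_zero _)))
  · intro h
    have hG : G = 0 := Subtype.ext (funext fun τ => by rw [hF, h τ, zero_mul]; rfl)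
    rw [hG, map_zero] at hL
    refine (mul_eq_zero.mp hL.symm).resolve_right (mul_ne_zero (pow_ne_zero _ ?_) (pow_ne_zero _ ?_))
    · exact qL_discriminant_ne_zero
    · show qL (discriminant ∘ scaleH d) ≠ 0
      rw [Ne, qL_eq_zero_iff (mem_qFunctions_comp_scaleH mem_qFunctions_discriminant d)]
      exact fun h0 => discriminant_ne_zero (scaleH d UpperHalfPlane.I) (congrFun h0 UpperHalfPlane.I)

theorem kleinJ_eq_of_coe_neg_inv {z w : ℍ} (h : (w : ℂ) = -1 / z) : kleinJ w = kleinJ z := by
  have hw : w = ModularGroup.S • z := by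
    apply UpperHalfPlane.ext
    rw [UpperHalfPlane.modular_S_smul, h]
    show -1 / (z : ℂ) = (-(z : ℂ))⁻¹
    rw [inv_neg, neg_div, one_div]
  rw [hw, kleinJ_smul]

theorem aeval_jdC_jC_eq_zero {P : MvPolynomial (Fin 2) ℂ}
    (h : MvPolynomial.aeval ![jC, jdC d] P = 0) :
    MvPolynomial.aeval ![jdC d, jC] P = 0 := by
  have hswap : ∀ {R : Type} [CommRing R] [Algebra ℂ R] (x y : R),
      MvPolynomial.aeval ![x, y] (rename ![1, 0] P) = MvPolynomial.aeval ![y, x] P := by
    intro R _ _ x y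
    rw [aeval_rename]
    congr 2
    ext i
    fin_cases i <;> rfl
  rw [← hswap, aeval_jC_jdC_eq_zero_iff]
  intro τ
  rw [hswap]
  have hd : (d : ℂ) ≠ 0 := Nat.cast_ne_zero.mpr (NeZero.ne d)
  let w : ℍ := ModularGroup.S • scaleH d τ
  have hw : (w : ℂ) = -1 / ((d : ℂ) * τ) := by
    show ((ModularGroup.S • scaleH d τ : ℍ) : ℂ) = _
    rw [UpperHalfPlane.modular_S_smul]
    simp [coe_scaleH, div_eq_mul_inv]
  have h1 : kleinJ w = kleinJ (scaleH d τ) := kleinJ_eq_of_coe_neg_inv (by rw [hw, coe_scaleH])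
  have h2 : kleinJ (scaleH d w) = kleinJ τ := kleinJ_eq_of_coe_neg_inv (by
    rw [coe_scaleH, hw]
    field_simp)
  have := (aeval_jC_jdC_eq_zero_iff d P).mp h w
  rwa [h1, h2] at this

end Analytic

section Descent

variable {L : Type*} [Field L] [Algebra ℚ L]

/-- A functional on the constants commutes with evaluation at rational series. -/
theorem map_coeff_aeval (φ : L →ₗ[ℚ] ℚ) (s : Fin 2 → LaurentSeries ℚ)
    (P : MvPolynomial (Fin 2) L) (k : ℤ) :
    φ ((MvPolynomial.aeval (fun i => coeffEmb L (s i)) P).coeff k) =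
      (MvPolynomial.aeval s (∑ e ∈ P.support, monomial e (φ (P.coeff e)))).coeff k := by
  rw [MvPolynomial.aeval_def, MvPolynomial.eval₂_eq', map_sum]
  simp only [HahnSeries.coeff_sum, map_sum]
  refine Finset.sum_congr rfl fun e _ => ?_
  rw [aeval_monomial, Finsupp.prod_fintype _ _ (fun _ => pow_zero _),
    algebraMap_laurentSeries_eq_single, HahnSeries.coeff_single_mul, sub_zero,
    ModularCurve.algebraMap_apply_eq_single, HahnSeries.coeff_single_mul, sub_zero]
  simp only [← map_pow, ← map_prod, coeffEmb_coeff]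
  rw [mul_comm, ← Algebra.smul_def, map_smul, smul_eq_mul, mul_comm]

theorem coeffEmb_aeval (s : Fin 2 → LaurentSeries ℚ) (P : MvPolynomial (Fin 2) ℚ) :
    coeffEmb L (MvPolynomial.aeval s P)
      = MvPolynomial.aeval (fun i => coeffEmb L (s i)) (MvPolynomial.map (algebraMap ℚ L) P) := by
  rw [MvPolynomial.aeval_def, MvPolynomial.aeval_def, MvPolynomial.eval₂_map,
    MvPolynomial.eval₂_comp_left]
  congr 1
  exact Subsingleton.elim _ _

variable (d : ℕ) [NeZero d]

/-- Relations between `j` and `j_d` over `L` are symmetric. -/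
theorem aeval_swap_eq_zero {P : MvPolynomial (Fin 2) L}
    (h : MvPolynomial.aeval ![jSer L, qExpand L d (jSer L)] P = 0) :
    MvPolynomial.aeval ![qExpand L d (jSer L), jSer L] P = 0 := by
  have e₁ : (fun i => coeffEmb L (![jq, qExpand ℚ d jq] i)) = ![jSer L, qExpand L d (jSer L)] := by
    ext i : 1
    fin_cases i
    · rfl
    · exact coeffEmb_qExpand_eq d jq
  have e₂ : (fun i => coeffEmb L (![qExpand ℚ d jq, jq] i)) = ![qExpand L d (jSer L), jSer L] := by
    ext i : 1
    fin_cases i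
    · exact coeffEmb_qExpand_eq d jq
    · rfl
  have c₁ : (fun i => coeffEmb ℂ (![jq, qExpand ℚ d jq] i)) = ![jC, jdC d] := by
    ext i : 1
    fin_cases i
    · exact coeffEmb_jq
    · exact (coeffEmb_qExpand_eq d jq).trans (congrArg (qExpand ℂ d) coeffEmb_jq)
  have c₂ : (fun i => coeffEmb ℂ (![qExpand ℚ d jq, jq] i)) = ![jdC d, jC] := by
    ext i : 1
    fin_cases i
    · exact (coeffEmb_qExpand_eq d jq).trans (congrArg (qExpand ℂ d) coeffEmb_jq)
    · exact coeffEmb_jq
  rw [← e₁] at h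
  rw [← e₂]
  ext k
  rw [HahnSeries.coeff_zero]
  by_contra hne
  obtain ⟨φ, hφ⟩ := (LinearMap.toSpanSingleton ℚ L _).exists_leftInverse_of_injective
    (LinearMap.ker_eq_bot.mpr (smul_left_injective ℚ hne))
  have hφ1 := LinearMap.congr_fun hφ 1
  simp only [LinearMap.comp_apply, LinearMap.toSpanSingleton_apply, one_smul,
    LinearMap.id_apply] at hφ1
  rw [map_coeff_aeval] at hφ1
  set Q := ∑ e ∈ P.support, monomial e (φ (P.coeff e)) with hQ
  have hQ0 : MvPolynomial.aeval ![jq, qExpand ℚ d jq] Q = 0 := by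
    ext m
    rw [hQ, ← map_coeff_aeval φ, h, HahnSeries.coeff_zero, map_zero, HahnSeries.coeff_zero]
  have hC : MvPolynomial.aeval ![jC, jdC d] (MvPolynomial.map (algebraMap ℚ ℂ) Q) = 0 := by
    rw [← c₁, ← coeffEmb_aeval, hQ0, map_zero]
  have hC' := aeval_jdC_jC_eq_zero d hC
  rw [← c₂, ← coeffEmb_aeval] at hC'
  have : MvPolynomial.aeval ![qExpand ℚ d jq, jq] Q = 0 := by
    ext m
    have hm := congrArg (fun x : LaurentSeries ℂ => x.coeff m) hC'
    simp only [coeffEmb_coeff, HahnSeries.coeff_zero] at hm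
    rw [HahnSeries.coeff_zero]
    exact (map_eq_zero (algebraMap ℚ ℂ)).mp hm
  rw [this, HahnSeries.coeff_zero] at hφ1
  exact zero_ne_one hφ1

theorem range_pair (x y : LaurentSeries L) : Set.range ![x, y] = ({x, y} : Set (LaurentSeries L)) := by
  simp [Matrix.range_cons, Matrix.range_empty, Set.union_comm, Set.pair_comm]

open scoped IntermediateField.algebraAdjoinAdjoin in
variable (L) in
/-- `L(j, j_d)` admits an `L`-embedding exchanging `j` and `j_d`. -/
theorem exists_frickeSwap :
    ∃ σ : adjoin L ({jSer L, qExpand L d (jSer L)} : Set (LaurentSeries L)) →ₐ[L] LaurentSeries L,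
      σ ⟨jSer L, subset_adjoin L _ (Set.mem_insert _ _)⟩ = qExpand L d (jSer L) ∧
      σ ⟨qExpand L d (jSer L), subset_adjoin L _ (Set.mem_insert_of_mem _ rfl)⟩ = jSer L := by
  let S : Set (LaurentSeries L) := {jSer L, qExpand L d (jSer L)}
  let f : MvPolynomial (Fin 2) L →ₐ[L] Algebra.adjoin L S :=
    MvPolynomial.aeval ![⟨jSer L, Algebra.subset_adjoin (Set.mem_insert _ _)⟩,
      ⟨qExpand L d (jSer L), Algebra.subset_adjoin (Set.mem_insert_of_mem _ rfl)⟩]
  have hf : (Algebra.adjoin L S).val.comp f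
      = MvPolynomial.aeval ![jSer L, qExpand L d (jSer L)] := by
    refine MvPolynomial.algHom_ext fun i => ?_
    fin_cases i <;> simp [f]
  have hsurj : Function.Surjective f := by
    intro x
    have hx : (x : LaurentSeries L) ∈
        (MvPolynomial.aeval (R := L) ![jSer L, qExpand L d (jSer L)]).range := by
      rw [← Algebra.adjoin_range_eq_range_aeval, range_pair]
      exact x.2
    obtain ⟨P, hP⟩ := hx
    exact ⟨P, Subtype.ext ((AlgHom.congr_fun hf P).trans hP)⟩
  let h₂ : MvPolynomial (Fin 2) L →ₐ[L] LaurentSeries L :=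
    MvPolynomial.aeval ![qExpand L d (jSer L), jSer L]
  have hker : RingHom.ker f.toRingHom ≤ RingHom.ker h₂.toRingHom := by
    intro P hP
    rw [RingHom.mem_ker] at hP ⊢
    refine aeval_swap_eq_zero d ?_
    rw [← hf, AlgHom.comp_apply]
    exact (congrArg _ hP).trans (map_zero _)
  let g₀ := f.toRingHom.liftOfSurjective hsurj ⟨h₂.toRingHom, hker⟩
  have hg₀ : ∀ P, g₀ (f P) = h₂ P := fun P =>
    RingHom.liftOfRightInverse_comp_apply f.toRingHom _ _ ⟨h₂.toRingHom, hker⟩ P
  let g : Algebra.adjoin L S →ₐ[L] LaurentSeries L :=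
    { g₀ with commutes' := fun c => by simpa [AlgHom.commutes] using hg₀ (MvPolynomial.C c) }
  have hg : Function.Injective g := by
    rw [injective_iff_map_eq_zero]
    intro x hx
    obtain ⟨P, rfl⟩ := hsurj x
    have h0 : h₂ P = 0 := (hg₀ P).symm.trans hx
    refine Subtype.ext ((AlgHom.congr_fun hf P).trans ?_)
    have hr : MvPolynomial.aeval ![qExpand L d (jSer L), jSer L] P
        = MvPolynomial.aeval ![jSer L, qExpand L d (jSer L)] (rename ![1, 0] P) := by
      rw [aeval_rename]
      congr 2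
      ext i : 1
      fin_cases i <;> rfl
    have h1 := aeval_swap_eq_zero d (hr ▸ h0 :
      MvPolynomial.aeval ![jSer L, qExpand L d (jSer L)] (rename ![1, 0] P) = 0)
    rw [aeval_rename] at h1
    rw [show (![jSer L, qExpand L d (jSer L)] : Fin 2 → LaurentSeries L)
      = ![qExpand L d (jSer L), jSer L] ∘ ![1, 0] from by ext i : 1; fin_cases i <;> rfl]
    exact h1
  refine ⟨IsFractionRing.liftAlgHom hg, ?_, ?_⟩
  · rw [show (⟨jSer L, _⟩ : adjoin L S) = algebraMap (Algebra.adjoin L S) (adjoin L S)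
      ⟨jSer L, Algebra.subset_adjoin (Set.mem_insert _ _)⟩ from rfl]
    refine Eq.trans ?_ (by simpa [f, h₂] using hg₀ (MvPolynomial.X 0))
    exact IsFractionRing.lift_algebraMap hg _
  · rw [show (⟨qExpand L d (jSer L), _⟩ : adjoin L S) = algebraMap (Algebra.adjoin L S) (adjoin L S)
      ⟨qExpand L d (jSer L), Algebra.subset_adjoin (Set.mem_insert_of_mem _ rfl)⟩ from rfl]
    refine Eq.trans ?_ (by simpa [f, h₂] using hg₀ (MvPolynomial.X 1))
    exact IsFractionRing.lift_algebraMap hg _

/-- If `L(j, j_d)` is the whole level `d` field then its degree over `L(j_d)` is its degree over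
`L(j)`. -/
theorem relfinrank_frickeSwap :
    (adjoin L {qExpand L d (jSer L)}).relfinrank
        (adjoin L ({jSer L, qExpand L d (jSer L)} : Set (LaurentSeries L)))
      = (jLine L).relfinrank
        (adjoin L ({jSer L, qExpand L d (jSer L)} : Set (LaurentSeries L))) := by
  obtain ⟨σ, hσ₁, hσ₂⟩ := exists_frickeSwap L d
  let E := adjoin L ({jSer L, qExpand L d (jSer L)} : Set (LaurentSeries L))
  let y : E := ⟨jSer L, subset_adjoin L _ (Set.mem_insert _ _)⟩
  let z : E := ⟨qExpand L d (jSer L), subset_adjoin L _ (Set.mem_insert_of_mem _ rfl)⟩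
  have htop : (⊤ : IntermediateField L E) = adjoin L {y, z} := by
    refine IntermediateField.map_injective E.val ?_
    rw [adjoin_map, Set.image_pair, ← AlgHom.fieldRange_eq_map, fieldRange_val]
    rfl
  have h₁ : (jLine L).relfinrank E = (adjoin L {y}).relfinrank ⊤ := by
    rw [← relfinrank_map_map (adjoin L {y}) ⊤ E.val, adjoin_map, Set.image_singleton,
      ← AlgHom.fieldRange_eq_map, fieldRange_val]
    rfl
  have h₂ : (adjoin L {qExpand L d (jSer L)}).relfinrank E = (adjoin L {y}).relfinrank ⊤ := by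
    rw [← relfinrank_map_map (adjoin L {y}) ⊤ σ, htop, adjoin_map, adjoin_map, Set.image_singleton,
      Set.image_pair, hσ₁, hσ₂, Set.pair_comm]
  exact h₂.trans h₁.symm

end Descent

end Fermat.Agent.HK.Corr
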