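import Fermat.Agent.HK.HeckeInputs
import Fermat.Agent.HK.FrickeSwap

/-!
Degrees of all degeneracy maps: `finrankAlong (degenMap d) = ψ(M') / ψ(M)`.
-/

set_option autoImplicit false

noncomputable section

open AlgebraicCurve ModularCurve IntermediateField

namespace Fermat.Agent.HK.Corr

variable {L : Type*} [Field L] [Algebra ℚ L]

theorem modField_eq_pair {d : ℕ} [NeZero d] (hgen : FunctionFieldGeneration d) :
    modField L d = adjoin L ({jSer L, qExpand L d (jSer L)} : Set (LaurentSeries L)) := by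
  refine le_antisymm (modField_le_iff.mpr fun e he hne => ?_) (adjoin_le_iff.mpr ?_)
  · haveI := hne
    have h := coeffEmb_mem_laurentBaseChange L (hgen e he hne)
    rw [laurentBaseChange_adjoin, Set.image_pair, coeffEmb_qExpand_eq, coeffEmb_qExpand_eq] at h
    exact h
  · rintro x (rfl | rfl)
    · exact jSer_mem_modField d
    · exact qExpand_jSer_mem dvd_rfl

theorem relfinrank_qExpand_jSer (hD : DegreeInput L) {d M : ℕ} [NeZero d] [NeZero M] (hd : d ∣ M)
    (hgen : FunctionFieldGeneration d) :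
    (adjoin L {qExpand L d (jSer L)}).relfinrank (modField L M) = dedekindPsi M := by
  have h₁ : adjoin L {qExpand L d (jSer L)} ≤ modField L d :=
    adjoin_le_iff.mpr (Set.singleton_subset_iff.mpr (qExpand_jSer_mem dvd_rfl))
  have hsym : (adjoin L {qExpand L d (jSer L)}).relfinrank (modField L d)
      = (jLine L).relfinrank (modField L d) := by
    rw [modField_eq_pair hgen]
    exact relfinrank_frickeSwap d
  rw [← relfinrank_mul_relfinrank h₁ (modField_mono hd), hsym,
    relfinrank_mul_relfinrank (jLine_le_modField d) (modField_mono hd), hD.relfinrank_eq]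

theorem finrankAlong_degenMap (hD : DegreeInput L) {M M' : ℕ} [NeZero M] [NeZero M'] (d : ℕ)
    [NeZero d] (h : M * d ∣ M') (hgen : FunctionFieldGeneration d) :
    dedekindPsi M * finrankAlong L (degenMap L d h) = dedekindPsi M' := by
  have hmap : (jLine L).map (qExpandAlg L d) = adjoin L {qExpand L d (jSer L)} := by
    rw [jLine, adjoin_map, Set.image_singleton]
    rfl
  have h₁ : adjoin L {qExpand L d (jSer L)} ≤ (modField L M).map (qExpandAlg L d) := by
    rw [← hmap]
    exact IntermediateField.map_mono _ (jLine_le_modField M)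
  rw [finrankAlong_degenMap_eq_relfinrank,
    ← relfinrank_qExpand_jSer hD ((dvd_mul_left d M).trans h) hgen,
    ← relfinrank_mul_relfinrank h₁ (map_qExpandAlg_modField_le h), ← hmap, relfinrank_map_map,
    hD.relfinrank_eq]

variable (N ℓ : ℕ) [NeZero N] [NeZero ℓ]

theorem finrankAlong_heckeBetaBar (hD : DegreeInput L) (hgen : FunctionFieldGeneration ℓ) :
    dedekindPsi N * finrankAlong L (heckeBetaBar L N ℓ) = dedekindPsi (N * ℓ) := by
  rw [heckeBetaBar_eq_degenMap N ℓ dvd_rfl]
  exact finrankAlong_degenMap hD ℓ dvd_rfl hgen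

theorem finrankAlong_heckeAlphaBar (hD : DegreeInput L) :
    dedekindPsi N * finrankAlong L (heckeAlphaBar L N ℓ) = dedekindPsi (N * ℓ) := by
  rw [heckeAlphaBar_eq_degenMap N ℓ (mul_dvd_mul_left N (one_dvd ℓ))]
  exact finrankAlong_degenMap_one hD _

theorem finrankAlong_heckeBetaBar_of_not_dvd (hD : DegreeInput L)
    (hgen : FunctionFieldGeneration ℓ) (hℓ : ℓ.Prime) (hN : ¬ ℓ ∣ N) :
    finrankAlong L (heckeBetaBar L N ℓ) = ℓ + 1 := by
  have h := finrankAlong_heckeBetaBar N ℓ hD hgen
  rw [psi_mul_prime_of_not_dvd hℓ hN, mul_comm (ℓ + 1)] at h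
  exact Nat.eq_of_mul_eq_mul_left (psi_pos N) h

theorem finrankAlong_heckeAlphaBar_of_not_dvd (hD : DegreeInput L)
    (hℓ : ℓ.Prime) (hN : ¬ ℓ ∣ N) :
    finrankAlong L (heckeAlphaBar L N ℓ) = ℓ + 1 := by
  have h := finrankAlong_heckeAlphaBar N ℓ hD
  rw [psi_mul_prime_of_not_dvd hℓ hN, mul_comm (ℓ + 1)] at h
  exact Nat.eq_of_mul_eq_mul_left (psi_pos N) h

end Fermat.Agent.HK.Corr
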