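import Fermat.Agent.HK.HeckeCommute
import Fermat.Agent.FF.Degree

/-!
The principal-divisor hypotheses of the Hecke correspondence theorems, from the function field
library.
-/

set_option autoImplicit false

noncomputable section

open AlgebraicCurve ModularCurve IntermediateField

namespace Fermat.Agent.HK.Corr

variable {L : Type*} [Field L] [Algebra ℚ L]

theorem isFunctionField_modField (hD : DegreeInput L) (M : ℕ) [NeZero M] :
    FF.IsFunctionField L (modField L M) :=
  ⟨⟨_, transcendental_jSer_modField M, finiteDimensional_over_jSer hD M⟩⟩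

theorem hasPrincipalDivisors_modField (hD : DegreeInput L) (M : ℕ) [NeZero M] :
    HasPrincipalDivisors L (modField L M) :=
  haveI := isFunctionField_modField hD M
  inferInstance

theorem heckeInputsAlong_of_degree (hD : DegreeInput L) (N ℓ : ℕ) [NeZero N] [NeZero ℓ] :
    HeckeInputsAlong L N ℓ :=
  haveI := hasPrincipalDivisors_modField hD (N * ℓ)
  heckeInputsAlong_of N ℓ hD

theorem heckeOperatorsCommuteBar_of_degree (N : ℕ) [NeZero N]
    (hD : DegreeInput (AlgebraicClosure ℚ))
    (hgen : ∀ (M : ℕ) [NeZero M], FunctionFieldGeneration M) :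
    HeckeOperatorsCommuteBar N :=
  heckeOperatorsCommuteBar_of N hD (fun M _ => hasPrincipalDivisors_modField hD M) hgen

end Fermat.Agent.HK.Corr
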