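import Fermat.Agent.HK.CorrBaseChange
import Fermat.Agent.HK.HeckeFF

/-!
The Hecke correspondences commute with extension of constants `Pic0` over `L` to `Pic0` over `L'`.

The algebra structure between the two function fields is arbitrary subject to being coefficientwise
the map of constants, so that the result applies to whatever instance a consumer uses.
-/

set_option autoImplicit false

noncomputable section

open AlgebraicCurve ModularCurve
open Fermat.Agent.FF.ConstExt

namespace Fermat.Agent.HK.Corr

variable {L L' : Type*} [Field L] [Algebra ℚ L] [Field L'] [Algebra ℚ L'] [Algebra L L']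
variable (N ℓ : ℕ) [NeZero N] [NeZero ℓ]
variable
  [Algebra (modField L N) (modField L' N)]
  [Algebra L (modField L' N)] [IsScalarTower L L' (modField L' N)]
  [IsScalarTower L (modField L N) (modField L' N)]
  [Algebra (modField L (N * ℓ)) (modField L' (N * ℓ))]
  [Algebra L (modField L' (N * ℓ))] [IsScalarTower L L' (modField L' (N * ℓ))]
  [IsScalarTower L (modField L (N * ℓ)) (modField L' (N * ℓ))]
  [RationalPlaces L (modField L N)] [IsConstExt L L' (modField L N) (modField L' N)]
  [RationalPlaces L (modField L (N * ℓ))]
  [IsConstExt L L' (modField L (N * ℓ)) (modField L' (N * ℓ))]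

theorem heckeBetaBar_algebraMap
    (hN : ∀ x : modField L N, (algebraMap (modField L N) (modField L' N) x : LaurentSeries L')
      = coeffMap (algebraMap L L') (x : LaurentSeries L))
    (hNl : ∀ x : modField L (N * ℓ),
      (algebraMap (modField L (N * ℓ)) (modField L' (N * ℓ)) x : LaurentSeries L')
        = coeffMap (algebraMap L L') (x : LaurentSeries L))
    (f : modField L N) :
    heckeBetaBar L' N ℓ (algebraMap (modField L N) (modField L' N) f)
      = algebraMap (modField L (N * ℓ)) (modField L' (N * ℓ)) (heckeBetaBar L N ℓ f) :=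
  Subtype.ext (by rw [coe_heckeBetaBar, hN, hNl, coe_heckeBetaBar, ModularCurve.coeffMap_qExpand])

theorem heckeAlphaBar_algebraMap
    (hN : ∀ x : modField L N, (algebraMap (modField L N) (modField L' N) x : LaurentSeries L')
      = coeffMap (algebraMap L L') (x : LaurentSeries L))
    (hNl : ∀ x : modField L (N * ℓ),
      (algebraMap (modField L (N * ℓ)) (modField L' (N * ℓ)) x : LaurentSeries L')
        = coeffMap (algebraMap L L') (x : LaurentSeries L))
    (f : modField L N) :
    heckeAlphaBar L' N ℓ (algebraMap (modField L N) (modField L' N) f)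
      = algebraMap (modField L (N * ℓ)) (modField L' (N * ℓ)) (heckeAlphaBar L N ℓ f) :=
  Subtype.ext (by rw [coe_heckeAlphaBar, hN, hNl, coe_heckeAlphaBar])

/-- `heckeOperatorAlong` commutes with the constant extension map on `Pic0`. -/
theorem extPic0_heckeOperatorAlong (hD : DegreeInput L) (hD' : DegreeInput L')
    (hN : ∀ x : modField L N, (algebraMap (modField L N) (modField L' N) x : LaurentSeries L')
      = coeffMap (algebraMap L L') (x : LaurentSeries L))
    (hNl : ∀ x : modField L (N * ℓ),
      (algebraMap (modField L (N * ℓ)) (modField L' (N * ℓ)) x : LaurentSeries L')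
        = coeffMap (algebraMap L L') (x : LaurentSeries L))
    (x : Pic0 L (modField L N)) :
    extPic0 L' (modField L' N) (heckeOperatorAlong L N ℓ x)
      = heckeOperatorAlong L' N ℓ (extPic0 L' (modField L' N) x) := by
  haveI := hasPrincipalDivisors_modField hD (N * ℓ)
  haveI := hasPrincipalDivisors_modField hD' (N * ℓ)
  rw [heckeOperatorAlong_eq (heckeAlphaBarIntegral_of N ℓ hD) (heckeBetaBarIntegral_of N ℓ hD)
      (fundamentalIdentityAlong_heckeBetaBar N ℓ hD) (finiteAlong_heckeAlphaBar N ℓ hD)
      (normFormulaAlong_heckeAlphaBar N ℓ hD),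
    heckeOperatorAlong_eq (heckeAlphaBarIntegral_of N ℓ hD') (heckeBetaBarIntegral_of N ℓ hD')
      (fundamentalIdentityAlong_heckeBetaBar N ℓ hD') (finiteAlong_heckeAlphaBar N ℓ hD')
      (normFormulaAlong_heckeAlphaBar N ℓ hD')]
  exact extPic0_correspondence (heckeBetaBar L N ℓ) (heckeAlphaBar L N ℓ) (heckeBetaBar L' N ℓ)
    (heckeAlphaBar L' N ℓ) _ _ _ _ (heckeBetaBar_algebraMap N ℓ hN hNl)
    (heckeAlphaBar_algebraMap N ℓ hN hNl) _ _ _ _ _ _ x

end Fermat.Agent.HK.Corr
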