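import Fermat.Agent.HK.HeckeGalois
import Fermat.Agent.HK.DegenDegree
import Fermat.Agent.HK.HeckeBaseChange
import Fermat.Agent.MF.Coeff.FieldK
import Fermat.Agent.FF.ConstExt.Laurent

/-!
The Hecke correspondences on `JZero N`: hypotheses satisfied at every level, commutation, degrees
and compatibility with extension of constants, all unconditional.
-/

set_option autoImplicit false

noncomputable section

open AlgebraicCurve ModularCurve

namespace Fermat.Agent.HK.Corr

section AnyField

variable (L : Type*) [Field L] [Algebra ℚ L]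

theorem degreeInput : DegreeInput L :=
  ⟨fun M _ => MF.Coeff.relfinrank_laurentBaseChange_full' L M⟩

theorem functionFieldGeneration_all : ∀ (M : ℕ) [NeZero M], FunctionFieldGeneration M :=
  fun M _ => MF.Coeff.functionFieldGeneration M

theorem hasPrincipalDivisors_level (M : ℕ) [NeZero M] :
    HasPrincipalDivisors L (modField L M) :=
  hasPrincipalDivisors_modField (degreeInput L) M

theorem heckeInputsAlong_all (N ℓ : ℕ) [NeZero N] [NeZero ℓ] : HeckeInputsAlong L N ℓ :=
  heckeInputsAlong_of_degree (degreeInput L) N ℓ

theorem heckeOperatorAlong_comm_all (N : ℕ) [NeZero N] {ℓ ℓ' : ℕ} [NeZero ℓ] [NeZero ℓ']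
    (hℓ : ℓ.Prime) (hℓ' : ℓ'.Prime) (x : Pic0 L (modField L N)) :
    heckeOperatorAlong L N ℓ (heckeOperatorAlong L N ℓ' x)
      = heckeOperatorAlong L N ℓ' (heckeOperatorAlong L N ℓ x) :=
  heckeOperatorAlong_comm (fun M _ => hasPrincipalDivisors_level L M) N hℓ hℓ' (degreeInput L)
    functionFieldGeneration_all x

theorem finrankAlong_heckeBetaBar_eq_succ (N ℓ : ℕ) [NeZero N] [NeZero ℓ] (hℓ : ℓ.Prime)
    (hN : ¬ ℓ ∣ N) : finrankAlong L (heckeBetaBar L N ℓ) = ℓ + 1 :=
  finrankAlong_heckeBetaBar_of_not_dvd N ℓ (degreeInput L) (MF.Coeff.functionFieldGeneration ℓ)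
    hℓ hN

theorem rationalPlaces_modField [IsAlgClosed L] (M : ℕ) [NeZero M] :
    FF.ConstExt.RationalPlaces L (modField L M) :=
  haveI := isFunctionField_modField (degreeInput L) M
  ⟨fun v =>
    haveI : Module.Finite L v.ResidueField := inferInstance
    v.deg_eq_one_of_isAlgClosed_of_finite⟩

end AnyField

/-- The Hecke operators on `JZero N` commute, so `heckeModuleBar N` is the Hecke action. -/
theorem heckeOperatorsCommuteBar (N : ℕ) [NeZero N] : HeckeOperatorsCommuteBar N :=
  heckeOperatorsCommuteBar_of_degree N (degreeInput _) functionFieldGeneration_all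

theorem heckeModuleBar_heckeGen_smul_eq (N : ℕ) [NeZero N] (ℓ : Nat.Primes) (x : JZero N) :
    (letI := heckeModuleBar N; heckeGen ℓ • x) = heckeOperatorBar N ℓ x :=
  heckeModuleBar_heckeGen_smul (heckeOperatorsCommuteBar N) ℓ x

section BaseChange

variable (K L : Type*) [Field K] [Algebra ℚ K] [IsAlgClosed K] [Field L] [Algebra ℚ L]
  [Algebra K L]

open FF.ConstExt in
/-- `Pic0` of level `N` over `K` to `Pic0` over `L`, for algebraically closed `K`. -/
def levelExtPic0 (N : ℕ) [NeZero N] : Pic0 K (modField K N) →+ Pic0 L (modField L N) :=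
  letI := baseChangeAlgebra K L (modularFunctionFieldFull N)
  letI := baseChangeAlgebraBase K L (modularFunctionFieldFull N)
  haveI := baseChange_isScalarTower_left K L (modularFunctionFieldFull N)
  haveI := baseChange_isScalarTower_right K L (modularFunctionFieldFull N)
  haveI := isConstExt_baseChange K L (modularFunctionFieldFull N)
  haveI := rationalPlaces_modField K N
  extPic0 L (modField L N)

open FF.ConstExt in
theorem levelExtPic0_heckeOperatorAlong (N ℓ : ℕ) [NeZero N] [NeZero ℓ]
    (x : Pic0 K (modField K N)) :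
    levelExtPic0 K L N (heckeOperatorAlong K N ℓ x)
      = heckeOperatorAlong L N ℓ (levelExtPic0 K L N x) :=
  letI := baseChangeAlgebra K L (modularFunctionFieldFull N)
  letI := baseChangeAlgebraBase K L (modularFunctionFieldFull N)
  haveI := baseChange_isScalarTower_left K L (modularFunctionFieldFull N)
  haveI := baseChange_isScalarTower_right K L (modularFunctionFieldFull N)
  haveI := isConstExt_baseChange K L (modularFunctionFieldFull N)
  haveI := rationalPlaces_modField K N
  letI := baseChangeAlgebra K L (modularFunctionFieldFull (N * ℓ))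
  letI := baseChangeAlgebraBase K L (modularFunctionFieldFull (N * ℓ))
  haveI := baseChange_isScalarTower_left K L (modularFunctionFieldFull (N * ℓ))
  haveI := baseChange_isScalarTower_right K L (modularFunctionFieldFull (N * ℓ))
  haveI := isConstExt_baseChange K L (modularFunctionFieldFull (N * ℓ))
  haveI := rationalPlaces_modField K (N * ℓ)
  extPic0_heckeOperatorAlong N ℓ (degreeInput K) (degreeInput L) (fun _ => rfl) (fun _ => rfl) x

end BaseChange

end Fermat.Agent.HK.Corr
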