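import Fermat.Agent.HK.HeckeInputs
import Fermat.Prelude.Def_ModularCurve_HeckeModule

/-!
Hecke correspondences commute on `Pic0`: both composites are the correspondence attached to the
two degeneracy maps `f(q) ↦ f(q)` and `f(q) ↦ f(q^(ℓℓ'))` into level `N ℓ ℓ'`, by push–pull base
change along a cartesian square of function fields.
-/

set_option autoImplicit false

noncomputable section

open AlgebraicCurve ModularCurve IntermediateField

namespace Fermat.Agent.HK.Corr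

section Abstract

variable {K F F₁ F₂ Z : Type*} [Field K] [Field F] [Field F₁] [Field F₂] [Field Z]
  [Algebra K F] [Algebra K F₁] [Algebra K F₂] [Algebra K Z]

theorem correspondence_congr [HasPrincipalDivisors K Z] {φ φ' ψ ψ' : F →ₐ[K] Z}
    (e₁ : φ = φ') (e₂ : ψ = ψ') (hφ : φ.toRingHom.IsIntegral) (hψ : ψ.toRingHom.IsIntegral)
    (hφ' : φ'.toRingHom.IsIntegral) (hψ' : ψ'.toRingHom.IsIntegral) :
    Divisor.correspondence φ ψ hφ hψ = Divisor.correspondence φ' ψ' hφ' hψ' := by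
  subst e₁ e₂
  rfl

theorem correspondence_correspondence [HasPrincipalDivisors K F₁] [HasPrincipalDivisors K F₂]
    [HasPrincipalDivisors K Z] (b₁ a₁ : F →ₐ[K] F₁) (b₂ a₂ : F →ₐ[K] F₂)
    (u : F₁ →ₐ[K] Z) (t : F₂ →ₐ[K] Z) (hsq : u.comp b₁ = t.comp a₂)
    (hb₁ : b₁.toRingHom.IsIntegral) (ha₁ : a₁.toRingHom.IsIntegral)
    (hb₂ : b₂.toRingHom.IsIntegral) (ha₂ : a₂.toRingHom.IsIntegral)
    (hu : u.toRingHom.IsIntegral) (ht : t.toRingHom.IsIntegral)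
    (hua : (u.comp a₁).toRingHom.IsIntegral) (htb : (t.comp b₂).toRingHom.IsIntegral)
    (ha₂fin : FiniteAlong K a₂) (hufin : FiniteAlong K u)
    (ha₂sep : SeparableAlong K a₂) (husep : SeparableAlong K u)
    (hgen : u.fieldRange ⊔ t.fieldRange = ⊤) (hdeg : finrankAlong K u = finrankAlong K a₂)
    (D : Divisor K F) :
    Divisor.correspondence b₁ a₁ hb₁ ha₁ (Divisor.correspondence b₂ a₂ hb₂ ha₂ D)
      = Divisor.correspondence (t.comp b₂) (u.comp a₁) htb hua D := by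
  rw [Divisor.correspondence_apply, Divisor.correspondence_apply, Divisor.correspondence_apply,
    FF.pullbackAlong_pushforwardAlong_of_cartesian b₁ a₂ u t hsq hb₁ ha₂ hu ht ha₂fin hufin
      ha₂sep husep hgen hdeg,
    FF.pushforwardAlong_comp a₁ u ha₁ hu hua, FF.pullbackAlong_comp b₂ t hb₂ ht htb,
    AddMonoidHom.comp_apply, AddMonoidHom.comp_apply]

end Abstract

variable {L : Type*} [Field L] [Algebra ℚ L]

theorem heckeDivBar_eq_degenMap {N ℓ : ℕ} [NeZero N] [NeZero ℓ] (hD : DegreeInput L)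
    (h : N * 1 ∣ N * ℓ) {hα : HeckeAlphaBarIntegral L N ℓ} {hβ : HeckeBetaBarIntegral L N ℓ}
    [HasPrincipalDivisors L (modField L (N * ℓ))] :
    heckeDivBar hα hβ = Divisor.correspondence (degenMap L ℓ (dvd_refl (N * ℓ)))
      (degenMap L 1 h) (isIntegral_degenMap hD ℓ _) (isIntegral_degenMap hD 1 h) :=
  correspondence_congr (heckeBetaBar_eq_degenMap N ℓ dvd_rfl) (heckeAlphaBar_eq_degenMap N ℓ h)
    hβ hα _ _

theorem heckePic0Bar_mk {N ℓ : ℕ} [NeZero N] [NeZero ℓ] {hα : HeckeAlphaBarIntegral L N ℓ}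
    {hβ : HeckeBetaBarIntegral L N ℓ} [HasPrincipalDivisors L (modField L (N * ℓ))]
    {hFI : FundamentalIdentityAlong L (heckeBetaBar L N ℓ) hβ}
    {hfin : FiniteAlong L (heckeAlphaBar L N ℓ)}
    {hN : NormFormulaAlong L (heckeAlphaBar L N ℓ) hfin}
    (D : Divisor.degZero (K := L) (F := modField L N)) :
    heckePic0Bar hα hβ hFI hfin hN (Pic0.mk D) = Pic0.mk
      ⟨heckeDivBar hα hβ (D : Divisor L (modField L N)),
        Divisor.correspondence_mem_degZero _ _ _ _ hFI D.2⟩ :=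
  rfl

/-- The two degeneracy images generate the function field of level `N ℓ ℓ'`. -/
theorem modField_le_map_sup {N ℓ ℓ' : ℕ} [NeZero ℓ] [NeZero ℓ'] [NeZero (ℓ * ℓ')] (hℓ : ℓ.Prime)
    (hℓ' : ℓ'.Prime) (hne : ℓ ≠ ℓ') (hgen : FunctionFieldGeneration (ℓ * ℓ')) :
    modField L (N * ℓ * ℓ') ≤ (modField L (N * ℓ)).map (qExpandAlg L 1) ⊔
      (modField L (N * ℓ')).map (qExpandAlg L ℓ) := by
  have hcop : ℓ.Coprime ℓ' := (Nat.coprime_primes hℓ hℓ').mpr hne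
  rw [map_qExpandAlg_one, modField_le_iff]
  intro D hD hD0
  by_cases h1 : D ∣ N * ℓ
  · exact SetLike.le_def.mp le_sup_left (qExpand_jSer_mem h1)
  by_cases h2 : ℓ ∣ D
  · obtain ⟨e, rfl⟩ := h2
    haveI : NeZero e := ⟨right_ne_zero_of_mul hD0.ne⟩
    have he : e ∣ N * ℓ' := by
      rw [show N * ℓ * ℓ' = ℓ * (N * ℓ') by ring] at hD
      exact Nat.dvd_of_mul_dvd_mul_left hℓ.pos hD
    refine SetLike.le_def.mp le_sup_right ⟨qExpand L e (jSer L), qExpand_jSer_mem he, ?_⟩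
    show qExpand L ℓ (qExpand L e (jSer L)) = _
    rw [qExpand_qExpand]
  have hD' : D ∣ N * ℓ' := by
    rw [show N * ℓ * ℓ' = N * ℓ' * ℓ by ring] at hD
    exact (hℓ.coprime_iff_not_dvd.mpr h2).symm.dvd_of_dvd_mul_right hD
  have h3 : ℓ' ∣ D := by
    by_contra h3
    exact h1 (((hℓ'.coprime_iff_not_dvd.mpr h3).symm.dvd_of_dvd_mul_right hD').trans
      (dvd_mul_right N ℓ))
  obtain ⟨d, rfl⟩ := h3
  haveI : NeZero d := ⟨right_ne_zero_of_mul hD0.ne⟩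
  have hd : d ∣ N := by
    rw [mul_comm N ℓ'] at hD'
    exact Nat.dvd_of_mul_dvd_mul_left hℓ'.pos hD'
  have hmem : qExpand L ℓ' (jSer L) ∈
      adjoin L ({jSer L, qExpand L (ℓ * ℓ') (jSer L)} : Set (LaurentSeries L)) := by
    have h := coeffEmb_mem_laurentBaseChange L (hgen ℓ' (dvd_mul_left ℓ' ℓ) inferInstance)
    rw [laurentBaseChange_adjoin, Set.image_pair, coeffEmb_qExpand_eq, coeffEmb_qExpand_eq] at h
    exact h
  have hle : (adjoin L ({jSer L, qExpand L (ℓ * ℓ') (jSer L)} : Set (LaurentSeries L))).map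
      (qExpandAlg L d) ≤ modField L (N * ℓ) ⊔ (modField L (N * ℓ')).map (qExpandAlg L ℓ) := by
    rw [map_le_iff_le_comap, adjoin_le_iff]
    rintro x (rfl | rfl)
    · exact SetLike.le_def.mp le_sup_left (qExpand_jSer_mem (hd.trans (dvd_mul_right N ℓ)))
    · haveI : NeZero (ℓ' * d) := hD0
      show qExpand L d (qExpand L (ℓ * ℓ') (jSer L)) ∈
        modField L (N * ℓ) ⊔ (modField L (N * ℓ')).map (qExpandAlg L ℓ)
      refine SetLike.le_def.mp le_sup_right ⟨qExpand L (ℓ' * d) (jSer L), qExpand_jSer_mem hD', ?_⟩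
      show qExpand L ℓ (qExpand L (ℓ' * d) (jSer L)) = qExpand L d (qExpand L (ℓ * ℓ') (jSer L))
      rw [qExpand_qExpand, qExpand_qExpand]
      exact qExpand_congr (by ring) _
  have := hle ⟨_, hmem, rfl⟩
  have e : qExpand L d (qExpand L ℓ' (jSer L)) = qExpand L (ℓ' * d) (jSer L) :=
    (qExpand_qExpand ℓ' d _).trans (qExpand_congr (mul_comm d ℓ') _)
  rw [← e]
  exact this

theorem fieldRange_sup_eq_top {N ℓ ℓ' : ℕ} [NeZero ℓ] [NeZero ℓ'] [NeZero (ℓ * ℓ')] (hℓ : ℓ.Prime)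
    (hℓ' : ℓ'.Prime) (hne : ℓ ≠ ℓ') (hgen : FunctionFieldGeneration (ℓ * ℓ'))
    (h₁ : N * ℓ * 1 ∣ N * ℓ * ℓ') (h₂ : N * ℓ' * ℓ ∣ N * ℓ * ℓ') :
    (degenMap L 1 h₁).fieldRange ⊔ (degenMap L ℓ h₂).fieldRange = ⊤ := by
  rw [eq_top_iff]
  intro x _
  have hmap : (x : LaurentSeries L) ∈
      ((degenMap L 1 h₁).fieldRange ⊔ (degenMap L ℓ h₂).fieldRange).map
        (modField L (N * ℓ * ℓ')).val := by
    rw [IntermediateField.map_sup, fieldRange_degenMap, fieldRange_degenMap]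
    exact modField_le_map_sup hℓ hℓ' hne hgen x.2
  obtain ⟨y, hy, hyx⟩ := hmap
  rwa [← Subtype.ext hyx]

theorem finrankAlong_degenMap_eq (hD : DegreeInput L) {N ℓ ℓ' : ℕ} [NeZero N] [NeZero ℓ]
    [NeZero ℓ'] (hℓ : ℓ.Prime) (hℓ' : ℓ'.Prime) (hne : ℓ ≠ ℓ')
    (h₁ : N * ℓ * 1 ∣ N * ℓ * ℓ') (h₂ : N * 1 ∣ N * ℓ') :
    finrankAlong L (degenMap L 1 h₁) = finrankAlong L (degenMap L 1 h₂) := by
  obtain ⟨c, hc0, hc, hc'⟩ := psi_mul_prime_pos_factor (N := N) hℓ'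
  have hiff : ℓ' ∣ N * ℓ ↔ ℓ' ∣ N :=
    ⟨((Nat.coprime_primes hℓ' hℓ).mpr hne.symm).dvd_of_dvd_mul_right,
      fun h => h.trans (dvd_mul_right N ℓ)⟩
  have e₁ := finrankAlong_degenMap_one hD h₁
  have e₂ := finrankAlong_degenMap_one hD h₂
  rw [hc' (N * ℓ) hiff, mul_comm c] at e₁
  rw [hc, mul_comm c] at e₂
  rw [Nat.eq_of_mul_eq_mul_left (psi_pos _) e₁, Nat.eq_of_mul_eq_mul_left (psi_pos _) e₂]

variable (hD : DegreeInput L) (hP : ∀ (M : ℕ) [NeZero M], HasPrincipalDivisors L (modField L M))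

/-- The composite of two Hecke correspondences on divisors. -/
theorem heckeDiv_comp {N ℓ ℓ' : ℕ} [NeZero N] [NeZero ℓ] [NeZero ℓ'] [NeZero (ℓ * ℓ')]
    (hℓ : ℓ.Prime) (hℓ' : ℓ'.Prime) (hne : ℓ ≠ ℓ') (hgen : FunctionFieldGeneration (ℓ * ℓ'))
    {M' : ℕ} [NeZero M'] (hM' : M' = N * ℓ * ℓ')
    (h : N * (ℓ * ℓ') ∣ M') (h' : N * 1 ∣ M') (D : Divisor L (modField L N)) :
    haveI := hP (N * ℓ)
    haveI := hP (N * ℓ')
    haveI := hP M'
    heckeDivBar (heckeAlphaBarIntegral_of N ℓ hD) (heckeBetaBarIntegral_of N ℓ hD)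
        (heckeDivBar (heckeAlphaBarIntegral_of N ℓ' hD) (heckeBetaBarIntegral_of N ℓ' hD) D)
      = Divisor.correspondence (degenMap L (ℓ * ℓ') h) (degenMap L 1 h')
          (isIntegral_degenMap hD _ h) (isIntegral_degenMap hD _ h') D := by
  subst hM'
  haveI := hP (N * ℓ)
  haveI := hP (N * ℓ')
  haveI := hP (N * ℓ * ℓ')
  have hu : N * ℓ * 1 ∣ N * ℓ * ℓ' := mul_dvd_mul_left _ (one_dvd _)
  have ht : N * ℓ' * ℓ ∣ N * ℓ * ℓ' := dvd_of_eq (by ring)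
  have ha : ∀ m : ℕ, N * 1 ∣ N * m := fun m => mul_dvd_mul_left N (one_dvd m)
  have hNl : N * ℓ ∣ N * ℓ * ℓ' := dvd_mul_right _ _
  rw [heckeDivBar_eq_degenMap hD (ha ℓ), heckeDivBar_eq_degenMap hD (ha ℓ')]
  have ec₁ : (degenMap L ℓ ht).comp (degenMap L ℓ' (dvd_refl (N * ℓ'))) = degenMap L (ℓ * ℓ') h :=
    degenMap_comp ℓ' ℓ (ℓ * ℓ') dvd_rfl ht rfl h
  have ec₂ : (degenMap L 1 hu).comp (degenMap L 1 (ha ℓ)) = degenMap L 1 h' :=
    degenMap_comp 1 1 1 (ha ℓ) hu rfl h'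
  rw [← correspondence_congr ec₁ ec₂ (ec₁ ▸ isIntegral_degenMap hD _ h)
    (ec₂ ▸ isIntegral_degenMap hD _ h') _ _]
  refine correspondence_correspondence _ _ _ _ (degenMap L 1 hu) (degenMap L ℓ ht) ?_ _ _ _ _
    (isIntegral_degenMap hD _ hu) (isIntegral_degenMap hD _ ht) _ _
    (finiteAlong_degenMap hD 1 (ha ℓ')) (finiteAlong_degenMap hD 1 hu)
    (separableAlong_degenMap hD 1 (ha ℓ')) (separableAlong_degenMap hD 1 hu)
    (fieldRange_sup_eq_top hℓ hℓ' hne hgen hu ht) (finrankAlong_degenMap_eq hD hℓ hℓ' hne hu _) D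
  rw [degenMap_comp ℓ 1 ℓ dvd_rfl hu (one_mul ℓ).symm hNl,
    degenMap_comp 1 ℓ ℓ (ha ℓ') ht (mul_one ℓ).symm hNl]

include hP in
/-- Hecke correspondences at primes commute on `Pic0`. -/
theorem heckeOperatorAlong_comm (N : ℕ) [NeZero N] {ℓ ℓ' : ℕ} [NeZero ℓ] [NeZero ℓ']
    (hℓ : ℓ.Prime) (hℓ' : ℓ'.Prime) (hD : DegreeInput L)
    (hgen : ∀ (M : ℕ) [NeZero M], FunctionFieldGeneration M)
    (x : Pic0 L (modField L N)) :
    heckeOperatorAlong L N ℓ (heckeOperatorAlong L N ℓ' x)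
      = heckeOperatorAlong L N ℓ' (heckeOperatorAlong L N ℓ x) := by
  rcases eq_or_ne ℓ ℓ' with rfl | hne
  · rfl
  haveI := hP (N * ℓ)
  haveI := hP (N * ℓ')
  haveI : NeZero (ℓ * ℓ') := ⟨Nat.mul_ne_zero (NeZero.ne ℓ) (NeZero.ne ℓ')⟩
  haveI : NeZero (ℓ' * ℓ) := ⟨Nat.mul_ne_zero (NeZero.ne ℓ') (NeZero.ne ℓ)⟩
  haveI : NeZero (N * ℓ * ℓ') := inferInstance
  rw [heckeOperatorAlong_eq (heckeAlphaBarIntegral_of N ℓ hD) (heckeBetaBarIntegral_of N ℓ hD)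
      (fundamentalIdentityAlong_heckeBetaBar N ℓ hD) (finiteAlong_heckeAlphaBar N ℓ hD)
      (normFormulaAlong_heckeAlphaBar N ℓ hD),
    heckeOperatorAlong_eq (heckeAlphaBarIntegral_of N ℓ' hD) (heckeBetaBarIntegral_of N ℓ' hD)
      (fundamentalIdentityAlong_heckeBetaBar N ℓ' hD) (finiteAlong_heckeAlphaBar N ℓ' hD)
      (normFormulaAlong_heckeAlphaBar N ℓ' hD)]
  obtain ⟨D, rfl⟩ := Pic0.mk_surjective x
  rw [heckePic0Bar_mk, heckePic0Bar_mk, heckePic0Bar_mk, heckePic0Bar_mk]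
  refine congrArg Pic0.mk (Subtype.ext ?_)
  have hdiv : ∀ m : ℕ, N * m ∣ N * ℓ * ℓ' → N * 1 ∣ N * ℓ * ℓ' := fun m hm =>
    (mul_dvd_mul_left N (one_dvd m)).trans hm
  have h₁ : N * (ℓ * ℓ') ∣ N * ℓ * ℓ' := dvd_of_eq (mul_assoc _ _ _).symm
  have h₂ : N * (ℓ' * ℓ) ∣ N * ℓ * ℓ' := dvd_of_eq (by ring)
  haveI := hP (N * ℓ * ℓ')
  refine ((heckeDiv_comp hD hP hℓ hℓ' hne (hgen _) rfl h₁ (hdiv _ h₁) _).trans ?_).trans
    (heckeDiv_comp hD hP hℓ' hℓ hne.symm (hgen _) (by ring) h₂ (hdiv _ h₂) _).symm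
  exact DFunLike.congr_fun (correspondence_congr (degenMap_congr (mul_comm ℓ ℓ') h₁ h₂) rfl
    _ _ _ _) _

theorem heckeOperatorsCommuteBar_of (N : ℕ) [NeZero N]
    (hD : DegreeInput (AlgebraicClosure ℚ))
    (hP : ∀ (M : ℕ) [NeZero M],
      HasPrincipalDivisors (AlgebraicClosure ℚ) (modField (AlgebraicClosure ℚ) M))
    (hgen : ∀ (M : ℕ) [NeZero M], FunctionFieldGeneration M) :
    HeckeOperatorsCommuteBar N := by
  intro ℓ ℓ'
  haveI : NeZero (ℓ : ℕ) := ⟨ℓ.2.ne_zero⟩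
  haveI : NeZero (ℓ' : ℕ) := ⟨ℓ'.2.ne_zero⟩
  refine LinearMap.ext fun x => ?_
  rw [Module.End.mul_apply, Module.End.mul_apply, heckeOperatorBar_apply, heckeOperatorBar_apply,
    heckeOperatorBar_apply, heckeOperatorBar_apply]
  exact heckeOperatorAlong_comm hP N ℓ.2 ℓ'.2 hD hgen x

end Fermat.Agent.HK.Corr
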