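import Fermat.Prelude.Def_ModularCurve_X0

/-!
`dedekindPsi (N * ℓ)` in terms of `dedekindPsi N` for a prime `ℓ`.
-/

set_option autoImplicit false

open ModularCurve

namespace Fermat.Agent.HK.Corr

theorem psi_pos (N : ℕ) [NeZero N] : 0 < dedekindPsi N := by
  unfold dedekindPsi
  refine Finset.sum_pos (fun d hd => ?_) ⟨1, by simp [NeZero.ne N]⟩
  rw [Finset.mem_filter, Nat.mem_divisors] at hd
  exact Nat.div_pos (Nat.le_of_dvd (Nat.pos_of_ne_zero (NeZero.ne N)) hd.1.1)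
    (Nat.pos_of_dvd_of_pos hd.1.1 (Nat.pos_of_ne_zero (NeZero.ne N)))

theorem psi_mul_prime_of_dvd {N ℓ : ℕ} [NeZero N] (hℓ : ℓ.Prime) (h : ℓ ∣ N) :
    dedekindPsi (N * ℓ) = ℓ * dedekindPsi N := by
  have hset : (N * ℓ).divisors.filter Squarefree = N.divisors.filter Squarefree := by
    ext d
    simp only [Finset.mem_filter, Nat.mem_divisors, ne_eq, mul_eq_zero, NeZero.ne N, hℓ.ne_zero,
      or_self, not_false_eq_true, and_true]
    constructor
    · rintro ⟨hd, hsq⟩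
      refine ⟨?_, hsq⟩
      refine (Nat.dvd_iff_prime_pow_dvd_dvd N d).mpr fun p k hp hpk => ?_
      have hk : k ≤ 1 := by
        by_contra hk
        have h2 : p * p ∣ d := (pow_two p ▸ pow_dvd_pow p (by omega : 2 ≤ k)).trans hpk
        exact hp.one_lt.ne' (Nat.isUnit_iff.mp (hsq p h2))
      rcases eq_or_ne p ℓ with rfl | hne
      · exact (pow_dvd_pow p hk).trans (by rwa [pow_one])
      · exact (((Nat.coprime_primes hp hℓ).mpr hne).pow_left k).dvd_of_dvd_mul_right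
          (hpk.trans hd)
    · rintro ⟨hd, hsq⟩
      exact ⟨hd.trans (dvd_mul_right _ _), hsq⟩
  unfold dedekindPsi
  rw [hset, Finset.mul_sum]
  refine Finset.sum_congr rfl fun d hd => ?_
  rw [Finset.mem_filter, Nat.mem_divisors] at hd
  rw [mul_comm N ℓ, Nat.mul_div_assoc ℓ hd.1.1]

theorem psi_mul_prime_of_not_dvd {N ℓ : ℕ} [NeZero N] (hℓ : ℓ.Prime) (h : ¬ ℓ ∣ N) :
    dedekindPsi (N * ℓ) = (ℓ + 1) * dedekindPsi N := by
  have hcop : ∀ d, d ∣ N → ℓ.Coprime d := fun d hd =>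
    hℓ.coprime_iff_not_dvd.mpr fun hℓd => h (hℓd.trans hd)
  have hset : (N * ℓ).divisors.filter Squarefree =
      N.divisors.filter Squarefree ∪ (N.divisors.filter Squarefree).image (ℓ * ·) := by
    ext d
    simp only [Finset.mem_union, Finset.mem_image, Finset.mem_filter, Nat.mem_divisors, ne_eq,
      mul_eq_zero, NeZero.ne N, hℓ.ne_zero, or_self, not_false_eq_true, and_true]
    constructor
    · rintro ⟨hd, hsq⟩
      by_cases hℓd : ℓ ∣ d
      · obtain ⟨e, rfl⟩ := hℓd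
        refine Or.inr ⟨e, ⟨?_, hsq.squarefree_of_dvd (dvd_mul_left e ℓ)⟩, rfl⟩
        rw [mul_comm N ℓ] at hd
        exact Nat.dvd_of_mul_dvd_mul_left hℓ.pos hd
      · exact Or.inl ⟨(hℓ.coprime_iff_not_dvd.mpr hℓd).symm.dvd_of_dvd_mul_right hd, hsq⟩
    · rintro (⟨hd, hsq⟩ | ⟨e, ⟨he, hsq⟩, rfl⟩)
      · exact ⟨hd.trans (dvd_mul_right _ _), hsq⟩
      · exact ⟨(mul_dvd_mul_left ℓ he).trans (dvd_of_eq (mul_comm ℓ N)),
          (Nat.squarefree_mul (hcop e he)).mpr ⟨hℓ.squarefree, hsq⟩⟩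
  have hdisj : Disjoint (N.divisors.filter Squarefree)
      ((N.divisors.filter Squarefree).image (ℓ * ·)) := by
    rw [Finset.disjoint_left]
    intro d hd hd'
    rw [Finset.mem_filter, Nat.mem_divisors] at hd
    obtain ⟨e, -, rfl⟩ := Finset.mem_image.mp hd'
    exact h ((dvd_mul_right ℓ e).trans hd.1.1)
  unfold dedekindPsi
  rw [hset, Finset.sum_union hdisj, Finset.sum_image (fun _ _ _ _ hab =>
    Nat.eq_of_mul_eq_mul_left hℓ.pos hab), add_mul, one_mul, Finset.mul_sum]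
  congr 1
  · refine Finset.sum_congr rfl fun d hd => ?_
    rw [Finset.mem_filter, Nat.mem_divisors] at hd
    rw [mul_comm N ℓ, Nat.mul_div_assoc ℓ hd.1.1]
  · refine Finset.sum_congr rfl fun d hd => ?_
    rw [mul_comm N ℓ, Nat.mul_div_mul_left _ _ hℓ.pos]

theorem psi_mul_prime_pos_factor {N ℓ : ℕ} [NeZero N] (hℓ : ℓ.Prime) :
    ∃ c, 0 < c ∧ dedekindPsi (N * ℓ) = c * dedekindPsi N ∧
      ∀ (M : ℕ) [NeZero M], (ℓ ∣ M ↔ ℓ ∣ N) → dedekindPsi (M * ℓ) = c * dedekindPsi M := by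
  by_cases h : ℓ ∣ N
  · exact ⟨ℓ, hℓ.pos, psi_mul_prime_of_dvd hℓ h,
      fun M _ hM => psi_mul_prime_of_dvd hℓ (hM.mpr h)⟩
  · exact ⟨ℓ + 1, Nat.succ_pos _, psi_mul_prime_of_not_dvd hℓ h,
      fun M _ hM => psi_mul_prime_of_not_dvd hℓ (mt hM.mp h)⟩

end Fermat.Agent.HK.Corr
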