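import Fermat.Prelude.Def_AlgebraicCurve_Correspondence

/-!
Semilinear automorphisms commute with restriction of places, divisor pullback and pushforward,
and hence with correspondences, whenever they intertwine along the maps involved.
-/

set_option autoImplicit false

noncomputable section

open AlgebraicCurve IsLocalRing
open scoped Pointwise

namespace Fermat.Agent.HK.Corr

variable {K F F' : Type*} [Field K] [Field F] [Field F'] [Algebra K F] [Algebra K F']

theorem inertiaDeg_smul_of_map [Algebra F F'] [IsScalarTower K F F'] [Algebra.IsIntegral F F']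
    {g : SemilinearAut K F} {g' : SemilinearAut K F'}
    (h : ∀ x : F, g' • algebraMap F F' x = algebraMap F F' (g • x)) (w : Place K F') :
    (g' • w).inertiaDeg F = w.inertiaDeg F := by
  have hmem : ∀ x : F,
      g • x ∈ ((g' • w).restrict F).toValuationSubring ↔ x ∈ (w.restrict F).toValuationSubring := by
    intro x
    rw [Place.mem_restrict_iff, Place.mem_restrict_iff, ← h x,
      SemilinearAut.smul_toValuationSubring]
    exact ValuationSubring.smul_mem_pointwise_smul_iff
  let e : (w.restrict F).toValuationSubring ≃+* ((g' • w).restrict F).toValuationSubring :=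
    { toFun := fun x => ⟨g • (x : F), (hmem (x : F)).2 x.2⟩
      invFun := fun y => ⟨g⁻¹ • (y : F), (hmem _).1 (by rw [smul_inv_smul]; exact y.2)⟩
      left_inv := fun x => Subtype.ext (inv_smul_smul g (x : F))
      right_inv := fun y => Subtype.ext (smul_inv_smul g (y : F))
      map_mul' := fun x y => Subtype.ext (smul_mul' g (x : F) (y : F))
      map_add' := fun x y => Subtype.ext (smul_add g (x : F) (y : F)) }
  refine (Algebra.finrank_eq_of_equiv_equiv (IsLocalRing.ResidueField.mapEquiv e)
    (SemilinearAut.smulResidueRingEquiv g' w) ?_).symm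
  ext r
  obtain ⟨a, rfl⟩ := IsLocalRing.residue_surjective r
  exact congrArg (IsLocalRing.residue _) (Subtype.ext (h (a : F)).symm)

section

variable (φ : F →ₐ[K] F') {g : SemilinearAut K F} {g' : SemilinearAut K F'}

theorem mem_restrictAlong_iff (hφ : φ.toRingHom.IsIntegral) (w : Place K F') (x : F) :
    x ∈ (w.restrictAlong φ hφ).toValuationSubring ↔ φ x ∈ w.toValuationSubring :=
  Iff.rfl

theorem smul_mem_restrictAlong_iff (hφ : φ.toRingHom.IsIntegral)
    (h : SemilinearAut.IntertwinesAlong φ.toRingHom g g') (w : Place K F') (x : F) :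
    g • x ∈ ((g' • w).restrictAlong φ hφ).toValuationSubring ↔
      x ∈ (w.restrictAlong φ hφ).toValuationSubring := by
  rw [mem_restrictAlong_iff, mem_restrictAlong_iff, SemilinearAut.smul_toValuationSubring,
    show φ (g • x) = g' • φ x from (h x).symm]
  exact ValuationSubring.smul_mem_pointwise_smul_iff

theorem restrictAlong_smul (hφ : φ.toRingHom.IsIntegral)
    (h : SemilinearAut.IntertwinesAlong φ.toRingHom g g') (w : Place K F') :
    (g' • w).restrictAlong φ hφ = g • w.restrictAlong φ hφ := by
  apply Place.ext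
  ext x
  rw [SemilinearAut.smul_toValuationSubring,
    ValuationSubring.mem_pointwise_smul_iff_inv_smul_mem]
  have h2 := smul_mem_restrictAlong_iff φ hφ h w (g⁻¹ • x)
  rw [smul_inv_smul] at h2
  exact h2

theorem ramificationIndexAlong_smul
    (h : SemilinearAut.IntertwinesAlong φ.toRingHom g g') (w : Place K F') :
    Place.ramificationIndexAlong φ (g' • w) = Place.ramificationIndexAlong φ w := by
  have key : ∀ x : F, (g' • w).ord (φ (g • x)) = w.ord (φ x) := fun x => by
    rw [show φ (g • x) = g' • φ x from (h x).symm, SemilinearAut.ord_smul]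
  show sInf {n : ℕ | 0 < n ∧ ∃ f : F, f ≠ 0 ∧ (g' • w).ord (φ f) = n}
    = sInf {n : ℕ | 0 < n ∧ ∃ f : F, f ≠ 0 ∧ w.ord (φ f) = n}
  congr 1
  ext n
  simp only [Set.mem_setOf_eq, and_congr_right_iff]
  intro _
  constructor
  · rintro ⟨f, hf, hn⟩
    refine ⟨g⁻¹ • f, fun h0 => hf ?_, ?_⟩
    · rw [← smul_inv_smul g f, h0, smul_zero]
    · rw [← hn, ← key (g⁻¹ • f), smul_inv_smul]
  · rintro ⟨f, hf, hn⟩
    refine ⟨g • f, fun h0 => hf ?_, ?_⟩
    · rw [← inv_smul_smul g f, h0, smul_zero]
    · rw [key, hn]

theorem inertiaDegAlong_smul (hφ : φ.toRingHom.IsIntegral)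
    (h : SemilinearAut.IntertwinesAlong φ.toRingHom g g') (w : Place K F') :
    Place.inertiaDegAlong φ hφ (g' • w) = Place.inertiaDegAlong φ hφ w := by
  letI := algebraAlong φ
  haveI := isScalarTower_along φ
  haveI := isIntegral_along φ hφ
  exact inertiaDeg_smul_of_map (F := F) (fun x => h x) w

theorem pushforwardAlong_smul (hφ : φ.toRingHom.IsIntegral)
    (h : SemilinearAut.IntertwinesAlong φ.toRingHom g g') (D : Divisor K F') :
    Divisor.pushforwardAlong φ hφ (g' • D) = g • Divisor.pushforwardAlong φ hφ D := by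
  induction D using Finsupp.induction with
  | zero => simp
  | single_add w n D _ _ ih =>
    rw [smul_add, map_add, map_add, smul_add, ih, SemilinearAut.smul_single,
      Divisor.pushforwardAlong_single, Divisor.pushforwardAlong_single, SemilinearAut.smul_single,
      restrictAlong_smul φ hφ h, inertiaDegAlong_smul φ hφ h]

theorem pullbackAlong_smul [HasPrincipalDivisors K F'] (hφ : φ.toRingHom.IsIntegral)
    (h : SemilinearAut.IntertwinesAlong φ.toRingHom g g') (D : Divisor K F) :
    Divisor.pullbackAlong φ hφ (g • D) = g' • Divisor.pullbackAlong φ hφ D := by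
  ext w
  rw [SemilinearAut.divisor_smul_apply, Divisor.pullbackAlong_apply, Divisor.pullbackAlong_apply,
    SemilinearAut.divisor_smul_apply, ramificationIndexAlong_smul φ h.inv w,
    restrictAlong_smul φ hφ h.inv w]

end

section Correspondence

variable [HasPrincipalDivisors K F'] (φ ψ : F →ₐ[K] F')
  (hφ : φ.toRingHom.IsIntegral) (hψ : ψ.toRingHom.IsIntegral)
  {g : SemilinearAut K F} {g' : SemilinearAut K F'}

theorem correspondence_smul (h : SemilinearAut.IntertwinesAlong φ.toRingHom g g')
    (h' : SemilinearAut.IntertwinesAlong ψ.toRingHom g g') (D : Divisor K F) :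
    Divisor.correspondence φ ψ hφ hψ (g • D) = g • Divisor.correspondence φ ψ hφ hψ D := by
  rw [Divisor.correspondence_apply, Divisor.correspondence_apply, pullbackAlong_smul φ hφ h,
    pushforwardAlong_smul ψ hψ h']

theorem pic0_correspondence_smul (hFI : FundamentalIdentityAlong K φ hφ)
    (hfin : FiniteAlong K ψ) (hN : NormFormulaAlong K ψ hfin)
    (h : SemilinearAut.IntertwinesAlong φ.toRingHom g g')
    (h' : SemilinearAut.IntertwinesAlong ψ.toRingHom g g') (x : Pic0 K F) :
    Pic0.correspondence φ ψ hφ hψ hFI hfin hN (g • x)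
      = g • Pic0.correspondence φ ψ hφ hψ hFI hfin hN x := by
  obtain ⟨D, rfl⟩ := Pic0.mk_surjective x
  rw [SemilinearAut.pic0_smul_mk, Pic0.correspondence_mk, Pic0.correspondence_mk,
    SemilinearAut.pic0_smul_mk]
  refine congrArg Pic0.mk (Subtype.ext ?_)
  rw [Pic0.coe_degZeroCorrespondence, SemilinearAut.coe_degZeroSMulHom,
    SemilinearAut.coe_degZeroSMulHom, Pic0.coe_degZeroCorrespondence,
    correspondence_smul φ ψ hφ hψ h h']

end Correspondence

end Fermat.Agent.HK.Corr
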