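import Fermat.Prelude.Def_ModularCurve_HeckeModule
import Fermat.Prelude.Thm_ModularCurve_coeffMap_qExpand
import Fermat.Agent.HK.CorrGalois

/-!
Galois equivariance of the Hecke correspondences on `Pic0` of the modular curve, and hence of the
`HeckeAlg`-module structure on `JZero N`. Both statements are unconditional.
-/

set_option autoImplicit false

noncomputable section

open AlgebraicCurve ModularCurve

namespace Fermat.Agent.HK.Corr

section

variable {L : Type*} [Field L] [Algebra ℚ L]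

theorem intertwines_of_coe {F₀ F₁ : IntermediateField ℚ (LaurentSeries ℚ)} (σ : L ≃ₐ[ℚ] L)
    (φ : laurentBaseChange L F₀ →ₐ[L] laurentBaseChange L F₁)
    (f : LaurentSeries L →+* LaurentSeries L)
    (hf : ∀ x, coeffMap (σ : L →+* L) (f x) = f (coeffMap (σ : L →+* L) x))
    (hφ : ∀ x, (φ x : LaurentSeries L) = f (x : LaurentSeries L)) :
    SemilinearAut.IntertwinesAlong φ.toRingHom (arithmeticGalois F₀ σ) (arithmeticGalois F₁ σ) := by
  intro x
  refine Subtype.ext ?_
  rw [AlgHom.toRingHom_eq_coe, RingHom.coe_coe, coe_arithmeticGalois_smul, hφ, hφ, hf,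
    coe_arithmeticGalois_smul]

variable (N ℓ : ℕ) [NeZero N] [NeZero ℓ]

theorem intertwines_heckeAlphaBar (σ : L ≃ₐ[ℚ] L) :
    SemilinearAut.IntertwinesAlong (heckeAlphaBar L N ℓ).toRingHom
      (arithmeticGalois (modularFunctionFieldFull N) σ)
      (arithmeticGalois (modularFunctionFieldFull (N * ℓ)) σ) :=
  intertwines_of_coe σ (heckeAlphaBar L N ℓ) (RingHom.id _) (fun _ => rfl)
    (fun x => coe_heckeAlphaBar N ℓ x)

omit [NeZero N] in
theorem intertwines_heckeBetaBar (σ : L ≃ₐ[ℚ] L) :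
    SemilinearAut.IntertwinesAlong (heckeBetaBar L N ℓ).toRingHom
      (arithmeticGalois (modularFunctionFieldFull N) σ)
      (arithmeticGalois (modularFunctionFieldFull (N * ℓ)) σ) :=
  intertwines_of_coe σ (heckeBetaBar L N ℓ) (qExpand L ℓ)
    (fun x => ModularCurve.coeffMap_qExpand (σ : L →+* L) ℓ x)
    (fun x => coe_heckeBetaBar N ℓ x)

theorem heckeOperatorAlong_smul (σ : L ≃ₐ[ℚ] L)
    (x : Pic0 L (laurentBaseChange L (modularFunctionFieldFull N))) :
    heckeOperatorAlong L N ℓ (σ • x) = σ • heckeOperatorAlong L N ℓ x := by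
  by_cases h : HeckeInputsAlong L N ℓ
  · obtain ⟨hα, hβ, hP, hfin, hFI, hN⟩ := h
    rw [heckeOperatorAlong_eq hα hβ hFI hfin hN, galois_smul_pic0_def, galois_smul_pic0_def]
    exact pic0_correspondence_smul (heckeBetaBar L N ℓ) (heckeAlphaBar L N ℓ) hβ hα hFI hfin hN
      (intertwines_heckeBetaBar N ℓ σ) (intertwines_heckeAlphaBar N ℓ σ) x
  · rw [heckeOperatorAlong_of_not h, AddMonoidHom.zero_apply, AddMonoidHom.zero_apply, smul_zero]

end

variable (N : ℕ) [NeZero N]

theorem heckeOperatorBar_galois_smul (σ : AlgebraicClosure ℚ ≃ₐ[ℚ] AlgebraicClosure ℚ)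
    (ℓ : Nat.Primes) (x : JZero N) :
    heckeOperatorBar N ℓ (σ • x) = σ • heckeOperatorBar N ℓ x :=
  haveI : NeZero (ℓ : ℕ) := ⟨ℓ.2.ne_zero⟩
  heckeOperatorAlong_smul N ℓ σ x

theorem heckeEvalBar_galois_smul (h : HeckeOperatorsCommuteBar N)
    (σ : AlgebraicClosure ℚ ≃ₐ[ℚ] AlgebraicClosure ℚ) (t : HeckeAlg) (x : JZero N) :
    heckeEvalBar h t (σ • x) = σ • heckeEvalBar h t x := by
  induction t using MvPolynomial.induction_on generalizing x with
  | C a =>
    rw [heckeEvalBar_C, Module.End.intCast_apply, Module.End.intCast_apply]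
    exact (map_zsmul (DistribSMul.toAddMonoidHom (JZero N) σ) a x).symm
  | add p q hp hq =>
    rw [map_add, LinearMap.add_apply, LinearMap.add_apply, hp, hq, smul_add]
  | mul_X p ℓ hp =>
    rw [map_mul, Module.End.mul_apply, Module.End.mul_apply,
      show heckeEvalBar h (MvPolynomial.X ℓ) = heckeOperatorBar N ℓ from
        heckeEvalBar_heckeGen h ℓ,
      heckeOperatorBar_galois_smul, hp]

/-- The instance hypothesis of S37 holds unconditionally. -/
theorem smulCommClass_heckeModuleBar :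
    letI := heckeModuleBar N
    SMulCommClass (AlgebraicClosure ℚ ≃ₐ[ℚ] AlgebraicClosure ℚ) HeckeAlg (JZero N) := by
  letI := heckeModuleBar N
  refine ⟨fun σ t x => ?_⟩
  by_cases h : HeckeOperatorsCommuteBar N
  · rw [heckeModuleBar_smul_def h, heckeModuleBar_smul_def h, heckeEvalBar_galois_smul N h]
  · rw [heckeModuleBar_smul_of_not h, heckeModuleBar_smul_of_not h]
    exact map_zsmul (DistribSMul.toAddMonoidHom (JZero N) σ) _ x

end Fermat.Agent.HK.Corr
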