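import Fermat.Agent.MF.PeriodRange
import Fermat.Agent.MF.ParHom.Main
import Fermat.Agent.MF.CuspAssembly

/-!
Eichler–Shimura in the form used by the Hecke module structure.
-/

set_option autoImplicit false

noncomputable section

open CongruenceSubgroup

namespace Fermat.Agent.HK

variable (N : ℕ) [NeZero N]

theorem finiteDimensional_parabolicHoms :
    FiniteDimensional ℂ (ModularCurve.Period.parabolicHoms ℂ (Gamma0 N) ℂ) :=
  Module.Finite.equiv (((MF.ParHom.evalEquiv N ℂ ℂ).symm).trans
    (LinearEquiv.ofEq _ _ MF.ParHom.ellParHoms_eq_parabolicHoms))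

theorem finrank_cuspForm_two :
    (Module.finrank ℂ (CuspForm (Gamma0 N) 2) : ℚ) = ModularCurve.genusFormula N  :=
  MF.finrank_cuspForm_eq_genusFormula N

theorem eichlerShimura :
    Function.Injective (ModularCurve.periodHomPair N) ∧
      LinearMap.range (ModularCurve.periodHomPair N)
        = ModularCurve.Period.parabolicHoms ℂ (Gamma0 N) ℂ :=
  MF.Prim.periodHomPair_eichlerShimura_of_finrank N (finiteDimensional_parabolicHoms N)
    (MF.ParHom.finrank_parabolicHoms_complex N) (finrank_cuspForm_two N)

end Fermat.Agent.HK
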