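import Fermat.Agent.HK.HeckeHom
import Fermat.Agent.MF.Primitive
import Fermat.Prelude.Def_CuspForm_HeckeEvalForms

/-!
The period map intertwines the Hecke operators `T_p`, `U_p` on `S₂(Γ₀(N))` with `heckeHom`.
-/

set_option autoImplicit false

noncomputable section

open CongruenceSubgroup UpperHalfPlane ModularCurve
open scoped MatrixGroups ModularForm

namespace Fermat.Agent.HK

variable {N p : ℕ} [hp : Fact p.Prime]

/-- The coset representatives in `GL₂(ℝ)`. -/
def heckeGL (i : HeckeIdx N p) : GL (Fin 2) ℝ :=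
  match i.1 with
  | some j => ModularForm.heckeMatrix p j
  | none => ModularForm.heckeDiagMatrix p

omit hp in
@[simp] theorem heckeGL_upper (j : Fin p) :
    heckeGL (HeckeIdx.upper N j) = ModularForm.heckeMatrix p j := rfl

omit hp in
@[simp] theorem heckeGL_diag (h : ¬ p ∣ N) :
    heckeGL (HeckeIdx.diag h) = ModularForm.heckeDiagMatrix p := rfl

theorem val_heckeGL (i : HeckeIdx N p) :
    ((heckeGL i : GL (Fin 2) ℝ) : Matrix (Fin 2) (Fin 2) ℝ)
      = (heckeMat i).map (Int.castRingHom ℝ) := by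
  induction i using HeckeIdx.cases_upper_diag with
  | h1 j =>
    rw [heckeGL_upper, ModularForm.val_heckeMatrix hp.out.ne_zero, heckeMat_upper]
    ext r c; fin_cases r <;> fin_cases c <;> simp
  | h2 h =>
    rw [heckeGL_diag, ModularForm.val_heckeDiagMatrix hp.out.ne_zero, heckeMat_diag]
    ext r c; fin_cases r <;> fin_cases c <;> simp

theorem heckeCoc_mul_heckeGL (g : Gamma0 N) (i : HeckeIdx N p) :
    Matrix.SpecialLinearGroup.mapGL ℝ (heckeCoc g i : SL(2, ℤ)) * heckeGL (heckeNext g i)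
      = heckeGL i * Matrix.SpecialLinearGroup.mapGL ℝ (g : SL(2, ℤ)) := by
  have h := congrArg (fun M => M.map (Int.castRingHom ℝ)) (heckeCoc_mul_heckeMat g i)
  simp only [Matrix.map_mul] at h
  refine Units.ext ?_
  simp only [Units.val_mul, val_heckeGL, Matrix.SpecialLinearGroup.mapGL_coe_matrix]
  simpa [RingHom.mapMatrix_apply, algebraMap_int_eq] using h

/-- `G` primitive of `g`: the periods of `g` are the increments of `G`. -/
theorem periodMap_apply_of_isPrimitiveOf [NeZero N] {g : CuspForm (Gamma0 N) 2} {G : ℍ → ℂ}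
    (hG : MF.Prim.IsPrimitiveOf G g) (γ : Gamma0 N) (z : ℍ) :
    periodMap N g (Additive.ofMul γ) = G ((γ : SL(2, ℤ)) • z) - G z := by
  rw [MF.Prim.periodMap_eq N g γ z]
  linear_combination (MF.Prim.prim_isPrimitiveOf N g).sub_eq hG ((γ : SL(2, ℤ)) • z) z

theorem isPrimitiveOf_comp_heckeMatrix {F f : ℍ → ℂ} (hF : MF.Prim.IsPrimitiveOf F f) (j : ℕ) :
    MF.Prim.IsPrimitiveOf (fun w => F (ModularForm.heckeMatrix p j • w))
      (fun w => (p : ℂ)⁻¹ * f (ModularForm.heckeMatrix p j • w)) := by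
  intro τ
  have h1 : HasDerivAt (fun z : ℂ => (z + j) / p) ((1 : ℂ) / p) (τ : ℂ) :=
    ((hasDerivAt_id (τ : ℂ)).add_const _).div_const _
  have hval := ModularForm.coe_heckeMatrix_smul hp.out.ne_zero j τ
  have h2 := hF (ModularForm.heckeMatrix p j • τ)
  rw [hval] at h2
  have h3 := h2.comp (τ : ℂ) h1
  rw [mul_comm, one_div] at h3
  refine h3.congr_of_eventuallyEq ?_
  filter_upwards [isOpen_upperHalfPlaneSet.mem_nhds τ.im_pos] with z hz
  simp only [Function.comp_apply, ofComplex_apply_of_im_pos hz]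
  rw [← ofComplex_apply (ModularForm.heckeMatrix p j • ⟨z, hz⟩),
    ModularForm.coe_heckeMatrix_smul hp.out.ne_zero]

theorem isPrimitiveOf_comp_heckeDiagMatrix {F f : ℍ → ℂ} (hF : MF.Prim.IsPrimitiveOf F f) :
    MF.Prim.IsPrimitiveOf (fun w => F (ModularForm.heckeDiagMatrix p • w))
      (fun w => (p : ℂ) * f (ModularForm.heckeDiagMatrix p • w)) := by
  intro τ
  have h1 : HasDerivAt (fun z : ℂ => (p : ℂ) * z) ((p : ℂ) * 1) (τ : ℂ) :=
    (hasDerivAt_id (τ : ℂ)).const_mul _
  have hval := ModularForm.coe_heckeDiagMatrix_smul hp.out.ne_zero τ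
  have h2 := hF (ModularForm.heckeDiagMatrix p • τ)
  rw [hval] at h2
  have h3 := h2.comp (τ : ℂ) h1
  rw [mul_one, mul_comm] at h3
  refine h3.congr_of_eventuallyEq ?_
  filter_upwards [isOpen_upperHalfPlaneSet.mem_nhds τ.im_pos] with z hz
  simp only [Function.comp_apply, ofComplex_apply_of_im_pos hz]
  rw [← ofComplex_apply (ModularForm.heckeDiagMatrix p • ⟨z, hz⟩),
    ModularForm.coe_heckeDiagMatrix_smul hp.out.ne_zero]

variable [NeZero N]

/-- `T_p` for `p ∤ N`, `U_p` for `p ∣ N`, on weight two cusp forms. -/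
def heckeFormsLin (N p : ℕ) [NeZero N] [hp : Fact p.Prime] :
    Module.End ℂ (CuspForm (Gamma0 N) 2) :=
  if h : p ∣ N then CuspForm.heckeULin 2 h else CuspForm.heckeTLin 2 hp.out h

theorem coe_heckeFormsGen (ℓ : Nat.Primes) [Fact (ℓ : ℕ).Prime] :
    ((CuspForm.heckeFormsGen N 2 ℓ : CuspForm.heckeAlgebra N 2 ∅) :
      Module.End ℂ (CuspForm (Gamma0 N) 2)) = heckeFormsLin N ℓ := by
  rw [heckeFormsLin]
  split_ifs with h
  · rw [CuspForm.heckeFormsGen_of_dvd h, CuspForm.heckeAlgebra.coe_U]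
  · rw [CuspForm.heckeFormsGen_of_not_dvd h, CuspForm.heckeAlgebra.coe_T]

theorem isPrimitiveOf_heckeFormsLin (f : CuspForm (Gamma0 N) 2) :
    MF.Prim.IsPrimitiveOf (fun w => ∑ i : HeckeIdx N p, MF.Prim.prim N f (heckeGL i • w))
      (heckeFormsLin N p f) := by
  classical
  intro τ
  have key : ∀ i : HeckeIdx N p, HasDerivAt
      ((fun w => MF.Prim.prim N f (heckeGL i • w)) ∘ ofComplex)
      ((f : ℍ → ℂ) (heckeGL i • τ) * (if i.1.isSome then (p : ℂ)⁻¹ else (p : ℂ))) (τ : ℂ) := by
    intro i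
    induction i using HeckeIdx.cases_upper_diag with
    | h1 j =>
      simpa [HeckeIdx.upper, heckeGL, mul_comm] using
        isPrimitiveOf_comp_heckeMatrix (MF.Prim.prim_isPrimitiveOf N f) (j : ℕ) τ
    | h2 h =>
      simpa [HeckeIdx.diag, heckeGL, mul_comm] using
        isPrimitiveOf_comp_heckeDiagMatrix (p := p) (MF.Prim.prim_isPrimitiveOf N f) τ
  have hsum := HasDerivAt.fun_sum (u := Finset.univ) fun i _ => key i
  have hval : (heckeFormsLin N p f : ℍ → ℂ) τ = ∑ i : HeckeIdx N p,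
      (f : ℍ → ℂ) (heckeGL i • τ) * (if i.1.isSome then (p : ℂ)⁻¹ else (p : ℂ)) := by
    rw [heckeFormsLin]
    split_ifs with h
    · have hb : Function.Bijective (HeckeIdx.upper (p := p) N) := by
        refine ⟨fun a b e => Option.some_injective _ (congrArg Subtype.val e), fun i => ?_⟩
        induction i using HeckeIdx.cases_upper_diag with
        | h1 j => exact ⟨j, rfl⟩
        | h2 h' => exact absurd h h'
      rw [CuspForm.heckeULin_apply_apply, ModularForm.heckeU_apply _ hp.out.ne_zero,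
        Finset.sum_range, Finset.mul_sum, ← Fintype.sum_bijective _ hb _ _ fun j => rfl]
      exact Finset.sum_congr rfl fun j _ => by simp [HeckeIdx.upper, heckeGL, mul_comm]
    · rw [CuspForm.heckeTLin_apply_apply, ModularForm.heckeT_apply _ hp.out.ne_zero,
        Finset.sum_range, Finset.mul_sum,
        ← (Equiv.subtypeUnivEquiv fun o => fun h' => absurd h' h).symm.sum_comp,
        Fintype.sum_option, add_comm]
      simp [heckeGL, mul_comm]
  rw [hval]
  exact hsum

/-- The period map intertwines `T_p` / `U_p` with `heckeHom`. -/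
theorem periodMap_heckeFormsLin (f : CuspForm (Gamma0 N) 2) :
    periodMap N (heckeFormsLin N p f) = heckeHom N p ℂ ℂ (periodMap N f) := by
  refine AddMonoidHom.ext fun g => ?_
  obtain ⟨g, rfl⟩ := Additive.ofMul.surjective g
  rw [periodMap_apply_of_isPrimitiveOf (isPrimitiveOf_heckeFormsLin (p := p) f) g UpperHalfPlane.I,
    heckeHom_apply]
  have hmove : ∀ i : HeckeIdx N p, heckeGL i • ((g : SL(2, ℤ)) • UpperHalfPlane.I)
      = (heckeCoc g i : SL(2, ℤ)) • (heckeGL (heckeNext g i) • UpperHalfPlane.I) := fun i => by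
    show heckeGL i • ((Matrix.SpecialLinearGroup.mapGL ℝ (g : SL(2, ℤ))) • UpperHalfPlane.I)
      = (Matrix.SpecialLinearGroup.mapGL ℝ (heckeCoc g i : SL(2, ℤ)))
          • (heckeGL (heckeNext g i) • UpperHalfPlane.I)
    rw [smul_smul, smul_smul]
    exact congrArg (· • UpperHalfPlane.I) (heckeCoc_mul_heckeGL g i).symm
  rw [← Fintype.sum_bijective _ (heckeNext_bijective g)
    (fun i => MF.Prim.prim N f (heckeGL (heckeNext g i) • UpperHalfPlane.I))
    (fun i => MF.Prim.prim N f (heckeGL i • UpperHalfPlane.I)) fun i => rfl,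
    ← Finset.sum_sub_distrib]
  refine Finset.sum_congr rfl fun i _ => ?_
  rw [hmove, ← periodMap_apply_of_isPrimitiveOf (MF.Prim.prim_isPrimitiveOf N f) (heckeCoc g i)]

end Fermat.Agent.HK
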