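import Mathlib

/-!
Integral matrices: injectivity survives extension of scalars, and a determinant which is not
identically zero at complex points is nonzero at some integral point.
-/

set_option autoImplicit false

noncomputable section

namespace Fermat.Agent.HK

/-- An integral matrix with trivial integral kernel has trivial kernel over any field of
characteristic zero. -/
theorem mulVec_cast_injective {m n : Type*} [Fintype m] [Fintype n] [DecidableEq n]
    {V : Matrix m n ℤ} (hV : Function.Injective V.mulVec) (K : Type*) [Field K] [CharZero K] :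
    Function.Injective (V.map (Int.castRingHom K)).mulVec := by
  classical
  have hQ : Function.Injective (V.map (Int.castRingHom ℚ)).mulVec := by
    rw [Matrix.mulVec_injective_iff]
    rw [← LinearIndependent.iff_fractionRing ℤ ℚ]
    rw [Matrix.mulVec_injective_iff] at hV
    have := hV.map' ((Int.castAddHom ℚ).toIntLinearMap.compLeft m)
      (LinearMap.ker_eq_bot.mpr fun a b h => funext fun i =>
        Int.cast_injective (congrFun h i : ((a i : ℤ) : ℚ) = (b i : ℚ)))
    exact this
  obtain ⟨L, hL⟩ := LinearMap.exists_leftInverse_of_injective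
    (V.map (Int.castRingHom ℚ)).mulVecLin (LinearMap.ker_eq_bot.mpr hQ)
  have h1 : LinearMap.toMatrix' L * V.map (Int.castRingHom ℚ) = 1 := by
    rw [← LinearMap.toMatrix'_toLin' (V.map (Int.castRingHom ℚ)), ← LinearMap.toMatrix'_comp,
      show Matrix.toLin' (V.map (Int.castRingHom ℚ)) = (V.map (Int.castRingHom ℚ)).mulVecLin from rfl,
      hL, LinearMap.toMatrix'_id]
  have h2 : (LinearMap.toMatrix' L).map (algebraMap ℚ K) * V.map (Int.castRingHom K) = 1 := by
    have := congrArg (fun M => M.map (algebraMap ℚ K)) h1
    simp only [Matrix.map_mul, Matrix.map_map, Matrix.map_one _ (map_zero _) (map_one _)] at this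
    have hc : (⇑(algebraMap ℚ K) ∘ ⇑(Int.castRingHom ℚ)) = ⇑(Int.castRingHom K) :=
      funext fun z => by simp
    rwa [hc] at this
  intro x y hxy
  have := congrArg ((LinearMap.toMatrix' L).map (algebraMap ℚ K)).mulVec hxy
  rwa [Matrix.mulVec_mulVec, Matrix.mulVec_mulVec, h2, Matrix.one_mulVec, Matrix.one_mulVec] at this

end Fermat.Agent.HK
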