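import Fermat.Agent.HK.HLattice
import Fermat.Agent.HK.HeckePeriods
import Fermat.Agent.HK.EichlerShimuraInput
import Fermat.Agent.HK.MatrixCast

/-!
The full Hecke algebra acts on `H(R) = Hom_par(Γ₀(N), R)` by integral matrices, compatibly with
the double coset operators, and commutes with the involution.
-/

set_option autoImplicit false

noncomputable section

open CongruenceSubgroup ModularCurve ModularCurve.Period
open scoped MatrixGroups TensorProduct

namespace Fermat.Agent.HK

variable (N : ℕ) [NeZero N]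

/-- The full Hecke algebra in weight two. -/
abbrev TFull : Type := ↥(CuspForm.heckeAlgebra N 2 (∅ : Set ℕ))

/-- The Eichler–Shimura isomorphism `S × S ≅ H(ℂ)`. -/
def periodEquiv :
    (CuspForm (Gamma0 N) 2 × CuspForm (Gamma0 N) 2) ≃ₗ[ℂ] HSpace N ℂ :=
  ((LinearEquiv.ofInjective (periodHomPair N) (eichlerShimura N).1).trans
    (LinearEquiv.ofEq _ _ (eichlerShimura N).2)).trans (HSpace.toParHom N ℂ).symm

theorem hom_periodEquiv (x : CuspForm (Gamma0 N) 2 × CuspForm (Gamma0 N) 2) :
    (periodEquiv N x).hom = periodHomPair N x := rfl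

theorem involEnd_periodEquiv (f g : CuspForm (Gamma0 N) 2) :
    involEnd N ℂ (periodEquiv N (f, g)) = periodEquiv N (f, -g) := by
  refine HSpace.hom_injective ?_
  rw [hom_involEnd, hom_periodEquiv, hom_periodEquiv]
  obtain ⟨pml, hp, he⟩ := periodHomPair_def N (MF.Prim.existsPeriodMapLinear N)
  simp only [he, LinearMap.coprod_apply, LinearMap.comp_apply, LinearMap.add_apply,
    LinearMap.sub_apply, LinearMap.id_apply, map_add, map_sub, map_neg,
    charInvolution_charInvolution]
  abel

theorem heckeEnd_periodEquiv (p : ℕ) [Fact p.Prime] (f g : CuspForm (Gamma0 N) 2) :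
    heckeEnd N p ℂ (periodEquiv N (f, g))
      = periodEquiv N (heckeFormsLin N p f, heckeFormsLin N p g) := by
  refine HSpace.hom_injective ?_
  rw [hom_heckeEnd, hom_periodEquiv, hom_periodEquiv]
  obtain ⟨pml, hp, he⟩ := periodHomPair_def N (MF.Prim.existsPeriodMapLinear N)
  simp only [he, LinearMap.coprod_apply, LinearMap.comp_apply, LinearMap.add_apply,
    LinearMap.sub_apply, LinearMap.id_apply, map_add, map_sub, hp, periodMap_heckeFormsLin,
    heckeHom_charInvolution]

/-- Diagonal action on `S × S`, in coordinates on `H(ℂ)`. -/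
def coordC : Module.End ℂ (CuspForm (Gamma0 N) 2) →+*
    Matrix (Fin (MF.ParHom.parRank N)) (Fin (MF.ParHom.parRank N)) ℂ where
  toFun t := hMatrix N ℂ ((periodEquiv N).conjAlgEquiv ℂ (t.prodMap t))
  map_one' := by rw [LinearMap.prodMap_one, map_one, map_one]
  map_mul' s t := by rw [← map_mul, ← map_mul, LinearMap.prodMap_mul]
  map_zero' := by rw [LinearMap.prodMap_zero, map_zero, map_zero]
  map_add' s t := by rw [← map_add, ← map_add, ← LinearMap.prodMap_add]

theorem coordC_smul (c : ℂ) (t : Module.End ℂ (CuspForm (Gamma0 N) 2)) :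
    coordC N (c • t) = c • coordC N t := by
  show hMatrix N ℂ ((periodEquiv N).conjAlgEquiv ℂ ((c • t).prodMap (c • t))) = _
  rw [LinearMap.prodMap_smul, map_smul, map_smul]
  rfl

theorem coordC_injective : Function.Injective (coordC N) := by
  intro s t h
  have := ((periodEquiv N).conjAlgEquiv ℂ).injective ((hMatrix N ℂ).injective h)
  refine LinearMap.ext fun f => ?_
  exact congrArg Prod.fst (LinearMap.congr_fun this (f, 0))

theorem coordC_heckeFormsLin (p : ℕ) [Fact p.Prime] :
    coordC N (heckeFormsLin N p) = (heckeMatZ N p).map (Int.castRingHom ℂ) := by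
  rw [← hMatrix_heckeEnd]
  refine congrArg (hMatrix N ℂ) (LinearMap.ext fun x => ?_)
  obtain ⟨⟨f, g⟩, rfl⟩ := (periodEquiv N).surjective x
  rw [heckeEnd_periodEquiv]
  simp [LinearEquiv.conjAlgEquiv_apply]

/-- The generators indexed by all primes generate the Hecke algebra. -/
theorem coe_mem_of_heckeFormsLin_mem
    (P : Subring (Module.End ℂ (CuspForm (Gamma0 N) 2)))
    (h : ∀ (p : ℕ) [Fact p.Prime], heckeFormsLin N p ∈ P) (t : TFull N) :
    (t : Module.End ℂ (CuspForm (Gamma0 N) 2)) ∈ P := by
  refine (Algebra.adjoin_le (S := subalgebraOfSubring P) ?_ : CuspForm.heckeAlgebra N 2 ∅ ≤ _) t.2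
  rintro _ (⟨ℓ, hℓ, hℓN, -, rfl⟩ | ⟨q, hqN, hq, -, rfl⟩)
  · have : Fact ℓ.Prime := ⟨hℓ⟩
    have := h ℓ
    rwa [heckeFormsLin, dif_neg hℓN] at this
  · have : Fact q.Prime := ⟨hq⟩
    have := h q
    rwa [heckeFormsLin, dif_pos hqN] at this

/-- `(· ).map Int.cast` on square matrices. -/
def castMat (R : Type) [CommRing R] :
    Matrix (Fin (MF.ParHom.parRank N)) (Fin (MF.ParHom.parRank N)) ℤ →+*
      Matrix (Fin (MF.ParHom.parRank N)) (Fin (MF.ParHom.parRank N)) R :=
  (Int.castRingHom R).mapMatrix

theorem castMat_apply (R : Type) [CommRing R]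
    (M : Matrix (Fin (MF.ParHom.parRank N)) (Fin (MF.ParHom.parRank N)) ℤ) :
    castMat N R M = M.map (Int.castRingHom R) := rfl

theorem castMat_injective (R : Type) [CommRing R] [CharZero R] :
    Function.Injective (castMat N R) :=
  Matrix.map_injective Int.cast_injective

theorem coordC_mem_range (t : TFull N) :
    coordC N (t : Module.End ℂ (CuspForm (Gamma0 N) 2)) ∈ (castMat N ℂ).range := by
  refine Subring.mem_comap.mp (coe_mem_of_heckeFormsLin_mem N ((castMat N ℂ).range.comap (coordC N))
    (fun p _ => ?_) t)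
  exact ⟨heckeMatZ N p, (coordC_heckeFormsLin N p).symm⟩

/-- The integral matrix representation of the Hecke algebra. -/
def heckeRep : TFull N →+* Matrix (Fin (MF.ParHom.parRank N)) (Fin (MF.ParHom.parRank N)) ℤ :=
  ((RingEquiv.ofLeftInverse (castMat_injective N ℂ).hasLeftInverse.choose_spec).symm.toRingHom).comp
    (((coordC N).comp (CuspForm.heckeAlgebra N 2 ∅).subtype).codRestrict _
      (coordC_mem_range N))

theorem castMat_heckeRep (t : TFull N) :
    castMat N ℂ (heckeRep N t) = coordC N (t : Module.End ℂ (CuspForm (Gamma0 N) 2)) := by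
  have h := congrArg Subtype.val
    ((RingEquiv.ofLeftInverse (castMat_injective N ℂ).hasLeftInverse.choose_spec).apply_symm_apply
      ⟨coordC N (t : Module.End ℂ (CuspForm (Gamma0 N) 2)), coordC_mem_range N t⟩)
  simp only [RingEquiv.ofLeftInverse_apply] at h
  exact h

theorem heckeRep_injective : Function.Injective (heckeRep N) := fun s t h =>
  Subtype.ext (coordC_injective N (by rw [← castMat_heckeRep, ← castMat_heckeRep, h]))

theorem heckeRep_heckeFormsGen (ℓ : Nat.Primes) [Fact (ℓ : ℕ).Prime] :
    heckeRep N (CuspForm.heckeFormsGen N 2 ℓ) = heckeMatZ N ℓ :=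
  castMat_injective N ℂ (by
    rw [castMat_heckeRep, coe_heckeFormsGen, coordC_heckeFormsLin, castMat_apply])

theorem commute_involMatZ_heckeRep (t : TFull N) : Commute (involMatZ N) (heckeRep N t) := by
  refine castMat_injective N ℂ ?_
  rw [map_mul, map_mul, castMat_heckeRep, castMat_apply, ← hMatrix_involEnd]
  have key : hMatrix N ℂ (involEnd N ℂ) * coordC N (t : Module.End ℂ (CuspForm (Gamma0 N) 2))
      = coordC N (t : Module.End ℂ (CuspForm (Gamma0 N) 2)) * hMatrix N ℂ (involEnd N ℂ) := by
    show _ * hMatrix N ℂ _ = hMatrix N ℂ _ * _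
    rw [← map_mul, ← map_mul]
    refine congrArg (hMatrix N ℂ) (LinearMap.ext fun x => ?_)
    obtain ⟨⟨f, g⟩, rfl⟩ := (periodEquiv N).surjective x
    simp [LinearEquiv.conjAlgEquiv_apply, involEnd_periodEquiv]
  exact key

/-- The Hecke algebra of weight two is a finite free `ℤ`-module. -/
theorem moduleFinite_tFull : Module.Finite ℤ (TFull N) :=
  Module.Finite.of_injective (heckeRep N).toAddMonoidHom.toIntLinearMap (heckeRep_injective N)

theorem moduleFree_tFull : Module.Free ℤ (TFull N) := by
  have := moduleFinite_tFull N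
  exact Module.free_of_finite_type_torsion_free'

section Action

variable (R : Type) [CommRing R] [IsAddTorsionFree R]

/-- The action of the Hecke algebra on `H(R)`. -/
def heckeAct : TFull N →+* Module.End R (HSpace N R) :=
  ((hMatrix N R).symm.toRingEquiv.toRingHom).comp ((castMat N R).comp (heckeRep N))

theorem hMatrix_heckeAct (t : TFull N) :
    hMatrix N R (heckeAct N R t) = (heckeRep N t).map (Int.castRingHom R) :=
  (hMatrix N R).apply_symm_apply _

theorem heckeAct_heckeFormsGen (ℓ : Nat.Primes) [Fact (ℓ : ℕ).Prime] :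
    heckeAct N R (CuspForm.heckeFormsGen N 2 ℓ) = heckeEnd N ℓ R :=
  (hMatrix N R).injective (by rw [hMatrix_heckeAct, heckeRep_heckeFormsGen, hMatrix_heckeEnd])

theorem heckeAct_involEnd (t : TFull N) (x : HSpace N R) :
    heckeAct N R t (involEnd N R x) = involEnd N R (heckeAct N R t x) := by
  refine LinearMap.congr_fun ((hMatrix N R).injective ?_ :
    heckeAct N R t * involEnd N R = involEnd N R * heckeAct N R t) x
  rw [map_mul, map_mul, hMatrix_heckeAct, hMatrix_involEnd]
  exact ((commute_involMatZ_heckeRep N t).map (castMat N R)).eq.symm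

/-- `R ⊗ T` acting on `H(R)`. -/
def heckeActTensor : R ⊗[ℤ] TFull N →ₐ[R] Module.End R (HSpace N R) :=
  Algebra.TensorProduct.lift (Algebra.ofId R _) (heckeAct N R).toIntAlgHom fun r t =>
    (Algebra.commutes r ((heckeAct N R).toIntAlgHom t) :
      Commute (Algebra.ofId R (Module.End R (HSpace N R)) r) ((heckeAct N R).toIntAlgHom t))

theorem heckeActTensor_tmul (r : R) (t : TFull N) (x : HSpace N R) :
    heckeActTensor N R (r ⊗ₜ t) x = r • heckeAct N R t x := by
  refine (LinearMap.congr_fun (Algebra.TensorProduct.lift_tmul (Algebra.ofId R _)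
    (heckeAct N R).toIntAlgHom _ r t) x).trans ?_
  rfl

instance HSpace.instModuleTensor : Module (R ⊗[ℤ] TFull N) (HSpace N R) :=
  Module.compHom _ (heckeActTensor N R).toRingHom

theorem HSpace.tensor_smul_def (a : R ⊗[ℤ] TFull N) (x : HSpace N R) :
    a • x = heckeActTensor N R a x := rfl

theorem HSpace.tmul_smul (r : R) (t : TFull N) (x : HSpace N R) :
    (r ⊗ₜ[ℤ] t : R ⊗[ℤ] TFull N) • x = r • heckeAct N R t x :=
  heckeActTensor_tmul N R r t x

instance HSpace.instIsScalarTower : IsScalarTower R (R ⊗[ℤ] TFull N) (HSpace N R) :=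
  ⟨fun r a x => by simp only [HSpace.tensor_smul_def, map_smul, LinearMap.smul_apply]⟩

end Action

theorem heckeAct_map {R R' : Type} [CommRing R] [CommRing R'] [IsAddTorsionFree R]
    [IsAddTorsionFree R'] (f : R →+* R') (t : TFull N) (x : HSpace N R) :
    heckeAct N R' t (x.map f) = (heckeAct N R t x).map f := by
  refine (hCoord N R').injective ?_
  have key : ∀ (K : Type) [CommRing K] [IsAddTorsionFree K] (y : HSpace N K),
      hCoord N K (heckeAct N K t y)
        = ((heckeRep N t).map (Int.castRingHom K)).mulVec (hCoord N K y) := by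
    intro K _ _ y
    rw [← hMatrix_heckeAct]
    simp [hMatrix, LinearMap.toMatrixAlgEquiv', LinearEquiv.conjAlgEquiv_apply]
  rw [key, hCoord_map, hCoord_map, key]
  funext i
  simp [Matrix.mulVec, dotProduct]

end Fermat.Agent.HK
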