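import Fermat.Agent.HK.TateKummer
import Fermat.Agent.HK.Kummer.Bijective
import Fermat.Agent.HK.HeckeFinal
import Fermat.Agent.TraceFn.FiniteLevel
import Fermat.Agent.TraceFn.Saturation
import Fermat.Prelude.Def_CuspForm_HeckeEvalForms

/-!
The matrix form of the Galois action on the Tate module of `J₀(N)`, the finite level of its torsion,
and faithfulness of the Hecke algebra on deep torsion levels.
-/

set_option autoImplicit false

noncomputable section

open CongruenceSubgroup ModularCurve AlgebraicCurve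
open scoped MatrixGroups Matrix

namespace Fermat.Agent.HK

variable (N : ℕ) [NeZero N] (p : ℕ) [Fact p.Prime]

/-- The coordinates on `p`-power torsion of `J₀(N)`. -/
def tateCoords : TorsionCoords N p :=
  torsionCoordsOfSurjective N p fun k => jKummer_surjective N (p ^ k)

/-- The matrix form of the Galois action on the rational Tate module. -/
theorem exists_tateRep : Nonempty (GAL.TateRep N p) :=
  ⟨tateRepOfCoords (tateCoords N p)⟩

/-- The `p`-power torsion levels are finite. -/
theorem finite_setOf_pow_smul_eq_zero (k : ℕ) : {x : JZero N | p ^ k • x = 0}.Finite :=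
  finite_jZero_nsmul_eq_zero N (p ^ k)

/-- Each `p`-power torsion level is fixed by an open subgroup. -/
theorem torsionFiniteLevel : GAL.TorsionFiniteLevel N p :=
  TraceFn.torsionFiniteLevel_of_finite N p (finite_setOf_pow_smul_eq_zero N p)

variable {N p}

omit [Fact p.Prime] in
theorem heckeEvalBar_mem_jTor (h : HeckeOperatorsCommuteBar N) (t : HeckeAlg) {k : ℕ}
    {x : JZero N} (hx : x ∈ jTor N p k) : heckeEvalBar h t x ∈ jTor N p k := by
  rw [mem_jTor] at hx ⊢
  rw [← map_nsmul, hx, map_zero]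

theorem heckeEvalBar_mul_X_apply (h : HeckeOperatorsCommuteBar N) (t : HeckeAlg) (ℓ : Nat.Primes)
    (x : JZero N) :
    heckeEvalBar h (t * heckeGen ℓ) x = heckeEvalBar h t (heckeOperatorBar N ℓ x) := by
  have e1 : heckeEvalBar h (t * heckeGen ℓ) = heckeEvalBar h t * heckeOperatorBar N ℓ := by
    rw [map_mul, heckeEvalBar_heckeGen]
  exact LinearMap.congr_fun e1 x

theorem heckeEvalBar_add_apply (h : HeckeOperatorsCommuteBar N) (s t : HeckeAlg) (x : JZero N) :
    heckeEvalBar h (s + t) x = heckeEvalBar h s x + heckeEvalBar h t x := by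
  rw [map_add]
  rfl

theorem heckeEvalBar_C_apply (h : HeckeOperatorsCommuteBar N) (a : ℤ) (x : JZero N) :
    heckeEvalBar h (MvPolynomial.C a) x = a • x := by
  rw [heckeEvalBar_C]
  exact Module.End.intCast_apply _ _

theorem heckeRep_heckeEvalForms_mul_X (t : HeckeAlg) (ℓ : Nat.Primes) [Fact (ℓ : ℕ).Prime] :
    heckeRep N (CuspForm.heckeEvalForms N 2 (t * heckeGen ℓ))
      = heckeRep N (CuspForm.heckeEvalForms N 2 t) * heckeMatZ N ℓ := by
  rw [map_mul, map_mul, CuspForm.heckeEvalForms_heckeGen, heckeRep_heckeFormsGen]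

theorem mulVec_comp_eq {m : ℕ} {R : Type*} [CommRing R] {A B M : Matrix (Fin m) (Fin m) ℤ}
    {a b c : Fin m → R} (ha : a = A.map (Int.castRingHom R) *ᵥ b)
    (hb : b = B.map (Int.castRingHom R) *ᵥ c) (hM : M = A * B) :
    a = M.map (Int.castRingHom R) *ᵥ c := by
  subst ha hb hM
  rw [Matrix.map_mul, Matrix.mulVec_mulVec]

omit [Fact p.Prime] in
/-- The formal Hecke algebra acts on the coordinates through `heckeRep`. -/
theorem TorsionCoords.e_heckeEvalBar (D : TorsionCoords N p) (h : HeckeOperatorsCommuteBar N)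
    (t : HeckeAlg) (k : ℕ) (z : jTor N p k) :
    D.e k ⟨heckeEvalBar h t z, heckeEvalBar_mem_jTor h t z.2⟩
      = (heckeRep N (CuspForm.heckeEvalForms N 2 t)).map (Int.castRingHom (ZMod (p ^ k)))
        *ᵥ D.e k z := by
  induction t using MvPolynomial.induction_on generalizing z with
  | C a =>
    have h1 : (⟨heckeEvalBar h (MvPolynomial.C a) z, heckeEvalBar_mem_jTor h _ z.2⟩ : jTor N p k)
        = a • z := Subtype.ext (by
      exact heckeEvalBar_C_apply h a (z : JZero N))
    rw [h1, map_zsmul, CuspForm.heckeEvalForms_C,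
      show algebraMap ℤ (TFull N) a = (a : TFull N) from eq_intCast _ a, map_intCast,
      show ((a : Matrix (Fin (MF.ParHom.parRank N)) (Fin (MF.ParHom.parRank N)) ℤ)).map
          (Int.castRingHom (ZMod (p ^ k))) = (a : Matrix _ _ (ZMod (p ^ k))) from
        map_intCast ((Int.castRingHom (ZMod (p ^ k))).mapMatrix) a,
      ← zsmul_one, Matrix.smul_mulVec, Matrix.one_mulVec]
  | add s t hs ht =>
    have h1 : (⟨heckeEvalBar h (s + t) z, heckeEvalBar_mem_jTor h _ z.2⟩ : jTor N p k)
        = ⟨heckeEvalBar h s z, heckeEvalBar_mem_jTor h _ z.2⟩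
          + ⟨heckeEvalBar h t z, heckeEvalBar_mem_jTor h _ z.2⟩ := Subtype.ext (by
      exact heckeEvalBar_add_apply h s t (z : JZero N))
    rw [h1, map_add, hs, ht, map_add, map_add, Matrix.map_add _ (map_add _), Matrix.add_mulVec]
  | mul_X t ℓ ih =>
    have : Fact (ℓ : ℕ).Prime := ⟨ℓ.2⟩
    have hw : (⟨heckeEvalBar h (t * MvPolynomial.X ℓ) z, heckeEvalBar_mem_jTor h _ z.2⟩ :
        jTor N p k) = ⟨heckeEvalBar h t (heckeOperatorBar N ℓ (z : JZero N)),
          heckeEvalBar_mem_jTor h t (TorsionCoords.hecke_mem_jTor ℓ z.2)⟩ :=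
      Subtype.ext (heckeEvalBar_mul_X_apply h t ℓ (z : JZero N))
    have hih := ih (⟨heckeOperatorBar N ℓ (z : JZero N), TorsionCoords.hecke_mem_jTor ℓ z.2⟩ :
      jTor N p k)
    have hhe := D.hecke k ℓ z
      (⟨heckeOperatorBar N ℓ (z : JZero N), TorsionCoords.hecke_mem_jTor ℓ z.2⟩ : jTor N p k) rfl
    have hrep : heckeRep N (CuspForm.heckeEvalForms N 2 (t * MvPolynomial.X ℓ))
        = heckeRep N (CuspForm.heckeEvalForms N 2 t) * heckeMatZ N ℓ :=
      heckeRep_heckeEvalForms_mul_X t ℓ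
    exact (congrArg (D.e k) hw).trans (mulVec_comp_eq hih hhe hrep)

variable {S : Finset ℕ}

theorem awayToFull_awayEval (hNS : ∀ q : ℕ, q.Prime → q ∣ N → q ∈ S) (P : TraceFn.AwayHecke S) :
    TraceFn.awayToFull N S (TraceFn.awayEval N S hNS P)
      = CuspForm.heckeEvalForms N 2 (TraceFn.awayIncl S P) := by
  refine RingHom.congr_fun (f := (TraceFn.awayToFull N S).comp (TraceFn.awayEval N S hNS))
    (g := (CuspForm.heckeEvalForms N 2).comp (TraceFn.awayIncl S)) ?_ P
  refine MvPolynomial.ringHom_ext (fun a => ?_) fun i => ?_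
  · simp only [RingHom.comp_apply, TraceFn.awayEval, TraceFn.awayIncl, MvPolynomial.eval₂Hom_C,
      AlgHom.toRingHom_eq_coe, RingHom.coe_coe, MvPolynomial.rename_C, CuspForm.heckeEvalForms_C]
    exact (eq_intCast (algebraMap ℤ (TFull N)) a).symm
  · have hgen : (TraceFn.awayIncl S) (MvPolynomial.X i) = heckeGen i.1 :=
      MvPolynomial.rename_X _ _
    rw [RingHom.comp_apply, RingHom.comp_apply, hgen, TraceFn.awayEval, MvPolynomial.eval₂Hom_X',
      CuspForm.heckeEvalForms_heckeGen,
      CuspForm.heckeFormsGen_of_not_dvd fun h => i.2 (hNS _ i.1.2 h)]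
    rfl

/-- A polynomial killing `J[p^n]` has all matrix entries divisible by `p ^ n`. -/
theorem heckeRep_dvd_of_kills (hNS : ∀ q : ℕ, q.Prime → q ∣ N → q ∈ S) (n : ℕ)
    (P : TraceFn.AwayHecke S)
    (hP : ∀ x : JZero N, (p ^ n) • x = 0 → TraceFn.jHecke N (TraceFn.awayIncl S P) x = 0)
    (i j : Fin (MF.ParHom.parRank N)) :
    (p : ℤ) ^ n ∣ heckeRep N (TraceFn.awayToFull N S (TraceFn.awayEval N S hNS P)) i j := by
  have h := Corr.heckeOperatorsCommuteBar N
  obtain ⟨z, hz⟩ := ((tateCoords N p).e n).surjective (Pi.single j 1)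
  have h0 : (⟨heckeEvalBar h (TraceFn.awayIncl S P) z, heckeEvalBar_mem_jTor h _ z.2⟩ : jTor N p n)
      = 0 := Subtype.ext (by
    show heckeEvalBar h (TraceFn.awayIncl S P) z = 0
    rw [← heckeModuleBar_smul_def h]
    exact hP z z.2)
  have h1 := (tateCoords N p).e_heckeEvalBar h (TraceFn.awayIncl S P) n z
  rw [h0, map_zero, hz, ← awayToFull_awayEval hNS, Matrix.mulVec_single_one] at h1
  have h2 := (congrFun h1 i).symm
  simp only [Matrix.col_apply, Matrix.map_apply, Pi.zero_apply, eq_intCast,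
    ZMod.intCast_zmod_eq_zero_iff_dvd, Nat.cast_pow] at h2
  exact h2

variable (N p)

/-- The Hecke algebra away from `S` acts faithfully on deep torsion levels. -/
theorem jHeckeFaithful (hNS : ∀ q : ℕ, q.Prime → q ∣ N → q ∈ S) :
    TraceFn.JHeckeFaithful hNS p :=
  TraceFn.jHeckeFaithful_of_heckeRep hNS p fun n =>
    ⟨n, fun P hP i j => heckeRep_dvd_of_kills hNS n P hP i j⟩

end Fermat.Agent.HK
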