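import Mathlib.NumberTheory.ModularForms.CongruenceSubgroups
import Mathlib.Analysis.SpecialFunctions.Complex.CircleAddChar
import Mathlib.LinearAlgebra.Matrix.Trace
import Fermat.Prelude.Def_ModularCurve_PeriodHomPair

/-!
# Parabolic-elliptic characters of `Γ₀(N)`

`parEllHoms N A` is the group of homomorphisms `Γ₀(N) → A` killing every element whose trace
`t` satisfies `t² ≤ 4` (the central, parabolic and elliptic elements).
-/

set_option autoImplicit false

open CongruenceSubgroup
open scoped MatrixGroups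

namespace Fermat.Agent.HK

/-- `γ` is central, parabolic or elliptic: `(tr γ)² ≤ 4`. -/
def IsNonHyperbolic (γ : SL(2, ℤ)) : Prop :=
  (γ : Matrix (Fin 2) (Fin 2) ℤ).trace ^ 2 ≤ 4

variable (N : ℕ) (A B : Type*) [AddCommGroup A] [AddCommGroup B]

/-- Homomorphisms `Γ₀(N) → A` trivial on all central, parabolic and elliptic elements. -/
def parEllHoms : AddSubgroup (Additive (Gamma0 N) →+ A) where
  carrier := {φ | ∀ γ : Gamma0 N, IsNonHyperbolic (γ : SL(2, ℤ)) → φ (Additive.ofMul γ) = 0}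
  zero_mem' := fun _ _ => rfl
  add_mem' := by
    intro φ ψ hφ hψ γ hγ
    show φ (Additive.ofMul γ) + ψ (Additive.ofMul γ) = 0
    rw [hφ γ hγ, hψ γ hγ, add_zero]
  neg_mem' := by
    intro φ hφ γ hγ
    show -φ (Additive.ofMul γ) = 0
    rw [hφ γ hγ, neg_zero]

variable {N A B}

theorem mem_parEllHoms {φ : Additive (Gamma0 N) →+ A} :
    φ ∈ parEllHoms N A ↔
      ∀ γ : Gamma0 N, IsNonHyperbolic (γ : SL(2, ℤ)) → φ (Additive.ofMul γ) = 0 :=
  Iff.rfl

theorem isNonHyperbolic_jConjSL {γ : SL(2, ℤ)} :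
    IsNonHyperbolic (ModularCurve.Period.jConjSL γ) ↔ IsNonHyperbolic γ := by
  unfold IsNonHyperbolic
  rw [ModularCurve.Period.jConjSL_coe, ModularCurve.Period.jConjMat_trace]

/-- Functoriality of `parEllHoms` in the coefficient group. -/
def parEllHomsMap (h : A →+ B) : parEllHoms N A →+ parEllHoms N B where
  toFun φ := ⟨h.comp (φ : Additive (Gamma0 N) →+ A), fun γ hγ => by
    show h ((φ : Additive (Gamma0 N) →+ A) (Additive.ofMul γ)) = 0
    rw [φ.2 γ hγ, map_zero]⟩
  map_zero' := Subtype.ext (by ext; simp)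
  map_add' φ ψ := Subtype.ext (by ext; simp)

@[simp]
theorem parEllHomsMap_apply (h : A →+ B) (φ : parEllHoms N A) (γ : Additive (Gamma0 N)) :
    (parEllHomsMap h φ : Additive (Gamma0 N) →+ B) γ
      = h ((φ : Additive (Gamma0 N) →+ A) γ) :=
  rfl

theorem parEllHomsMap_injective {h : A →+ B} (hh : Function.Injective h) :
    Function.Injective (parEllHomsMap (N := N) h) := by
  intro φ ψ e
  refine Subtype.ext (AddMonoidHom.ext fun γ => hh ?_)
  exact congrArg (fun χ : parEllHoms N B => (χ : Additive (Gamma0 N) →+ B) γ) e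

variable (N A) in
/-- The action of `J = diag(-1, 1)`: `φ ↦ φ ∘ (γ ↦ J γ J)`. -/
def parEllHomsJ : parEllHoms N A →+ parEllHoms N A where
  toFun φ := ⟨(φ : Additive (Gamma0 N) →+ A).comp
      (MonoidHom.toAdditive (ModularCurve.Period.jConjGamma0 N)), fun γ hγ => by
    refine φ.2 (ModularCurve.Period.jConjGamma0 N γ) ?_
    rw [ModularCurve.Period.jConjGamma0_coe]
    exact isNonHyperbolic_jConjSL.2 hγ⟩
  map_zero' := Subtype.ext (by ext; simp)
  map_add' φ ψ := Subtype.ext (by ext; simp)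

@[simp]
theorem parEllHomsJ_apply (φ : parEllHoms N A) (γ : Gamma0 N) :
    (parEllHomsJ N A φ : Additive (Gamma0 N) →+ A) (Additive.ofMul γ)
      = (φ : Additive (Gamma0 N) →+ A)
          (Additive.ofMul (ModularCurve.Period.jConjGamma0 N γ)) :=
  rfl

theorem parEllHomsJ_parEllHomsJ (φ : parEllHoms N A) :
    parEllHomsJ N A (parEllHomsJ N A φ) = φ := by
  refine Subtype.ext (AddMonoidHom.ext fun γ => ?_)
  obtain ⟨γ, rfl⟩ := Additive.ofMul.surjective γ
  rw [parEllHomsJ_apply, parEllHomsJ_apply, ModularCurve.Period.jConjGamma0_jConjGamma0]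

variable (N) in
/-- The `μ_n`-valued multiplier attached to `φ : Γ₀(N) → ℤ/n`. -/
noncomputable def charValue {n : ℕ} [NeZero n] (φ : parEllHoms N (ZMod n)) (γ : Gamma0 N) : ℂ :=
  ZMod.stdAddChar ((φ : Additive (Gamma0 N) →+ ZMod n) (Additive.ofMul γ))

end Fermat.Agent.HK
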