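import Fermat.Agent.HK.Root
import Fermat.Agent.HK.Defs
import Fermat.Agent.MF.Defs

/-!
# Roots of modular forms and their multipliers

For modular forms `u, v` of weight `k` on `Γ₀(N)`, a root of the pair is a holomorphic `G` with
`G ^ n = u * v ^ (n - 1)`; the ratio `G / v` is then an `n`-th root of `u / v`, and `G` transforms
in weight `k` by a character `Γ₀(N) → μ_n`.
-/

set_option autoImplicit false

noncomputable section

open UpperHalfPlane CongruenceSubgroup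
open scoped MatrixGroups ModularForm Manifold

namespace Fermat.Agent.HK

open Fermat.Agent.MF (MForm)

variable {n N : ℕ} {k : ℤ}

/-- `G` is an `n`-th root of `u * v ^ (n - 1)`. -/
structure IsRoot (n : ℕ) {N : ℕ} {k : ℤ} (u v : MForm N k) (G : ℍ → ℂ) : Prop where
  mdiff : MDiff G
  pow_eq : ∀ τ, G τ ^ n = u τ * v τ ^ (n - 1)

/-- `G` transforms in weight `k` with multiplier `exp (2πi φ / n)`. -/
def HasMult [NeZero n] (k : ℤ) (G : ℍ → ℂ) (φ : Additive (Gamma0 N) →+ ZMod n) : Prop :=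
  ∀ γ : Gamma0 N, G ∣[k] (γ : SL(2, ℤ)) = ZMod.stdAddChar (φ (Additive.ofMul γ)) • G

theorem mdiff_slash {G : ℍ → ℂ} (hG : MDiff G) (k : ℤ) (γ : SL(2, ℤ)) : MDiff (G ∣[k] γ) :=
  hG.slash k _

theorem exists_apply_ne_zero {G : ℍ → ℂ} (h0 : G ≠ 0) : ∃ τ, G τ ≠ 0 :=
  Function.ne_iff.1 h0

theorem analyticOnNhd_upper {G : ℍ → ℂ} (hG : MDiff G) :
    AnalyticOnNhd ℂ (G ∘ ofComplex) {z : ℂ | 0 < z.im} := fun z hz =>
  MF.analyticAt_ofComplex_comp hG ⟨z, hz⟩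

/-- Two holomorphic functions on `ℍ` with the same `n`-th power differ by a constant. -/
theorem exists_const_of_pow_eq {F G : ℍ → ℂ} (hn : n ≠ 0) (hF : MDiff F) (hG : MDiff G)
    (hG0 : G ≠ 0) (h : ∀ τ, F τ ^ n = G τ ^ n) : ∃ c : ℂ, c ^ n = 1 ∧ F = c • G := by
  obtain ⟨τ₀, hτ₀⟩ := exists_apply_ne_zero hG0
  set c := F τ₀ / G τ₀ with hc
  have hcn : c ^ n = 1 := by rw [hc, div_pow, h τ₀, div_self (pow_ne_zero n hτ₀)]
  have hc0 : c ≠ 0 := fun h0 => by simp [h0, zero_pow hn] at hcn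
  refine ⟨c, hcn, ?_⟩
  have hU : IsPreconnected {z : ℂ | 0 < z.im} := (convex_halfSpace_im_gt 0).isPreconnected
  have key := eqOn_of_pow_eq isOpen_upperHalfPlaneSet hU hn
    (analyticOnNhd_upper hF) (f := F ∘ ofComplex) (g := fun z => c * (G ∘ ofComplex) z)
    (fun z hz => analyticAt_const.mul (analyticOnNhd_upper hG z hz))
    (fun z hz => by
      simp only [Function.comp_apply]
      rw [mul_pow, hcn, one_mul]
      exact h _) (z₀ := τ₀) τ₀.im_pos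
    (by simp [hc, hτ₀]) (by simp [hc0, hτ₀])
  funext τ
  simpa using key τ.im_pos

/-- A ring of holomorphic functions on `ℍ` has no zero divisors. -/
theorem mdiff_mul_ne_zero {F G : ℍ → ℂ} (hF : MDiff F) (hG : MDiff G) (hF0 : F ≠ 0) (hG0 : G ≠ 0) :
    F * G ≠ 0 := fun h =>
  ((UpperHalfPlane.mul_eq_zero_iff hF hG).1 h).elim hF0 hG0

theorem pow_slash (n : ℕ) (k : ℤ) (G : ℍ → ℂ) (γ : SL(2, ℤ)) :
    (fun τ => G τ ^ n) ∣[(n : ℤ) * k] γ = fun τ => (G ∣[k] γ) τ ^ n := by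
  funext τ
  simp only [ModularForm.SL_slash_apply]
  rw [mul_pow, ← zpow_natCast (denom (γ : GL (Fin 2) ℝ) τ ^ (-k)), ← zpow_mul]
  congr 2
  ring

theorem mform_slash {f : MForm N k} {γ : SL(2, ℤ)} (hγ : γ ∈ Gamma0 N) : (⇑f) ∣[k] γ = ⇑f :=
  f.slash_action_eq' _ ⟨γ, hγ, rfl⟩

theorem mform_apply_smul {f : MForm N k} {γ : SL(2, ℤ)} (hγ : γ ∈ Gamma0 N) (τ : ℍ) :
    f (γ • τ) * denom (γ : GL (Fin 2) ℝ) τ ^ (-k) = f τ := by
  rw [← ModularForm.SL_slash_apply, mform_slash hγ]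

/-- The `n`-th power of a root is invariant. -/
theorem IsRoot.slash_pow_eq {u v : MForm N k} {G : ℍ → ℂ} (hG : IsRoot n u v G) (hn : n ≠ 0)
    {γ : SL(2, ℤ)} (hγ : γ ∈ Gamma0 N) (τ : ℍ) : (G ∣[k] γ) τ ^ n = G τ ^ n := by
  obtain ⟨m, rfl⟩ := Nat.exists_eq_succ_of_ne_zero hn
  rw [ModularForm.SL_slash_apply, mul_pow, hG.pow_eq, hG.pow_eq, Nat.succ_sub_one, pow_succ']
  conv_rhs => rw [← mform_apply_smul hγ (f := u) τ, ← mform_apply_smul hγ (f := v) τ]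
  rw [mul_pow]
  ring

theorem IsRoot.ne_zero {u v : MForm N k} {G : ℍ → ℂ} (hG : IsRoot n u v G) (hn : n ≠ 0)
    (hu : u ≠ 0) (hv : v ≠ 0) : G ≠ 0 := by
  obtain ⟨m, rfl⟩ := Nat.exists_eq_succ_of_ne_zero hn
  intro h0
  have hvm : (fun τ => v τ ^ m) ≠ 0 := by
    obtain ⟨τ, hτ⟩ := exists_apply_ne_zero (MF.mform_coe_ne_zero hv)
    exact Function.ne_iff.2 ⟨τ, pow_ne_zero m hτ⟩
  have hmd : MDiff (fun τ => v τ ^ m) := by
    rw [UpperHalfPlane.mdifferentiable_iff]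
    exact (UpperHalfPlane.mdifferentiable_iff.1 (ModularFormClass.holo v)).pow m
  refine mdiff_mul_ne_zero (ModularFormClass.holo u) hmd (MF.mform_coe_ne_zero hu) hvm ?_
  funext τ
  have := hG.pow_eq τ
  rw [h0] at this
  simpa using this.symm

/-- The multiplier of a function whose `n`-th power is invariant. -/
theorem exists_hasMult [NeZero n] {G : ℍ → ℂ} (hG : MDiff G) (hG0 : G ≠ 0)
    (hinv : ∀ γ : Gamma0 N, ∀ τ, (G ∣[k] (γ : SL(2, ℤ))) τ ^ n = G τ ^ n) :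
    ∃ φ : Additive (Gamma0 N) →+ ZMod n, HasMult k G φ := by
  have hn : n ≠ 0 := NeZero.ne n
  have hex : ∀ γ : Gamma0 N, ∃ j : ZMod n, G ∣[k] (γ : SL(2, ℤ)) = ZMod.stdAddChar j • G := by
    intro γ
    obtain ⟨c, hc, he⟩ := exists_const_of_pow_eq hn (mdiff_slash hG k _) hG hG0 (hinv γ)
    obtain ⟨i, -, hi⟩ := (Complex.isPrimitiveRoot_exp n hn).eq_pow_of_pow_eq_one hc
    refine ⟨((i : ℤ) : ZMod n), ?_⟩
    rw [he, ← hi, ZMod.stdAddChar_coe, ← Complex.exp_nat_mul]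
    congr 2
    push_cast
    ring
  choose j hj using hex
  obtain ⟨τ₀, hτ₀⟩ := exists_apply_ne_zero hG0
  have huniq : ∀ a b : ZMod n, ZMod.stdAddChar a • G = ZMod.stdAddChar b • G → a = b := by
    intro a b h
    refine ZMod.injective_stdAddChar (mul_right_cancel₀ hτ₀ ?_)
    simpa using congrFun h τ₀
  refine ⟨AddMonoidHom.mk' (fun γ => j (Additive.toMul γ)) fun γ δ => huniq _ _ ?_, fun γ => hj γ⟩
  rw [← hj, toMul_add, AddChar.map_add_eq_mul, Subgroup.coe_mul, SlashAction.slash_mul, hj,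
    ModularForm.SL_smul_slash, hj, smul_smul]

theorem HasMult.unique [NeZero n] {G : ℍ → ℂ} (hG0 : G ≠ 0)
    {φ ψ : Additive (Gamma0 N) →+ ZMod n} (h : HasMult k G φ) (h' : HasMult k G ψ) : φ = ψ := by
  obtain ⟨τ₀, hτ₀⟩ := exists_apply_ne_zero hG0
  refine AddMonoidHom.ext fun γ => ZMod.injective_stdAddChar (mul_right_cancel₀ hτ₀ ?_)
  simpa using congrFun ((h (Additive.toMul γ)).symm.trans (h' (Additive.toMul γ))) τ₀

theorem HasMult.const_smul [NeZero n] {G : ℍ → ℂ} {φ : Additive (Gamma0 N) →+ ZMod n}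
    (h : HasMult k G φ) (c : ℂ) : HasMult k (c • G) φ := fun γ => by
  rw [ModularForm.SL_smul_slash, h γ, smul_comm]

theorem HasMult.mul [NeZero n] {l : ℤ} {F G : ℍ → ℂ} {φ ψ : Additive (Gamma0 N) →+ ZMod n}
    (hF : HasMult k F φ) (hG : HasMult l G ψ) : HasMult (k + l) (F * G) (φ + ψ) := fun γ => by
  rw [ModularForm.mul_slash_SL2, hF γ, hG γ, AddMonoidHom.add_apply, AddChar.map_add_eq_mul]
  funext τ
  simp only [Pi.mul_apply, Pi.smul_apply, smul_eq_mul]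
  ring

theorem hasMult_mform [NeZero n] (f : MForm N k) :
    HasMult k (⇑f) (0 : Additive (Gamma0 N) →+ ZMod n) := fun γ => by
  rw [mform_slash γ.2, AddMonoidHom.zero_apply, AddChar.map_zero_eq_one, one_smul]

theorem HasMult.slash_eq_self [NeZero n] {G : ℍ → ℂ}
    (h : HasMult k G (0 : Additive (Gamma0 N) →+ ZMod n)) {γ : SL(2, ℤ)} (hγ : γ ∈ Gamma0 N) :
    G ∣[k] γ = G := by
  simpa using h ⟨γ, hγ⟩

/-- Existence of a root, given that the orders of `u * v ^ (n - 1)` are divisible by `n`. -/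
theorem exists_isRoot (hn : n ≠ 0) {u v : MForm N k} (hu : u ≠ 0) (hv : v ≠ 0)
    (hord : ∀ τ : ℍ, (n : ℤ) ∣ MF.ordAtH u τ - MF.ordAtH v τ) : ∃ G, IsRoot n u v G := by
  set h : ℂ → ℂ := fun z => (⇑u ∘ ofComplex) z * (⇑v ∘ ofComplex) z ^ (n - 1) with hdef
  have hu' := analyticOnNhd_upper (ModularFormClass.holo u)
  have hv' := analyticOnNhd_upper (ModularFormClass.holo v)
  have han : AnalyticOnNhd ℂ h {z | 0 < z.im} := fun z hz => (hu' z hz).mul ((hv' z hz).pow _)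
  have hord' : ∀ z : ℂ, 0 < z.im → ∃ m : ℕ, analyticOrderAt h z = ((n * m : ℕ) : ℕ∞) := by
    intro z hz
    have h1 := hord ⟨z, hz⟩
    have hta := MF.analyticOrderAt_ne_top (ModularFormClass.holo u) (MF.mform_coe_ne_zero hu) ⟨z, hz⟩
    have htb := MF.analyticOrderAt_ne_top (ModularFormClass.holo v) (MF.mform_coe_ne_zero hv) ⟨z, hz⟩
    change analyticOrderAt (⇑u ∘ ofComplex) z ≠ ⊤ at hta
    change analyticOrderAt (⇑v ∘ ofComplex) z ≠ ⊤ at htb
    obtain ⟨a, ha⟩ := ENat.ne_top_iff_exists.1 hta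
    obtain ⟨b, hb⟩ := ENat.ne_top_iff_exists.1 htb
    simp only [MF.ordAtH, analyticOrderNatAt, ← ha, ← hb] at h1
    have : analyticOrderAt h z = ((a + (n - 1) * b : ℕ) : ℕ∞) := by
      rw [hdef, show (fun z => (⇑u ∘ ofComplex) z * (⇑v ∘ ofComplex) z ^ (n - 1))
          = (⇑u ∘ ofComplex) * (⇑v ∘ ofComplex) ^ (n - 1) from rfl,
        analyticOrderAt_mul (hu' z hz) ((hv' z hz).pow _), analyticOrderAt_pow (hv' z hz),
        ← ha, ← hb]
      push_cast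
      simp
    obtain ⟨d, hd⟩ : n ∣ a + (n - 1) * b := by
      rw [← Int.natCast_dvd_natCast]
      obtain ⟨c, hc⟩ := h1
      refine ⟨c + b, ?_⟩
      simp at hc
      push_cast [Nat.one_le_iff_ne_zero.2 hn]
      linear_combination hc
    exact ⟨d, by rw [this, hd]⟩
  obtain ⟨G, hGa, hGp⟩ := exists_root_upper hn han hord'
  refine ⟨fun τ => G τ, ?_, fun τ => ?_⟩
  · rw [UpperHalfPlane.mdifferentiable_iff]
    intro z hz
    refine ((hGa z hz).differentiableAt.congr_of_eventuallyEq ?_).differentiableWithinAt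
    filter_upwards [isOpen_upperHalfPlaneSet.mem_nhds hz] with w hw
    simp [ofComplex_apply_of_im_pos hw]
  · rw [hGp τ τ.im_pos, hdef]
    simp

end Fermat.Agent.HK
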