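/-
Elements of `MFField M` as meromorphic functions on the upper half plane, and their translates
by `SL(2, ℤ)`; the embedding of `modularFunctionFieldBar`-type fields into `MFField`.
-/
import Fermat.Agent.HK.RootBasic
import Fermat.Agent.MF.Degeneracy
import Fermat.Agent.MF.JExpansion
import Fermat.Agent.MF.KleinJ
import Mathlib.RingTheory.Localization.FractionRing

set_option autoImplicit false

noncomputable section

open UpperHalfPlane CongruenceSubgroup Function Matrix.SpecialLinearGroup ModularCurve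
open scoped MatrixGroups ModularForm Manifold

namespace Fermat.Agent.HK

open Fermat.Agent.MF (MForm MFField qL scaleH jdC kleinJ)

/-- Holomorphic functions on the upper half plane. -/
def holH : Subalgebra ℂ (ℍ → ℂ) where
  carrier := {f | MDiff f}
  mul_mem' := fun {f g} hf hg => hf.mul hg
  one_mem' := mdifferentiable_const
  add_mem' := fun {f g} hf hg => hf.add hg
  zero_mem' := mdifferentiable_const
  algebraMap_mem' := fun _ => mdifferentiable_const

instance : IsDomain holH := by
  refine (isDomain_iff_noZeroDivisors_and_nontrivial holH).mpr ⟨⟨fun {a b} h => ?_⟩, ⟨⟨1, 0, ?_⟩⟩⟩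
  · by_contra! hab
    exact mdiff_mul_ne_zero a.2 b.2 (fun h0 => hab.1 (Subtype.ext h0))
      (fun h0 => hab.2 (Subtype.ext h0)) (congrArg Subtype.val h)
  · exact fun h => one_ne_zero (congrFun (congrArg Subtype.val h) UpperHalfPlane.I)

/-- Meromorphic functions on the upper half plane. -/
abbrev MeroH : Type := FractionRing holH

/-- The fraction `f / g`. -/
def meroFrac (f g : holH) : MeroH := algebraMap holH MeroH f / algebraMap holH MeroH g

theorem algebraMap_holH_ne_zero {g : holH} (hg : g ≠ 0) : algebraMap holH MeroH g ≠ 0 :=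
  fun h => hg ((map_eq_zero_iff _ (IsFractionRing.injective holH MeroH)).mp h)

theorem meroFrac_eq_iff {f g f' g' : holH} (hg : g ≠ 0) (hg' : g' ≠ 0) :
    meroFrac f g = meroFrac f' g' ↔ f * g' = f' * g := by
  rw [meroFrac, meroFrac, div_eq_div_iff (algebraMap_holH_ne_zero hg) (algebraMap_holH_ne_zero hg'),
    ← map_mul, ← map_mul, (IsFractionRing.injective holH MeroH).eq_iff]

theorem meroFrac_mul (f g f' g' : holH) :
    meroFrac f g * meroFrac f' g' = meroFrac (f * f') (g * g') := by
  simp only [meroFrac, map_mul, div_mul_div_comm]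

theorem meroFrac_add {f g f' g' : holH} (hg : g ≠ 0) (hg' : g' ≠ 0) :
    meroFrac f g + meroFrac f' g' = meroFrac (f * g' + g * f') (g * g') := by
  simp only [meroFrac, map_add, map_mul,
    div_add_div _ _ (algebraMap_holH_ne_zero hg) (algebraMap_holH_ne_zero hg')]

theorem meroFrac_prod {ι : Type*} (s : Finset ι) (f g : ι → holH) :
    ∏ i ∈ s, meroFrac (f i) (g i) = meroFrac (∏ i ∈ s, f i) (∏ i ∈ s, g i) := by
  simp only [meroFrac, map_prod, Finset.prod_div_distrib]

section Translate

variable {M : ℕ} {k l : ℤ}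

/-- `f ∣ γ` as a holomorphic function. -/
def holTranslate (γ : SL(2, ℤ)) (f : MForm M k) : holH :=
  ⟨(f : ℍ → ℂ) ∣[k] γ, mdiff_slash (ModularFormClass.holo f) k γ⟩

@[simp] theorem coe_holTranslate (γ : SL(2, ℤ)) (f : MForm M k) :
    (holTranslate γ f : ℍ → ℂ) = (f : ℍ → ℂ) ∣[k] γ := rfl

theorem holTranslate_ne_zero (γ : SL(2, ℤ)) {f : MForm M k} (hf : f ≠ 0) :
    holTranslate γ f ≠ 0 := by
  intro h
  refine MF.mform_coe_ne_zero hf ?_
  have h2 := congrArg (fun F : ℍ → ℂ => F ∣[k] γ⁻¹) (congrArg Subtype.val h)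
  simpa [← SlashAction.slash_mul] using h2

theorem holTranslate_mul (γ : SL(2, ℤ)) (f : MForm M k) (g : MForm M l) :
    holTranslate γ (f.mul g) = holTranslate γ f * holTranslate γ g := by
  refine Subtype.ext ?_
  show (⇑(f.mul g)) ∣[k + l] γ = ((⇑f) ∣[k] γ) * ((⇑g) ∣[l] γ)
  rw [ModularForm.coe_mul, ModularForm.mul_slash_SL2]

theorem holTranslate_add (γ : SL(2, ℤ)) (f g : MForm M k) :
    holTranslate γ (f + g) = holTranslate γ f + holTranslate γ g := by
  refine Subtype.ext ?_
  show (⇑(f + g)) ∣[k] γ = ((⇑f) ∣[k] γ) + ((⇑g) ∣[k] γ)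
  rw [FunLike.coe_add, SlashAction.add_slash]

theorem holTranslate_cross {f g : MForm M k} {f' g' : MForm M l} (hg : g ≠ 0) (hg' : g' ≠ 0)
    (h : qL f / qL g = qL f' / qL g') (γ : SL(2, ℤ)) :
    holTranslate γ f * holTranslate γ g' = holTranslate γ f' * holTranslate γ g := by
  refine Subtype.ext ?_
  show ((⇑f) ∣[k] γ) * ((⇑g') ∣[l] γ) = ((⇑f') ∣[l] γ) * ((⇑g) ∣[k] γ)
  have e : (⇑f : ℍ → ℂ) * ⇑g' = ⇑f' * ⇑g := funext (MF.ratio_cross_eq hg hg' h)
  rw [← ModularForm.mul_slash_SL2, ← ModularForm.mul_slash_SL2, e, add_comm l k]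

variable (M) in
/-- The translate by `γ` of an element of `MFField M`. -/
def translateFun (γ : SL(2, ℤ)) (x : MFField M) : MeroH :=
  meroFrac (holTranslate γ x.2.choose_spec.choose)
    (holTranslate γ x.2.choose_spec.choose_spec.choose)

theorem translateFun_eq (γ : SL(2, ℤ)) {x : MFField M} {f g : MForm M k} (hg : g ≠ 0)
    (hx : (x : LaurentSeries ℂ) = qL f / qL g) :
    translateFun M γ x = meroFrac (holTranslate γ f) (holTranslate γ g) := by
  rw [translateFun, meroFrac_eq_iff (holTranslate_ne_zero γ x.2.choose_spec.choose_spec.choose_spec.1)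
    (holTranslate_ne_zero γ hg)]
  exact holTranslate_cross x.2.choose_spec.choose_spec.choose_spec.1 hg
    (x.2.choose_spec.choose_spec.choose_spec.2.symm.trans hx) γ

variable (M) in
/-- `x ↦ x ∘ γ`, as a field embedding. -/
def translateHom (γ : SL(2, ℤ)) : MFField M →+* MeroH where
  toFun := translateFun M γ
  map_one' := by
    have h1 : (1 : MForm M 0) ≠ 0 := fun h => by
      simpa [ModularForm.one_coe_eq_one] using
        congrArg (fun f : MForm M 0 => f UpperHalfPlane.I) h
    rw [translateFun_eq γ (f := (1 : MForm M 0)) (g := 1) h1 ?_]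
    · exact div_self (algebraMap_holH_ne_zero (holTranslate_ne_zero γ h1))
    · show (1 : LaurentSeries ℂ) = _
      rw [ModularForm.one_coe_eq_one, MF.qL_one, div_one]
  map_mul' x y := by
    obtain ⟨k, f, g, hg, hx⟩ := x.2
    obtain ⟨l, f', g', hg', hy⟩ := y.2
    rw [translateFun_eq γ hg hx, translateFun_eq γ hg' hy,
      translateFun_eq γ (f := f.mul f') (g := g.mul g') (MF.mform_mul_ne_zero hg hg') ?_,
      meroFrac_mul, holTranslate_mul, holTranslate_mul]
    show (x : LaurentSeries ℂ) * (y : LaurentSeries ℂ) = _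
    rw [hx, hy, MF.qL_mform_mul, MF.qL_mform_mul, div_mul_div_comm]
  map_zero' := by
    have h1 : (1 : MForm M 0) ≠ 0 := fun h => by
      simpa [ModularForm.one_coe_eq_one] using
        congrArg (fun f : MForm M 0 => f UpperHalfPlane.I) h
    rw [translateFun_eq γ (f := (0 : MForm M 0)) (g := 1) h1 ?_]
    · have h0 : holTranslate γ (0 : MForm M 0) = 0 := by
        refine Subtype.ext ?_
        show (⇑(0 : MForm M 0)) ∣[(0 : ℤ)] γ = 0
        rw [FunLike.coe_zero, SlashAction.zero_slash]
      rw [meroFrac, h0, map_zero, zero_div]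
    · show (0 : LaurentSeries ℂ) = _
      rw [FunLike.coe_zero, MF.qL_zero, zero_div]
  map_add' x y := by
    obtain ⟨k, f, g, hg, hx⟩ := x.2
    obtain ⟨l, f', g', hg', hy⟩ := y.2
    rw [translateFun_eq γ hg hx, translateFun_eq γ hg' hy,
      translateFun_eq γ (f := f.mul g' + g.mul f') (g := g.mul g') (MF.mform_mul_ne_zero hg hg') ?_,
      meroFrac_add (holTranslate_ne_zero γ hg) (holTranslate_ne_zero γ hg'), holTranslate_add,
      holTranslate_mul, holTranslate_mul, holTranslate_mul]
    show (x : LaurentSeries ℂ) + (y : LaurentSeries ℂ) = _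
    rw [hx, hy, MF.qL_mform_add, MF.qL_mform_mul, MF.qL_mform_mul, MF.qL_mform_mul,
      div_add_div _ _ (mt (MF.qL_mform_eq_zero_iff g).mp hg) (mt (MF.qL_mform_eq_zero_iff g').mp hg')]

theorem translateHom_apply (γ : SL(2, ℤ)) {x : MFField M} {f g : MForm M k} (hg : g ≠ 0)
    (hx : (x : LaurentSeries ℂ) = qL f / qL g) :
    translateHom M γ x = meroFrac (holTranslate γ f) (holTranslate γ g) :=
  translateFun_eq γ hg hx

theorem translateHom_of_mem {γ : SL(2, ℤ)} (hγ : γ ∈ Gamma0 M) :
    translateHom M γ = translateHom M 1 := by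
  refine RingHom.ext fun x => ?_
  obtain ⟨k, f, g, hg, hx⟩ := x.2
  rw [translateHom_apply γ hg hx, translateHom_apply 1 hg hx]
  congr 1 <;> refine Subtype.ext ?_ <;>
    rw [coe_holTranslate, coe_holTranslate, mform_slash hγ, mform_slash (Gamma0 M).one_mem]

/-- Two representations `qL f / qL g` with the same translate are equal. -/
theorem eq_div_of_translateHom_one {x : MFField M} {f g : MForm M k} (hg : g ≠ 0)
    (h : translateHom M 1 x = meroFrac (holTranslate 1 f) (holTranslate 1 g)) :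
    (x : LaurentSeries ℂ) = qL f / qL g := by
  have e : translateHom M 1 ⟨_, MF.div_mem_MFField f g⟩ = translateHom M 1 x := by
    rw [h, translateHom_apply 1 hg rfl]
  exact (congrArg Subtype.val ((translateHom M 1).injective e)).symm

end Translate

/-! ### `kleinJ (d τ)` has stabiliser `Γ₀(d)` -/

theorem countable_fixed {P Q : Matrix (Fin 2) (Fin 2) ℝ}
    (hne : ¬(P 0 0 * Q 1 0 - Q 0 0 * P 1 0 = 0 ∧
      P 0 0 * Q 1 1 + P 0 1 * Q 1 0 - Q 0 0 * P 1 1 - Q 0 1 * P 1 0 = 0 ∧
      P 0 1 * Q 1 1 - Q 0 1 * P 1 1 = 0)) :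
    {τ : ℍ | ((P 0 0 : ℂ) * τ + P 0 1) * ((Q 1 0 : ℂ) * τ + Q 1 1) =
      ((Q 0 0 : ℂ) * τ + Q 0 1) * ((P 1 0 : ℂ) * τ + P 1 1)}.Countable := by
  set a := P 0 0 * Q 1 0 - Q 0 0 * P 1 0
  set b := P 0 0 * Q 1 1 + P 0 1 * Q 1 0 - Q 0 0 * P 1 1 - Q 0 1 * P 1 0
  set c := P 0 1 * Q 1 1 - Q 0 1 * P 1 1
  let R : Polynomial ℂ :=
    Polynomial.C (a : ℂ) * Polynomial.X ^ 2 + Polynomial.C (b : ℂ) * Polynomial.X + Polynomial.C (c : ℂ)
  have hR : R ≠ 0 := by
    intro h
    refine hne ⟨?_, ?_, ?_⟩
    · simpa [R] using congrArg (fun p => Polynomial.coeff p 2) h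
    · simpa [R] using congrArg (fun p => Polynomial.coeff p 1) h
    · simpa [R] using congrArg (fun p => Polynomial.coeff p 0) h
  refine ((R.roots.toFinset : Finset ℂ).finite_toSet.preimage
    UpperHalfPlane.coe_injective.injOn).countable.mono fun τ hτ => ?_
  simp only [Set.mem_preimage, Finset.mem_coe, Multiset.mem_toFinset, Polynomial.mem_roots hR,
    Polynomial.IsRoot.def, R, Polynomial.eval_add, Polynomial.eval_mul, Polynomial.eval_C,
    Polynomial.eval_pow, Polynomial.eval_X]
  simp only [Set.mem_setOf_eq] at hτ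
  simp only [a, b, c]
  push_cast
  linear_combination hτ

theorem not_countable_upperHalfPlane : ¬ (Set.univ : Set ℍ).Countable := by
  intro h
  let F : ℝ → ℍ := fun x => ⟨(x : ℂ) + Complex.I, by simp⟩
  have hinj : Injective F := fun x y hxy => by
    have := congrArg (fun z : ℍ => ((z : ℂ)).re) hxy
    simpa [F] using this
  exact Cardinal.not_countable_real (by simpa using h.preimage hinj)

/-- If `j(d hτ) = j(dτ)` for all `τ`, then `h ∈ Γ₀(d)`. -/
theorem mem_Gamma0_of_kleinJ_scaleH {d : ℕ} [NeZero d] {h : SL(2, ℤ)}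
    (hj : ∀ τ : ℍ, kleinJ (scaleH d (h • τ)) = kleinJ (scaleH d τ)) : h ∈ Gamma0 d := by
  refine Gamma0_mem.mpr ((ZMod.intCast_zmod_eq_zero_iff_dvd _ _).mpr ?_)
  let P : Matrix (Fin 2) (Fin 2) ℝ :=
    !![(d : ℝ) * h 0 0, (d : ℝ) * h 0 1; (h 1 0 : ℝ), (h 1 1 : ℝ)]
  let Q : SL(2, ℤ) → Matrix (Fin 2) (Fin 2) ℝ := fun A =>
    !![(A 0 0 : ℝ) * d, (A 0 1 : ℝ); (A 1 0 : ℝ) * d, (A 1 1 : ℝ)]
  by_contra hc
  have hcount : ∀ A : SL(2, ℤ), {τ : ℍ | A • scaleH d τ = scaleH d (h • τ)}.Countable := by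
    intro A
    refine (countable_fixed (P := P) (Q := Q A) fun hz => ?_).mono fun τ hτ => ?_
    · obtain ⟨h1, h2, h3⟩ := hz
      simp only [P, Q, Matrix.of_apply, Matrix.cons_val', Matrix.cons_val_zero,
        Matrix.cons_val_one, Matrix.empty_val', Matrix.cons_val_fin_one] at h1 h2 h3
      apply hc
      have e1 : (d : ℤ) * h 0 0 * (A 1 0 * d) - A 0 0 * d * h 1 0 = 0 := by exact_mod_cast h1
      have e2 : (d : ℤ) * h 0 0 * A 1 1 + d * h 0 1 * (A 1 0 * d) - A 0 0 * d * h 1 1 -
          A 0 1 * h 1 0 = 0 := by exact_mod_cast h2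
      have hd : (d : ℤ) ≠ 0 := by exact_mod_cast NeZero.ne d
      have e1' : (d : ℤ) * h 0 0 * A 1 0 = A 0 0 * h 1 0 :=
        mul_left_cancel₀ hd (by linear_combination e1)
      have hA := A.2
      rw [Matrix.det_fin_two] at hA
      refine ⟨A 1 0 * (A 0 0 * h 1 1 - d * A 1 0 * h 0 1), ?_⟩
      linear_combination (-(h 1 0 : ℤ)) * hA - A 1 1 * e1' + A 1 0 * e2
    · simp only [Set.mem_setOf_eq] at hτ ⊢
      have e := congrArg (fun z : ℍ => (z : ℂ)) hτ
      simp only [UpperHalfPlane.coe_specialLinearGroup_apply, MF.coe_scaleH, algebraMap_int_eq,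
        eq_intCast] at e
      have d1 : ((A 1 0 : ℤ) : ℂ) * ((d : ℂ) * τ) + ((A 1 1 : ℤ) : ℂ) ≠ 0 := by
        have := denom_ne_zero (A : GL (Fin 2) ℝ) (scaleH d τ)
        simpa [denom, MF.coe_scaleH] using this
      have d2 : ((h 1 0 : ℤ) : ℂ) * (τ : ℂ) + ((h 1 1 : ℤ) : ℂ) ≠ 0 := by
        have := denom_ne_zero (h : GL (Fin 2) ℝ) τ
        simpa [denom] using this
      push_cast at e
      rw [mul_div_assoc', div_eq_div_iff d1 d2] at e
      simp only [P, Q, Matrix.of_apply, Matrix.cons_val', Matrix.cons_val_zero,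
        Matrix.cons_val_one, Matrix.empty_val', Matrix.cons_val_fin_one]
      push_cast
      linear_combination -e
  have : Countable (Matrix (Fin 2) (Fin 2) ℤ) := inferInstanceAs (Countable (Fin 2 → Fin 2 → ℤ))
  have : Countable SL(2, ℤ) := Subtype.countable
  refine not_countable_upperHalfPlane ((Set.countable_iUnion hcount).mono fun τ _ => ?_)
  exact Set.mem_iUnion.mpr (MF.kleinJ_eq_kleinJ_iff.mp (hj τ).symm)

/-! ### Coefficient fields -/

section Coeff

variable {L : Type*} [Field L] [Algebra ℚ L] (e : L →+* ℂ)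

theorem coeffMap_coeffEmb_complex (x : LaurentSeries ℚ) :
    coeffMap e (coeffEmb L x) = coeffEmb ℂ x := by
  rw [coeffEmb, coeffMap_coeffMap]
  exact coeffMap_congr (Subsingleton.elim _ _) x

theorem E4_cube_coe : (⇑((ModularForm.E₄.mul ModularForm.E₄).mul ModularForm.E₄) :
    ℍ → ℂ) = (⇑ModularForm.E₄) ^ 3 := by
  funext τ
  rw [Pi.pow_apply, pow_three']
  rfl

theorem jdC_mem_MFField {M : ℕ} [NeZero M] (d : ℕ) [NeZero d] (hd : d ∣ M) :
    jdC d ∈ MFField M := by
  rw [MF.jdC_eq_div, ← E4_cube_coe, ← CuspForm.coe_discriminant]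
  exact MF.div_mem_MFField
    (MF.levelOneScaled d hd ((ModularForm.E₄.mul ModularForm.E₄).mul ModularForm.E₄))
    (MF.levelOneScaled d hd (CuspForm.toModularFormₗ CuspForm.discriminant))

theorem coeffMap_mem_MFField {M : ℕ} [NeZero M] {x : LaurentSeries L}
    (hx : x ∈ laurentBaseChange L (modularFunctionFieldFull M)) : coeffMap e x ∈ MFField M := by
  rw [mem_laurentBaseChange_iff] at hx
  induction hx using Subfield.closure_induction with
  | mem y hy =>
    rcases hy with ⟨a, rfl⟩ | ⟨z, hz, rfl⟩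
    · rw [algebraMap_laurentSeries_eq_single, coeffMap_single,
        ← algebraMap_laurentSeries_eq_single]
      exact (MFField M).algebraMap_mem _
    · rw [coeffMap_coeffEmb_complex]
      induction hz using IntermediateField.adjoin_induction with
      | mem z hz =>
        obtain ⟨d, hne, hdM, rfl⟩ := hz
        rw [MF.coeffEmb_qExpand_jq]
        exact jdC_mem_MFField d hdM
      | algebraMap q =>
        rw [algebraMap_apply_eq_single, coeffEmb, coeffMap_single,
          ← algebraMap_laurentSeries_eq_single]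
        exact (MFField M).algebraMap_mem _
      | add z w _ _ hz hw => simpa using add_mem hz hw
      | inv z _ hz => simpa using inv_mem hz
      | mul z w _ _ hz hw => simpa using mul_mem hz hw
  | one => simp
  | add x y _ _ hx hy => simpa using add_mem hx hy
  | neg x _ hx => simpa using neg_mem hx
  | inv x _ hx => simpa using inv_mem hx
  | mul x y _ _ hx hy => simpa using mul_mem hx hy

/-- The map of function fields induced by an embedding `L → ℂ` of coefficients. -/
def toMFField (M : ℕ) [NeZero M] :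
    laurentBaseChange L (modularFunctionFieldFull M) →+* MFField M where
  toFun x := ⟨coeffMap e x, coeffMap_mem_MFField e x.2⟩
  map_one' := Subtype.ext (map_one _)
  map_mul' _ _ := Subtype.ext (map_mul (coeffMap e) _ _)
  map_zero' := Subtype.ext (map_zero _)
  map_add' _ _ := Subtype.ext (map_add (coeffMap e) _ _)

@[simp] theorem coe_toMFField (M : ℕ) [NeZero M]
    (x : laurentBaseChange L (modularFunctionFieldFull M)) :
    (toMFField e M x : LaurentSeries ℂ) = coeffMap e x := rfl

end Coeff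

end Fermat.Agent.HK
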