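/-
The transposed Hecke double-coset operator `Γ diag(ℓ,1) Γ` on characters of `Γ₀(N)`,
realised as a transfer from `Γ₀(N ℓ)`, and the Atkin–Lehner conjugation `W`.

This is the operator which `ModularCurve.heckeOperatorBar` induces on Kummer characters.
-/
import Mathlib.GroupTheory.Transfer
import Mathlib.Algebra.Field.ZMod
import Mathlib.NumberTheory.ModularForms.CongruenceSubgroups
import Fermat.Prelude.Def_ModularCurve_PeriodMap

set_option autoImplicit false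

noncomputable section

open CongruenceSubgroup Matrix Function
open scoped MatrixGroups

namespace Fermat.Agent.HK

/-! ### Transfer in terms of explicit representatives -/

section TransferReps

variable {G : Type*} [Group G] {H : Subgroup G} [H.FiniteIndex] {A : Type*} [CommGroup A]
  (ϕ : H →* A) {ι : Type*} [Fintype ι] (c : ι → G)

/-- The permutation of representatives induced by right multiplication by `g`. -/
def repPerm (hc : Bijective fun i => (((c i)⁻¹ : G) : G ⧸ H)) (g : G) : Equiv.Perm ι :=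
  (Equiv.ofBijective _ hc).trans ((MulAction.toPerm g⁻¹).trans (Equiv.ofBijective _ hc).symm)

omit [H.FiniteIndex] [Fintype ι] in
theorem mul_mul_inv_mem_iff (g : G) (i j : ι) :
    c i * g * (c j)⁻¹ ∈ H ↔ (((c j)⁻¹ : G) : G ⧸ H) = g⁻¹ • (((c i)⁻¹ : G) : G ⧸ H) := by
  rw [MulAction.Quotient.smul_coe, eq_comm, QuotientGroup.eq, smul_eq_mul, _root_.mul_inv_rev,
    inv_inv, inv_inv]

omit [H.FiniteIndex] [Fintype ι] in
theorem repPerm_mem (hc : Bijective fun i => (((c i)⁻¹ : G) : G ⧸ H)) (g : G) (i : ι) :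
    c i * g * (c (repPerm c hc g i))⁻¹ ∈ H := by
  rw [mul_mul_inv_mem_iff]
  exact (Equiv.ofBijective _ hc).apply_symm_apply (g⁻¹ • (((c i)⁻¹ : G) : G ⧸ H))

/-- The transfer computed from any system of representatives of `H \ G`. -/
theorem transfer_eq_prod_reps (hc : Bijective fun i => (((c i)⁻¹ : G) : G ⧸ H)) (g : G) (σ : ι → ι)
    (h : ∀ i, c i * g * (c (σ i))⁻¹ ∈ H) :
    MonoidHom.transfer ϕ g = ∏ i, ϕ ⟨c i * g * (c (σ i))⁻¹, h i⟩ := by
  classical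
  set e := Equiv.ofBijective _ hc with he
  have hrep : ∀ q : G ⧸ H, (((c (e.symm q))⁻¹ : G) : G ⧸ H) = q := fun q => e.apply_symm_apply q
  let T : H.LeftTransversal :=
    ⟨Set.range fun q => (c (e.symm q))⁻¹, Subgroup.isComplement_range_left hrep⟩
  have hT : ∀ q, (T.2.leftQuotientEquiv q : G) = (c (e.symm q))⁻¹ := fun q =>
    Subgroup.IsComplement.leftQuotientEquiv_apply hrep q
  rw [MonoidHom.transfer_def ϕ T g]
  unfold Subgroup.leftTransversals.diff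
  let := H.fintypeQuotientOfFiniteIndex
  symm
  refine Fintype.prod_equiv e _ _ fun i => congrArg ϕ (Subtype.ext ?_)
  have hσ : e (σ i) = g⁻¹ • e i := (mul_mul_inv_mem_iff c g i (σ i)).mp (h i)
  show c i * g * (c (σ i))⁻¹ =
    (T.2.leftQuotientEquiv (e i) : G)⁻¹ * ((g • T).2.leftQuotientEquiv (e i) : G)
  rw [Subgroup.smul_apply_eq_smul_apply_inv_smul, hT, hT, smul_eq_mul, ← hσ, Equiv.symm_apply_apply,
    Equiv.symm_apply_apply, inv_inv, mul_assoc]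

/-- If `F` has multiplier `ϕ` under `H`, then `∏ F (c i • x)` has multiplier `transfer ϕ`. -/
theorem prod_reps_smul {X : Type*} [MulAction G X] {M : Type*} [CommMonoid M] (ι' : A →* M)
    (F : X → M) (hF : ∀ (h : H) (x : X), F ((h : G) • x) = ι' (ϕ h) * F x)
    (hc : Bijective fun i => (((c i)⁻¹ : G) : G ⧸ H)) (g : G) (x : X) :
    ∏ i, F (c i • g • x) = ι' (MonoidHom.transfer ϕ g) * ∏ i, F (c i • x) := by
  classical
  rw [transfer_eq_prod_reps ϕ c hc g (repPerm c hc g) (repPerm_mem c hc g), map_prod,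
    ← Equiv.prod_comp (repPerm c hc g) (fun i => F (c i • x)), ← Finset.prod_mul_distrib]
  refine Finset.prod_congr rfl fun i _ => ?_
  rw [← hF ⟨_, repPerm_mem c hc g i⟩]
  congr 1
  show c i • g • x = (c i * g * (c (repPerm c hc g i))⁻¹) • c (repPerm c hc g i) • x
  simp only [mul_smul, inv_smul_smul]

theorem transfer_map_hom {B : Type*} [CommGroup B] (f : A →* B) (g : G) :
    MonoidHom.transfer (f.comp ϕ) g = f (MonoidHom.transfer ϕ g) := by
  simp only [MonoidHom.transfer, MonoidHom.coe_mk, OneHom.coe_mk, Subgroup.leftTransversals.diff,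
    map_prod, MonoidHom.comp_apply]

theorem transfer_mul_hom (ψ : H →* A) (g : G) :
    MonoidHom.transfer (ϕ * ψ) g = MonoidHom.transfer ϕ g * MonoidHom.transfer ψ g := by
  simp only [MonoidHom.transfer, MonoidHom.coe_mk, OneHom.coe_mk, Subgroup.leftTransversals.diff,
    MonoidHom.mul_apply, Finset.prod_mul_distrib]

end TransferReps

/-! ### The matrices -/

variable (N : ℕ)

theorem dvd_lower_left_of_mem {g : SL(2, ℤ)} (hg : g ∈ Gamma0 N) : (N : ℤ) ∣ g 1 0 :=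
  (ZMod.intCast_zmod_eq_zero_iff_dvd _ _).mp (Gamma0_mem.mp hg)

theorem mem_Gamma0_of_dvd {g : SL(2, ℤ)} (hg : (N : ℤ) ∣ g 1 0) : g ∈ Gamma0 N :=
  Gamma0_mem.mpr ((ZMod.intCast_zmod_eq_zero_iff_dvd _ _).mpr hg)

theorem dvd_gamma0_lower_left (g : Gamma0 N) : (N : ℤ) ∣ (g : SL(2, ℤ)) 1 0 :=
  dvd_lower_left_of_mem N g.2

/-- `Γ₀(N ℓ)` as a subgroup of `Γ₀(N)`. -/
abbrev gamma0Sub (ℓ : ℕ) : Subgroup (Gamma0 N) := (Gamma0 (N * ℓ)).subgroupOf (Gamma0 N)

theorem mem_gamma0Sub_iff (ℓ : ℕ) (g : Gamma0 N) :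
    g ∈ gamma0Sub N ℓ ↔ ((N * ℓ : ℕ) : ℤ) ∣ (g : SL(2, ℤ)) 1 0 :=
  ⟨fun h => dvd_lower_left_of_mem (N * ℓ) h, fun h => mem_Gamma0_of_dvd (N * ℓ) h⟩

/-- `diag(ℓ,1) · g · diag(ℓ,1)⁻¹` for `g` in `Γ₀(N ℓ)`. -/
def scaleMat (ℓ : ℕ) (A : Matrix (Fin 2) (Fin 2) ℤ) : Matrix (Fin 2) (Fin 2) ℤ :=
  !![A 0 0, (ℓ : ℤ) * A 0 1; A 1 0 / (ℓ : ℤ), A 1 1]

theorem det_scaleMat (ℓ : ℕ) (A : Matrix (Fin 2) (Fin 2) ℤ) (h : (ℓ : ℤ) ∣ A 1 0) :
    (scaleMat ℓ A).det = A.det := by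
  obtain ⟨m, hm⟩ := h
  rw [scaleMat, Matrix.det_fin_two_of, Matrix.det_fin_two, hm]
  rcases eq_or_ne (ℓ : ℤ) 0 with h0 | h0
  · simp [h0]
  · rw [Int.mul_ediv_cancel_left _ h0]; ring

theorem scaleMat_mul (ℓ : ℕ) (A B : Matrix (Fin 2) (Fin 2) ℤ) (hA : (ℓ : ℤ) ∣ A 1 0)
    (hB : (ℓ : ℤ) ∣ B 1 0) : scaleMat ℓ (A * B) = scaleMat ℓ A * scaleMat ℓ B := by
  obtain ⟨a, ha⟩ := hA
  obtain ⟨b, hb⟩ := hB
  rcases eq_or_ne (ℓ : ℤ) 0 with h0 | h0
  · ext i j
    fin_cases i <;> fin_cases j <;>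
      simp [scaleMat, Matrix.mul_apply, Fin.sum_univ_two, h0, ha, hb]
  · have e1 : (A * B) 1 0 = (ℓ : ℤ) * (a * B 0 0 + A 1 1 * b) := by
      rw [Matrix.mul_apply, Fin.sum_univ_two, ha, hb]; ring
    ext i j
    fin_cases i <;> fin_cases j
    all_goals
      simp only [scaleMat, Fin.zero_eta, Fin.mk_one, Matrix.of_apply, Matrix.cons_val',
        Matrix.cons_val_zero, Matrix.cons_val_one, Matrix.empty_val', Matrix.cons_val_fin_one]
    all_goals
      simp only [Matrix.mul_apply, Fin.sum_univ_two, Matrix.of_apply, Matrix.cons_val',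
        Matrix.cons_val_zero, Matrix.cons_val_one, Matrix.empty_val', Matrix.cons_val_fin_one,
        e1, ha, hb, Int.mul_ediv_cancel_left _ h0]
    all_goals ring

theorem scaleMat_one (ℓ : ℕ) : scaleMat ℓ 1 = 1 := by
  ext i j
  fin_cases i <;> fin_cases j <;> simp [scaleMat]

theorem dvd_of_mem_gamma0Sub (ℓ : ℕ) (g : gamma0Sub N ℓ) :
    (ℓ : ℤ) ∣ ((g : Gamma0 N) : SL(2, ℤ)) 1 0 :=
  (Dvd.intro_left (N : ℤ) (by push_cast; rfl)).trans ((mem_gamma0Sub_iff N ℓ _).mp g.2)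

theorem dvd_scaleMat_lower_left (ℓ : ℕ) (g : gamma0Sub N ℓ) :
    (N : ℤ) ∣ ((g : Gamma0 N) : SL(2, ℤ)) 1 0 / (ℓ : ℤ) := by
  obtain ⟨m, hm⟩ := (mem_gamma0Sub_iff N ℓ _).mp g.2
  rcases eq_or_ne (ℓ : ℤ) 0 with h0 | h0
  · simp [h0]
  · refine ⟨m, ?_⟩
    rw [hm]
    push_cast
    rw [show (N : ℤ) * ℓ * m = (ℓ : ℤ) * (N * m) by ring, Int.mul_ediv_cancel_left _ h0]

/-- The `β`-degeneracy homomorphism `Γ₀(N ℓ) → Γ₀(N)`, `[[a,b],[c,d]] ↦ [[a,ℓb],[c/ℓ,d]]`. -/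
def scaleHom (ℓ : ℕ) : gamma0Sub N ℓ →* Gamma0 N where
  toFun g := ⟨⟨scaleMat ℓ ((g : Gamma0 N) : SL(2, ℤ)),
      (det_scaleMat ℓ _ (dvd_of_mem_gamma0Sub N ℓ g)).trans ((g : Gamma0 N) : SL(2, ℤ)).2⟩,
    mem_Gamma0_of_dvd N (by simpa [scaleMat] using dvd_scaleMat_lower_left N ℓ g)⟩
  map_one' := Subtype.ext (Subtype.ext (scaleMat_one ℓ))
  map_mul' g h := Subtype.ext (Subtype.ext
    (scaleMat_mul ℓ _ _ (dvd_of_mem_gamma0Sub N ℓ g) (dvd_of_mem_gamma0Sub N ℓ h)))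

theorem coe_scaleHom (ℓ : ℕ) (g : gamma0Sub N ℓ) :
    (((scaleHom N ℓ g : Gamma0 N) : SL(2, ℤ)) : Matrix (Fin 2) (Fin 2) ℤ) =
      scaleMat ℓ ((g : Gamma0 N) : SL(2, ℤ)) := rfl

theorem trace_scaleHom (ℓ : ℕ) (g : gamma0Sub N ℓ) :
    (((scaleHom N ℓ g : Gamma0 N) : SL(2, ℤ)) : Matrix (Fin 2) (Fin 2) ℤ).trace =
      (((g : Gamma0 N) : SL(2, ℤ)) : Matrix (Fin 2) (Fin 2) ℤ).trace := by
  rw [coe_scaleHom, scaleMat, Matrix.trace_fin_two_of, Matrix.trace_fin_two]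

/-! ### The operator -/

section Operator

variable (A : Type*) [AddCommGroup A] [NeZero N]

instance finiteIndex_gamma0Sub (ℓ : ℕ) [NeZero ℓ] : (gamma0Sub N ℓ).FiniteIndex :=
  haveI : NeZero (N * ℓ) := ⟨Nat.mul_ne_zero (NeZero.ne N) (NeZero.ne ℓ)⟩
  inferInstance

/-- `χ ↦ transfer (χ ∘ scaleHom)`: the action of `Γ diag(ℓ,1) Γ` on characters. -/
def heckeStarHom (ℓ : ℕ) [NeZero ℓ] :
    (Additive (Gamma0 N) →+ A) →ₗ[ℤ] (Additive (Gamma0 N) →+ A) :=
  AddMonoidHom.toIntLinearMap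
    (AddMonoidHom.mk'
      (fun χ => MonoidHom.toAdditiveLeft
        (MonoidHom.transfer ((AddMonoidHom.toMultiplicativeRight χ).comp (scaleHom N ℓ))))
      (fun χ ψ => AddMonoidHom.ext fun g =>
        congrArg Multiplicative.toAdd
          (transfer_mul_hom ((AddMonoidHom.toMultiplicativeRight χ).comp (scaleHom N ℓ))
            ((AddMonoidHom.toMultiplicativeRight ψ).comp (scaleHom N ℓ)) (Additive.toMul g))))

theorem ofAdd_heckeStarHom (ℓ : ℕ) [NeZero ℓ] (χ : Additive (Gamma0 N) →+ A) (g : Gamma0 N) :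
    Multiplicative.ofAdd (heckeStarHom N A ℓ χ (Additive.ofMul g)) =
      MonoidHom.transfer ((AddMonoidHom.toMultiplicativeRight χ).comp (scaleHom N ℓ)) g := rfl

/-- `heckeStarHom` from any representatives of `Γ₀(Nℓ) \ Γ₀(N)` and any permutation data. -/
theorem heckeStarHom_apply (ℓ : ℕ) [NeZero ℓ] {ι : Type*} [Fintype ι] (c : ι → Gamma0 N)
    (hc : Bijective fun i => (((c i)⁻¹ : Gamma0 N) : Gamma0 N ⧸ gamma0Sub N ℓ))
    (χ : Additive (Gamma0 N) →+ A) (g : Gamma0 N) (σ : ι → ι)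
    (h : ∀ i, c i * g * (c (σ i))⁻¹ ∈ gamma0Sub N ℓ) :
    heckeStarHom N A ℓ χ (Additive.ofMul g) =
      ∑ i, χ (Additive.ofMul (scaleHom N ℓ ⟨c i * g * (c (σ i))⁻¹, h i⟩)) := by
  apply Multiplicative.ofAdd.injective
  rw [ofAdd_heckeStarHom, ofAdd_sum, transfer_eq_prod_reps _ c hc g σ h]
  rfl

/-- Additive multiplier: the sum over representatives of a `χ ∘ scaleHom`-equivariant function. -/
theorem sum_reps_smul (ℓ : ℕ) [NeZero ℓ] {ι : Type*} [Fintype ι] (c : ι → Gamma0 N)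
    (hc : Bijective fun i => (((c i)⁻¹ : Gamma0 N) : Gamma0 N ⧸ gamma0Sub N ℓ))
    {X : Type*} [MulAction (Gamma0 N) X] (χ : Additive (Gamma0 N) →+ A) (F : X → A)
    (hF : ∀ (h : gamma0Sub N ℓ) (x : X),
      F ((h : Gamma0 N) • x) = χ (Additive.ofMul (scaleHom N ℓ h)) + F x)
    (g : Gamma0 N) (x : X) :
    ∑ i, F (c i • g • x) = heckeStarHom N A ℓ χ (Additive.ofMul g) + ∑ i, F (c i • x) := by
  apply Multiplicative.ofAdd.injective
  rw [ofAdd_add, ofAdd_sum, ofAdd_sum, ofAdd_heckeStarHom]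
  exact prod_reps_smul ((AddMonoidHom.toMultiplicativeRight χ).comp (scaleHom N ℓ)) c
    (MonoidHom.id _) (fun y => Multiplicative.ofAdd (F y))
    (fun h y => congrArg Multiplicative.ofAdd (hF h y)) hc g x

variable {A}

theorem heckeStarHom_natural (ℓ : ℕ) [NeZero ℓ] {B : Type*} [AddCommGroup B] (f : A →+ B)
    (χ : Additive (Gamma0 N) →+ A) :
    heckeStarHom N B ℓ (f.comp χ) = f.comp (heckeStarHom N A ℓ χ) :=
  AddMonoidHom.ext fun g => congrArg Multiplicative.toAdd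
    (transfer_map_hom ((AddMonoidHom.toMultiplicativeRight χ).comp (scaleHom N ℓ))
      (AddMonoidHom.toMultiplicative f) (Additive.toMul g))

theorem heckeStarHom_smul {R : Type*} [Semiring R] [Module R A] (ℓ : ℕ) [NeZero ℓ] (r : R)
    (χ : Additive (Gamma0 N) →+ A) :
    heckeStarHom N A ℓ (r • χ) = r • heckeStarHom N A ℓ χ :=
  heckeStarHom_natural N ℓ (DistribSMul.toAddMonoidHom A r) χ

theorem mul_self_of_det_one (M : Matrix (Fin 2) (Fin 2) ℤ) (h : M.det = 1) :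
    M * M = M.trace • M - 1 := by
  rw [Matrix.det_fin_two] at h
  ext i j
  fin_cases i <;> fin_cases j
  all_goals
    simp only [Matrix.mul_apply, Fin.sum_univ_two, Matrix.trace_fin_two, Matrix.sub_apply,
      Matrix.smul_apply, smul_eq_mul, Fin.zero_eta, Fin.mk_one, Matrix.one_apply_eq, Matrix.one_apply_ne, ne_eq, zero_ne_one, one_ne_zero, not_false_eq_true]
  · linear_combination (-h)
  · ring
  · ring
  · linear_combination (-h)

theorem sq_trace_pow_eq_four (g : SL(2, ℤ))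
    (hg : (g : Matrix (Fin 2) (Fin 2) ℤ).trace ^ 2 = 4) (n : ℕ) :
    ((g ^ n : SL(2, ℤ)) : Matrix (Fin 2) (Fin 2) ℤ).trace ^ 2 = 4 := by
  set t := (g : Matrix (Fin 2) (Fin 2) ℤ).trace with ht
  obtain ⟨ε, hε, hε1⟩ : ∃ ε : ℤ, t = 2 * ε ∧ ε ^ 2 = 1 := by
    rcases eq_or_ne t 2 with h | h
    · exact ⟨1, by omega, by norm_num⟩
    · refine ⟨-1, ?_, by norm_num⟩
      have h2 : (t - 2) * (t + 2) = 0 := by linear_combination hg
      rcases mul_eq_zero.mp h2 with h' | h' <;> omega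
  have e : (g : Matrix (Fin 2) (Fin 2) ℤ) * g = t • (g : Matrix (Fin 2) (Fin 2) ℤ) - 1 :=
    mul_self_of_det_one _ g.2
  have key : ∀ m : ℕ, ((g ^ m : SL(2, ℤ)) : Matrix (Fin 2) (Fin 2) ℤ).trace = 2 * ε ^ m ∧
      ((g ^ (m + 1) : SL(2, ℤ)) : Matrix (Fin 2) (Fin 2) ℤ).trace = 2 * ε ^ (m + 1) := by
    intro m
    induction m with
    | zero => exact ⟨by simp, by simp [← ht, hε]⟩
    | succ m ih =>
      refine ⟨ih.2, ?_⟩
      have e2 : ((g ^ (m + 1 + 1) : SL(2, ℤ)) : Matrix (Fin 2) (Fin 2) ℤ) =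
          t • ((g ^ (m + 1) : SL(2, ℤ)) : Matrix (Fin 2) (Fin 2) ℤ) -
            ((g ^ m : SL(2, ℤ)) : Matrix (Fin 2) (Fin 2) ℤ) := by
        rw [pow_succ, pow_succ, Matrix.SpecialLinearGroup.coe_mul,
          Matrix.SpecialLinearGroup.coe_mul, mul_assoc, e, mul_sub, mul_one, Matrix.mul_smul]
      rw [e2, Matrix.trace_sub, Matrix.trace_smul, ih.1, ih.2, smul_eq_mul, hε]
      linear_combination (2 * ε ^ m) * hε1
  rw [(key n).1, mul_pow, ← pow_mul, mul_comm n 2, pow_mul, hε1]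
  norm_num

theorem heckeStarHom_isParabolicHom (ℓ : ℕ) [NeZero ℓ] {χ : Additive (Gamma0 N) →+ A}
    (hχ : ModularCurve.Period.IsParabolicHom (Gamma0 N) χ) :
    ModularCurve.Period.IsParabolicHom (Gamma0 N) (heckeStarHom N A ℓ χ) := by
  classical
  intro g hg
  apply Multiplicative.ofAdd.injective
  let := (gamma0Sub N ℓ).fintypeQuotientOfFiniteIndex
  rw [ofAdd_heckeStarHom, MonoidHom.transfer_eq_prod_quotient_orbitRel_zpowers_quot, ofAdd_zero]
  refine Finset.prod_eq_one fun q _ => ?_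
  refine congrArg Multiplicative.ofAdd (hχ _ ?_)
  rw [trace_scaleHom]
  set m := Function.minimalPeriod (g • ·) q.out
  have h1 := sq_trace_pow_eq_four (g : SL(2, ℤ)) hg m
  show (((((q.out.out : Gamma0 N)⁻¹ * g ^ m * q.out.out : Gamma0 N)) : SL(2, ℤ)) :
    Matrix (Fin 2) (Fin 2) ℤ).trace ^ 2 = 4
  simp only [Subgroup.coe_mul, Subgroup.coe_inv, SubgroupClass.coe_pow,
    Matrix.SpecialLinearGroup.coe_mul]
  rw [Matrix.trace_mul_cycle, ← Matrix.SpecialLinearGroup.coe_mul, mul_inv_cancel,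
    Matrix.SpecialLinearGroup.coe_one, Matrix.one_mul]
  simpa using h1

end Operator

/-! ### Atkin–Lehner conjugation -/

section Atkin

variable [NeZero N]

/-- `[[a,b],[c,d]] ↦ [[d,-c/N],[-N b,a]]`, conjugation by `[[0,-1],[N,0]]`. -/
def atkinMat (A : Matrix (Fin 2) (Fin 2) ℤ) : Matrix (Fin 2) (Fin 2) ℤ :=
  !![A 1 1, -(A 1 0 / (N : ℤ)); -((N : ℤ) * A 0 1), A 0 0]

theorem det_atkinMat (A : Matrix (Fin 2) (Fin 2) ℤ) (h : (N : ℤ) ∣ A 1 0) :
    (atkinMat N A).det = A.det := by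
  obtain ⟨m, hm⟩ := h
  rw [atkinMat, Matrix.det_fin_two_of, Matrix.det_fin_two, hm,
    Int.mul_ediv_cancel_left _ (by exact_mod_cast NeZero.ne N)]
  ring

theorem atkinMat_mul (A B : Matrix (Fin 2) (Fin 2) ℤ) (hA : (N : ℤ) ∣ A 1 0)
    (hB : (N : ℤ) ∣ B 1 0) : atkinMat N (A * B) = atkinMat N A * atkinMat N B := by
  obtain ⟨a, ha⟩ := hA
  obtain ⟨b, hb⟩ := hB
  have h0 : (N : ℤ) ≠ 0 := by exact_mod_cast NeZero.ne N
  have e1 : (A * B) 1 0 = (N : ℤ) * (a * B 0 0 + A 1 1 * b) := by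
    rw [Matrix.mul_apply, Fin.sum_univ_two, ha, hb]; ring
  ext i j
  fin_cases i <;> fin_cases j
  all_goals
    simp only [atkinMat, Fin.zero_eta, Fin.mk_one, Matrix.of_apply, Matrix.cons_val',
      Matrix.cons_val_zero, Matrix.cons_val_one, Matrix.empty_val', Matrix.cons_val_fin_one]
  all_goals
    simp only [Matrix.mul_apply, Fin.sum_univ_two, Matrix.of_apply, Matrix.cons_val',
      Matrix.cons_val_zero, Matrix.cons_val_one, Matrix.empty_val', Matrix.cons_val_fin_one,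
      e1, ha, hb, Int.mul_ediv_cancel_left _ h0]
  all_goals ring

theorem atkinMat_atkinMat (A : Matrix (Fin 2) (Fin 2) ℤ) (h : (N : ℤ) ∣ A 1 0) :
    atkinMat N (atkinMat N A) = A := by
  obtain ⟨m, hm⟩ := h
  have h0 : (N : ℤ) ≠ 0 := by exact_mod_cast NeZero.ne N
  have e : -((N : ℤ) * A 0 1) / (N : ℤ) = - A 0 1 := by
    rw [← mul_neg, Int.mul_ediv_cancel_left _ h0]
  ext i j
  fin_cases i <;> fin_cases j <;> simp [atkinMat, hm, e, Int.mul_ediv_cancel_left _ h0]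

/-- Conjugation by the Fricke matrix, as an involutive automorphism of `Γ₀(N)`. -/
def atkinGamma0 : Gamma0 N ≃* Gamma0 N :=
  let f : Gamma0 N → Gamma0 N := fun g =>
    ⟨⟨atkinMat N (g : SL(2, ℤ)), (det_atkinMat N _ (dvd_gamma0_lower_left N g)).trans g.1.2⟩,
      mem_Gamma0_of_dvd N ((Dvd.intro _ rfl).neg_right)⟩
  { toFun := f
    invFun := f
    left_inv := fun g => Subtype.ext (Subtype.ext
      (atkinMat_atkinMat N _ (dvd_gamma0_lower_left N g)))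
    right_inv := fun g => Subtype.ext (Subtype.ext
      (atkinMat_atkinMat N _ (dvd_gamma0_lower_left N g)))
    map_mul' := fun g h => Subtype.ext (Subtype.ext
      (atkinMat_mul N _ _ (dvd_gamma0_lower_left N g) (dvd_gamma0_lower_left N h))) }

theorem coe_atkinGamma0 (g : Gamma0 N) :
    (((atkinGamma0 N g : Gamma0 N) : SL(2, ℤ)) : Matrix (Fin 2) (Fin 2) ℤ) =
      atkinMat N (g : SL(2, ℤ)) := rfl

theorem atkinGamma0_atkinGamma0 (g : Gamma0 N) : atkinGamma0 N (atkinGamma0 N g) = g :=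
  (atkinGamma0 N).left_inv g

theorem trace_atkinGamma0 (g : Gamma0 N) :
    (((atkinGamma0 N g : Gamma0 N) : SL(2, ℤ)) : Matrix (Fin 2) (Fin 2) ℤ).trace =
      ((g : SL(2, ℤ)) : Matrix (Fin 2) (Fin 2) ℤ).trace := by
  rw [coe_atkinGamma0, atkinMat, Matrix.trace_fin_two_of, Matrix.trace_fin_two, add_comm]

variable (A : Type*) [AddCommGroup A]

/-- `χ ↦ χ ∘ W`. -/
def atkinChar : (Additive (Gamma0 N) →+ A) ≃ₗ[ℤ] (Additive (Gamma0 N) →+ A) where
  toFun χ := χ.comp (MonoidHom.toAdditive (atkinGamma0 N).toMonoidHom)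
  map_add' _ _ := rfl
  map_smul' _ _ := rfl
  invFun χ := χ.comp (MonoidHom.toAdditive (atkinGamma0 N).toMonoidHom)
  left_inv χ := AddMonoidHom.ext fun g =>
    congrArg χ (congrArg Additive.ofMul (atkinGamma0_atkinGamma0 N (Additive.toMul g)))
  right_inv χ := AddMonoidHom.ext fun g =>
    congrArg χ (congrArg Additive.ofMul (atkinGamma0_atkinGamma0 N (Additive.toMul g)))

theorem atkinChar_apply (χ : Additive (Gamma0 N) →+ A) (g : Gamma0 N) :
    atkinChar N A χ (Additive.ofMul g) = χ (Additive.ofMul (atkinGamma0 N g)) := rfl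

theorem atkinChar_atkinChar (χ : Additive (Gamma0 N) →+ A) :
    atkinChar N A (atkinChar N A χ) = χ :=
  (atkinChar N A).left_inv χ

variable {A}

theorem atkinChar_isParabolicHom {χ : Additive (Gamma0 N) →+ A}
    (hχ : ModularCurve.Period.IsParabolicHom (Gamma0 N) χ) :
    ModularCurve.Period.IsParabolicHom (Gamma0 N) (atkinChar N A χ) := fun g hg =>
  hχ (atkinGamma0 N g) (by rwa [trace_atkinGamma0])

end Atkin

/-! ### Representatives of `Γ₀(N p) \ Γ₀(N)` -/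

section Reps

variable {p : ℕ}

/-- `[[1,0],[-N j,1]]`. -/
def starRep (j : ℤ) : Gamma0 N :=
  ⟨⟨!![1, 0; -((N : ℤ) * j), 1], by simp [Matrix.det_fin_two_of]⟩,
    mem_Gamma0_of_dvd N ((Dvd.intro j rfl).neg_right)⟩

theorem exists_starRepInf (hp : p.Prime) (hpN : ¬ p ∣ N) :
    ∃ x y : ℤ, x * (p : ℤ) - y * (N : ℤ) = 1 := by
  obtain ⟨x, y, h⟩ := Int.isCoprime_iff_gcd_eq_one.mpr
    (by simpa using hp.coprime_iff_not_dvd.mpr hpN : Int.gcd (p : ℤ) (N : ℤ) = 1)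
  exact ⟨x, -y, by linear_combination h⟩

/-- `[[x,y],[N,p]]` with `x p - y N = 1`. -/
def starRepInf (hp : p.Prime) (hpN : ¬ p ∣ N) : Gamma0 N :=
  ⟨⟨!![(exists_starRepInf N hp hpN).choose, (exists_starRepInf N hp hpN).choose_spec.choose;
      (N : ℤ), (p : ℤ)], by
      simpa [Matrix.det_fin_two_of] using (exists_starRepInf N hp hpN).choose_spec.choose_spec⟩,
    mem_Gamma0_of_dvd N dvd_rfl⟩

theorem mk_inv_eq_mk_inv_iff (g h : Gamma0 N) :
    (((g⁻¹ : Gamma0 N)) : Gamma0 N ⧸ gamma0Sub N p) = ((h⁻¹ : Gamma0 N)) ↔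
      ((N * p : ℕ) : ℤ) ∣ (g : SL(2, ℤ)) 1 0 * (h : SL(2, ℤ)) 1 1 -
        (g : SL(2, ℤ)) 1 1 * (h : SL(2, ℤ)) 1 0 := by
  rw [QuotientGroup.eq, inv_inv, mem_gamma0Sub_iff, Subgroup.coe_mul, Subgroup.coe_inv,
    Matrix.SpecialLinearGroup.coe_mul, Matrix.SpecialLinearGroup.coe_inv, Matrix.adjugate_fin_two]
  simp [Matrix.mul_apply, Fin.sum_univ_two, sub_eq_add_neg]

theorem starRep_lower_left (j : ℤ) : (starRep N j : SL(2, ℤ)) 1 0 = -((N : ℤ) * j) := rfl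

theorem starRep_lower_right (j : ℤ) : (starRep N j : SL(2, ℤ)) 1 1 = 1 := rfl

theorem starRepInf_lower_left (hp : p.Prime) (hpN : ¬ p ∣ N) :
    (starRepInf N hp hpN : SL(2, ℤ)) 1 0 = (N : ℤ) := rfl

theorem starRepInf_lower_right (hp : p.Prime) (hpN : ¬ p ∣ N) :
    (starRepInf N hp hpN : SL(2, ℤ)) 1 1 = (p : ℤ) := rfl

theorem starRep_inj [NeZero N] {i j : Fin p}
    (h : (((starRep N (i : ℤ))⁻¹ : Gamma0 N) : Gamma0 N ⧸ gamma0Sub N p) =
      ((starRep N (j : ℤ))⁻¹ : Gamma0 N)) : i = j := by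
  rw [mk_inv_eq_mk_inv_iff, starRep_lower_left, starRep_lower_left, starRep_lower_right,
    starRep_lower_right] at h
  push_cast at h
  rw [show -((N : ℤ) * i) * 1 - 1 * -((N : ℤ) * j) = (N : ℤ) * ((j : ℤ) - i) by ring,
    mul_dvd_mul_iff_left (by exact_mod_cast NeZero.ne N)] at h
  have h1 : (j : ℤ) - i = 0 := Int.eq_zero_of_dvd_of_natAbs_lt_natAbs h (by
    have := i.isLt; have := j.isLt; omega)
  exact Fin.ext (by omega)

theorem exists_starRep_eq (hp : p.Prime) (g : Gamma0 N)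
    (hd : ¬ (p : ℤ) ∣ (g : SL(2, ℤ)) 1 1) :
    ∃ j : Fin p, (((starRep N (j : ℤ))⁻¹ : Gamma0 N) : Gamma0 N ⧸ gamma0Sub N p) = g⁻¹ := by
  have : Fact p.Prime := ⟨hp⟩
  obtain ⟨c, hc⟩ := dvd_gamma0_lower_left N g
  set d := (g : SL(2, ℤ)) 1 1
  have hd' : (d : ZMod p) ≠ 0 := fun h => hd ((ZMod.intCast_zmod_eq_zero_iff_dvd _ _).mp h)
  set u : ZMod p := -((c : ZMod p) * (d : ZMod p)⁻¹) with hu
  refine ⟨⟨u.val, u.val_lt⟩, ?_⟩
  rw [mk_inv_eq_mk_inv_iff, starRep_lower_left, starRep_lower_right, hc]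
  push_cast
  rw [show -((N : ℤ) * (u.val : ℤ)) * d - 1 * ((N : ℤ) * c) = (N : ℤ) * (-((u.val : ℤ) * d) - c)
    by ring]
  refine mul_dvd_mul_left _ ?_
  rw [← ZMod.intCast_zmod_eq_zero_iff_dvd]
  push_cast
  rw [ZMod.natCast_zmod_val, hu]
  linear_combination (c : ZMod p) * (inv_mul_cancel₀ (a := (d : ZMod p)) hd')

/-- Representatives at a prime dividing the level. -/
theorem starRep_bijective [NeZero N] (hp : p.Prime) (hpN : p ∣ N) :
    Bijective fun j : Fin p =>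
      (((starRep N (j : ℤ))⁻¹ : Gamma0 N) : Gamma0 N ⧸ gamma0Sub N p) := by
  refine ⟨fun i j h => starRep_inj N h, fun q => ?_⟩
  obtain ⟨g, rfl⟩ := QuotientGroup.mk_surjective q
  have hd : ¬ (p : ℤ) ∣ (g⁻¹ : Gamma0 N).1 1 1 := by
    intro hd
    have h := (g⁻¹ : Gamma0 N).1.2
    rw [Matrix.det_fin_two] at h
    have h2 : (p : ℤ) ∣ 1 := h ▸ dvd_sub (hd.mul_left _)
      (((Int.natCast_dvd_natCast.mpr hpN).trans (dvd_gamma0_lower_left N g⁻¹)).mul_left _)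
    exact hp.not_dvd_one (by exact_mod_cast h2)
  obtain ⟨j, hj⟩ := exists_starRep_eq N hp g⁻¹ hd
  exact ⟨j, hj.trans (congrArg _ (inv_inv g))⟩

/-- The full family of representatives at a prime not dividing the level. -/
def starRepFull (hp : p.Prime) (hpN : ¬ p ∣ N) : Option (Fin p) → Gamma0 N
  | none => starRepInf N hp hpN
  | some j => starRep N (j : ℤ)

theorem starRepFull_bijective [NeZero N] (hp : p.Prime) (hpN : ¬ p ∣ N) :
    Bijective fun i => (((starRepFull N hp hpN i)⁻¹ : Gamma0 N) : Gamma0 N ⧸ gamma0Sub N p) := by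
  have hN : (N : ℤ) ≠ 0 := by exact_mod_cast NeZero.ne N
  have key : ∀ j : Fin p,
      (((starRepInf N hp hpN)⁻¹ : Gamma0 N) : Gamma0 N ⧸ gamma0Sub N p) ≠
        ((starRep N (j : ℤ))⁻¹ : Gamma0 N) := by
    intro j h
    rw [mk_inv_eq_mk_inv_iff, starRepInf_lower_left, starRepInf_lower_right, starRep_lower_left,
      starRep_lower_right] at h
    push_cast at h
    rw [show (N : ℤ) * 1 - (p : ℤ) * -((N : ℤ) * j) = (N : ℤ) * (1 + (p : ℤ) * j) by ring,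
      mul_dvd_mul_iff_left hN, dvd_add_left (dvd_mul_right _ _)] at h
    exact hp.not_dvd_one (by exact_mod_cast h)
  refine ⟨?_, fun q => ?_⟩
  · rintro (_ | i) (_ | j) h
    · rfl
    · exact absurd h (key j)
    · exact absurd h.symm (key i)
    · exact congrArg some (starRep_inj N h)
  obtain ⟨g, rfl⟩ := QuotientGroup.mk_surjective q
  by_cases hd : (p : ℤ) ∣ (g⁻¹ : Gamma0 N).1 1 1
  · refine ⟨none, ?_⟩
    show (((starRepInf N hp hpN)⁻¹ : Gamma0 N) : Gamma0 N ⧸ gamma0Sub N p) = g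
    rw [← inv_inv g, mk_inv_eq_mk_inv_iff, starRepInf_lower_left, starRepInf_lower_right]
    obtain ⟨m, hm⟩ := hd
    obtain ⟨c, hc⟩ := dvd_gamma0_lower_left N g⁻¹
    refine ⟨m - c, ?_⟩
    rw [hm, hc]
    push_cast
    ring
  · obtain ⟨j, hj⟩ := exists_starRep_eq N hp g⁻¹ hd
    exact ⟨some j, hj.trans (congrArg _ (inv_inv g))⟩

end Reps

end Fermat.Agent.HK
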