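/-
The product `∏ (G(p τ) ∣ c)` over `c ∈ Γ₀(N p) \ Γ₀(N)`: on forms it realises the norm of
`f(q^p)`, on roots it realises the transferred multiplier `heckeStarHom`.
-/
import Fermat.Agent.HK.HeckeStar
import Fermat.Agent.HK.RootBasic
import Fermat.Agent.MF.Degeneracy

set_option autoImplicit false

noncomputable section

open UpperHalfPlane CongruenceSubgroup Function Matrix.SpecialLinearGroup
open scoped MatrixGroups ModularForm Manifold

namespace Fermat.Agent.HK

open Fermat.Agent.MF (MForm scaleH)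

variable {N p : ℕ} [NeZero N] [NeZero p] {k l : ℤ} {ι : Type*} [Fintype ι]

omit [Fintype ι] in
/-- `diag(p,1) h = scaleHom(h) diag(p,1)`. -/
theorem heckeDiag_mul_gamma0Sub (h : gamma0Sub N p) :
    ModularForm.heckeDiagMatrix p * mapGL ℝ ((h : Gamma0 N) : SL(2, ℤ)) =
      mapGL ℝ ((scaleHom N p h : Gamma0 N) : SL(2, ℤ)) * ModularForm.heckeDiagMatrix p := by
  obtain ⟨m, hm⟩ := dvd_of_mem_gamma0Sub N p h
  have hp : (p : ℤ) ≠ 0 := by exact_mod_cast NeZero.ne p
  apply Units.ext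
  rw [Units.val_mul, Units.val_mul, ModularForm.val_heckeDiagMatrix (NeZero.ne p)]
  show _ * (((h : Gamma0 N) : SL(2, ℤ)) : Matrix (Fin 2) (Fin 2) ℤ).map (Int.castRingHom ℝ) =
    (((scaleHom N p h : Gamma0 N) : SL(2, ℤ)) : Matrix (Fin 2) (Fin 2) ℤ).map (Int.castRingHom ℝ) * _
  rw [coe_scaleHom]
  ext i j
  fin_cases i <;> fin_cases j <;>
    simp [scaleMat, Matrix.mul_apply, Fin.sum_univ_two, hm, Int.mul_ediv_cancel_left _ hp] <;> ring

omit [NeZero N] [NeZero p] [Fintype ι] in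
/-- `(G(p τ)) ∣ c`. -/
def starTerm (p : ℕ) (k : ℤ) (c : Gamma0 N) (G : ℍ → ℂ) : ℍ → ℂ :=
  (G ∘ scaleH p) ∣[k] (c : SL(2, ℤ))

omit [Fintype ι] in
/-- `G(p τ) ∣ h = (G ∣ scaleHom h)(p τ)` for `h` in `Γ₀(Np)`. -/
theorem scale_slash_gamma0Sub (k : ℤ) (G : ℍ → ℂ) (h : gamma0Sub N p) :
    (G ∘ scaleH p) ∣[k] ((h : Gamma0 N) : SL(2, ℤ)) =
      (G ∣[k] ((scaleHom N p h : Gamma0 N) : SL(2, ℤ))) ∘ scaleH p := by
  rw [MF.comp_scaleH_eq p k, MF.comp_scaleH_eq p k, ModularForm.SL_smul_slash]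
  congr 1
  simp only [ModularForm.SL_slash]
  rw [← SlashAction.slash_mul, ← SlashAction.slash_mul]
  exact congrArg (fun g => G ∣[k] g) (heckeDiag_mul_gamma0Sub h)

omit [Fintype ι] in
theorem scale_slash_of_hasMult {n : ℕ} [NeZero n] {G : ℍ → ℂ}
    {φ : Additive (Gamma0 N) →+ ZMod n} (hG : HasMult k G φ) (h : gamma0Sub N p) :
    (G ∘ scaleH p) ∣[k] ((h : Gamma0 N) : SL(2, ℤ)) =
      ZMod.stdAddChar (φ (Additive.ofMul (scaleHom N p h))) • (G ∘ scaleH p) := by
  rw [scale_slash_gamma0Sub, hG]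
  rfl

variable (p k) in
/-- `∏ᵢ (G(p τ) ∣ cᵢ)`. -/
def starNormFun (c : ι → Gamma0 N) (G : ℍ → ℂ) : ℍ → ℂ := ∏ i, starTerm p k (c i) G

theorem prod_slash_SL (F : ι → ℍ → ℂ) (γ : SL(2, ℤ)) :
    (∏ i, F i) ∣[k * (Fintype.card ι : ℤ)] γ = ∏ i, (F i ∣[k] γ) := by
  classical
  have : ∀ s : Finset ι, (∏ i ∈ s, F i) ∣[k * (s.card : ℤ)] γ = ∏ i ∈ s, (F i ∣[k] γ) := by
    intro s
    induction s using Finset.induction with
    | empty =>
      funext τ
      simp [ModularForm.SL_slash_apply]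
    | insert a s ha ih =>
      rw [Finset.prod_insert ha, Finset.prod_insert ha, Finset.card_insert_of_notMem ha,
        show k * ((s.card + 1 : ℕ) : ℤ) = k + k * (s.card : ℤ) by push_cast; ring,
        ModularForm.mul_slash_SL2, ih]
  exact this Finset.univ

omit [Fintype ι] in
theorem addChar_map_sum {A M : Type*} [AddCommMonoid A] [CommMonoid M] (ψ : AddChar A M)
    (s : Finset ι) (f : ι → A) : ψ (∑ i ∈ s, f i) = ∏ i ∈ s, ψ (f i) := by
  classical
  induction s using Finset.induction with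
  | empty => simp
  | insert a s ha ih => rw [Finset.sum_insert ha, Finset.prod_insert ha, AddChar.map_add_eq_mul, ih]

/-- The transferred multiplier. -/
theorem HasMult.starNormFun {n : ℕ} [NeZero n] {G : ℍ → ℂ} {φ : Additive (Gamma0 N) →+ ZMod n}
    (hG : HasMult k G φ) (c : ι → Gamma0 N)
    (hc : Bijective fun i => (((c i)⁻¹ : Gamma0 N) : Gamma0 N ⧸ gamma0Sub N p)) :
    HasMult (k * (Fintype.card ι : ℤ)) (starNormFun p k c G) (heckeStarHom N (ZMod n) p φ) := by
  classical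
  intro g
  set σ := repPerm c hc g
  rw [HK.starNormFun, prod_slash_SL, heckeStarHom_apply N _ p c hc φ g σ (repPerm_mem c hc g)]
  have hterm : ∀ i, starTerm p k (c i) G ∣[k] (g : SL(2, ℤ)) =
      ZMod.stdAddChar (φ (Additive.ofMul
        (scaleHom N p ⟨c i * g * (c (σ i))⁻¹, repPerm_mem c hc g i⟩))) •
        starTerm p k (c (σ i)) G := by
    intro i
    have e : (c i : SL(2, ℤ)) * (g : SL(2, ℤ)) =
        ((⟨c i * g * (c (σ i))⁻¹, repPerm_mem c hc g i⟩ : gamma0Sub N p) : Gamma0 N) * (c (σ i) : SL(2, ℤ)) := by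
      simp
    rw [starTerm, ← SlashAction.slash_mul, e, SlashAction.slash_mul, starTerm,
      scale_slash_of_hasMult hG ⟨c i * g * (c (σ i))⁻¹, repPerm_mem c hc g i⟩,
      ModularForm.SL_smul_slash]
  simp only [hterm]
  rw [← Equiv.prod_comp σ (fun i => starTerm p k (c i) G), addChar_map_sum]
  funext τ
  simp only [Finset.prod_apply, Pi.smul_apply, smul_eq_mul, Finset.prod_mul_distrib]

theorem mdiff_starTerm {G : ℍ → ℂ} (hG : MDiff G) (c : Gamma0 N) : MDiff (starTerm p k c G) := by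
  have h : MDiff (G ∘ scaleH p) := by
    rw [MF.comp_scaleH_eq p k]
    exact (hG.slash k _).const_smul _
  exact h.slash k _

omit [Fintype ι] in
theorem mdiff_finsetProd {s : Finset ι} {F : ι → ℍ → ℂ} (hF : ∀ i ∈ s, MDiff (F i)) :
    MDiff (∏ i ∈ s, F i) := by
  classical
  induction s using Finset.induction with
  | empty => exact mdifferentiable_const
  | insert a s ha ih =>
    rw [Finset.prod_insert ha]
    exact (hF a (Finset.mem_insert_self a s)).mul
      (ih fun i hi => hF i (Finset.mem_insert_of_mem hi))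

theorem mdiff_starNormFun {G : ℍ → ℂ} (hG : MDiff G) (c : ι → Gamma0 N) :
    MDiff (starNormFun p k c G) :=
  mdiff_finsetProd fun i _ => mdiff_starTerm hG (c i)

theorem starTerm_ne_zero {G : ℍ → ℂ} (h0 : G ≠ 0) (c : Gamma0 N) : starTerm p k c G ≠ 0 := by
  obtain ⟨τ, hτ⟩ := exists_apply_ne_zero h0
  intro h
  refine hτ ?_
  have hD : ModularForm.heckeDiagMatrix p • ((ModularForm.heckeDiagMatrix p)⁻¹ • τ) = τ :=
    smul_inv_smul _ _
  have hz := congrFun h ((c : SL(2, ℤ))⁻¹ • ((ModularForm.heckeDiagMatrix p)⁻¹ • τ))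
  rw [starTerm, ModularForm.SL_slash_apply, smul_inv_smul, Pi.zero_apply, mul_eq_zero] at hz
  rcases hz with hz | hz
  · rwa [Function.comp_apply, scaleH, hD] at hz
  · exact absurd hz (zpow_ne_zero _ (denom_ne_zero _ _))

theorem starNormFun_ne_zero {G : ℍ → ℂ} (hG : MDiff G) (h0 : G ≠ 0) (c : ι → Gamma0 N) :
    starNormFun p k c G ≠ 0 := by
  classical
  rw [starNormFun]
  have key : ∀ s : Finset ι, (∏ i ∈ s, starTerm p k (c i) G) ≠ 0 := by
    intro s
    induction s using Finset.induction with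
    | empty => exact fun h => one_ne_zero (congrFun h UpperHalfPlane.I)
    | insert a s ha ih =>
      rw [Finset.prod_insert ha]
      exact mdiff_mul_ne_zero (mdiff_starTerm hG (c a))
        (mdiff_finsetProd fun i _ => mdiff_starTerm hG (c i)) (starTerm_ne_zero h0 (c a)) ih
  exact key Finset.univ

/-- The norm `∏ (f(p τ) ∣ cᵢ)` of a form, a form of level `N`. -/
def starNormForm (c : ι → Gamma0 N)
    (hc : Bijective fun i => (((c i)⁻¹ : Gamma0 N) : Gamma0 N ⧸ gamma0Sub N p))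
    (f : MForm N k) : MForm N (k * (Fintype.card ι : ℤ)) where
  toFun := starNormFun p k c f
  slash_action_eq' := by
    rintro _ ⟨γ, hγ, rfl⟩
    have h := ((hasMult_mform (n := 1) f).starNormFun c hc) ⟨γ, hγ⟩
    rwa [show heckeStarHom N (ZMod 1) p 0 = 0 from map_zero _, AddMonoidHom.zero_apply,
      AddChar.map_zero_eq_one, one_smul] at h
  holo' := mdiff_starNormFun (ModularFormClass.holo f) c
  bdd_at_cusps' := by
    intro q hq
    have : NeZero (N * p) := ⟨Nat.mul_ne_zero (NeZero.ne N) (NeZero.ne p)⟩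
    rw [Subgroup.IsArithmetic.isCusp_iff_isCusp_SL2Z] at hq
    rw [OnePoint.isBoundedAt_iff_forall_SL2Z hq]
    intro A _
    rw [starNormFun, prod_slash_SL]
    have hone : ∀ i, IsBoundedAtImInfty (starTerm p k (c i) f ∣[k] A) := fun i => by
      rw [starTerm, ← SlashAction.slash_mul]
      exact ModularFormClass.bdd_at_infty_slash (MF.rescale p (dvd_refl (N * p)) f)
        ((c i : SL(2, ℤ)) * A)
    classical
    have key : ∀ s : Finset ι, IsBoundedAtImInfty (∏ i ∈ s, (starTerm p k (c i) f ∣[k] A)) := by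
      intro s
      induction s using Finset.induction with
      | empty => exact Filter.const_boundedAtFilter _ _
      | insert a s ha ih => rw [Finset.prod_insert ha]; exact (hone a).mul ih
    exact key Finset.univ

@[simp] theorem coe_starNormForm (c : ι → Gamma0 N)
    (hc : Bijective fun i => (((c i)⁻¹ : Gamma0 N) : Gamma0 N ⧸ gamma0Sub N p))
    (f : MForm N k) : ⇑(starNormForm c hc f) = starNormFun p k c f := rfl

theorem starNormForm_ne_zero (c : ι → Gamma0 N)
    (hc : Bijective fun i => (((c i)⁻¹ : Gamma0 N) : Gamma0 N ⧸ gamma0Sub N p))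
    {f : MForm N k} (hf : f ≠ 0) : starNormForm c hc f ≠ 0 := fun h =>
  starNormFun_ne_zero (ModularFormClass.holo f) (MF.mform_coe_ne_zero hf) c
    (congrArg (fun F : MForm N (k * (Fintype.card ι : ℤ)) => (F : ℍ → ℂ)) h)

/-- The root of the norm pair. -/
theorem IsRoot.starNormFun {n : ℕ} {u v : MForm N k} {G : ℍ → ℂ} (hG : IsRoot n u v G)
    (hn : n ≠ 0) (c : ι → Gamma0 N)
    (hc : Bijective fun i => (((c i)⁻¹ : Gamma0 N) : Gamma0 N ⧸ gamma0Sub N p)) :
    IsRoot n (starNormForm c hc u) (starNormForm c hc v) (starNormFun p k c G) := by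
  refine ⟨mdiff_starNormFun hG.mdiff c, fun τ => ?_⟩
  obtain ⟨m, rfl⟩ := Nat.exists_eq_succ_of_ne_zero hn
  simp only [coe_starNormForm, HK.starNormFun, Finset.prod_apply, ← Finset.prod_pow,
    ← Finset.prod_mul_distrib, Nat.succ_sub_one]
  refine Finset.prod_congr rfl fun i _ => ?_
  simp only [starTerm, ModularForm.SL_slash_apply, Function.comp_apply]
  rw [mul_pow, hG.pow_eq, Nat.succ_sub_one, mul_pow, pow_succ']
  ring

end Fermat.Agent.HK
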