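/-
The norm along `α` of `β x` is `∏ x(p · c τ)` over the cosets `c` of `Γ₀(N p)` in `Γ₀(N)`.
-/
import Fermat.Agent.HK.Realize
import Fermat.Agent.HK.HeckeForms
import Fermat.Prelude.Def_ModularCurve_HeckeOperator
import Fermat.Prelude.Thm_ModularCurve_coeffMap_qExpand
import Mathlib.RingTheory.Norm.Transitivity
import Mathlib.FieldTheory.IsAlgClosed.AlgebraicClosure
import Mathlib.FieldTheory.PrimitiveElement
import Fermat.Prelude.Def_AlgebraicCurve_Correspondence

set_option autoImplicit false

noncomputable section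

open UpperHalfPlane CongruenceSubgroup Function ModularCurve AlgebraicCurve
open scoped MatrixGroups ModularForm Manifold

namespace Fermat.Agent.HK

open Fermat.Agent.MF (MForm MFField qL scaleH jdC kleinJ)

/-- The norm is the product over any full set of embeddings into a field. -/
theorem norm_eq_prod_ringHom {F F' M : Type*} [Field F] [Field F'] [Field M] [Algebra F F']
    [Module.Finite F F'] [Algebra.IsSeparable F F'] (f : F →+* M) {ι : Type*} [Fintype ι]
    (σ : ι → F' →+* M) (hσ : ∀ i x, σ i (algebraMap F F' x) = f x) (hinj : Injective σ)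
    (hcard : Module.finrank F F' = Fintype.card ι) (x : F') :
    f (Algebra.norm F x) = ∏ i, σ i x := by
  classical
  let E := AlgebraicClosure M
  let g : M →+* E := algebraMap M E
  letI : Algebra F E := (g.comp f).toAlgebra
  let τ : ι → (F' →ₐ[F] E) := fun i =>
    { g.comp (σ i) with commutes' := fun r => congrArg g (hσ i r) }
  have hτ : Injective τ := fun i j h =>
    hinj (RingHom.ext fun y => g.injective (DFunLike.congr_fun h y))
  have hb : Bijective τ :=
    (Fintype.bijective_iff_injective_and_card τ).mpr ⟨hτ, by rw [AlgHom.card, hcard]⟩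
  apply g.injective
  rw [map_prod]
  calc g (f (Algebra.norm F x)) = algebraMap F E (Algebra.norm F x) := rfl
    _ = ∏ s : F' →ₐ[F] E, s x := Algebra.norm_eq_prod_embeddings F E x
    _ = ∏ i, g (σ i x) := (Fintype.prod_bijective τ hb _ _ fun i => rfl).symm

/-- `norm_eq_prod_ringHom` along an algebra map. -/
theorem normAlong_eq_prod_ringHom {K F F' M : Type*} [Field K] [Field F] [Field F'] [Field M]
    [Algebra K F] [Algebra K F'] (φ : F →ₐ[K] F') (hfin : FiniteAlong K φ)
    (hsep : SeparableAlong K φ) (f : F →+* M) {ι : Type*} [Fintype ι] (σ : ι → F' →+* M)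
    (hσ : ∀ i x, σ i (φ x) = f x) (hinj : Injective σ)
    (hcard : finrankAlong K φ = Fintype.card ι) (x : F') :
    f (letI := algebraAlong φ; Algebra.norm F x) = ∏ i, σ i x := by
  let := algebraAlong φ
  have : Module.Finite F F' := hfin
  have : Algebra.IsSeparable F F' := hsep
  exact norm_eq_prod_ringHom f σ hσ hinj hcard x

section HeckeNorm

variable {N p : ℕ} [NeZero N] [NeZero p] [NeZero (N * p)] {L : Type*} [Field L] [Algebra ℚ L]
  (e : L →+* ℂ) {k : ℤ} {ι : Type*} [Fintype ι]

/-- The embedding `x ↦ x ∘ c` of the level `N p` field. -/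
def conjEmb (c : Gamma0 N) :
    laurentBaseChange L (modularFunctionFieldFull (N * p)) →+* MeroH :=
  (translateHom (N * p) (c : SL(2, ℤ))).comp (toMFField e (N * p))

omit [Fintype ι] in
theorem conjEmb_heckeAlphaBar (c : Gamma0 N)
    (x : laurentBaseChange L (modularFunctionFieldFull N)) :
    conjEmb e c (heckeAlphaBar L N p x) = translateHom N 1 (toMFField e N x) := by
  obtain ⟨l, f, g, hg, hx⟩ := (toMFField e N x).2
  have h1 : N * 1 ∣ N * p := mul_dvd_mul_left N (one_dvd p)
  have hcoe : ∀ f : MForm N l, (MF.rescale 1 h1 f : ℍ → ℂ) = f := fun f => by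
    funext τ
    simp [MF.scaleH_one]
  have hg' : MF.rescale 1 h1 g ≠ 0 := fun h => hg (DFunLike.coe_injective (by
    rw [← hcoe g, h]; rfl))
  rw [conjEmb, RingHom.comp_apply, translateHom_apply (f := MF.rescale 1 h1 f) _ hg'
    (by rw [hcoe, hcoe, ← hx, coe_toMFField, coe_heckeAlphaBar, coe_toMFField]),
    translateHom_apply 1 hg hx]
  congr 1 <;> refine Subtype.ext ?_ <;>
    rw [coe_holTranslate, coe_holTranslate, hcoe, mform_slash c.2, mform_slash (Gamma0 N).one_mem]

omit [Fintype ι] in
theorem conjEmb_heckeBetaBar (c : Gamma0 N)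
    (x : laurentBaseChange L (modularFunctionFieldFull N)) {u v : MForm N k} (hv : v ≠ 0)
    (hx : coeffMap e (x : LaurentSeries L) = qL u / qL v) :
    conjEmb e c (heckeBetaBar L N p x) =
      meroFrac ⟨starTerm p k c u, mdiff_starTerm (ModularFormClass.holo u) c⟩
        ⟨starTerm p k c v, mdiff_starTerm (ModularFormClass.holo v) c⟩ := by
  have hv' : MF.rescale p (dvd_refl (N * p)) v ≠ 0 := fun h => by
    have h' := congrArg qL (congrArg (fun F : MForm (N * p) k => (F : ℍ → ℂ)) h)
    rw [MF.qL_rescale, FunLike.coe_zero, MF.qL_zero] at h'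
    exact mt (MF.qL_mform_eq_zero_iff v).mp hv (qExpand_injective p (h'.trans (map_zero _).symm))
  rw [conjEmb, RingHom.comp_apply, translateHom_apply (f := MF.rescale p (dvd_refl (N * p)) u) _ hv'
    (by rw [coe_toMFField, coe_heckeBetaBar, ModularCurve.coeffMap_qExpand e p, hx, map_div₀,
      MF.qL_rescale, MF.qL_rescale])]
  rfl

omit [Fintype ι] in
theorem conjEmb_injective (c : ι → Gamma0 N)
    (hc : Bijective fun i => (((c i)⁻¹ : Gamma0 N) : Gamma0 N ⧸ gamma0Sub N p)) :
    Injective fun i => conjEmb (L := L) (p := p) e (c i) := by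
  intro i j hij
  let E3 := (ModularForm.E₄.mul ModularForm.E₄).mul ModularForm.E₄
  let Dl := CuspForm.toModularFormₗ CuspForm.discriminant
  let J : laurentBaseChange L (modularFunctionFieldFull (N * p)) :=
    ⟨coeffEmb L (qExpand ℚ (N * p) jq), coeffEmb_mem_laurentBaseChange L (jqd_mem_full _ dvd_rfl)⟩
  have hD : MF.levelOneScaled (N * p) (dvd_refl (N * p)) Dl ≠ 0 := fun h => by
    have h' := DFunLike.congr_fun h UpperHalfPlane.I
    exact ModularForm.discriminant_ne_zero _ h'
  have hJ : (toMFField e (N * p) J : LaurentSeries ℂ) =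
      qL (MF.levelOneScaled (N * p) (dvd_refl (N * p)) E3) /
        qL (MF.levelOneScaled (N * p) (dvd_refl (N * p)) Dl) := by
    rw [coe_toMFField]
    show coeffMap e (coeffEmb L _) = _
    rw [coeffMap_coeffEmb_complex, MF.coeffEmb_qExpand_jq]
    show jdC (N * p) = _
    rw [MF.jdC_eq_div, MF.coe_levelOneScaled, MF.coe_levelOneScaled, E4_cube_coe]
    rfl
  have h := DFunLike.congr_fun (hij : conjEmb e (c i) = conjEmb e (c j)) J
  simp only [conjEmb, RingHom.comp_apply] at h
  rw [translateHom_apply _ hD hJ, translateHom_apply _ hD hJ,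
    meroFrac_eq_iff (holTranslate_ne_zero _ hD) (holTranslate_ne_zero _ hD)] at h
  have key : ∀ τ : ℍ, kleinJ (scaleH (N * p) ((c i : SL(2, ℤ)) • τ)) =
      kleinJ (scaleH (N * p) ((c j : SL(2, ℤ)) • τ)) := by
    intro τ
    have h' := congrFun (congrArg Subtype.val h) τ
    simp only [Subalgebra.coe_mul, coe_holTranslate, Pi.mul_apply, ModularForm.SL_slash_apply,
      MF.coe_levelOneScaled, comp_apply] at h'
    rw [show (⇑E3 : ℍ → ℂ) = (⇑ModularForm.E₄) ^ 3 from E4_cube_coe] at h'
    simp only [Pi.pow_apply] at h'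
    set a := scaleH (N * p) ((c i : SL(2, ℤ)) • τ)
    set b := scaleH (N * p) ((c j : SL(2, ℤ)) • τ)
    rw [show (Dl a : ℂ) = ModularForm.discriminant a from rfl,
      show (Dl b : ℂ) = ModularForm.discriminant b from rfl] at h'
    rw [kleinJ, kleinJ, div_eq_div_iff (ModularForm.discriminant_ne_zero a)
      (ModularForm.discriminant_ne_zero b)]
    have da := UpperHalfPlane.denom_ne_zero ((c i : SL(2, ℤ)) : GL (Fin 2) ℝ) τ
    have db := UpperHalfPlane.denom_ne_zero ((c j : SL(2, ℤ)) : GL (Fin 2) ℝ) τ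
    refine mul_right_cancel₀ (mul_ne_zero (zpow_ne_zero (-(4 + 4 + 4 : ℤ)) da)
      (zpow_ne_zero (-12 : ℤ) db)) ?_
    norm_num only at h' ⊢
    linear_combination h'
  have hmem : (c j * (c i)⁻¹ : Gamma0 N) ∈ gamma0Sub N p := by
    show ((c j * (c i)⁻¹ : Gamma0 N) : SL(2, ℤ)) ∈ Gamma0 (N * p)
    refine mem_Gamma0_of_kleinJ_scaleH fun τ => ?_
    have hk := key ((c i : SL(2, ℤ))⁻¹ • τ)
    rw [smul_inv_smul, ← mul_smul] at hk
    exact hk.symm
  refine hc.injective (QuotientGroup.eq.mpr ?_)
  simpa using inv_mem hmem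

/-- `coeffMap e (N_α (β x)) = qL (∏ u∣…) / qL (∏ v∣…)`. -/
theorem coeffMap_norm_heckeBetaBar (c : ι → Gamma0 N)
    (hc : Bijective fun i => (((c i)⁻¹ : Gamma0 N) : Gamma0 N ⧸ gamma0Sub N p))
    (hfin : FiniteAlong L (heckeAlphaBar L N p))
    (hsep : SeparableAlong L (heckeAlphaBar L N p))
    (hdeg : finrankAlong L (heckeAlphaBar L N p) = Fintype.card ι)
    (x : laurentBaseChange L (modularFunctionFieldFull N)) {u v : MForm N k} (hv : v ≠ 0)
    (hx : coeffMap e (x : LaurentSeries L) = qL u / qL v) :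
    coeffMap e ((letI := algebraAlong (heckeAlphaBar L N p)
        Algebra.norm (laurentBaseChange L (modularFunctionFieldFull N)) (heckeBetaBar L N p x) :
        laurentBaseChange L (modularFunctionFieldFull N)) : LaurentSeries L) =
      qL (starNormForm c hc u) / qL (starNormForm c hc v) := by
  have h := normAlong_eq_prod_ringHom (heckeAlphaBar L N p) hfin hsep
    ((translateHom N 1).comp (toMFField e N))
    (fun i => conjEmb (L := L) (p := p) e (c i))
    (fun i y => conjEmb_heckeAlphaBar (p := p) e (c i) y)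
    (conjEmb_injective e c hc) hdeg (heckeBetaBar L N p x)
  simp only [conjEmb_heckeBetaBar e _ x hv hx, RingHom.comp_apply, meroFrac_prod] at h
  refine eq_div_of_translateHom_one (starNormForm_ne_zero c hc hv) (h.trans ?_)
  have hone : ∀ f : MForm N k, holTranslate 1 (starNormForm c hc f) =
      ∏ i, (⟨starTerm p k (c i) f, mdiff_starTerm (ModularFormClass.holo f) (c i)⟩ : holH) := by
    intro f
    refine Subtype.ext ?_
    rw [coe_holTranslate, mform_slash (Gamma0 N).one_mem, SubmonoidClass.coe_finsetProd]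
    rfl
  rw [hone, hone]

end HeckeNorm

end Fermat.Agent.HK
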