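/-
Kummer characters under the Hecke correspondence: `χ_{T z} = heckeStarHom χ_z`.
-/
import Fermat.Agent.HK.HeckeNorm
import Fermat.Agent.HK.Kummer.Rel
import Fermat.Prelude.Def_ModularCurve_HeckeModule

set_option autoImplicit false

noncomputable section

open UpperHalfPlane CongruenceSubgroup Function ModularCurve AlgebraicCurve
open scoped MatrixGroups ModularForm Manifold

namespace Fermat.Agent.HK

open Fermat.Agent.MF (MForm MFField qL)

section Divisors

variable {K F F' : Type*} [Field K] [Field F] [Field F'] [Algebra K F] [Algebra K F']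
  [HasPrincipalDivisors K F'] (φ ψ : F →ₐ[K] F') (hφ : φ.toRingHom.IsIntegral)
  (hψ : ψ.toRingHom.IsIntegral)

/-- `ψ_* φ^*` sends `div f` to `div N_ψ(φ f)`. -/
theorem correspondence_eq_ord_norm (hfin : FiniteAlong K ψ) (hN : NormFormulaAlong K ψ hfin)
    {D : Divisor K F} {f : F} (hf : f ≠ 0) (hD : ∀ v, D v = v.ord f) (v : Place K F) :
    Divisor.correspondence φ ψ hφ hψ D v =
      v.ord (letI := algebraAlong ψ; Algebra.norm F (φ f) : F) := by
  have hE : ∀ w, Divisor.pullbackAlong φ hφ D w = w.ord (φ f) := fun w => by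
    rw [Divisor.pullbackAlong_apply, hD, ← Place.ord_restrictAlong]
  rw [Divisor.correspondence_apply]
  exact hN (φ f) ((map_ne_zero φ).mpr hf) _ hE v

theorem normAlong_ne_zero (hfin : FiniteAlong K ψ) {f : F} (hf : f ≠ 0) :
    (letI := algebraAlong ψ; Algebra.norm F (φ f) : F) ≠ 0 := by
  let := algebraAlong ψ
  have : Module.Finite F F' := hfin
  exact Algebra.norm_ne_zero_iff.mpr ((map_ne_zero φ).mpr hf)

/-- A correspondence carries Kummer data `n • D = div f` to `n • T D = div N_ψ(φ f)`. -/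
theorem pic0_correspondence_kummerData (hFI : FundamentalIdentityAlong K φ hφ)
    (hfin : FiniteAlong K ψ) (hN : NormFormulaAlong K ψ hfin) {n : ℕ} {z : Pic0 K F}
    {D : Divisor.degZero (K := K) (F := F)} (hz : Pic0.mk D = z) {f : F} (hf : f ≠ 0)
    (hD : ∀ v, (n • (D : Divisor K F)) v = v.ord f) :
    ∃ D' : Divisor.degZero (K := K) (F := F),
      Pic0.mk D' = Pic0.correspondence φ ψ hφ hψ hFI hfin hN z ∧
        (∀ v, (n • (D' : Divisor K F)) v =
          v.ord (letI := algebraAlong ψ; Algebra.norm F (φ f) : F)) := by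
  refine ⟨Pic0.degZeroCorrespondence φ ψ hφ hψ hFI D, ?_, fun v => ?_⟩
  · rw [← hz, Pic0.correspondence_mk]
  · rw [Pic0.coe_degZeroCorrespondence, ← map_nsmul]
    exact correspondence_eq_ord_norm φ ψ hφ hψ hfin hN hf hD v

end Divisors

section Kummer

variable {N p : ℕ} [NeZero N] [NeZero p] {L : Type*} [Field L] [Algebra ℚ L] (e : L →+* ℂ)
  {n : ℕ} [NeZero n] {ι : Type*} [Fintype ι]

/-- If `x` has Kummer character `φ`, then `N_α(β x)` has Kummer character `heckeStarHom φ`. -/
theorem IsKummer.heckeStar (c : ι → Gamma0 N)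
    (hc : Bijective fun i => (((c i)⁻¹ : Gamma0 N) : Gamma0 N ⧸ gamma0Sub N p))
    (hfin : FiniteAlong L (heckeAlphaBar L N p))
    (hsep : SeparableAlong L (heckeAlphaBar L N p))
    (hdeg : finrankAlong L (heckeAlphaBar L N p) = Fintype.card ι)
    (x : laurentBaseChange L (modularFunctionFieldFull N))
    {φ : Additive (Gamma0 N) →+ ZMod n}
    (h : IsKummer N (coeffMap e (x : LaurentSeries L)) φ) :
    IsKummer N (coeffMap e ((letI := algebraAlong (heckeAlphaBar L N p)
        Algebra.norm (laurentBaseChange L (modularFunctionFieldFull N)) (heckeBetaBar L N p x) :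
        laurentBaseChange L (modularFunctionFieldFull N)) : LaurentSeries L))
      (heckeStarHom N (ZMod n) p φ) := by
  have : NeZero (N * p) := ⟨Nat.mul_ne_zero (NeZero.ne N) (NeZero.ne p)⟩
  obtain ⟨k, u, v, G, hu, hv, hx, hG, hφ⟩ := h
  exact ⟨_, starNormForm c hc u, starNormForm c hc v, starNormFun p k c G,
    starNormForm_ne_zero c hc hu, starNormForm_ne_zero c hc hv,
    coeffMap_norm_heckeBetaBar e c hc hfin hsep hdeg x hv hx,
    hG.starNormFun (NeZero.ne n) c hc, hφ.starNormFun c hc⟩

end Kummer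

section Operator

variable {N : ℕ} [NeZero N] {L : Type*} [Field L] [Algebra ℚ L] (e : L →+* ℂ)
  {n : ℕ} [NeZero n] {ι : Type*} [Fintype ι]

/-- `heckeOperatorAlong` on Kummer data. -/
theorem heckeOperatorAlong_kummer (p : ℕ) [NeZero p] (hin : HeckeInputsAlong L N p)
    (c : ι → Gamma0 N)
    (hc : Bijective fun i => (((c i)⁻¹ : Gamma0 N) : Gamma0 N ⧸ gamma0Sub N p))
    (hsep : SeparableAlong L (heckeAlphaBar L N p))
    (hdeg : finrankAlong L (heckeAlphaBar L N p) = Fintype.card ι)
    {z : Pic0 L (laurentBaseChange L (modularFunctionFieldFull N))}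
    {D : Divisor.degZero (K := L) (F := laurentBaseChange L (modularFunctionFieldFull N))}
    (hz : Pic0.mk D = z) {f : laurentBaseChange L (modularFunctionFieldFull N)} (hf : f ≠ 0)
    (hD : ∀ v, (n • (D : Divisor L (laurentBaseChange L (modularFunctionFieldFull N)))) v = v.ord f)
    {φ : Additive (Gamma0 N) →+ ZMod n}
    (h : IsKummer N (coeffMap e (f : LaurentSeries L)) φ) :
    ∃ (D' : Divisor.degZero (K := L) (F := laurentBaseChange L (modularFunctionFieldFull N)))
      (f' : laurentBaseChange L (modularFunctionFieldFull N)),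
      Pic0.mk D' = heckeOperatorAlong L N p z ∧ f' ≠ 0 ∧
        (∀ v, (n • (D' : Divisor L (laurentBaseChange L (modularFunctionFieldFull N)))) v =
          v.ord f') ∧
        IsKummer N (coeffMap e (f' : LaurentSeries L)) (heckeStarHom N (ZMod n) p φ) := by
  obtain ⟨hα, hβ, hP, hfin, hFI, hN⟩ := hin
  haveI := hP
  obtain ⟨D', h1, h2⟩ := pic0_correspondence_kummerData (heckeBetaBar L N p) (heckeAlphaBar L N p)
    hβ hα hFI hfin hN hz hf hD
  refine ⟨D', _, ?_, normAlong_ne_zero (heckeBetaBar L N p) (heckeAlphaBar L N p) hfin hf, h2,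
    IsKummer.heckeStar e c hc hfin hsep hdeg f h⟩
  rw [h1, heckeOperatorAlong_eq hα hβ hFI hfin hN]
  rfl

end Operator

end Fermat.Agent.HK
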