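import Mathlib
import Fermat.Prelude.Def_ModularCurve_PeriodHomPair
import Fermat.Agent.HK.Defs

/-!
The Hecke operators `T_p` (`U_p` for `p ∣ N`) on homomorphisms `Γ₀(N) → A`: the double coset of
`diag(1, p)`, with representatives `[[1, j], [0, p]]` and, for `p ∤ N`, `[[p, 0], [0, 1]]`,
matching `ModularForm.heckeT` and `ModularForm.heckeU`.
-/

set_option autoImplicit false

noncomputable section

open CongruenceSubgroup
open scoped MatrixGroups

namespace Fermat.Agent.HK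

/-- Indices of the coset representatives of `T_p` / `U_p`. -/
abbrev HeckeIdx (N p : ℕ) : Type :=
  {i : Option (Fin p) // p ∣ N → i.isSome}

/-- The coset representatives of `T_p` / `U_p`. -/
def heckeMat {N p : ℕ} (i : HeckeIdx N p) : Matrix (Fin 2) (Fin 2) ℤ :=
  match i.1 with
  | some j => !![1, (j : ℤ); 0, (p : ℤ)]
  | none => !![(p : ℤ), 0; 0, 1]

/-- The index of `[[1, j], [0, p]]`. -/
def HeckeIdx.upper {p : ℕ} (N : ℕ) (j : Fin p) : HeckeIdx N p := ⟨some j, fun _ => rfl⟩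

/-- The index of `[[p, 0], [0, 1]]`. -/
def HeckeIdx.diag {N p : ℕ} (h : ¬ p ∣ N) : HeckeIdx N p := ⟨none, fun h' => absurd h' h⟩

@[simp] theorem heckeMat_upper {p : ℕ} (N : ℕ) (j : Fin p) :
    heckeMat (HeckeIdx.upper N j) = !![1, (j : ℤ); 0, (p : ℤ)] := rfl

@[simp] theorem heckeMat_diag {N p : ℕ} (h : ¬ p ∣ N) :
    heckeMat (HeckeIdx.diag h) = !![(p : ℤ), 0; 0, 1] := rfl

@[elab_as_elim]
theorem HeckeIdx.cases_upper_diag {N p : ℕ} {P : HeckeIdx N p → Prop}
    (h1 : ∀ j, P (HeckeIdx.upper N j)) (h2 : ∀ h : ¬ p ∣ N, P (HeckeIdx.diag h))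
    (i : HeckeIdx N p) : P i := by
  obtain ⟨_ | j, hi⟩ := i
  · exact h2 fun h => by simpa using hi h
  · exact h1 j

theorem det_heckeMat {N p : ℕ} (i : HeckeIdx N p) : (heckeMat i).det = p := by
  refine HeckeIdx.cases_upper_diag (fun j => ?_) (fun h => ?_) i <;> simp [Matrix.det_fin_two_of]

theorem heckeMat_one_zero {N p : ℕ} (i : HeckeIdx N p) : heckeMat i 1 0 = 0 := by
  refine HeckeIdx.cases_upper_diag (fun j => ?_) (fun h => ?_) i <;> simp

theorem heckeMat_mul_right_cancel {N p : ℕ} (hp : p ≠ 0) {a b : Matrix (Fin 2) (Fin 2) ℤ}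
    {i : HeckeIdx N p} (h : a * heckeMat i = b * heckeMat i) : a = b := by
  have h' := congrArg (· * (heckeMat i).adjugate) h
  simp only [Matrix.mul_assoc, Matrix.mul_adjugate, det_heckeMat, Matrix.mul_smul,
    Matrix.mul_one] at h'
  ext r c
  have := congrFun (congrFun h' r) c
  simp only [Matrix.smul_apply, smul_eq_mul] at this
  exact mul_left_cancel₀ (by exact_mod_cast hp) this

variable {N p : ℕ} [hp : Fact p.Prime]

/-- An integral matrix of determinant `p` that is `Γ₀(N)`-congruent to upper triangular, with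
`p ∤ a` when `p ∣ N`, lies in some coset `Γ₀(N) α`. -/
theorem exists_eq_mul_heckeMat {M : Matrix (Fin 2) (Fin 2) ℤ} (hdet : M.det = p)
    (hc : (N : ℤ) ∣ M 1 0) (ha : p ∣ N → ¬ (p : ℤ) ∣ M 0 0) :
    ∃ (i : HeckeIdx N p) (h : Gamma0 N),
      ((h : SL(2, ℤ)) : Matrix (Fin 2) (Fin 2) ℤ) * heckeMat i = M := by
  have hp' : Prime (p : ℤ) := Nat.prime_iff_prime_int.mp hp.out
  rw [Matrix.det_fin_two] at hdet
  by_cases hcol : (p : ℤ) ∣ M 0 0 ∧ (p : ℤ) ∣ M 1 0
  · obtain ⟨⟨a', ha'⟩, ⟨c', hc'⟩⟩ := hcol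
    have hpN : ¬ p ∣ N := fun h => ha h ⟨a', ha'⟩
    have hd : (!![a', M 0 1; c', M 1 1]).det = 1 := by
      rw [Matrix.det_fin_two_of]
      refine mul_left_cancel₀ hp'.ne_zero ?_
      rw [ha', hc'] at hdet
      linear_combination hdet
    refine ⟨HeckeIdx.diag hpN, ⟨⟨_, hd⟩, Gamma0_mem.mpr ?_⟩, ?_⟩
    · rw [ZMod.intCast_zmod_eq_zero_iff_dvd]
      rw [hc'] at hc
      exact (Int.isCoprime_iff_nat_coprime.mpr
        (by simpa using ((Nat.Prime.coprime_iff_not_dvd hp.out).mpr hpN).symm)).dvd_of_dvd_mul_left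
          hc
    · ext r c
      fin_cases r <;> fin_cases c <;> simp [Matrix.mul_apply, Fin.sum_univ_two, ha', hc', mul_comm]
  · obtain ⟨j, hj0, hj1⟩ : ∃ j : Fin p, (p : ℤ) ∣ M 0 1 - (j : ℤ) * M 0 0 ∧
        (p : ℤ) ∣ M 1 1 - (j : ℤ) * M 1 0 := by
      have hdet' : (M 0 0 : ZMod p) * M 1 1 - M 0 1 * M 1 0 = 0 := by
        have := congrArg (fun x : ℤ => (x : ZMod p)) hdet
        push_cast at this
        simpa using this
      have key : ∀ x : ZMod p, (x * M 0 0 = M 0 1 ∧ x * M 1 0 = M 1 1) →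
          ∃ j : Fin p, (p : ℤ) ∣ M 0 1 - (j : ℤ) * M 0 0 ∧
            (p : ℤ) ∣ M 1 1 - (j : ℤ) * M 1 0 := by
        intro x hx
        refine ⟨⟨x.val, x.val_lt⟩, ?_, ?_⟩ <;>
          rw [← ZMod.intCast_zmod_eq_zero_iff_dvd] <;> push_cast <;>
          rw [ZMod.natCast_zmod_val]
        · rw [hx.1, sub_self]
        · rw [hx.2, sub_self]
      rcases not_and_or.mp hcol with h0 | h1
      · have h0' : (M 0 0 : ZMod p) ≠ 0 := by rwa [Ne, ZMod.intCast_zmod_eq_zero_iff_dvd]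
        refine key (M 0 1 / M 0 0) ⟨div_mul_cancel₀ _ h0', mul_left_cancel₀ h0' ?_⟩
        field_simp
        linear_combination -hdet'
      · have h1' : (M 1 0 : ZMod p) ≠ 0 := by rwa [Ne, ZMod.intCast_zmod_eq_zero_iff_dvd]
        refine key (M 1 1 / M 1 0) ⟨mul_left_cancel₀ h1' ?_, div_mul_cancel₀ _ h1'⟩
        field_simp
        linear_combination hdet'
    obtain ⟨e, he⟩ := hj0
    obtain ⟨f, hf⟩ := hj1
    have hd : (!![M 0 0, e; M 1 0, f]).det = 1 := by
      rw [Matrix.det_fin_two_of]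
      refine mul_left_cancel₀ hp'.ne_zero ?_
      linear_combination hdet + M 1 0 * he - M 0 0 * hf
    refine ⟨HeckeIdx.upper N j,
      ⟨⟨_, hd⟩, Gamma0_mem.mpr ((ZMod.intCast_zmod_eq_zero_iff_dvd _ _).mpr hc)⟩, ?_⟩
    ext r c
    fin_cases r <;> fin_cases c <;> simp [Matrix.mul_apply, Fin.sum_univ_two] <;>
      first
        | linear_combination -he
        | linear_combination -hf

/-- The cosets `Γ₀(N) α` are distinct. -/
theorem heckeMat_coset_unique {i i' : HeckeIdx N p} {k : SL(2, ℤ)}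
    (h : (k : Matrix (Fin 2) (Fin 2) ℤ) * heckeMat i = heckeMat i') : i = i' := by
  have hp1 : (1 : ℤ) < p := by exact_mod_cast hp.out.one_lt
  have hk := k.det_coe
  rw [Matrix.det_fin_two] at hk
  revert h
  refine HeckeIdx.cases_upper_diag (fun j => ?_) (fun hN => ?_) i <;>
    refine HeckeIdx.cases_upper_diag (fun j' => ?_) (fun hN' => ?_) i' <;> intro h <;>
    have e00 := congrFun (congrFun h 0) 0 <;> have e01 := congrFun (congrFun h 0) 1 <;>
    have e10 := congrFun (congrFun h 1) 0 <;> have e11 := congrFun (congrFun h 1) 1 <;>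
    simp [Matrix.mul_apply, Fin.sum_univ_two] at e00 e01 e10 e11
  · have : ((j : ℕ) : ℤ) % p = ((j' : ℕ) : ℤ) % p := by
      rw [← e01, e00, one_mul, Int.add_mul_emod_self_right]
    rw [Int.emod_eq_of_lt (by positivity) (by exact_mod_cast j.2),
      Int.emod_eq_of_lt (by positivity) (by exact_mod_cast j'.2)] at this
    exact congrArg _ (Fin.ext (by exact_mod_cast this))
  · rw [e00, e10, mul_zero, sub_zero] at hk
    exact absurd (Int.eq_one_of_mul_eq_one_right (by omega) hk) (by omega)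
  · exact absurd (Int.eq_one_of_mul_eq_one_left (by omega) e00) (by omega)
  · rfl

theorem Gamma0.dvd_one_zero (g : Gamma0 N) : (N : ℤ) ∣ ((g : SL(2, ℤ)) 1 0 : ℤ) :=
  (ZMod.intCast_zmod_eq_zero_iff_dvd _ _).mp (Gamma0_mem.mp g.2)

theorem exists_heckeIdx_mul (g : Gamma0 N) (i : HeckeIdx N p) :
    ∃ x : HeckeIdx N p × Gamma0 N,
      ((x.2 : SL(2, ℤ)) : Matrix (Fin 2) (Fin 2) ℤ) * heckeMat x.1
        = heckeMat i * ((g : SL(2, ℤ)) : Matrix (Fin 2) (Fin 2) ℤ) := by
  have hc := Gamma0.dvd_one_zero g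
  set M := heckeMat i * ((g : SL(2, ℤ)) : Matrix (Fin 2) (Fin 2) ℤ) with hM
  have hg := (g : SL(2, ℤ)).det_coe
  obtain ⟨i', h, hh⟩ := exists_eq_mul_heckeMat (N := N) (p := p) (M := M)
    (by rw [hM, Matrix.det_mul, det_heckeMat, hg, mul_one])
    (by
      rw [hM, Matrix.mul_apply, Fin.sum_univ_two, heckeMat_one_zero, zero_mul, zero_add]
      exact hc.mul_left _)
    (fun hpN => by
      have hpN' : (p : ℤ) ∣ ((g : SL(2, ℤ)) 1 0 : ℤ) := (Int.natCast_dvd_natCast.mpr hpN).trans hc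
      refine HeckeIdx.cases_upper_diag (P := fun i' => i = i' → ¬ (p : ℤ) ∣ M 0 0)
        (fun j hij hdvd => ?_) (fun h _ => absurd hpN h) i rfl
      rw [hM, hij, Matrix.mul_apply, Fin.sum_univ_two] at hdvd
      simp only [heckeMat_upper, Matrix.of_apply, Matrix.cons_val_zero, Matrix.cons_val_one,
        Matrix.cons_val', Matrix.cons_val_fin_one, Matrix.empty_val', one_mul] at hdvd
      have h00 := (dvd_add_left (hpN'.mul_left _)).mp hdvd
      rw [Matrix.det_fin_two] at hg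
      exact (Nat.prime_iff_prime_int.mp hp.out).not_isUnit
        (isUnit_of_dvd_one (hg ▸ dvd_sub (h00.mul_right _) (hpN'.mul_left _))))
  exact ⟨(i', h), hh⟩

/-- The permutation of the cosets induced by right multiplication by `g`. -/
def heckeNext (g : Gamma0 N) (i : HeckeIdx N p) : HeckeIdx N p :=
  (exists_heckeIdx_mul g i).choose.1

/-- `γ_i` in `α_i g = γ_i α_(σ i)`. -/
def heckeCoc (g : Gamma0 N) (i : HeckeIdx N p) : Gamma0 N :=
  (exists_heckeIdx_mul g i).choose.2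

theorem heckeCoc_mul_heckeMat (g : Gamma0 N) (i : HeckeIdx N p) :
    ((heckeCoc g i : SL(2, ℤ)) : Matrix (Fin 2) (Fin 2) ℤ) * heckeMat (heckeNext g i)
      = heckeMat i * ((g : SL(2, ℤ)) : Matrix (Fin 2) (Fin 2) ℤ) :=
  (exists_heckeIdx_mul g i).choose_spec

/-- Uniqueness of `(σ i, γ_i)`. -/
theorem heckeNext_heckeCoc_eq {g : Gamma0 N} {i i' : HeckeIdx N p} {h : Gamma0 N}
    (e : ((h : SL(2, ℤ)) : Matrix (Fin 2) (Fin 2) ℤ) * heckeMat i'
      = heckeMat i * ((g : SL(2, ℤ)) : Matrix (Fin 2) (Fin 2) ℤ)) :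
    heckeNext g i = i' ∧ heckeCoc g i = h := by
  have e' := heckeCoc_mul_heckeMat g i
  have hi : heckeNext g i = i' := heckeMat_coset_unique (k := (h : SL(2, ℤ))⁻¹ * heckeCoc g i) (by
    rw [Matrix.SpecialLinearGroup.coe_mul, Matrix.mul_assoc, e', ← e, ← Matrix.mul_assoc,
      ← Matrix.SpecialLinearGroup.coe_mul, inv_mul_cancel, Matrix.SpecialLinearGroup.coe_one,
      one_mul])
  refine ⟨hi, Subtype.ext (Subtype.ext ?_)⟩
  rw [hi] at e'
  exact heckeMat_mul_right_cancel hp.out.ne_zero (e'.trans e.symm)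

theorem heckeNext_one (i : HeckeIdx N p) : heckeNext (1 : Gamma0 N) i = i :=
  (heckeNext_heckeCoc_eq (g := (1 : Gamma0 N)) (i := i) (i' := i) (h := 1) (by simp)).1

theorem heckeCoc_one (i : HeckeIdx N p) : heckeCoc (1 : Gamma0 N) i = 1 :=
  (heckeNext_heckeCoc_eq (g := (1 : Gamma0 N)) (i := i) (i' := i) (h := 1) (by simp)).2

theorem heckeNext_heckeCoc_mul (g g' : Gamma0 N) (i : HeckeIdx N p) :
    heckeNext (g * g') i = heckeNext g' (heckeNext g i) ∧
      heckeCoc (g * g') i = heckeCoc g i * heckeCoc g' (heckeNext g i) := by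
  refine heckeNext_heckeCoc_eq ?_
  simp only [MulMemClass.coe_mul, Matrix.SpecialLinearGroup.coe_mul]
  rw [Matrix.mul_assoc, heckeCoc_mul_heckeMat, ← Matrix.mul_assoc, heckeCoc_mul_heckeMat,
    Matrix.mul_assoc]

theorem heckeNext_mul (g g' : Gamma0 N) (i : HeckeIdx N p) :
    heckeNext (g * g') i = heckeNext g' (heckeNext g i) := (heckeNext_heckeCoc_mul g g' i).1

theorem heckeCoc_mul (g g' : Gamma0 N) (i : HeckeIdx N p) :
    heckeCoc (g * g') i = heckeCoc g i * heckeCoc g' (heckeNext g i) :=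
  (heckeNext_heckeCoc_mul g g' i).2

/-- `i ↦ σ i` as a permutation. -/
def heckePerm (g : Gamma0 N) : Equiv.Perm (HeckeIdx N p) where
  toFun := heckeNext g
  invFun := heckeNext g⁻¹
  left_inv i := by rw [← heckeNext_mul, mul_inv_cancel, heckeNext_one]
  right_inv i := by rw [← heckeNext_mul, inv_mul_cancel, heckeNext_one]

theorem heckeNext_bijective (g : Gamma0 N) :
    Function.Bijective (heckeNext (p := p) g) := (heckePerm g).bijective

theorem heckeNext_pow (g : Gamma0 N) (n : ℕ) (i : HeckeIdx N p) :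
    heckeNext (g ^ n) i = (heckeNext g)^[n] i := by
  induction n with
  | zero => rw [pow_zero, heckeNext_one, Function.iterate_zero_apply]
  | succ n ih => rw [pow_succ, heckeNext_mul, ih, Function.iterate_succ_apply']

theorem heckeCoc_pow_sum {A : Type*} [AddCommGroup A] (φ : Additive (Gamma0 N) →+ A)
    (g : Gamma0 N) (n : ℕ) (i : HeckeIdx N p) :
    φ (Additive.ofMul (heckeCoc (g ^ n) i))
      = ∑ k ∈ Finset.range n, φ (Additive.ofMul (heckeCoc g ((heckeNext g)^[k] i))) := by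
  induction n with
  | zero => rw [pow_zero, heckeCoc_one, ofMul_one, map_zero, Finset.sum_range_zero]
  | succ n ih =>
    rw [pow_succ, heckeCoc_mul, ofMul_mul, map_add, ih, Finset.sum_range_succ, heckeNext_pow]

section Hom

variable (N p) (R : Type*) [Semiring R] (A : Type*) [AddCommGroup A] [Module R A]

/-- `(T_p φ)(γ) = ∑ᵢ φ(γᵢ)` for `αᵢ γ = γᵢ α_(σ i)`. -/
def heckeHom : (Additive (Gamma0 N) →+ A) →ₗ[R] (Additive (Gamma0 N) →+ A) where
  toFun φ :=
    { toFun := fun g => ∑ i : HeckeIdx N p, φ (Additive.ofMul (heckeCoc (Additive.toMul g) i))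
      map_zero' := by simp [heckeCoc_one]
      map_add' := fun g g' => by
        rw [toMul_add]
        simp only [heckeCoc_mul, ofMul_mul, map_add, Finset.sum_add_distrib]
        congr 1
        exact Fintype.sum_bijective _ (heckeNext_bijective (Additive.toMul g)) _ _ fun i => rfl }
  map_add' φ ψ := by
    ext g
    simp [Finset.sum_add_distrib]
  map_smul' c φ := by
    ext g
    simp [Finset.smul_sum]

variable {N p R A}

theorem heckeHom_apply (φ : Additive (Gamma0 N) →+ A) (g : Gamma0 N) :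
    heckeHom N p R A φ (Additive.ofMul g)
      = ∑ i : HeckeIdx N p, φ (Additive.ofMul (heckeCoc g i)) := rfl

/-- The operator may be computed with any other system of coset representatives
`u_i α_(π i)`. -/
theorem heckeHom_apply_eq_of_reps {ι : Type*} [Fintype ι] (π : ι ≃ HeckeIdx N p) (u : ι → Gamma0 N)
    (φ : Additive (Gamma0 N) →+ A) (g : Gamma0 N) (τ : ι → ι) (c : ι → Gamma0 N)
    (h : ∀ i, ((c i : SL(2, ℤ)) : Matrix (Fin 2) (Fin 2) ℤ) *
        (((u (τ i) : SL(2, ℤ)) : Matrix (Fin 2) (Fin 2) ℤ) * heckeMat (π (τ i)))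
      = ((u i : SL(2, ℤ)) : Matrix (Fin 2) (Fin 2) ℤ) * heckeMat (π i) *
        ((g : SL(2, ℤ)) : Matrix (Fin 2) (Fin 2) ℤ)) :
    heckeHom N p R A φ (Additive.ofMul g) = ∑ i, φ (Additive.ofMul (c i)) := by
  have key : ∀ i, heckeNext g (π i) = π (τ i) ∧ heckeCoc g (π i) = (u i)⁻¹ * c i * u (τ i) :=
    fun i => heckeNext_heckeCoc_eq (by
      simp only [MulMemClass.coe_mul, InvMemClass.coe_inv, Matrix.SpecialLinearGroup.coe_mul,
        Matrix.mul_assoc]
      rw [h i, ← Matrix.mul_assoc, ← Matrix.mul_assoc, ← Matrix.SpecialLinearGroup.coe_mul,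
        inv_mul_cancel, Matrix.SpecialLinearGroup.coe_one, one_mul])
  have hτ : Function.Bijective τ := by
    have : τ = π.symm ∘ heckeNext g ∘ π := funext fun i => by
      simp only [Function.comp_apply, (key i).1, Equiv.symm_apply_apply]
    rw [this]
    exact π.symm.bijective.comp ((heckeNext_bijective g).comp π.bijective)
  rw [heckeHom_apply, ← π.sum_comp]
  simp only [fun i => (key i).2, ofMul_mul, ofMul_inv, map_add, map_neg, Finset.sum_add_distrib,
    Finset.sum_neg_distrib]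
  rw [Fintype.sum_bijective τ hτ (fun i => φ (Additive.ofMul (u (τ i))))
    (fun i => φ (Additive.ofMul (u i))) fun i => rfl]
  abel

theorem heckeHom_comp {R' : Type*} [Semiring R'] {B : Type*} [AddCommGroup B] [Module R' B]
    (f : A →+ B) (φ : Additive (Gamma0 N) →+ A) :
    heckeHom N p R' B (f.comp φ) = f.comp (heckeHom N p R A φ) := by
  refine AddMonoidHom.ext fun g => ?_
  obtain ⟨g, rfl⟩ := Additive.ofMul.surjective g
  simp [heckeHom_apply]

theorem trace_heckeCoc_pow_of_fixed {g : Gamma0 N} {i : HeckeIdx N p} {n : ℕ}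
    (hn : (heckeNext g)^[n] i = i) :
    ((heckeCoc (g ^ n) i : SL(2, ℤ)) : Matrix (Fin 2) (Fin 2) ℤ).trace
      = (((g ^ n : Gamma0 N) : SL(2, ℤ)) : Matrix (Fin 2) (Fin 2) ℤ).trace := by
  have h := heckeCoc_mul_heckeMat (g ^ n) i
  rw [heckeNext_pow, hn] at h
  have h' := congrArg (fun X => (X * (heckeMat i).adjugate).trace) h
  simp only [Matrix.mul_assoc, Matrix.mul_adjugate, Matrix.trace_mul_comm (heckeMat i),
    Matrix.adjugate_mul, det_heckeMat, Matrix.mul_smul, Matrix.mul_one, Matrix.trace_smul,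
    smul_eq_mul] at h'
  exact mul_left_cancel₀ (by exact_mod_cast hp.out.ne_zero) h'

/-- A class of traces closed under powers and killed by `φ` is killed by `T_p φ`. -/
theorem heckeHom_apply_eq_zero (φ : Additive (Gamma0 N) →+ A) (g : Gamma0 N)
    (h : ∀ (n : ℕ) (c : Gamma0 N), ((c : SL(2, ℤ)) : Matrix (Fin 2) (Fin 2) ℤ).trace
      = (((g ^ n : Gamma0 N) : SL(2, ℤ)) : Matrix (Fin 2) (Fin 2) ℤ).trace →
        φ (Additive.ofMul c) = 0) :
    heckeHom N p R A φ (Additive.ofMul g) = 0 := by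
  classical
  let σ : Equiv.Perm (HeckeIdx N p) := heckePerm g
  rw [heckeHom_apply, ← Finset.sum_fiberwise Finset.univ
    (fun i => Quotient.mk (Equiv.Perm.SameCycle.setoid σ) i)]
  refine Finset.sum_eq_zero fun o _ => ?_
  obtain ⟨i, rfl⟩ := Quotient.exists_rep o
  set m := Function.minimalPeriod (heckeNext g) i with hm
  have hper : i ∈ Function.periodicPts (heckeNext g) :=
    Function.Injective.mem_periodicPts (heckeNext_bijective g).1 i
  have horb : (Finset.univ.filter fun j =>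
      Quotient.mk (Equiv.Perm.SameCycle.setoid σ) j
        = Quotient.mk (Equiv.Perm.SameCycle.setoid σ) i)
      = (Finset.range m).image fun k => (heckeNext g)^[k] i := by
    ext j
    simp only [Finset.mem_filter, Finset.mem_univ, true_and, Finset.mem_image, Finset.mem_range,
      Quotient.eq]
    constructor
    · intro hj
      obtain ⟨k, hk⟩ := (Equiv.Perm.SameCycle.exists_nat_pow_eq (hj.symm : σ.SameCycle i j))
      refine ⟨k % m, Nat.mod_lt _ (Function.minimalPeriod_pos_of_mem_periodicPts hper), ?_⟩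
      rw [hm, Function.iterate_mod_minimalPeriod_eq, ← hk]
      rw [Equiv.Perm.coe_pow]
      rfl
    · rintro ⟨k, -, rfl⟩
      refine Equiv.Perm.SameCycle.symm ⟨(k : ℤ), ?_⟩
      rw [zpow_natCast, Equiv.Perm.coe_pow]
      rfl
  rw [horb, Finset.sum_image, ← heckeCoc_pow_sum]
  · exact h m _ (trace_heckeCoc_pow_of_fixed Function.iterate_minimalPeriod)
  · intro a ha b hb hab
    exact Function.iterate_injOn_Iio_minimalPeriod
      (Set.mem_Iio.mpr (Finset.mem_range.mp (Finset.mem_coe.mp ha)))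
      (Set.mem_Iio.mpr (Finset.mem_range.mp (Finset.mem_coe.mp hb))) hab

end Hom

section Trace

theorem trace_sq (A : SL(2, ℤ)) :
    ((A ^ 2 : SL(2, ℤ)) : Matrix (Fin 2) (Fin 2) ℤ).trace
      = (A : Matrix (Fin 2) (Fin 2) ℤ).trace ^ 2 - 2 := by
  have := A.det_coe
  rw [Matrix.det_fin_two] at this
  rw [pow_two, Matrix.SpecialLinearGroup.coe_mul, Matrix.trace_fin_two, Matrix.trace_fin_two,
    Matrix.mul_apply, Matrix.mul_apply, Fin.sum_univ_two, Fin.sum_univ_two]
  linear_combination -2 * this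

theorem trace_pow_add_two (A : SL(2, ℤ)) (n : ℕ) :
    ((A ^ (n + 2) : SL(2, ℤ)) : Matrix (Fin 2) (Fin 2) ℤ).trace
      = (A : Matrix (Fin 2) (Fin 2) ℤ).trace
          * ((A ^ (n + 1) : SL(2, ℤ)) : Matrix (Fin 2) (Fin 2) ℤ).trace
        - ((A ^ n : SL(2, ℤ)) : Matrix (Fin 2) (Fin 2) ℤ).trace := by
  have := A.det_coe
  rw [Matrix.det_fin_two] at this
  rw [show A ^ (n + 2) = A ^ n * A * A by rw [← pow_succ, ← pow_succ], pow_succ]
  simp only [Matrix.SpecialLinearGroup.coe_mul, Matrix.trace_fin_two, Matrix.mul_apply,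
    Fin.sum_univ_two]
  linear_combination
    -(((A ^ n : SL(2, ℤ)) 0 0 : ℤ) + ((A ^ n : SL(2, ℤ)) 1 1 : ℤ)) * this

theorem trace_one_SL : ((1 : SL(2, ℤ)) : Matrix (Fin 2) (Fin 2) ℤ).trace = 2 := by
  simp [Matrix.trace_fin_two]

theorem trace_pow_sq_eq_four {A : SL(2, ℤ)}
    (h : (A : Matrix (Fin 2) (Fin 2) ℤ).trace ^ 2 = 4) (n : ℕ) :
    ((A ^ n : SL(2, ℤ)) : Matrix (Fin 2) (Fin 2) ℤ).trace ^ 2 = 4 := by
  set t := (A : Matrix (Fin 2) (Fin 2) ℤ).trace with ht
  have key : ∀ n, ((A ^ n : SL(2, ℤ)) : Matrix (Fin 2) (Fin 2) ℤ).trace * 2 ^ n = 2 * t ^ n := by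
    intro n
    induction n using Nat.twoStepInduction with
    | zero => simp [trace_one_SL]
    | one => simp [ht, mul_comm]
    | more n ih0 ih1 =>
      rw [trace_pow_add_two, ← ht]
      linear_combination 2 * t * ih1 - 4 * ih0 + (2 * t ^ n) * h
  have := congrArg (· ^ 2) (key n)
  simp only [mul_pow, ← pow_mul] at this
  rw [mul_comm n 2, pow_mul, pow_mul, h] at this
  exact mul_right_cancel₀ (pow_ne_zero n (by norm_num : (4 : ℤ) ≠ 0)) (this.trans (by ring))

theorem trace_pow_sq_le_four {A : SL(2, ℤ)}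
    (h : (A : Matrix (Fin 2) (Fin 2) ℤ).trace ^ 2 ≤ 4) (n : ℕ) :
    ((A ^ n : SL(2, ℤ)) : Matrix (Fin 2) (Fin 2) ℤ).trace ^ 2 ≤ 4 := by
  set t := (A : Matrix (Fin 2) (Fin 2) ℤ).trace with ht
  rcases h.eq_or_lt with h4 | hlt
  · exact (trace_pow_sq_eq_four h4 n).le
  have h1 : -2 < t ∧ t < 2 := ⟨by nlinarith, by nlinarith⟩
  have key : ∀ n, ((A ^ n : SL(2, ℤ)) : Matrix (Fin 2) (Fin 2) ℤ).trace ^ 2 ≤ 4 ∧
      ((A ^ (n + 1) : SL(2, ℤ)) : Matrix (Fin 2) (Fin 2) ℤ).trace ^ 2 ≤ 4 ∧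
      ((A ^ n : SL(2, ℤ)) : Matrix (Fin 2) (Fin 2) ℤ).trace ^ 2
        - t * ((A ^ n : SL(2, ℤ)) : Matrix (Fin 2) (Fin 2) ℤ).trace
          * ((A ^ (n + 1) : SL(2, ℤ)) : Matrix (Fin 2) (Fin 2) ℤ).trace
        + ((A ^ (n + 1) : SL(2, ℤ)) : Matrix (Fin 2) (Fin 2) ℤ).trace ^ 2 = 4 - t ^ 2 := by
    have hq : ∀ x y : ℤ, x ^ 2 - t * x * y + y ^ 2 = 4 - t ^ 2 → x ^ 2 ≤ 4 := by
      intro x y hxy
      have : (4 - t ^ 2) * x ^ 2 ≤ 4 * (4 - t ^ 2) := by
        nlinarith [sq_nonneg (2 * y - t * x)]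
      nlinarith
    intro n
    induction n with
    | zero =>
      refine ⟨by simp [trace_one_SL], by simpa [← ht] using h, ?_⟩
      simp [trace_one_SL, ← ht]
      ring
    | succ n ih =>
      have e : ((A ^ (n + 1) : SL(2, ℤ)) : Matrix (Fin 2) (Fin 2) ℤ).trace ^ 2
          - t * ((A ^ (n + 1) : SL(2, ℤ)) : Matrix (Fin 2) (Fin 2) ℤ).trace
            * ((A ^ (n + 1 + 1) : SL(2, ℤ)) : Matrix (Fin 2) (Fin 2) ℤ).trace
          + ((A ^ (n + 1 + 1) : SL(2, ℤ)) : Matrix (Fin 2) (Fin 2) ℤ).trace ^ 2 = 4 - t ^ 2 := by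
        rw [trace_pow_add_two, ← ht]
        linear_combination ih.2.2
      exact ⟨ih.2.1, hq _ ((A ^ (n + 1) : SL(2, ℤ)) : Matrix (Fin 2) (Fin 2) ℤ).trace
        (by linear_combination e), e⟩
  exact (key n).1

end Trace

section Preserve

variable {R : Type*} [Semiring R] {A : Type*} [AddCommGroup A] [Module R A]

open ModularCurve.Period

theorem heckeHom_mem_parabolicHoms {φ : Additive (Gamma0 N) →+ A}
    (hφ : φ ∈ parabolicHoms R (Gamma0 N) A) :
    heckeHom N p R A φ ∈ parabolicHoms R (Gamma0 N) A := fun g hg =>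
  heckeHom_apply_eq_zero φ g fun n c hc => hφ c (by
    rw [hc, SubmonoidClass.coe_pow]
    exact trace_pow_sq_eq_four hg n)

theorem heckeHom_mem_parEllHoms {φ : Additive (Gamma0 N) →+ A}
    (hφ : φ ∈ parEllHoms N A) : heckeHom N p R A φ ∈ parEllHoms N A := fun g hg =>
  heckeHom_apply_eq_zero φ g fun n c hc => hφ c (by
    rw [IsNonHyperbolic, hc, SubmonoidClass.coe_pow]
    exact trace_pow_sq_le_four hg n)

/-- `j ↦ -j` on the upper triangular indices. -/
def negIdx : HeckeIdx N p ≃ HeckeIdx N p :=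
  haveI : NeZero p := ⟨hp.out.ne_zero⟩
  Equiv.subtypeEquiv (Equiv.optionCongr (Equiv.neg (Fin p))) fun o => by cases o <;> simp

theorem jConjMat_heckeMat (i : HeckeIdx N p) :
    ∃ u : Gamma0 N, jConjMat (heckeMat i)
      = ((u : SL(2, ℤ)) : Matrix (Fin 2) (Fin 2) ℤ) * heckeMat (negIdx i) := by
  have : NeZero p := ⟨hp.out.ne_zero⟩
  induction i using HeckeIdx.cases_upper_diag with
  | h1 j =>
    have hv : negIdx (HeckeIdx.upper N j) = HeckeIdx.upper N (-j) := rfl
    obtain ⟨e, he⟩ : (p : ℤ) ∣ -((j : ℕ) : ℤ) - (((-j : Fin p) : ℕ) : ℤ) := by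
      rw [← ZMod.intCast_zmod_eq_zero_iff_dvd]
      push_cast
      rw [Fin.val_neg]
      split_ifs with hj
      · simp [hj]
      · rw [Nat.cast_sub j.isLt.le, ZMod.natCast_self]
        ring
    refine ⟨⟨⟨!![1, e; 0, 1], by simp [Matrix.det_fin_two_of]⟩, Gamma0_mem.mpr (by simp)⟩, ?_⟩
    rw [hv, heckeMat_upper, heckeMat_upper]
    ext r c
    fin_cases r <;> fin_cases c <;> simp [Matrix.mul_apply, Fin.sum_univ_two] <;>
      linear_combination he
  | h2 h =>
    refine ⟨1, ?_⟩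
    have hv : negIdx (HeckeIdx.diag h : HeckeIdx N p) = HeckeIdx.diag h := rfl
    rw [hv, heckeMat_diag]
    ext r c
    fin_cases r <;> fin_cases c <;> simp

theorem heckeHom_charInvolution (φ : Additive (Gamma0 N) →+ A) :
    heckeHom N p R A (charInvolution N R A φ) = charInvolution N R A (heckeHom N p R A φ) := by
  refine AddMonoidHom.ext fun g => ?_
  obtain ⟨g, rfl⟩ := Additive.ofMul.surjective g
  choose u hu using jConjMat_heckeMat (N := N) (p := p)
  symm
  refine (heckeHom_apply_eq_of_reps (R := R) negIdx u φ (jConjGamma0 N g) (heckeNext g)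
    (fun i => jConjGamma0 N (heckeCoc g i)) fun i => ?_).trans ?_
  · rw [← hu, ← hu, jConjGamma0_coe, jConjGamma0_coe, jConjSL_coe, jConjSL_coe, ← jConjMat_mul,
      ← jConjMat_mul, heckeCoc_mul_heckeMat]
  · rfl

end Preserve

end Fermat.Agent.HK
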