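import Fermat.Agent.HK.Multiplier
import Fermat.Agent.MF.Cosets.Conjugacy
import Fermat.Agent.MF.ParHom.Defs

/-!
# The character of a root kills central, parabolic and elliptic elements

The hypotheses on the pair `(u, v)` are the two conditions `FixedPointAdmissible` and
`CuspAdmissible`; both follow from "all orders of `u / v` at places are divisible by `n`".
-/

set_option autoImplicit false

set_option linter.unusedSectionVars false

noncomputable section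

open UpperHalfPlane CongruenceSubgroup
open scoped MatrixGroups ModularForm Manifold

namespace Fermat.Agent.HK

open Fermat.Agent.MF (MForm)

variable {n N : ℕ} [NeZero N] {k : ℤ}

/-- `(ord_τ u - ord_τ v) / n` is an integer compatible with the stabiliser of `τ`. -/
def FixedPointAdmissible (n : ℕ) (u v : MForm N k) : Prop :=
  ∀ τ : ℍ, ∃ d : ℤ, MF.ordAtH u τ - MF.ordAtH v τ = n * d ∧
    ∀ γ : SL(2, ℤ), γ ∈ Gamma0 N → γ • τ = τ → denom (γ : GL (Fin 2) ℝ) τ ^ (2 * d) = 1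

/-- At every cusp and every period the orders of `u` and `v` agree modulo `n`. -/
def CuspAdmissible (n : ℕ) (u v : MForm N k) : Prop :=
  ∀ (A : SL(2, ℤ)) (w : ℕ), 0 < w → A * ModularGroup.T ^ (w : ℤ) * A⁻¹ ∈ Gamma0 N →
    (n : ℤ) ∣ cuspOrd w (⇑u ∣[k] A) - cuspOrd w (⇑v ∣[k] A)

theorem neg_one_mem_Gamma0 : (-1 : SL(2, ℤ)) ∈ Gamma0 N := by
  rw [Gamma0_mem]
  simp

theorem IsRoot.ordAtH_eq {u v : MForm N k} {G : ℍ → ℂ} (hG : IsRoot n u v G) (hn : n ≠ 0)
    (hu : u ≠ 0) (hv : v ≠ 0) (τ : ℍ) :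
    (n : ℤ) * (MF.ordAtH G τ - MF.ordAtH v τ) = MF.ordAtH u τ - MF.ordAtH v τ := by
  obtain ⟨m, rfl⟩ := Nat.exists_eq_succ_of_ne_zero hn
  have hua := MF.analyticAt_ofComplex_comp (ModularFormClass.holo u) τ
  have hva := MF.analyticAt_ofComplex_comp (ModularFormClass.holo v) τ
  have hGa := MF.analyticAt_ofComplex_comp hG.mdiff τ
  obtain ⟨a, ha⟩ := ENat.ne_top_iff_exists.1
    (MF.analyticOrderAt_ne_top (ModularFormClass.holo u) (MF.mform_coe_ne_zero hu) τ)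
  obtain ⟨b, hb⟩ := ENat.ne_top_iff_exists.1
    (MF.analyticOrderAt_ne_top (ModularFormClass.holo v) (MF.mform_coe_ne_zero hv) τ)
  obtain ⟨e, he⟩ := ENat.ne_top_iff_exists.1
    (MF.analyticOrderAt_ne_top hG.mdiff (hG.ne_zero hn hu hv) τ)
  have hfun : (G ∘ ofComplex) ^ (m + 1) = (⇑u ∘ ofComplex) * (⇑v ∘ ofComplex) ^ m := by
    funext z
    exact hG.pow_eq (ofComplex z)
  have h := congrArg (fun f : ℂ → ℂ => analyticOrderAt f (τ : ℂ)) hfun
  change analyticOrderAt _ _ = analyticOrderAt _ _ at h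
  rw [analyticOrderAt_pow hGa, analyticOrderAt_mul hua (hva.pow m), analyticOrderAt_pow hva,
    ← ha, ← hb, ← he] at h
  simp only [nsmul_eq_mul] at h
  norm_cast at h
  simp only [MF.ordAtH, analyticOrderNatAt, ← ha, ← hb, ← he, ENat.toNat_natCast]
  have hZ : ((m : ℤ) + 1) * e = a + m * b := by exact_mod_cast h
  push_cast
  linear_combination hZ

theorem IsRoot.mult_eq_one_of_fixed {u v : MForm N k} {G : ℍ → ℂ} (hG : IsRoot n u v G)
    (hn : n ≠ 0) (hu : u ≠ 0) (hv : v ≠ 0) (hadm : FixedPointAdmissible n u v) {γ : SL(2, ℤ)}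
    (hγ : γ ∈ Gamma0 N) {τ : ℍ} (hfix : γ • τ = τ) {c : ℂ} (hc : G ∣[k] γ = c • G) : c = 1 := by
  obtain ⟨d, hd, hst⟩ := hadm τ
  refine Fermat.Agent.HK.mult_eq_one_of_fixed hG.mdiff (ModularFormClass.holo v)
    (hG.ne_zero hn hu hv) (MF.mform_coe_ne_zero hv) hfix hc (mform_slash hγ) ?_
  rw [← hG.ordAtH_eq hn hu hv τ] at hd
  rw [mul_left_cancel₀ (Nat.cast_ne_zero.2 hn) hd]
  exact hst γ hγ hfix

theorem periodic_slash_mform (f : MForm N k) {A : SL(2, ℤ)} {w : ℤ}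
    (h : A * ModularGroup.T ^ w * A⁻¹ ∈ Gamma0 N) :
    Function.Periodic ((⇑f ∣[k] A) ∘ ofComplex) ((w : ℝ) : ℂ) :=
  periodic_ofComplex_of_vadd fun τ => by
    rw [slash_apply_vadd (c := 1) (by rw [one_smul, mform_slash h]) τ, one_mul]

theorem mform_slash_ne_zero {f : MForm N k} (hf : f ≠ 0) (A : SL(2, ℤ)) : ⇑f ∣[k] A ≠ 0 := by
  rw [Ne, SlashAction.slash_eq_zero_iff]
  exact MF.mform_coe_ne_zero hf

theorem IsRoot.mult_eq_one_of_parabolic {u v : MForm N k} {G : ℍ → ℂ} (hG : IsRoot n u v G)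
    (hn : n ≠ 0) (hu : u ≠ 0) (hv : v ≠ 0) (hadm : CuspAdmissible n u v) {A : SL(2, ℤ)} {w : ℕ}
    (hw : 0 < w) (hA : A * ModularGroup.T ^ (w : ℤ) * A⁻¹ ∈ Gamma0 N) {c : ℂ}
    (hc : G ∣[k] (A * ModularGroup.T ^ (w : ℤ) * A⁻¹) = c • G) : c = 1 := by
  have hp : ∀ f : MForm N k, Function.Periodic ((⇑f ∣[k] A) ∘ ofComplex) ((w : ℝ) : ℂ) := fun f => by
    simpa using periodic_slash_mform f hA
  obtain ⟨m, rfl⟩ := Nat.exists_eq_succ_of_ne_zero hn
  refine root_periodic_at_cusp hn (w := (w : ℝ)) (P := G ∣[k] A) (by exact_mod_cast hw)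
    (mdiff_slash hG.mdiff k A) (mdiff_slash (ModularFormClass.holo u) k A)
    (mdiff_slash (ModularFormClass.holo v) k A) (mform_slash_ne_zero hu A)
    (mform_slash_ne_zero hv A) (hp u) (hp v) (ModularFormClass.bdd_at_infty_slash u A)
    (ModularFormClass.bdd_at_infty_slash v A) (fun τ => ?_) (hadm A w hw hA) (fun τ => ?_)
  · rw [ModularForm.SL_slash_apply, ModularForm.SL_slash_apply, ModularForm.SL_slash_apply,
      mul_pow, hG.pow_eq, Nat.succ_sub_one, pow_succ']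
    ring
  · simpa using slash_apply_vadd hc τ

/-- The character of a root of an admissible pair lies in `parEllHoms`. -/
theorem IsRoot.mult_mem_parEllHoms [NeZero n] {u v : MForm N k} {G : ℍ → ℂ}
    (hG : IsRoot n u v G) (hu : u ≠ 0) (hv : v ≠ 0) (hH : FixedPointAdmissible n u v)
    (hC : CuspAdmissible n u v) {φ : Additive (Gamma0 N) →+ ZMod n} (hφ : HasMult k G φ) :
    φ ∈ parEllHoms N (ZMod n) := by
  have hn : n ≠ 0 := NeZero.ne n
  have key : ∀ γ : Gamma0 N, ZMod.stdAddChar (φ (Additive.ofMul γ)) = 1 →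
      φ (Additive.ofMul γ) = 0 := fun γ h =>
    ZMod.injective_stdAddChar (by rw [h, AddChar.map_zero_eq_one])
  have hneg : ∀ γ : Gamma0 N, ∀ τ : ℍ, (γ : SL(2, ℤ)) • τ = τ → φ (Additive.ofMul γ) = 0 :=
    fun γ τ hτ => key γ (hG.mult_eq_one_of_fixed hn hu hv hH γ.2 hτ (hφ γ))
  have hpar : ∀ (A : SL(2, ℤ)) (w : ℕ) (h : A * ModularGroup.T ^ (w : ℤ) * A⁻¹ ∈ Gamma0 N),
      φ (Additive.ofMul ⟨_, h⟩) = 0 := by
    intro A w h
    rcases Nat.eq_zero_or_pos w with rfl | hw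
    · refine hneg _ UpperHalfPlane.I ?_
      simp
    · exact key _ (hG.mult_eq_one_of_parabolic hn hu hv hC hw h (hφ ⟨_, h⟩))
  have hparZ : ∀ (A : SL(2, ℤ)) (w : ℤ) (h : A * ModularGroup.T ^ w * A⁻¹ ∈ Gamma0 N),
      φ (Additive.ofMul ⟨_, h⟩) = 0 := by
    intro A w h
    obtain ⟨m, rfl | rfl⟩ := w.eq_nat_or_neg
    · exact hpar A m h
    · have h' : A * ModularGroup.T ^ (m : ℤ) * A⁻¹ ∈ Gamma0 N := by
        have := inv_mem h
        rwa [show (A * ModularGroup.T ^ (-(m : ℤ)) * A⁻¹)⁻¹ = A * ModularGroup.T ^ (m : ℤ) * A⁻¹ by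
          group] at this
      have e : (⟨_, h⟩ : Gamma0 N) = (⟨_, h'⟩ : Gamma0 N)⁻¹ := Subtype.ext (by
        rw [InvMemClass.coe_inv]
        group)
      rw [e, ofMul_inv, map_neg, hpar A m h', neg_zero]
  intro γ hγ
  rcases lt_or_eq_of_le hγ with hlt | heq
  · obtain ⟨τ, hτ⟩ := exists_fixed_of_trace_sq_lt_four hlt
    exact hneg γ τ hτ
  · obtain ⟨A, w, h | h⟩ := MF.Cosets.trace_sq_eq_four_iff.1 heq
    · have h' : A * ModularGroup.T ^ w * A⁻¹ ∈ Gamma0 N := h ▸ γ.2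
      rw [show γ = ⟨_, h'⟩ from Subtype.ext h]
      exact hparZ A w h'
    · have h' : A * ModularGroup.T ^ w * A⁻¹ ∈ Gamma0 N := by
        have hmem := mul_mem (neg_one_mem_Gamma0 (N := N)) γ.2
        rwa [neg_one_mul, h, neg_neg] at hmem
      have e : γ = ⟨-1, neg_one_mem_Gamma0⟩ * ⟨_, h'⟩ := Subtype.ext (by simp [h])
      rw [e, ofMul_mul, map_add, hparZ A w h', add_zero]
      refine hneg _ UpperHalfPlane.I ?_
      simp

/-! ### Comparison with `ellParHoms` -/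

theorem pow_twelve_eq_one_of_trace_sq_lt_four {γ : SL(2, ℤ)}
    (h : (γ : Matrix (Fin 2) (Fin 2) ℤ).trace ^ 2 < 4) : γ ^ 12 = 1 := by
  set M := (γ : Matrix (Fin 2) (Fin 2) ℤ) with hM
  set t := M.trace with ht
  have ht' : t = -1 ∨ t = 0 ∨ t = 1 := by
    have h1 : -2 < t := by nlinarith
    have h2 : t < 2 := by nlinarith
    omega
  have hsq : M ^ 2 = t • M - 1 := by
    have hd : M 0 0 * M 1 1 - M 0 1 * M 1 0 = 1 :=
      (Matrix.det_fin_two M).symm.trans γ.det_coe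
    ext i j
    fin_cases i <;> fin_cases j <;>
      simp only [pow_two, Matrix.mul_apply, Fin.sum_univ_two, ht, Matrix.trace_fin_two,
        Matrix.sub_apply, Matrix.smul_apply, smul_eq_mul, Matrix.one_apply_eq,
        Fin.zero_eta, Fin.mk_one, Fin.isValue, Matrix.one_apply_ne (show (0 : Fin 2) ≠ 1 by decide),
        Matrix.one_apply_ne (show (1 : Fin 2) ≠ 0 by decide)] <;>
      linarith
  apply Subtype.ext
  rw [Matrix.SpecialLinearGroup.coe_pow, Matrix.SpecialLinearGroup.coe_one]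
  change M ^ 12 = 1
  have h3 : M ^ 3 = t • (t • M - 1) - M := by
    rw [pow_succ, hsq, sub_mul, one_mul, Matrix.smul_mul, ← pow_two, hsq]
  rcases ht' with ht0 | ht0 | ht0 <;> rw [ht0] at hsq h3 <;> simp at hsq h3
  · rw [show (12 : ℕ) = 3 * 4 from rfl, pow_mul, h3]
    simp
  · rw [show (12 : ℕ) = 2 * 6 from rfl, pow_mul, hsq]
    simp [Even.neg_pow (by decide : Even 6)]
  · rw [show (12 : ℕ) = 3 * 4 from rfl, pow_mul, h3]
    simp [Even.neg_pow (by decide : Even 4)]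

theorem isNonHyperbolic_iff {γ : SL(2, ℤ)} :
    IsNonHyperbolic γ ↔ (γ : Matrix (Fin 2) (Fin 2) ℤ).trace ^ 2 = 4 ∨ IsOfFinOrder γ := by
  constructor
  · intro h
    rcases lt_or_eq_of_le h with hlt | heq
    · exact Or.inr (isOfFinOrder_iff_pow_eq_one.2
        ⟨12, by norm_num, pow_twelve_eq_one_of_trace_sq_lt_four hlt⟩)
    · exact Or.inl heq
  · rintro (h | h)
    · exact h.le
    · rcases MF.Cosets.trace_sq_lt_four_of_isOfFinOrder h with rfl | rfl | h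
      · simp [IsNonHyperbolic]
      · simp [IsNonHyperbolic]
      · exact h.le

theorem mem_parEllHoms_iff_mem_ellParHoms {A : Type*} [AddCommGroup A]
    {φ : Additive (Gamma0 N) →+ A} :
    φ ∈ parEllHoms N A ↔ φ ∈ MF.ParHom.ellParHoms ℤ (Gamma0 N) A := by
  refine ⟨fun h => ⟨fun γ hγ => h γ (isNonHyperbolic_iff.2 (Or.inl hγ)), fun γ hγ =>
    h γ (isNonHyperbolic_iff.2 (Or.inr (Submonoid.isOfFinOrder_coe.2 hγ)))⟩, fun h γ hγ => ?_⟩
  rcases isNonHyperbolic_iff.1 hγ with h' | h'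
  · exact h.1 γ h'
  · exact h.2 γ (Submonoid.isOfFinOrder_coe.1 h')

end Fermat.Agent.HK
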