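/-
`heckeStarHom = W ∘ heckeHom ∘ W`: the operator on Kummer characters is the Atkin–Lehner
conjugate of the operator on periods (they agree for `p ∤ N`; `U_p` becomes its transpose).
-/
import Fermat.Agent.HK.HeckeStar
import Fermat.Agent.HK.HeckeHom

set_option autoImplicit false

noncomputable section

open CongruenceSubgroup Function Matrix
open scoped MatrixGroups

namespace Fermat.Agent.HK

variable {N p : ℕ} [NeZero N] [hp : Fact p.Prime]

omit [NeZero N] in
/-- `diag(p,1) h = scaleHom(h) diag(p,1)` over `ℤ`. -/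
theorem diagMat_mul_scaleHom (h : gamma0Sub N p) :
    !![(p : ℤ), 0; 0, 1] * (((h : Gamma0 N) : SL(2, ℤ)) : Matrix (Fin 2) (Fin 2) ℤ) =
      (((scaleHom N p h : Gamma0 N) : SL(2, ℤ)) : Matrix (Fin 2) (Fin 2) ℤ) *
        !![(p : ℤ), 0; 0, 1] := by
  obtain ⟨m, hm⟩ := dvd_of_mem_gamma0Sub N p h
  have hq := Int.mul_ediv_cancel_left m (show (p : ℤ) ≠ 0 by exact_mod_cast hp.out.ne_zero)
  rw [coe_scaleHom]
  ext i j
  fin_cases i <;> fin_cases j <;>
    simp [scaleMat, Matrix.mul_apply, Fin.sum_univ_two, hm, hq] <;> ring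

/-- Representatives of `Γ₀(Np) \ Γ₀(N)` indexed as the cosets of `T_p`. -/
def starIdxRep (i : HeckeIdx N p) : Gamma0 N :=
  match i.1, i.2 with
  | some j, _ => starRep N (j : ℤ)
  | none, h => starRepInf N hp.out fun h' => by simpa using h h'

omit [NeZero N] in
@[simp] theorem starIdxRep_upper (j : Fin p) :
    starIdxRep (HeckeIdx.upper N j) = starRep N (j : ℤ) := rfl

omit [NeZero N] in
@[simp] theorem starIdxRep_diag (h : ¬ p ∣ N) :
    starIdxRep (HeckeIdx.diag h) = starRepInf N hp.out h := rfl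

theorem starIdxRep_bijective :
    Bijective fun i : HeckeIdx N p =>
      (((starIdxRep i)⁻¹ : Gamma0 N) : Gamma0 N ⧸ gamma0Sub N p) := by
  by_cases hN : p ∣ N
  · have e : Bijective fun j : Fin p => HeckeIdx.upper N j := by
      refine ⟨fun a b h => Option.some.inj (congrArg Subtype.val h), fun i => ?_⟩
      induction i using HeckeIdx.cases_upper_diag with
      | h1 j => exact ⟨j, rfl⟩
      | h2 h => exact absurd hN h
    exact (Bijective.of_comp_iff _ e).mp (starRep_bijective N hp.out hN)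
  · let e : Option (Fin p) → HeckeIdx N p := fun o => ⟨o, fun h => absurd h hN⟩
    have he : Bijective e := ⟨fun a b h => congrArg Subtype.val h, fun i => ⟨i.1, rfl⟩⟩
    refine (Bijective.of_comp_iff _ he).mp ?_
    refine (congrArg Bijective (funext fun o => ?_)).mp (starRepFull_bijective N hp.out hN)
    cases o <;> rfl

/-- The conjugate of `diag(p,1) cᵢ` is `Γ₀(N)`-equivalent to `αᵢ`. -/
theorem exists_atkin_starIdxRep (i : HeckeIdx N p) :
    ∃ b : Gamma0 N, ((b : SL(2, ℤ)) : Matrix (Fin 2) (Fin 2) ℤ) * heckeMat i =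
      atkinMat N (!![(p : ℤ), 0; 0, 1] *
        ((starIdxRep i : SL(2, ℤ)) : Matrix (Fin 2) (Fin 2) ℤ)) := by
  have hN : (N : ℤ) ≠ 0 := by exact_mod_cast NeZero.ne N
  induction i using HeckeIdx.cases_upper_diag with
  | h1 j =>
    refine ⟨1, ?_⟩
    rw [starIdxRep_upper, heckeMat_upper]
    ext r s
    have e : -((N : ℤ) * (j : ℤ)) / (N : ℤ) = -(j : ℤ) := by
      rw [← mul_neg, Int.mul_ediv_cancel_left _ hN]
    fin_cases r <;> fin_cases s <;>
      simp [atkinMat, starRep, Matrix.mul_apply, Fin.sum_univ_two, e]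
  | h2 h =>
    obtain ⟨x, y, hxy, hrep⟩ : ∃ x y : ℤ, x * (p : ℤ) - y * (N : ℤ) = 1 ∧
        ((starRepInf N hp.out h : SL(2, ℤ)) : Matrix (Fin 2) (Fin 2) ℤ) =
          !![x, y; (N : ℤ), (p : ℤ)] :=
      ⟨_, _, (exists_starRepInf N hp.out h).choose_spec.choose_spec, rfl⟩
    have hd : (!![(1 : ℤ), -1; -((N : ℤ) * y), (p : ℤ) * x]).det = 1 := by
      rw [Matrix.det_fin_two_of]; linear_combination hxy
    refine ⟨⟨⟨_, hd⟩, mem_Gamma0_of_dvd N ((Dvd.intro y rfl).neg_right)⟩, ?_⟩
    rw [starIdxRep_diag, heckeMat_diag, hrep]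
    ext r s
    fin_cases r <;> fin_cases s <;>
      simp [atkinMat, Matrix.mul_apply, Fin.sum_univ_two, Int.ediv_self hN] <;> ring

variable (R : Type*) [Semiring R] (A : Type*) [AddCommGroup A] [Module R A]

/-- The transposed operator is the Atkin–Lehner conjugate of `heckeHom`. -/
theorem heckeStarHom_eq_atkin_conj [NeZero p] (χ : Additive (Gamma0 N) →+ A) :
    heckeStarHom N A p χ = atkinChar N A (heckeHom N p R A (atkinChar N A χ)) := by
  classical
  refine AddMonoidHom.ext fun g => ?_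
  obtain ⟨g, rfl⟩ := Additive.ofMul.surjective g
  have hc := starIdxRep_bijective (N := N) (p := p)
  set c := starIdxRep (N := N) (p := p)
  set σ := repPerm c hc g with hσ
  choose b hb using exists_atkin_starIdxRep (N := N) (p := p)
  rw [atkinChar_apply, heckeHom_apply, heckeStarHom_apply N A p c hc χ g σ (repPerm_mem c hc g)]
  set η : HeckeIdx N p → Gamma0 N := fun i =>
    scaleHom N p ⟨c i * g * (c (σ i))⁻¹, repPerm_mem c hc g i⟩ with hη
  have key : ∀ i, heckeCoc (atkinGamma0 N g) i = (b i)⁻¹ * atkinGamma0 N (η i) * b (σ i) := by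
    intro i
    refine (heckeNext_heckeCoc_eq (g := atkinGamma0 N g) (i := i) (i' := σ i) ?_).2
    have e0 : !![(p : ℤ), 0; 0, 1] * ((c i : SL(2, ℤ)) : Matrix (Fin 2) (Fin 2) ℤ) *
        ((g : SL(2, ℤ)) : Matrix (Fin 2) (Fin 2) ℤ) =
        ((η i : SL(2, ℤ)) : Matrix (Fin 2) (Fin 2) ℤ) *
          (!![(p : ℤ), 0; 0, 1] * ((c (σ i) : SL(2, ℤ)) : Matrix (Fin 2) (Fin 2) ℤ)) := by
      rw [← Matrix.mul_assoc, hη]
      rw [← diagMat_mul_scaleHom, Matrix.mul_assoc, Matrix.mul_assoc,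
        ← Matrix.SpecialLinearGroup.coe_mul, ← Matrix.SpecialLinearGroup.coe_mul]
      congr 2
      simp only [Subgroup.coe_mul, Subgroup.coe_inv, inv_mul_cancel_right]
    have hD : ∀ h : Gamma0 N, (N : ℤ) ∣
        (!![(p : ℤ), 0; 0, 1] * ((h : SL(2, ℤ)) : Matrix (Fin 2) (Fin 2) ℤ)) 1 0 := by
      intro h
      simpa [Matrix.mul_apply, Fin.sum_univ_two] using dvd_gamma0_lower_left N h
    have e1 := congrArg (atkinMat N) e0
    rw [atkinMat_mul N _ _ (hD (c i)) (dvd_gamma0_lower_left N g),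
      atkinMat_mul N _ _ (dvd_gamma0_lower_left N (η i)) (hD (c (σ i))), ← hb i, ← hb (σ i),
      ← coe_atkinGamma0, ← coe_atkinGamma0] at e1
    simp only [Subgroup.coe_mul, Subgroup.coe_inv, Matrix.SpecialLinearGroup.coe_mul]
    rw [Matrix.mul_assoc, Matrix.mul_assoc, ← e1, Matrix.mul_assoc, ← Matrix.mul_assoc,
      ← Matrix.SpecialLinearGroup.coe_mul, inv_mul_cancel, Matrix.SpecialLinearGroup.coe_one,
      Matrix.one_mul]
  simp only [key, ofMul_mul, ofMul_inv, map_add, map_neg, atkinChar_apply,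
    atkinGamma0_atkinGamma0, Finset.sum_add_distrib, Finset.sum_neg_distrib]
  rw [Equiv.sum_comp σ fun i => χ (Additive.ofMul (atkinGamma0 N (b i)))]
  abel

end Fermat.Agent.HK
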