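import Fermat.Prelude.Def_ModularCurve_HeckeOperatorTotal
import Fermat.Agent.FF.PushPull
import Fermat.Agent.HK.Degen
import Fermat.Agent.HK.PsiPrime

/-!
Finiteness and degrees of the degeneracy maps, and `HeckeInputsAlong`, given the degree of the
modular function field over `L(j)`.
-/

set_option autoImplicit false

noncomputable section

open AlgebraicCurve ModularCurve IntermediateField

namespace Fermat.Agent.HK.Corr

variable (L : Type*) [Field L] [Algebra ℚ L]

/-- `[L(j(dτ) : d ∣ M) : L(j)] = ψ(M)` for every level. -/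
structure DegreeInput : Prop where
  relfinrank_eq : ∀ (M : ℕ) [NeZero M],
    (jLine L).relfinrank (modField L M) = dedekindPsi M

variable {L}

theorem map_adjoin_jSer (M : ℕ) :
    (adjoin L ({⟨jSer L, jSer_mem_modField M⟩} : Set (modField L M))).map (modField L M).val
      = jLine L := by
  rw [adjoin_map, Set.image_singleton]
  rfl

theorem map_top_val (M : ℕ) :
    (⊤ : IntermediateField L (modField L M)).map (modField L M).val = modField L M := by
  rw [← AlgHom.fieldRange_eq_map, fieldRange_val]

theorem finiteDimensional_over_jSer (hD : DegreeInput L) (M : ℕ) [NeZero M] :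
    FiniteDimensional (adjoin L ({⟨jSer L, jSer_mem_modField M⟩} : Set (modField L M)))
      (modField L M) := by
  refine FiniteDimensional.of_finrank_pos ?_
  rw [← relfinrank_top_right, ← relfinrank_map_map _ _ (modField L M).val, map_adjoin_jSer,
    map_top_val, hD.relfinrank_eq]
  exact psi_pos M

theorem finiteAlong_degenMap (hD : DegreeInput L) {M M' : ℕ} [NeZero M'] (d : ℕ) [NeZero d]
    (h : M * d ∣ M') : FiniteAlong L (degenMap L d h) :=
  FF.finiteAlong_of_transcendental _ (transcendental_jSer_modField M)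
    (finiteDimensional_over_jSer hD M')

theorem isIntegral_degenMap (hD : DegreeInput L) {M M' : ℕ} [NeZero M'] (d : ℕ) [NeZero d]
    (h : M * d ∣ M') : (degenMap L d h).toRingHom.IsIntegral :=
  FF.isIntegral_of_finiteAlong (finiteAlong_degenMap hD d h)

theorem separableAlong_degenMap (hD : DegreeInput L) {M M' : ℕ} [NeZero M'] (d : ℕ) [NeZero d]
    (h : M * d ∣ M') : SeparableAlong L (degenMap L d h) :=
  haveI : CharZero L := charZero_of_injective_algebraMap (algebraMap ℚ L).injective
  haveI : CharZero (modField L M) :=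
    charZero_of_injective_algebraMap (algebraMap L (modField L M)).injective
  FF.separableAlong_of_charZero (isIntegral_degenMap hD d h)

theorem finrankAlong_eq_relfinrank_fieldRange {F F' : Type*} [Field F] [Field F'] [Algebra L F]
    [Algebra L F'] (φ : F →ₐ[L] F') :
    finrankAlong L φ = φ.fieldRange.relfinrank ⊤ := by
  rw [relfinrank_top_right]
  letI := algebraAlong φ
  exact Algebra.finrank_eq_of_equiv_equiv (AlgEquiv.ofInjectiveField φ).toRingEquiv
    (RingEquiv.refl F') (RingHom.ext fun _ => rfl)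

theorem finrankAlong_degenMap_eq_relfinrank {M M' : ℕ} (d : ℕ) [NeZero d] (h : M * d ∣ M') :
    finrankAlong L (degenMap L d h)
      = ((modField L M).map (qExpandAlg L d)).relfinrank (modField L M') := by
  rw [finrankAlong_eq_relfinrank_fieldRange, ← relfinrank_map_map _ _ (modField L M').val,
    fieldRange_degenMap, map_top_val]

theorem map_qExpandAlg_one (E : IntermediateField L (LaurentSeries L)) :
    E.map (qExpandAlg L 1) = E := by
  apply le_antisymm
  · rintro _ ⟨x, hx, rfl⟩
    show qExpand L 1 x ∈ E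
    rwa [qExpand_one_apply]
  · intro x hx
    exact ⟨x, hx, qExpand_one_apply x⟩

theorem finrankAlong_degenMap_one (hD : DegreeInput L) {M M' : ℕ} [NeZero M] [NeZero M']
    (h : M * 1 ∣ M') :
    dedekindPsi M * finrankAlong L (degenMap L 1 h) = dedekindPsi M' := by
  rw [finrankAlong_degenMap_eq_relfinrank, map_qExpandAlg_one, ← hD.relfinrank_eq M,
    ← hD.relfinrank_eq M']
  exact IntermediateField.relfinrank_mul_relfinrank (jLine_le_modField M)
    (modField_mono (mul_one M ▸ h))

section Hecke

variable (N ℓ : ℕ) [NeZero N] [NeZero ℓ]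

theorem heckeBetaBarIntegral_of (hD : DegreeInput L) : HeckeBetaBarIntegral L N ℓ := by
  unfold HeckeBetaBarIntegral
  rw [heckeBetaBar_eq_degenMap N ℓ dvd_rfl]
  exact isIntegral_degenMap hD ℓ dvd_rfl

theorem heckeAlphaBarIntegral_of (hD : DegreeInput L) : HeckeAlphaBarIntegral L N ℓ := by
  unfold HeckeAlphaBarIntegral
  rw [heckeAlphaBar_eq_degenMap N ℓ (mul_dvd_mul_left N (one_dvd ℓ))]
  exact isIntegral_degenMap hD 1 _

theorem finiteAlong_heckeAlphaBar (hD : DegreeInput L) : FiniteAlong L (heckeAlphaBar L N ℓ) := by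
  rw [heckeAlphaBar_eq_degenMap N ℓ (mul_dvd_mul_left N (one_dvd ℓ))]
  exact finiteAlong_degenMap hD 1 _

theorem finiteAlong_heckeBetaBar (hD : DegreeInput L) : FiniteAlong L (heckeBetaBar L N ℓ) := by
  rw [heckeBetaBar_eq_degenMap N ℓ dvd_rfl]
  exact finiteAlong_degenMap hD ℓ dvd_rfl

theorem separableAlong_heckeAlphaBar (hD : DegreeInput L) :
    SeparableAlong L (heckeAlphaBar L N ℓ) := by
  rw [heckeAlphaBar_eq_degenMap N ℓ (mul_dvd_mul_left N (one_dvd ℓ))]
  exact separableAlong_degenMap hD 1 _

theorem separableAlong_heckeBetaBar (hD : DegreeInput L) :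
    SeparableAlong L (heckeBetaBar L N ℓ) := by
  rw [heckeBetaBar_eq_degenMap N ℓ dvd_rfl]
  exact separableAlong_degenMap hD ℓ dvd_rfl

theorem normFormulaAlong_heckeAlphaBar (hD : DegreeInput L) :
    NormFormulaAlong L (heckeAlphaBar L N ℓ) (finiteAlong_heckeAlphaBar N ℓ hD) :=
  FF.normFormulaAlong _ _ (separableAlong_heckeAlphaBar N ℓ hD)

theorem fundamentalIdentityAlong_heckeBetaBar (hD : DegreeInput L)
    [HasPrincipalDivisors L (modField L (N * ℓ))] :
    FundamentalIdentityAlong L (heckeBetaBar L N ℓ) (heckeBetaBarIntegral_of N ℓ hD) :=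
  FF.fundamentalIdentityAlong _ _ (finiteAlong_heckeBetaBar N ℓ hD)
    (separableAlong_heckeBetaBar N ℓ hD)

theorem heckeInputsAlong_of (hD : DegreeInput L)
    [HasPrincipalDivisors L (modField L (N * ℓ))] : HeckeInputsAlong L N ℓ :=
  heckeInputsAlong_intro (heckeAlphaBarIntegral_of N ℓ hD) (heckeBetaBarIntegral_of N ℓ hD)
    (fundamentalIdentityAlong_heckeBetaBar N ℓ hD) (finiteAlong_heckeAlphaBar N ℓ hD)
    (normFormulaAlong_heckeAlphaBar N ℓ hD)

end Hecke

end Fermat.Agent.HK.Corr
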