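/-
`heckeOperatorBar` on Kummer data is `heckeStarHom`, given the degree of the function fields.
-/
import Fermat.Agent.HK.HeckeKummer
import Fermat.Agent.HK.HeckeInputs
import Fermat.Agent.HK.HeckeFF
import Fermat.Prelude.Def_GaloisRep_ComplexConjugation

set_option autoImplicit false

noncomputable section

open UpperHalfPlane CongruenceSubgroup Function ModularCurve AlgebraicCurve
open scoped MatrixGroups

namespace Fermat.Agent.HK

open Fermat.Agent.MF (MForm MFField qL)

variable {N : ℕ} [NeZero N] {L : Type*} [Field L] [Algebra ℚ L] (e : L →+* ℂ)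
  {n : ℕ} [NeZero n]

theorem dedekindPsi_mul_finrankAlong_alpha (hD : Corr.DegreeInput L) (p : ℕ) [NeZero p] :
    dedekindPsi N * finrankAlong L (heckeAlphaBar L N p) = dedekindPsi (N * p) := by
  have : NeZero (N * p) := ⟨Nat.mul_ne_zero (NeZero.ne N) (NeZero.ne p)⟩
  have h : N * 1 ∣ N * p := mul_dvd_mul_left N (one_dvd p)
  rw [Corr.heckeAlphaBar_eq_degenMap N p h]
  exact Corr.finrankAlong_degenMap_one hD h

theorem finrankAlong_alpha_of_dvd (hD : Corr.DegreeInput L) {p : ℕ} [NeZero p] (hp : p.Prime)
    (hpN : p ∣ N) : finrankAlong L (heckeAlphaBar L N p) = p := by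
  have h := dedekindPsi_mul_finrankAlong_alpha hD p (N := N)
  rw [Corr.psi_mul_prime_of_dvd hp hpN, mul_comm p] at h
  exact Nat.eq_of_mul_eq_mul_left (Corr.psi_pos N) h

theorem finrankAlong_alpha_of_not_dvd (hD : Corr.DegreeInput L) {p : ℕ} [NeZero p] (hp : p.Prime)
    (hpN : ¬ p ∣ N) : finrankAlong L (heckeAlphaBar L N p) = p + 1 := by
  have h := dedekindPsi_mul_finrankAlong_alpha hD p (N := N)
  rw [Corr.psi_mul_prime_of_not_dvd hp hpN, mul_comm (p + 1)] at h
  exact Nat.eq_of_mul_eq_mul_left (Corr.psi_pos N) h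

/-- `T_p` (or `U_p`) on Kummer data over any field of coefficients. -/
theorem heckeOperatorAlong_kummer_prime (hD : Corr.DegreeInput L) (p : ℕ) [NeZero p]
    (hp : p.Prime) {z : Pic0 L (laurentBaseChange L (modularFunctionFieldFull N))}
    {D : Divisor.degZero (K := L) (F := laurentBaseChange L (modularFunctionFieldFull N))}
    (hz : Pic0.mk D = z) {f : laurentBaseChange L (modularFunctionFieldFull N)} (hf : f ≠ 0)
    (hfD : ∀ v, (n • (D : Divisor L (laurentBaseChange L (modularFunctionFieldFull N)))) v = v.ord f)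
    {φ : Additive (Gamma0 N) →+ ZMod n}
    (h : IsKummer N (coeffMap e (f : LaurentSeries L)) φ) :
    ∃ (D' : Divisor.degZero (K := L) (F := laurentBaseChange L (modularFunctionFieldFull N)))
      (f' : laurentBaseChange L (modularFunctionFieldFull N)),
      Pic0.mk D' = heckeOperatorAlong L N p z ∧ f' ≠ 0 ∧
        (∀ v, (n • (D' : Divisor L (laurentBaseChange L (modularFunctionFieldFull N)))) v =
          v.ord f') ∧
        IsKummer N (coeffMap e (f' : LaurentSeries L)) (heckeStarHom N (ZMod n) p φ) := by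
  have hin := Corr.heckeInputsAlong_of_degree hD N p
  have hsep := Corr.separableAlong_heckeAlphaBar N p hD
  by_cases hpN : p ∣ N
  · exact heckeOperatorAlong_kummer e p hin _ (starRep_bijective N hp hpN) hsep
      (by rw [finrankAlong_alpha_of_dvd hD hp hpN, Fintype.card_fin]) hz hf hfD h
  · exact heckeOperatorAlong_kummer e p hin _ (starRepFull_bijective N hp hpN) hsep
      (by rw [finrankAlong_alpha_of_not_dvd hD hp hpN, Fintype.card_option, Fintype.card_fin])
      hz hf hfD h

/-- `heckeOperatorBar` on Kummer data. -/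
theorem heckeOperatorBar_kummer (hD : Corr.DegreeInput (AlgebraicClosure ℚ)) (p : Nat.Primes)
    {z : JZero N}
    {D : Divisor.degZero (K := AlgebraicClosure ℚ) (F := modularFunctionFieldBar N)}
    (hz : Pic0.mk D = z) {f : modularFunctionFieldBar N} (hf : f ≠ 0)
    (hfD : ∀ v, (n • (D : Divisor (AlgebraicClosure ℚ) (modularFunctionFieldBar N))) v = v.ord f)
    {φ : Additive (Gamma0 N) →+ ZMod n}
    (h : IsKummer N
      (coeffMap complexEmbedding.toRingHom (f : LaurentSeries (AlgebraicClosure ℚ))) φ) :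
    ∃ (D' : Divisor.degZero (K := AlgebraicClosure ℚ) (F := modularFunctionFieldBar N))
      (f' : modularFunctionFieldBar N),
      Pic0.mk D' = heckeOperatorBar N p z ∧ f' ≠ 0 ∧
        (∀ v, (n • (D' : Divisor (AlgebraicClosure ℚ) (modularFunctionFieldBar N))) v =
          v.ord f') ∧
        IsKummer N (coeffMap complexEmbedding.toRingHom (f' : LaurentSeries (AlgebraicClosure ℚ)))
          (haveI : NeZero (p : ℕ) := ⟨p.2.ne_zero⟩
           heckeStarHom N (ZMod n) (p : ℕ) φ) := by
  have : NeZero (p : ℕ) := ⟨p.2.ne_zero⟩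
  exact heckeOperatorAlong_kummer_prime complexEmbedding.toRingHom hD p p.2 hz hf hfD h

end Fermat.Agent.HK
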