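/-
The Kummer map intertwines the Hecke correspondences with `heckeStarHom`; after the Atkin–Lehner
twist, with the operators `heckeHom` on periods.
-/
import Fermat.Agent.HK.HeckeKummerBar
import Fermat.Agent.HK.HeckeAtkin
import Fermat.Agent.HK.HeckeFinal
import Fermat.Agent.HK.Kummer.Map

set_option autoImplicit false

noncomputable section

open CongruenceSubgroup Function ModularCurve AlgebraicCurve
open scoped MatrixGroups

namespace Fermat.Agent.HK

variable {L : Type*} [Field L] [Algebra ℚ L] [IsAlgClosed L] (e : L →+* ℂ)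
variable (N : ℕ) [NeZero N] (n : ℕ) [NeZero n]

/-- A Hecke correspondence preserves torsion. -/
theorem heckeOperatorAlong_mem_torsion (p : ℕ) [NeZero p]
    (z : Pic0.torsion L (laurentBaseChange L (modularFunctionFieldFull N)) n) :
    heckeOperatorAlong L N p (z : Pic0 L (laurentBaseChange L (modularFunctionFieldFull N))) ∈
      Pic0.torsion L (laurentBaseChange L (modularFunctionFieldFull N)) n := by
  rw [Pic0.mem_torsion, ← map_zsmul, Pic0.mem_torsion.1 z.2, map_zero]

/-- The Kummer map intertwines `T_p` / `U_p` with `heckeStarHom`. -/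
theorem kummerMap_heckeOperatorAlong (p : ℕ) [NeZero p] (hp : p.Prime)
    (z : Pic0.torsion L (laurentBaseChange L (modularFunctionFieldFull N)) n) :
    (kummerMap e N n ⟨_, heckeOperatorAlong_mem_torsion N n p z⟩ :
        Additive (Gamma0 N) →+ ZMod n) =
      heckeStarHom N (ZMod n) p (kummerMap e N n z : Additive (Gamma0 N) →+ ZMod n) := by
  obtain ⟨D, f, hD, hf, hDf, hφ⟩ := exists_kummer_data e N n z
  obtain ⟨D', f', hD', hf', hDf', hφ'⟩ :=
    heckeOperatorAlong_kummer_prime e (Corr.degreeInput L) p hp hD hf hDf hφ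
  set z' : Pic0.torsion L (laurentBaseChange L (modularFunctionFieldFull N)) n :=
    ⟨_, heckeOperatorAlong_mem_torsion N n p z⟩
  obtain ⟨a, ha⟩ := (isKummerRel_kummerRel e N n).exists_rel f' (isOrdDivisible_of_nsmul_eq hf' hDf')
  rw [kummerMap_eq e N n (z := z') hD' hf' hDf' ha]
  exact ha.unique hφ'

/-- The Atkin–Lehner twisted Kummer map, which is Hecke equivariant for the action on periods. -/
def atkinKummer : Pic0.torsion L (laurentBaseChange L (modularFunctionFieldFull N)) n →+
    (Additive (Gamma0 N) →+ ZMod n) :=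
  ((atkinChar N (ZMod n)).toAddEquiv.toAddMonoidHom).comp
    ((parEllHoms N (ZMod n)).subtype.comp (kummerMap e N n))

theorem atkinKummer_apply
    (z : Pic0.torsion L (laurentBaseChange L (modularFunctionFieldFull N)) n) :
    atkinKummer e N n z =
      atkinChar N (ZMod n) (kummerMap e N n z : Additive (Gamma0 N) →+ ZMod n) := rfl

theorem atkinKummer_injective : Injective (atkinKummer e N n) :=
  (atkinChar N (ZMod n)).injective.comp
    (Subtype.val_injective.comp (kummerMap_injective e N n))

theorem isNonHyperbolic_atkinGamma0 (g : Gamma0 N) :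
    IsNonHyperbolic (atkinGamma0 N g : SL(2, ℤ)) ↔ IsNonHyperbolic (g : SL(2, ℤ)) := by
  unfold IsNonHyperbolic
  rw [trace_atkinGamma0]

theorem atkinKummer_mem_parEllHoms
    (z : Pic0.torsion L (laurentBaseChange L (modularFunctionFieldFull N)) n) :
    atkinKummer e N n z ∈ parEllHoms N (ZMod n) := fun g hg =>
  (kummerMap e N n z).2 (atkinGamma0 N g) ((isNonHyperbolic_atkinGamma0 N g).mpr hg)

/-- The twisted Kummer map intertwines `T_p` / `U_p` with `heckeHom`. -/
theorem atkinKummer_heckeOperatorAlong (R : Type*) [Semiring R] [Module R (ZMod n)] (p : ℕ)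
    [Fact p.Prime] [NeZero p]
    (z : Pic0.torsion L (laurentBaseChange L (modularFunctionFieldFull N)) n) :
    atkinKummer e N n ⟨_, heckeOperatorAlong_mem_torsion N n p z⟩ =
      heckeHom N p R (ZMod n) (atkinKummer e N n z) := by
  rw [atkinKummer_apply, kummerMap_heckeOperatorAlong e N n p Fact.out z,
    heckeStarHom_eq_atkin_conj R, atkinChar_atkinChar, atkinKummer_apply]

/-- Complex conjugation commutes with the Atkin–Lehner twist. -/
theorem jConjGamma0_atkinGamma0 (g : Gamma0 N) :
    Period.jConjGamma0 N (atkinGamma0 N g) = atkinGamma0 N (Period.jConjGamma0 N g) := by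
  obtain ⟨c, hc⟩ := dvd_gamma0_lower_left N g
  have hN : (N : ℤ) ≠ 0 := by exact_mod_cast NeZero.ne N
  apply Subtype.ext
  apply Subtype.ext
  rw [Period.jConjGamma0_coe, Period.jConjSL_coe, coe_atkinGamma0, coe_atkinGamma0,
    Period.jConjGamma0_coe, Period.jConjSL_coe]
  ext i j
  fin_cases i <;> fin_cases j <;>
    simp [atkinMat, Period.jConjMat, hc, Int.mul_ediv_cancel_left _ hN,
      Int.neg_ediv_of_dvd (dvd_mul_right (N : ℤ) c)]

end Fermat.Agent.HK
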