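import Fermat.Agent.HK.TateRepOfCoords
import Fermat.Agent.HK.KummerHecke
import Fermat.Agent.HK.Kummer.JZero
import Fermat.Agent.MF.ParHom.ParEll

/-!
Coordinates on the `p`-power torsion of `J₀(N)` from the Kummer map twisted by Atkin–Lehner, given
its surjectivity; hence the matrix form of the Tate module.
-/

set_option autoImplicit false

noncomputable section

open CongruenceSubgroup ModularCurve AlgebraicCurve
open scoped MatrixGroups Matrix

namespace Fermat.Agent.HK

variable (N : ℕ) [NeZero N]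

local notation "Qbar" => AlgebraicClosure ℚ

/-- `heckeHom` on parabolic-elliptic homomorphisms, in the coordinates `parEllEquiv`, has the
integral matrix `heckeMatZ`. -/
theorem parEllEquiv_heckeHom (n : ℕ) (p : ℕ) [Fact p.Prime] (φ ψ : parEllHoms N (ZMod n))
    (h : (ψ : Additive (Gamma0 N) →+ ZMod n)
      = heckeHom N p ℤ (ZMod n) (φ : Additive (Gamma0 N) →+ ZMod n)) :
    MF.ParHom.parEllEquiv N (ZMod n) ψ
      = (heckeMatZ N p).map (Int.castRingHom (ZMod n)) *ᵥ MF.ParHom.parEllEquiv N (ZMod n) φ := by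
  obtain ⟨φ₀, rfl⟩ := MF.ParHom.parEllHomsMap_surjective N ℤ
    (h := (Int.castRingHom (ZMod n)).toAddMonoidHom) ZMod.intCast_surjective φ
  have hpar : (φ₀ : Additive (Gamma0 N) →+ ℤ) ∈ Period.parabolicHoms ℤ (Gamma0 N) ℤ :=
    fun g hg => φ₀.2 g (le_of_eq hg)
  set x : HSpace N ℤ := HSpace.mk _ hpar with hx
  have hval : ∀ i, hCoord N ℤ (heckeEnd N p ℤ x) i
      = heckeHom N p ℤ ℤ (φ₀ : Additive (Gamma0 N) →+ ℤ)
          (Additive.ofMul (MF.ParHom.parGen N i)) := fun i => by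
    rw [hCoord_apply, hom_heckeEnd, hx, HSpace.hom_mk]
  have hvec : hCoord N ℤ (heckeEnd N p ℤ x) = heckeMatZ N p *ᵥ hCoord N ℤ x :=
    hCoord_apply_end N ℤ _ x
  funext i
  rw [MF.ParHom.parEllEquiv_apply, h]
  show (heckeHom N p ℤ (ZMod n) ((Int.castRingHom (ZMod n)).toAddMonoidHom.comp
    (φ₀ : Additive (Gamma0 N) →+ ℤ))) _ = _
  rw [heckeHom_comp (R := ℤ) (R' := ℤ)]
  show Int.castRingHom (ZMod n) (heckeHom N p ℤ ℤ _ _) = _
  rw [← hval i, hvec, RingHom.map_mulVec]
  refine congrFun (congrArg _ (funext fun j => ?_)) i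
  show ((hCoord N ℤ x j : ℤ) : ZMod n) = _
  rw [MF.ParHom.parEllEquiv_map, hCoord_apply]
  rfl

/-- The involution on parabolic-elliptic homomorphisms has the integral matrix `involMatZ`. -/
theorem parEllEquiv_parEllHomsJ (n : ℕ) (φ : parEllHoms N (ZMod n)) :
    MF.ParHom.parEllEquiv N (ZMod n) (parEllHomsJ N (ZMod n) φ)
      = (involMatZ N).map (Int.castRingHom (ZMod n)) *ᵥ MF.ParHom.parEllEquiv N (ZMod n) φ := by
  obtain ⟨φ₀, rfl⟩ := MF.ParHom.parEllHomsMap_surjective N ℤ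
    (h := (Int.castRingHom (ZMod n)).toAddMonoidHom) ZMod.intCast_surjective φ
  have hpar : (φ₀ : Additive (Gamma0 N) →+ ℤ) ∈ Period.parabolicHoms ℤ (Gamma0 N) ℤ :=
    fun g hg => φ₀.2 g (le_of_eq hg)
  set x : HSpace N ℤ := HSpace.mk _ hpar with hx
  have hval : ∀ i, hCoord N ℤ (involEnd N ℤ x) i = (φ₀ : Additive (Gamma0 N) →+ ℤ)
      (Additive.ofMul (Period.jConjGamma0 N (MF.ParHom.parGen N i))) := fun i => by
    rw [hCoord_apply, hom_involEnd, hx, HSpace.hom_mk]
    rfl
  have hvec : hCoord N ℤ (involEnd N ℤ x) = involMatZ N *ᵥ hCoord N ℤ x :=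
    hCoord_apply_end N ℤ _ x
  funext i
  rw [MF.ParHom.parEllEquiv_apply, parEllHomsJ_apply]
  show Int.castRingHom (ZMod n) ((φ₀ : Additive (Gamma0 N) →+ ℤ) _) = _
  rw [← hval i, hvec, RingHom.map_mulVec]
  refine congrFun (congrArg _ (funext fun j => ?_)) i
  show ((hCoord N ℤ x j : ℤ) : ZMod n) = _
  rw [MF.ParHom.parEllEquiv_map, hCoord_apply]
  rfl

theorem atkinChar_mem_parEllHoms (A : Type*) [AddCommGroup A] (φ : parEllHoms N A) :
    atkinChar N A (φ : Additive (Gamma0 N) →+ A) ∈ parEllHoms N A := fun g hg =>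
  φ.2 (atkinGamma0 N g) ((isNonHyperbolic_atkinGamma0 N g).mpr hg)

/-- The Atkin–Lehner twist on parabolic-elliptic homomorphisms. -/
def parEllAtkin (A : Type*) [AddCommGroup A] : parEllHoms N A ≃+ parEllHoms N A where
  toFun φ := ⟨_, atkinChar_mem_parEllHoms N A φ⟩
  invFun φ := ⟨_, atkinChar_mem_parEllHoms N A φ⟩
  left_inv φ := Subtype.ext (atkinChar_atkinChar N A _)
  right_inv φ := Subtype.ext (atkinChar_atkinChar N A _)
  map_add' φ ψ := Subtype.ext (map_add (atkinChar N A)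
    (φ : Additive (Gamma0 N) →+ A) (ψ : Additive (Gamma0 N) →+ A))

theorem parEllAtkin_apply (A : Type*) [AddCommGroup A] (φ : parEllHoms N A) :
    (parEllAtkin N A φ : Additive (Gamma0 N) →+ A)
      = atkinChar N A (φ : Additive (Gamma0 N) →+ A) := rfl

variable (p : ℕ) [Fact p.Prime]

instance neZero_pow_prime (k : ℕ) : NeZero (p ^ k) := ⟨pow_ne_zero k (Nat.Prime.ne_zero Fact.out)⟩

omit [NeZero N] [Fact p.Prime] in
theorem jTor_eq_torsion (k : ℕ) :
    jTor N p k = Pic0.torsion Qbar (modularFunctionFieldBar N) (p ^ k) := by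
  ext x
  rw [mem_jTor, Pic0.mem_torsion, natCast_zsmul]

/-- `jTor` as torsion of `Pic⁰`. -/
def jTorEquiv (k : ℕ) :
    jTor N p k ≃+ Pic0.torsion Qbar (modularFunctionFieldBar N) (p ^ k) :=
  AddEquiv.addSubgroupCongr (jTor_eq_torsion N p k)

variable (hsurj : ∀ k, Function.Surjective (jKummer N (p ^ k)))

/-- The twisted Kummer coordinates. -/
def kummerCoord (k : ℕ) : jTor N p k ≃+ (Fin (MF.ParHom.parRank N) → ZMod (p ^ k)) :=
  (((jTorEquiv N p k).trans
    (AddEquiv.ofBijective (jKummer N (p ^ k)) ⟨jKummer_injective N (p ^ k), hsurj k⟩)).trans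
    (parEllAtkin N (ZMod (p ^ k)))).trans (MF.ParHom.parEllEquiv N (ZMod (p ^ k)))

theorem kummerCoord_apply (k : ℕ) (z : jTor N p k) :
    kummerCoord N p hsurj k z = MF.ParHom.parEllEquiv N (ZMod (p ^ k))
      (parEllAtkin N (ZMod (p ^ k)) (jKummer N (p ^ k) (jTorEquiv N p k z))) := rfl

theorem jKummer_level_eq {n n' m : ℕ} [NeZero n] [NeZero n'] [NeZero m] (h : n * m = n')
    (z : Pic0.torsion Qbar (modularFunctionFieldBar N) n')
    (w : Pic0.torsion Qbar (modularFunctionFieldBar N) n)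
    (hw : (w : JZero N) = m • (z : JZero N)) :
    jKummer N n w = parEllHomsMap (ZMod.castHom (h ▸ dvd_mul_right n m) (ZMod n)).toAddMonoidHom
      (jKummer N n' z) := by
  subst h
  exact jKummer_nsmul N n m z w hw

theorem kummerCoord_red (k : ℕ) (z : jTor N p (k + 1)) (w : jTor N p k)
    (hw : (w : JZero N) = p • (z : JZero N)) :
    kummerCoord N p hsurj k w = ZMod.castHom (pow_dvd_pow p k.le_succ) (ZMod (p ^ k))
      ∘ kummerCoord N p hsurj (k + 1) z := by
  have : NeZero p := ⟨Nat.Prime.ne_zero Fact.out⟩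
  rw [kummerCoord_apply, kummerCoord_apply,
    jKummer_level_eq N (pow_succ p k).symm (jTorEquiv N p (k + 1) z) (jTorEquiv N p k w) hw]
  rfl

theorem coe_jTorEquiv (k : ℕ) (z : jTor N p k) : (jTorEquiv N p k z : JZero N) = (z : JZero N) :=
  rfl

theorem kummerCoord_hecke (k : ℕ) (ℓ : Nat.Primes) [Fact (ℓ : ℕ).Prime] (z w : jTor N p k)
    (hw : (w : JZero N) = heckeOperatorBar N ℓ z) :
    kummerCoord N p hsurj k w
      = (heckeMatZ N ℓ).map (Int.castRingHom (ZMod (p ^ k))) *ᵥ kummerCoord N p hsurj k z := by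
  have : NeZero (ℓ : ℕ) := ⟨ℓ.2.ne_zero⟩
  rw [kummerCoord_apply, kummerCoord_apply]
  refine parEllEquiv_heckeHom N (p ^ k) ℓ _ _ ?_
  have hz : jTorEquiv N p k w =
      (⟨_, heckeOperatorAlong_mem_torsion N (p ^ k) (ℓ : ℕ) (jTorEquiv N p k z)⟩ :
        Pic0.torsion Qbar (modularFunctionFieldBar N) (p ^ k)) := by
    apply Subtype.ext
    rw [coe_jTorEquiv, hw, heckeOperatorBar_apply]
    rfl
  rw [hz]
  exact atkinKummer_heckeOperatorAlong qbarEmb N (p ^ k) ℤ (ℓ : ℕ) (jTorEquiv N p k z)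

theorem kummerCoord_conj (k : ℕ) (z w : jTor N p k)
    (hw : (w : JZero N) = complexConjugation • (z : JZero N)) :
    kummerCoord N p hsurj k w
      = -((involMatZ N).map (Int.castRingHom (ZMod (p ^ k))) *ᵥ kummerCoord N p hsurj k z) := by
  have hz : jTorEquiv N p k w
      = JZero.torsionGaloisRep N (p ^ k) complexConjugation (jTorEquiv N p k z) := by
    apply Subtype.ext
    rw [JZero.coe_torsionGaloisRep_apply, coe_jTorEquiv, coe_jTorEquiv, hw]
  rw [kummerCoord_apply, kummerCoord_apply, hz, jKummer_complexConjugation]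
  generalize jKummer N (p ^ k) (jTorEquiv N p k z) = φ
  rw [map_neg, map_neg, ← parEllEquiv_parEllHomsJ]
  refine congrArg (fun ψ => -(MF.ParHom.parEllEquiv N (ZMod (p ^ k)) ψ)) ?_
  refine Subtype.ext (AddMonoidHom.ext fun g => ?_)
  exact congrArg (φ : Additive (Gamma0 N) →+ ZMod (p ^ k))
    (congrArg Additive.ofMul (jConjGamma0_atkinGamma0 N (Additive.toMul g)))

/-- Coordinates on `p`-power torsion from a surjective Kummer map. -/
def torsionCoordsOfSurjective : TorsionCoords N p where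
  e := kummerCoord N p hsurj
  red := kummerCoord_red N p hsurj
  hecke := fun k ℓ _ z w hw => kummerCoord_hecke N p hsurj k ℓ z w hw
  conjElt := complexConjugation
  conj := kummerCoord_conj N p hsurj

/-- The matrix form of the Tate module, from surjectivity of the Kummer maps. -/
theorem exists_tateRep_of_surjective (hsurj : ∀ k, Function.Surjective (jKummer N (p ^ k))) :
    Nonempty (GAL.TateRep N p) :=
  ⟨tateRepOfCoords (torsionCoordsOfSurjective N p hsurj)⟩

end Fermat.Agent.HK
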