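import Fermat.Agent.HK.TateCoords

/-!
`GAL.TateRep` from coordinates on the torsion of `J₀(N)`.
-/

set_option autoImplicit false

noncomputable section

open CongruenceSubgroup ModularCurve
open scoped MatrixGroups TensorProduct Matrix

namespace Fermat.Agent.HK

variable {N : ℕ} [NeZero N] {p : ℕ} [Fact p.Prime]

set_option synthInstance.maxHeartbeats 400000

local notation "MR" => Fin (MF.ParHom.parRank N)

instance instSMulCommRatHecke :
    SMulCommClass (GAL.RatHecke N p) (GAL.RatHecke N p) (HSpace N ℚ_[p]) :=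
  smulCommClass_self _ _

instance instAlgebraEndRatHecke :
    Algebra (GAL.RatHecke N p) (Module.End (GAL.RatHecke N p) (HSpace N ℚ_[p])) :=
  Module.End.instAlgebra (GAL.RatHecke N p) (GAL.RatHecke N p) (HSpace N ℚ_[p])

theorem map_quad {A B C : Type*} [CommRing A] [Ring B] [Ring C] [Algebra A B] [Algebra A C]
    (e : B ≃ₐ[A] C) {x : B} {a b : A} (h : x * x - a • x + b • (1 : B) = 0) :
    e x * e x - a • e x + b • (1 : C) = 0 := by
  have h2 := congrArg e h
  simpa only [map_add, map_sub, map_mul, map_smul, map_one, map_zero] using h2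

theorem coord_add_smul_sub {K A M ι : Type*} [CommRing K] [CommRing A] [Algebra K A]
    [AddCommGroup M] [Module K M] (f : M ≃ₗ[K] (ι → A)) (v w : M) (c : K) (j : ι) :
    f (v + c • w) j - f v j = algebraMap K A c * f w j := by
  simp [Algebra.smul_def]

theorem pow_mul_coord_aux {A : Type*} [CommRing A] (q : A) (n d : ℕ) (x : A) :
    q ^ (n + d) * x = q ^ n * (q ^ d * x) := by
  rw [pow_add, mul_assoc]

/-- Coercion of matrices `ℤ_[p] → ℚ_[p]`. -/
def toQMat : Matrix (Fin (MF.ParHom.parRank N)) (Fin (MF.ParHom.parRank N)) ℤ_[p] →+*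
    Matrix (Fin (MF.ParHom.parRank N)) (Fin (MF.ParHom.parRank N)) ℚ_[p] :=
  (PadicInt.Coe.ringHom (p := p)).mapMatrix

theorem toQMat_castMat (A : Matrix (Fin (MF.ParHom.parRank N)) (Fin (MF.ParHom.parRank N)) ℤ) :
    toQMat (castMat N ℤ_[p] A) = A.map (Int.castRingHom ℚ_[p]) :=
  Matrix.ext fun i j => map_intCast (PadicInt.Coe.ringHom (p := p)) (A i j)

/-- The functional `x ↦ v ⬝ hCoord x` of an integral vector. -/
def intFun (v : Fin (MF.ParHom.parRank N) → ℤ_[p]) :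
    Module.Dual ℚ_[p] (HSpace N ℚ_[p]) :=
  (dotProductBilin ℚ_[p] ℚ_[p] (PadicInt.Coe.ringHom ∘ v)).comp (hCoord N ℚ_[p]).toLinearMap

theorem intFun_apply (v : Fin (MF.ParHom.parRank N) → ℤ_[p]) (x : HSpace N ℚ_[p]) :
    intFun v x = (PadicInt.Coe.ringHom ∘ v) ⬝ᵥ hCoord N ℚ_[p] x := rfl

theorem intFun_smul (c : ℤ_[p]) (v : Fin (MF.ParHom.parRank N) → ℤ_[p]) :
    intFun (c • v) = (c : ℚ_[p]) • intFun v := by
  refine LinearMap.ext fun x => ?_
  simp [intFun_apply, dotProduct, Finset.mul_sum, mul_assoc] <;> rfl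

variable (N p) in
/-- The denominator bound: the valuation of the determinant of the pairing. -/
def tateDenom : ℕ := ((evalDet N (muZ N) : ℤ) : ℤ_[p]).valuation

theorem exists_mul_evalDet :
    ∃ u : ℤ_[p], u * evalDet N (Int.cast ∘ muZ N : _ → ℤ_[p]) = (p : ℤ_[p]) ^ tateDenom N p := by
  have h0 : ((evalDet N (muZ N) : ℤ) : ℤ_[p]) ≠ 0 := Int.cast_ne_zero.mpr (evalDet_muZ N)
  refine ⟨(↑(PadicInt.unitCoeff h0)⁻¹ : ℤ_[p]), ?_⟩
  rw [← show ((evalDet N (muZ N) : ℤ) : ℤ_[p]) = evalDet N (Int.cast ∘ muZ N : _ → ℤ_[p]) from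
    map_evalDet N (Int.castRingHom ℤ_[p]) (muZ N)]
  conv_lhs => arg 2; rw [PadicInt.unitCoeff_spec h0]
  rw [← mul_assoc, Units.inv_mul, one_mul]
  rfl

/-- The coordinates of an integral functional have bounded denominators. -/
theorem pow_mul_coord_intFun_mem (v : Fin (MF.ParHom.parRank N) → ℤ_[p]) (j : Fin 2) :
    (p : GAL.RatHecke N p) ^ tateDenom N p
      * (isDualBasis_hDual N ℚ_[p]).coord (intFun v) j ∈ GAL.intHecke N p := by
  classical
  obtain ⟨u, hu⟩ := exists_mul_evalDet (N := N) (p := p)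
  set E : Matrix (Fin (MF.ParHom.parRank N)) (Fin (MF.ParHom.parRank N)) ℤ_[p] :=
    Matrix.reindex (evalIdx N) (Equiv.refl _) (evalMat N (Int.cast ∘ muZ N : _ → ℤ_[p])) with hE
  set y : Fin (MF.ParHom.parRank N) → ℤ_[p] := u • (v ᵥ* E.adjugate) with hy
  have hyE : y ᵥ* E = ((p : ℤ_[p]) ^ tateDenom N p) • v := by
    rw [hy, Matrix.smul_vecMul, Matrix.vecMul_vecMul, Matrix.adjugate_mul, Matrix.vecMul_smul,
      Matrix.vecMul_one, smul_smul]
    exact congrArg (· • v) hu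
  let a : Fin 2 → GAL.RatHecke N p := fun i =>
    ∑ c, (y (evalIdx N (i, c)) : ℚ_[p]) ⊗ₜ[ℤ] tBasis N c
  have ha : ∀ i, a i ∈ GAL.intHecke N p := fun i =>
    Subring.sum_mem _ fun c _ => ⟨y (evalIdx N (i, c)) ⊗ₜ tBasis N c, by simp <;> rfl⟩
  have hcoord : (isDualBasis_hDual N ℚ_[p]).coord (intFun ((p : ℤ_[p]) ^ tateDenom N p • v))
      = a := by
    refine (isDualBasis_hDual N ℚ_[p]).coord_eq fun x => ?_
    have e : ∀ i c, hDual N ℚ_[p] i
        (((y (evalIdx N (i, c)) : ℚ_[p]) ⊗ₜ[ℤ] tBasis N c : GAL.RatHecke N p) • x)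
        = (y (evalIdx N (i, c)) : ℚ_[p])
          * (evalMat N (Int.cast ∘ muZ N : _ → ℚ_[p]) *ᵥ hCoord N ℚ_[p] x) (i, c) := by
      intro i c
      rw [← hDual_tmul_smul, ← smul_eq_mul (a := (y (evalIdx N (i, c)) : ℚ_[p])), ← map_smul,
        HSpace.tmul_smul, HSpace.tmul_smul, one_smul]
    simp only [a, Finset.sum_smul, map_sum, e]
    rw [← Fintype.sum_prod_type' (f := fun i c => (y (evalIdx N (i, c)) : ℚ_[p])
      * (evalMat N (Int.cast ∘ muZ N : _ → ℚ_[p]) *ᵥ hCoord N ℚ_[p] x) (i, c)), ← hyE,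
      intFun_apply]
    have hmap : PadicInt.Coe.ringHom ∘ (y ᵥ* E)
        = (PadicInt.Coe.ringHom ∘ y) ᵥ* E.map (PadicInt.Coe.ringHom (p := p)) :=
      funext fun k => RingHom.map_vecMul _ _ _ _
    rw [hmap, ← Matrix.dotProduct_mulVec, dotProduct, ← (evalIdx N).sum_comp]
    refine Finset.sum_congr rfl fun ic => fun _ => ?_
    refine congrArg₂ (· * ·) rfl ?_
    have hc : ⇑(PadicInt.Coe.ringHom (p := p)) ∘ (Int.cast ∘ muZ N) = Int.cast ∘ muZ N :=
      funext fun k => map_intCast (PadicInt.Coe.ringHom (p := p)) (muZ N k)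
    have := map_evalMat (PadicInt.Coe.ringHom (p := p)) (Int.cast ∘ muZ N : _ → ℤ_[p])
    rw [hc] at this
    rw [← this, hE]
    simp [Matrix.mulVec, Matrix.reindex_apply]
  have hpow : (((p : ℤ_[p]) ^ tateDenom N p : ℤ_[p]) : ℚ_[p]) = (p : ℚ_[p]) ^ tateDenom N p := by
    push_cast; rfl
  rw [intFun_smul, map_smul, hpow] at hcoord
  have := ha j
  rw [← hcoord, Pi.smul_apply] at this
  rw [← map_natCast (algebraMap ℚ_[p] (GAL.RatHecke N p)), ← map_pow]
  exact (Algebra.smul_def ((p : ℚ_[p]) ^ tateDenom N p)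
    ((isDualBasis_hDual N ℚ_[p]).coord (intFun v) j)) ▸ this

namespace TorsionCoords

variable (D : TorsionCoords N p)

theorem toQMat_tateMat_comm (g : AlgebraicClosure ℚ ≃ₐ[ℚ] AlgebraicClosure ℚ) (t : TFull N) :
    toQMat (D.tateMat g) * (heckeRep N t).map (Int.castRingHom ℚ_[p])
      = (heckeRep N t).map (Int.castRingHom ℚ_[p]) * toQMat (D.tateMat g) := by
  rw [← toQMat_castMat, ← map_mul, ← map_mul, (D.tateMat_commute g t).eq]

/-- The Galois action on `H¹_par ⊗ ℚ_p`, linearly. -/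
def galEndQ (g : AlgebraicClosure ℚ ≃ₐ[ℚ] AlgebraicClosure ℚ) :
    Module.End ℚ_[p] (HSpace N ℚ_[p]) :=
  (hMatrix N ℚ_[p]).symm (toQMat (D.tateMat g))

theorem hCoord_galEndQ (g : AlgebraicClosure ℚ ≃ₐ[ℚ] AlgebraicClosure ℚ) (x : HSpace N ℚ_[p]) :
    hCoord N ℚ_[p] (D.galEndQ g x) = toQMat (D.tateMat g) *ᵥ hCoord N ℚ_[p] x := by
  rw [hCoord_apply_end, galEndQ, AlgEquiv.apply_symm_apply]

/-- The Galois action on `H¹_par ⊗ ℚ_p`, Hecke-linearly. -/
def galEnd (g : AlgebraicClosure ℚ ≃ₐ[ℚ] AlgebraicClosure ℚ) :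
    Module.End (GAL.RatHecke N p) (HSpace N ℚ_[p]) where
  toFun := D.galEndQ g
  map_add' := map_add _
  map_smul' a x := by
    induction a using TensorProduct.induction_on with
    | zero => simp only [HSpace.tensor_smul_def, map_zero, LinearMap.zero_apply]
    | tmul r t =>
      refine (hCoord N ℚ_[p]).injective ?_
      rw [RingHom.id_apply, HSpace.tmul_smul, HSpace.tmul_smul, hCoord_galEndQ,
        map_smul, map_smul, hCoord_apply_end, hCoord_apply_end, hMatrix_heckeAct, hCoord_galEndQ,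
        Matrix.mulVec_smul, Matrix.mulVec_mulVec, Matrix.mulVec_mulVec, toQMat_tateMat_comm]
    | add a b ha hb =>
      simp only [RingHom.id_apply] at ha hb ⊢
      simp only [add_smul, map_add, ha, hb]

theorem galEnd_apply (g : AlgebraicClosure ℚ ≃ₐ[ℚ] AlgebraicClosure ℚ) (x : HSpace N ℚ_[p]) :
    D.galEnd g x = D.galEndQ g x := rfl

/-- The Galois action on `H¹_par ⊗ ℚ_p` as a representation. -/
def galRep : (AlgebraicClosure ℚ ≃ₐ[ℚ] AlgebraicClosure ℚ) →*
    Module.End (GAL.RatHecke N p) (HSpace N ℚ_[p]) where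
  toFun := D.galEnd
  map_one' := LinearMap.ext fun x => by
    simp [galEnd_apply, galEndQ]
  map_mul' g g' := LinearMap.ext fun x => by
    simp [galEnd_apply, galEndQ]

theorem galRep_apply (g : AlgebraicClosure ℚ ≃ₐ[ℚ] AlgebraicClosure ℚ) (x : HSpace N ℚ_[p]) :
    D.galRep g x = D.galEndQ g x := rfl

/-- The two by two matrix representation. -/
def tateRho : (AlgebraicClosure ℚ ≃ₐ[ℚ] AlgebraicClosure ℚ) →*
    Matrix (Fin 2) (Fin 2) (GAL.RatHecke N p) :=
  (((isDualBasis_hDual N ℚ_[p]).matrixEquiv.trans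
    (Matrix.reindexAlgEquiv (GAL.RatHecke N p) (GAL.RatHecke N p)
      (Equiv.swap (0 : Fin 2) 1))).toRingEquiv.toRingHom.toMonoidHom).comp D.galRep

theorem tateRho_apply (g : AlgebraicClosure ℚ ≃ₐ[ℚ] AlgebraicClosure ℚ) (i j : Fin 2) :
    D.tateRho g i j = (isDualBasis_hDual N ℚ_[p]).matrix (D.galRep g)
      (Equiv.swap (0 : Fin 2) 1 i) (Equiv.swap (0 : Fin 2) 1 j) := rfl

/-- The integral row of `hDual`. -/
def rowZ (i : Fin 2) : Fin (MF.ParHom.parRank N) → ℤ_[p] :=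
  signedRow N (Int.cast ∘ muZ N : _ → ℤ_[p]) i

theorem coe_comp_rowZ (i : Fin 2) :
    PadicInt.Coe.ringHom ∘ (rowZ i : _ → ℤ_[p])
      = signedRow N (Int.cast ∘ muZ N : _ → ℚ_[p]) i := by
  funext k
  rw [Function.comp_apply, rowZ, map_signedRow]
  exact congrFun (congrFun (congrArg (signedRow N)
    (funext fun q => map_intCast (PadicInt.Coe.ringHom (p := p)) (muZ N q))) i) k

theorem hDual_comp_galRep (g : AlgebraicClosure ℚ ≃ₐ[ℚ] AlgebraicClosure ℚ) (i : Fin 2) :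
    (hDual N ℚ_[p] i).comp ((D.galRep g).restrictScalars ℚ_[p])
      = intFun (rowZ i ᵥ* D.tateMat g) := by
  refine LinearMap.ext fun x => ?_
  have hmap : PadicInt.Coe.ringHom ∘ (rowZ i ᵥ* D.tateMat g)
      = (PadicInt.Coe.ringHom ∘ (rowZ i : _ → ℤ_[p])) ᵥ* toQMat (D.tateMat g) :=
    funext fun k => RingHom.map_vecMul _ _ _ _
  rw [LinearMap.comp_apply, LinearMap.restrictScalars_apply, galRep_apply, hDual_apply,
    hCoord_galEndQ, intFun_apply, hmap, coe_comp_rowZ, Matrix.dotProduct_mulVec]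

theorem pow_mul_matrix_mem (g : AlgebraicClosure ℚ ≃ₐ[ℚ] AlgebraicClosure ℚ) (i j : Fin 2) :
    (p : GAL.RatHecke N p) ^ tateDenom N p * (isDualBasis_hDual N ℚ_[p]).matrix (D.galRep g) i j
      ∈ GAL.intHecke N p := by
  show _ * (isDualBasis_hDual N ℚ_[p]).coord
    ((hDual N ℚ_[p] i).comp ((D.galRep g).restrictScalars ℚ_[p])) j ∈ _
  rw [hDual_comp_galRep]
  exact pow_mul_coord_intFun_mem _ j

theorem matrix_sub_one_mem (n : ℕ) (g : AlgebraicClosure ℚ ≃ₐ[ℚ] AlgebraicClosure ℚ)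
    (h : ∀ x : JZero N, p ^ (n + tateDenom N p) • x = 0 → g • x = x) (i j : Fin 2) :
    ∃ y ∈ GAL.intHecke N p, (isDualBasis_hDual N ℚ_[p]).matrix (D.galRep g) i j
      - (1 : Matrix (Fin 2) (Fin 2) (GAL.RatHecke N p)) i j
        = (p : GAL.RatHecke N p) ^ n * y := by
  set k := n + tateDenom N p with hk
  have hdiv : ∀ r c, (p : ℤ_[p]) ^ k ∣ D.tateMat g r c
      - (1 : Matrix MR MR ℤ_[p]) r c := by
    intro r c
    rw [← Ideal.mem_span_singleton, ← PadicInt.ker_toZModPow, RingHom.mem_ker, map_sub, sub_eq_zero]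
    have h1 := D.tateMat_mod k g
    rw [D.galMat_eq_one h, ← map_one (matMod (p := p) (r := MR) k)] at h1
    exact congrFun (congrFun h1 r) c
  choose M' hM' using hdiv
  have hvec : rowZ i ᵥ* D.tateMat g
      = rowZ i + (p : ℤ_[p]) ^ k • (rowZ i ᵥ* Matrix.of M') := by
    rw [← Matrix.vecMul_smul, show (p : ℤ_[p]) ^ k • Matrix.of M' = D.tateMat g - 1 from
      Matrix.ext fun r c => (hM' r c).symm, Matrix.vecMul_sub, Matrix.vecMul_one]
    abel
  refine ⟨_, pow_mul_coord_intFun_mem (rowZ i ᵥ* Matrix.of M') j, ?_⟩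
  have hid : (hDual N ℚ_[p] i).comp
      ((1 : Module.End (GAL.RatHecke N p) (HSpace N ℚ_[p])).restrictScalars ℚ_[p])
      = intFun (rowZ i : _ → ℤ_[p]) := by
    refine LinearMap.ext fun x => ?_
    rw [intFun_apply, coe_comp_rowZ]
    rfl
  have hadd : ∀ v w : Fin (MF.ParHom.parRank N) → ℤ_[p], intFun (v + w) = intFun v + intFun w :=
    fun v w => LinearMap.ext fun x => by simp [intFun_apply, dotProduct, add_mul, Finset.sum_add_distrib]
  have e1 : (isDualBasis_hDual N ℚ_[p]).matrix (D.galRep g) i j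
      = (isDualBasis_hDual N ℚ_[p]).coord
          (intFun (rowZ i) + (((p : ℤ_[p]) ^ k : ℤ_[p]) : ℚ_[p])
            • intFun (rowZ i ᵥ* Matrix.of M')) j := by
    rw [← intFun_smul, ← hadd, ← hvec, ← hDual_comp_galRep]
    rfl
  have e2 : (1 : Matrix (Fin 2) (Fin 2) (GAL.RatHecke N p)) i j
      = (isDualBasis_hDual N ℚ_[p]).coord (intFun (rowZ i)) j :=
    (congrFun (congrFun (isDualBasis_hDual N ℚ_[p]).matrix_one i) j).symm.trans
      (congrFun (congrArg (isDualBasis_hDual N ℚ_[p]).coord hid) j)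
  have e3 : algebraMap ℚ_[p] (GAL.RatHecke N p) (((p : ℤ_[p]) ^ k : ℤ_[p]) : ℚ_[p])
      = (p : GAL.RatHecke N p) ^ k := by
    rw [show (((p : ℤ_[p]) ^ k : ℤ_[p]) : ℚ_[p]) = (p : ℚ_[p]) ^ k by push_cast; rfl, map_pow,
      map_natCast]
  exact ((congrArg₂ (· - ·) e1 e2).trans (coord_add_smul_sub _ _ _ _ j)).trans
    ((congrArg (· * _) e3).trans (pow_mul_coord_aux _ n (tateDenom N p) _))

theorem galRep_conj : D.galRep D.conjElt = -involA N ℚ_[p] :=
  LinearMap.ext fun x => (hCoord N ℚ_[p]).injective (by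
    rw [galRep_apply, hCoord_galEndQ, tateMat_conj, map_neg, toQMat_castMat, LinearMap.neg_apply,
      map_neg, involA_apply, hCoord_apply_end, hMatrix_involEnd, Matrix.neg_mulVec])

theorem tateRho_conj : D.tateRho D.conjElt = Matrix.diagonal ![(1 : GAL.RatHecke N p), -1] := by
  show Matrix.reindexAlgEquiv (GAL.RatHecke N p) (GAL.RatHecke N p) (Equiv.swap (0 : Fin 2) 1)
    ((isDualBasis_hDual N ℚ_[p]).matrixEquiv (D.galRep D.conjElt)) = _
  rw [galRep_conj, map_neg, IsDualBasis.matrixEquiv_apply, matrix_involA]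
  ext i j
  fin_cases i <;> fin_cases j <;> simp

theorem tateRho_quad (g : AlgebraicClosure ℚ ≃ₐ[ℚ] AlgebraicClosure ℚ) (ℓ : ℕ) (hℓ : ℓ.Prime)
    (hℓN : ¬ ℓ ∣ N)
    (h : ∀ x : JZero N, (∃ n : ℕ, p ^ n • x = 0) →
      g • g • x - heckeOperatorBar N ⟨ℓ, hℓ⟩ (g • x) + ℓ • x = 0) :
    D.tateRho g * D.tateRho g
        - GAL.toRatHecke N p (CuspForm.heckeAlgebra.T hℓ hℓN (Set.notMem_empty ℓ)) • D.tateRho g
      + (ℓ : GAL.RatHecke N p) • (1 : Matrix (Fin 2) (Fin 2) (GAL.RatHecke N p)) = 0 := by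
  let L : Nat.Primes := ⟨ℓ, hℓ⟩
  have : Fact (L : ℕ).Prime := ⟨hℓ⟩
  have hgen : (CuspForm.heckeAlgebra.T hℓ hℓN (Set.notMem_empty ℓ) : TFull N)
      = CuspForm.heckeFormsGen N 2 L := (CuspForm.heckeFormsGen_of_not_dvd (ℓ := L) hℓN).symm
  have hM := congrArg toQMat (D.tateMat_quad L h)
  rw [Nat.cast_smul_eq_nsmul, map_add, map_sub, map_mul, map_mul, map_nsmul, map_one, map_zero,
    toQMat_castMat] at hM
  have hEnd : D.galRep g * D.galRep g
      - GAL.toRatHecke N p (CuspForm.heckeAlgebra.T hℓ hℓN (Set.notMem_empty ℓ)) • D.galRep g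
      + (ℓ : GAL.RatHecke N p) • (1 : Module.End (GAL.RatHecke N p) (HSpace N ℚ_[p])) = 0 := by
    refine LinearMap.ext fun x => (hCoord N ℚ_[p]).injective ?_
    have hM' := congrArg (· *ᵥ hCoord N ℚ_[p] x) hM
    simp only [Matrix.add_mulVec, Matrix.sub_mulVec, Matrix.zero_mulVec, Matrix.smul_mulVec,
      Matrix.one_mulVec, ← Matrix.mulVec_mulVec] at hM'
    have hT : ∀ y : HSpace N ℚ_[p],
        GAL.toRatHecke N p (CuspForm.heckeAlgebra.T hℓ hℓN (Set.notMem_empty ℓ)) • y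
          = heckeAct N ℚ_[p] (CuspForm.heckeFormsGen N 2 L) y := fun y => by
      rw [← hgen]
      exact (HSpace.tmul_smul N ℚ_[p] (1 : ℚ_[p])
        (CuspForm.heckeAlgebra.T hℓ hℓN (Set.notMem_empty ℓ)) y).trans (one_smul _ _)
    simp only [LinearMap.add_apply, LinearMap.sub_apply, LinearMap.smul_apply,
      Module.End.mul_apply, LinearMap.zero_apply, Module.End.one_apply, map_zero, map_add, map_sub,
      hT, galRep_apply, hCoord_galEndQ, hCoord_apply_end _ _ (heckeAct N ℚ_[p] _),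
      hMatrix_heckeAct, heckeRep_heckeFormsGen, Nat.cast_smul_eq_nsmul, map_nsmul]
    exact hM'
  exact map_quad ((isDualBasis_hDual N ℚ_[p]).matrixEquiv.trans
    (Matrix.reindexAlgEquiv (GAL.RatHecke N p) (GAL.RatHecke N p) (Equiv.swap (0 : Fin 2) 1))) hEnd

end TorsionCoords

/-- The Galois action on the rational Tate module in matrix form. -/
def tateRepOfCoords (D : TorsionCoords N p) : GAL.TateRep N p where
  rho := D.tateRho
  denom := tateDenom N p
  bounded g i j := by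
    rw [D.tateRho_apply]
    exact D.pow_mul_matrix_mem g _ _
  exists_diag := ⟨D.conjElt, D.tateRho_conj⟩
  near_one n := ⟨n + tateDenom N p, fun g hg i j => by
    obtain ⟨y, hy, he⟩ := D.matrix_sub_one_mem n g hg (Equiv.swap (0 : Fin 2) 1 i)
      (Equiv.swap (0 : Fin 2) 1 j)
    refine ⟨y, hy, ?_⟩
    rw [D.tateRho_apply, ← he]
    simp [Matrix.one_apply]⟩
  quad := D.tateRho_quad

end Fermat.Agent.HK
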