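import Fermat.Agent.FF.ConstExt.Divisor
import Fermat.Prelude.Def_AlgebraicCurve_Correspondence

/-!
Restriction, ramification, pullback, pushforward and correspondences commute with extension of
the constant field.
-/

set_option autoImplicit false
set_option linter.unusedSectionVars false

noncomputable section

open AlgebraicCurve
open Fermat.Agent.FF.ConstExt

namespace Fermat.Agent.HK.Corr

theorem inertiaDegAlong_eq_one_of_rational {K F G : Type*} [Field K] [Field F] [Field G]
    [Algebra K F] [Algebra K G] (φ : F →ₐ[K] G) (hφ : φ.toRingHom.IsIntegral) (w : Place K G)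
    (hw : w.deg = 1) : w.inertiaDegAlong φ hφ = 1 := by
  letI := algebraAlong φ
  haveI := isScalarTower_along φ
  haveI := isIntegral_along φ hφ
  have h := w.deg_restrict_mul_inertiaDeg (F := F)
  rw [hw] at h
  exact Nat.eq_one_of_mul_eq_one_left h

theorem ramificationIndexAlong_pos {K F G : Type*} [Field K] [Field F] [Field G]
    [Algebra K F] [Algebra K G] (φ : F →ₐ[K] G) (hφ : φ.toRingHom.IsIntegral) (w : Place K G) :
    0 < w.ramificationIndexAlong φ := by
  letI := algebraAlong φ
  haveI := isScalarTower_along φ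
  haveI := isIntegral_along φ hφ
  exact w.ramificationIndex_pos (F := F)

variable {K F G : Type*} [Field K] [Field F] [Field G] [Algebra K F] [Algebra K G]
  {L F' G' : Type*} [Field L] [Field F'] [Field G'] [Algebra K L]
  [Algebra L F'] [Algebra F F'] [Algebra K F'] [IsScalarTower K L F'] [IsScalarTower K F F']
  [Algebra L G'] [Algebra G G'] [Algebra K G'] [IsScalarTower K L G'] [IsScalarTower K G G']
  [RationalPlaces K F] [IsConstExt K L F F'] [RationalPlaces K G] [IsConstExt K L G G']

section

variable (φ : F →ₐ[K] G) (φ' : F' →ₐ[L] G')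
  (hφ : φ.toRingHom.IsIntegral) (hφ' : φ'.toRingHom.IsIntegral)
  (comm : ∀ f : F, φ' (algebraMap F F' f) = algebraMap G G' (φ f))
include comm

theorem restrictAlong_extPlace (w : Place K G) :
    (extPlace L G' w).restrictAlong φ' hφ' = extPlace L F' (w.restrictAlong φ hφ) := by
  refine eq_extPlace_of_comap_eq _ _ (SetLike.ext fun f => ?_)
  show φ' (algebraMap F F' f) ∈ (extPlace L G' w).toValuationSubring ↔
    φ f ∈ w.toValuationSubring
  rw [comm, algebraMap_mem_extPlace_iff]

include hφ hφ' in
theorem ramificationIndexAlong_extPlace (w : Place K G) :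
    (extPlace L G' w).ramificationIndexAlong φ' = w.ramificationIndexAlong φ := by
  obtain ⟨π, hπ⟩ :=
    IsDiscreteValuationRing.exists_irreducible (w.restrictAlong φ hφ).toValuationSubring
  have h := Place.ord_restrictAlong φ' hφ' (extPlace L G' w) (algebraMap F F' (π : F))
  rw [comm, ord_extPlace_algebraMap, restrictAlong_extPlace φ φ' hφ hφ' comm,
    ord_extPlace_algebraMap, Place.ord_restrictAlong φ hφ w, Place.ord_coe_irreducible _ hπ,
    mul_one, mul_one] at h
  exact_mod_cast h.symm

theorem extDivisor_pushforwardAlong (D : Divisor K G) :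
    extDivisor L F' (Divisor.pushforwardAlong φ hφ D)
      = Divisor.pushforwardAlong φ' hφ' (extDivisor L G' D) := by
  induction D using Finsupp.induction with
  | zero => simp
  | single_add w n D _ _ ih =>
    rw [map_add, map_add, map_add, map_add, ih, Divisor.pushforwardAlong_single, extDivisor_single,
      extDivisor_single, Divisor.pushforwardAlong_single,
      inertiaDegAlong_eq_one_of_rational φ hφ w (RationalPlaces.deg_eq_one w),
      inertiaDegAlong_eq_one_of_rational φ' hφ' (extPlace L G' w) (deg_extPlace w),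
      restrictAlong_extPlace φ φ' hφ hφ' comm]

theorem extDivisor_pullbackAlong [HasPrincipalDivisors K G] [HasPrincipalDivisors L G']
    (D : Divisor K F) :
    extDivisor L G' (Divisor.pullbackAlong φ hφ D)
      = Divisor.pullbackAlong φ' hφ' (extDivisor L F' D) := by
  ext W
  rw [Divisor.pullbackAlong_apply]
  by_cases hW : W ∈ Set.range (extPlace L G' : Place K G → Place L G')
  · obtain ⟨w, rfl⟩ := hW
    rw [extDivisor_apply_extPlace, Divisor.pullbackAlong_apply,
      ramificationIndexAlong_extPlace φ φ' hφ hφ' comm, restrictAlong_extPlace φ φ' hφ hφ' comm,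
      extDivisor_apply_extPlace]
  · rw [extDivisor_apply_of_notMem_range L G' _ hW, extDivisor_apply_of_notMem_range L F' _ ?_,
      mul_zero]
    rintro ⟨v, hv⟩
    obtain ⟨π, hπ⟩ := IsDiscreteValuationRing.exists_irreducible v.toValuationSubring
    have h := Place.ord_restrictAlong φ' hφ' W (algebraMap F F' (π : F))
    rw [comm, ord_algebraMap_eq_zero_of_notMem_range L G' hW, ← hv, ord_extPlace_algebraMap,
      Place.ord_coe_irreducible _ hπ, mul_one] at h
    exact (ramificationIndexAlong_pos φ' hφ' W).ne' (by exact_mod_cast h.symm)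

end

section Correspondence

variable [HasPrincipalDivisors K G] [HasPrincipalDivisors L G']
  (φ ψ : F →ₐ[K] G) (φ' ψ' : F' →ₐ[L] G')
  (hφ : φ.toRingHom.IsIntegral) (hψ : ψ.toRingHom.IsIntegral)
  (hφ' : φ'.toRingHom.IsIntegral) (hψ' : ψ'.toRingHom.IsIntegral)

theorem extDivisor_correspondence
    (commφ : ∀ f : F, φ' (algebraMap F F' f) = algebraMap G G' (φ f))
    (commψ : ∀ f : F, ψ' (algebraMap F F' f) = algebraMap G G' (ψ f)) (D : Divisor K F) :
    extDivisor L F' (Divisor.correspondence φ ψ hφ hψ D)
      = Divisor.correspondence φ' ψ' hφ' hψ' (extDivisor L F' D) := by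
  rw [Divisor.correspondence_apply, Divisor.correspondence_apply,
    extDivisor_pushforwardAlong ψ ψ' hψ hψ' commψ, extDivisor_pullbackAlong φ φ' hφ hφ' commφ]

theorem extPic0_correspondence
    (commφ : ∀ f : F, φ' (algebraMap F F' f) = algebraMap G G' (φ f))
    (commψ : ∀ f : F, ψ' (algebraMap F F' f) = algebraMap G G' (ψ f))
    (hFI : FundamentalIdentityAlong K φ hφ) (hfin : FiniteAlong K ψ)
    (hN : NormFormulaAlong K ψ hfin) (hFI' : FundamentalIdentityAlong L φ' hφ')
    (hfin' : FiniteAlong L ψ') (hN' : NormFormulaAlong L ψ' hfin') (x : Pic0 K F) :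
    extPic0 L F' (Pic0.correspondence φ ψ hφ hψ hFI hfin hN x)
      = Pic0.correspondence φ' ψ' hφ' hψ' hFI' hfin' hN' (extPic0 L F' x) := by
  obtain ⟨D, rfl⟩ := Pic0.mk_surjective x
  rw [Pic0.correspondence_mk, extPic0_mk, extPic0_mk, Pic0.correspondence_mk]
  refine congrArg Pic0.mk (Subtype.ext ?_)
  rw [coe_extDegZero, Pic0.coe_degZeroCorrespondence, Pic0.coe_degZeroCorrespondence,
    coe_extDegZero, extDivisor_correspondence φ ψ φ' ψ' hφ hψ hφ' hψ' commφ commψ]

end Correspondence

end Fermat.Agent.HK.Corr
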