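import Mathlib

/-!
Modules over a finite free `K`-algebra `A` which are isomorphic to a finite power of the
`K`-dual of `A`: their `A`-linear endomorphisms are matrices over `A`.

A family `l : ι → Module.Dual K M` is a dual basis if `m ↦ (i ↦ (a ↦ l i (a • m)))` is bijective,
equivalently the `K`-dual of `M` is free over `A` on the `l i`.
-/

set_option autoImplicit false

noncomputable section

namespace Fermat.Agent.HK

section Defs

variable (K A : Type*) {M ι : Type*} [CommRing K] [CommRing A] [Algebra K A]
  [AddCommGroup M] [Module K M] [Module A M] [IsScalarTower K A M]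

/-- `m ↦ (i ↦ (a ↦ l i (a • m)))`. -/
def dualEval (l : ι → Module.Dual K M) : M →ₗ[K] (ι → Module.Dual K A) :=
  LinearMap.pi fun i => ((LinearMap.llcomp K A M K (l i)).comp
    ((Algebra.lsmul K K M : A →ₐ[K] Module.End K M).toLinearMap.flip))

/-- `a ↦ (m ↦ ∑ j, l j (a j • m))`. -/
def dualCombo [Fintype ι] (l : ι → Module.Dual K M) : (ι → A) →ₗ[K] Module.Dual K M :=
  ∑ j : ι, ((LinearMap.llcomp K M M K (l j)).comp
    ((Algebra.lsmul K K M : A →ₐ[K] Module.End K M).toLinearMap)).comp (LinearMap.proj j)

/-- `l` is an `A`-basis of the `K`-dual of `M`. -/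
def IsDualBasis (l : ι → Module.Dual K M) : Prop :=
  Function.Bijective (dualEval K A l)

variable {K A}

@[simp] theorem dualEval_apply (l : ι → Module.Dual K M) (m : M) (i : ι) (a : A) :
    dualEval K A l m i a = l i (a • m) := rfl

theorem dualCombo_apply [Fintype ι] (l : ι → Module.Dual K M) (a : ι → A) (m : M) :
    dualCombo K A l a m = ∑ j, l j (a j • m) := by
  simp [dualCombo]

theorem dualCombo_apply_eq_sum_dualEval [Fintype ι] (l : ι → Module.Dual K M) (a : ι → A) (m : M) :
    dualCombo K A l a m = ∑ j, dualEval K A l m j (a j) := by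
  simp [dualCombo_apply]

theorem dualCombo_single [Fintype ι] [DecidableEq ι] (l : ι → Module.Dual K M) (i : ι) (a : A)
    (m : M) : dualCombo K A l (Pi.single i a) m = l i (a • m) := by
  rw [dualCombo_apply, Finset.sum_eq_single i]
  · rw [Pi.single_eq_same]
  · intro j _ hj
    rw [Pi.single_eq_of_ne hj, zero_smul, map_zero]
  · exact fun h => absurd (Finset.mem_univ i) h

end Defs

namespace IsDualBasis

variable {K A M ι : Type*} [CommRing K] [CommRing A] [Algebra K A]
  [AddCommGroup M] [Module K M] [Module A M] [IsScalarTower K A M]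
  [Module.Free K A] [Module.Finite K A]
  {l : ι → Module.Dual K M}

theorem dualCombo_bijective [Fintype ι] [DecidableEq ι] (hl : IsDualBasis K A l) :
    Function.Bijective (dualCombo K A l) := by
  constructor
  · refine (injective_iff_map_eq_zero _).mpr fun a ha => funext fun i => ?_
    refine (Module.forall_dual_apply_eq_zero_iff K (a i)).mp fun φ => ?_
    obtain ⟨m, hm⟩ := hl.2 (Pi.single i φ)
    have := LinearMap.congr_fun ha m
    rw [dualCombo_apply_eq_sum_dualEval, hm, Finset.sum_eq_single i] at this
    · simpa using this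
    · intro j _ hj; simp [Pi.single_eq_of_ne hj]
    · simp
  · intro μ
    let e := LinearEquiv.ofBijective _ hl
    let f : (ι → Module.Dual K A) →ₗ[K] K := μ.comp e.symm.toLinearMap
    refine ⟨fun i => (Module.evalEquiv K A).symm (f.comp (LinearMap.single K (fun _ : ι => Module.Dual K A) i)),
      LinearMap.ext fun m => ?_⟩
    rw [dualCombo_apply_eq_sum_dualEval]
    have key : ∀ i (φ : Module.Dual K A),
        φ ((Module.evalEquiv K A).symm (f.comp (LinearMap.single K (fun _ : ι => Module.Dual K A) i))) = f (Pi.single i φ) := by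
      intro i φ
      rw [Module.apply_evalEquiv_symm_apply]
      rfl
    simp only [key]
    rw [← map_sum, Finset.univ_sum_single]
    show μ (e.symm (e m)) = μ m
    rw [LinearEquiv.symm_apply_apply]

variable [Fintype ι] [DecidableEq ι]

/-- Coordinates of a functional in the dual basis. -/
def coord (hl : IsDualBasis K A l) : Module.Dual K M ≃ₗ[K] (ι → A) :=
  (LinearEquiv.ofBijective _ hl.dualCombo_bijective).symm

theorem sum_coord (hl : IsDualBasis K A l) (μ : Module.Dual K M) (m : M) :
    ∑ j, l j (hl.coord μ j • m) = μ m := by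
  rw [← dualCombo_apply]
  exact LinearMap.congr_fun
    ((LinearEquiv.ofBijective _ hl.dualCombo_bijective).apply_symm_apply μ) m

theorem coord_eq (hl : IsDualBasis K A l) {μ : Module.Dual K M} {a : ι → A}
    (h : ∀ m, μ m = ∑ j, l j (a j • m)) : hl.coord μ = a := by
  rw [coord, LinearEquiv.symm_apply_eq]
  exact LinearMap.ext fun m => (h m).trans (dualCombo_apply l a m).symm

/-- The matrix over `A` of an `A`-linear endomorphism:
`l i (f m) = ∑ j, l j (F i j • m)`. -/
def matrix (hl : IsDualBasis K A l) (f : Module.End A M) : Matrix ι ι A :=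
  Matrix.of fun i => hl.coord ((l i).comp (f.restrictScalars K))

theorem sum_matrix (hl : IsDualBasis K A l) (f : Module.End A M) (i : ι) (m : M) :
    ∑ j, l j (hl.matrix f i j • m) = l i (f m) :=
  hl.sum_coord _ m

theorem matrix_eq (hl : IsDualBasis K A l) {f : Module.End A M} {F : Matrix ι ι A}
    (h : ∀ i m, l i (f m) = ∑ j, l j (F i j • m)) : hl.matrix f = F := by
  ext i j
  exact congrFun (hl.coord_eq (μ := (l i).comp (f.restrictScalars K)) (h i)) j

theorem matrix_one (hl : IsDualBasis K A l) : hl.matrix (1 : Module.End A M) = 1 := by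
  refine hl.matrix_eq fun i m => ?_
  rw [Finset.sum_eq_single i]
  · simp
  · intro j _ hj; simp [Ne.symm hj]
  · simp

theorem matrix_mul (hl : IsDualBasis K A l) (f g : Module.End A M) :
    hl.matrix (f * g) = hl.matrix f * hl.matrix g := by
  refine hl.matrix_eq fun i m => ?_
  calc l i ((f * g) m) = ∑ j, l j (hl.matrix f i j • g m) := (hl.sum_matrix f i (g m)).symm
    _ = ∑ j, ∑ k, l k ((hl.matrix f i j * hl.matrix g j k) • m) := by
        refine Finset.sum_congr rfl fun j _ => ?_
        rw [← map_smul g, ← hl.sum_matrix g j]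
        exact Finset.sum_congr rfl fun k _ => by rw [smul_smul, mul_comm]
    _ = ∑ k, l k ((hl.matrix f * hl.matrix g) i k • m) := by
        rw [Finset.sum_comm]
        refine Finset.sum_congr rfl fun k _ => ?_
        rw [Matrix.mul_apply, Finset.sum_smul, map_sum]

theorem matrix_add (hl : IsDualBasis K A l) (f g : Module.End A M) :
    hl.matrix (f + g) = hl.matrix f + hl.matrix g := by
  refine hl.matrix_eq fun i m => ?_
  simp only [LinearMap.add_apply, map_add, Matrix.add_apply, add_smul, Finset.sum_add_distrib,
    sum_matrix]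

theorem matrix_smul (hl : IsDualBasis K A l) (a : A) (f : Module.End A M) :
    hl.matrix (a • f) = a • hl.matrix f := by
  refine hl.matrix_eq fun i m => ?_
  rw [LinearMap.smul_apply, ← map_smul, ← hl.sum_matrix f i]
  exact Finset.sum_congr rfl fun j _ => by
    rw [smul_smul, Matrix.smul_apply, smul_eq_mul, mul_comm]

theorem matrix_injective (hl : IsDualBasis K A l) : Function.Injective hl.matrix := by
  intro f g h
  refine LinearMap.ext fun m => hl.1 (funext fun i => LinearMap.ext fun a => ?_)
  simp only [dualEval_apply, ← map_smul, ← hl.sum_matrix _ i, h]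

theorem matrix_surjective (hl : IsDualBasis K A l) : Function.Surjective hl.matrix := by
  intro F
  let e := LinearEquiv.ofBijective _ hl
  let f₀ : M → M := fun m =>
    e.symm fun i => ∑ j, (dualEval K A l m j).comp (LinearMap.mulLeft K (F i j))
  have key : ∀ m i a, l i (a • f₀ m) = ∑ j, l j ((F i j * a) • m) := by
    intro m i a
    have : e (f₀ m) = _ := e.apply_symm_apply _
    have h2 := LinearMap.congr_fun (congrFun this i) a
    calc l i (a • f₀ m) = e (f₀ m) i a := rfl
      _ = _ := h2
      _ = _ := by simp
  refine ⟨{ toFun := f₀, map_add' := fun x y => ?_, map_smul' := fun c x => ?_ }, hl.matrix_eq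
    fun i m => ?_⟩
  · refine hl.1 (funext fun i => LinearMap.ext fun a => ?_)
    rw [map_add, Pi.add_apply, LinearMap.add_apply]
    simp only [dualEval_apply, key, smul_add, map_add, Finset.sum_add_distrib]
  · refine hl.1 (funext fun i => LinearMap.ext fun a => ?_)
    simp only [dualEval_apply, RingHom.id_apply]
    rw [key, smul_smul, key]
    simp only [smul_smul, mul_assoc]
  · simpa using key m i 1

/-- The `A`-algebra isomorphism `End_A M ≃ M_ι(A)` attached to a dual basis. -/
def matrixEquiv (hl : IsDualBasis K A l) : Module.End A M ≃ₐ[A] Matrix ι ι A :=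
  { Equiv.ofBijective hl.matrix ⟨hl.matrix_injective, hl.matrix_surjective⟩ with
    map_mul' := hl.matrix_mul
    map_add' := hl.matrix_add
    commutes' := fun a => by
      show hl.matrix (algebraMap A (Module.End A M) a) = algebraMap A _ a
      rw [Algebra.algebraMap_eq_smul_one, hl.matrix_smul, hl.matrix_one,
        Algebra.algebraMap_eq_smul_one] }

theorem matrixEquiv_apply (hl : IsDualBasis K A l) (f : Module.End A M) :
    hl.matrixEquiv f = hl.matrix f := rfl

/-- An endomorphism multiplying each `l i` by a scalar `s i` is diagonal. -/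
theorem matrix_eq_diagonal (hl : IsDualBasis K A l) {f : Module.End A M} (s : ι → A)
    (h : ∀ i m, l i (f m) = l i (s i • m)) : hl.matrix f = Matrix.diagonal s := by
  refine hl.matrix_eq fun i m => ?_
  rw [Finset.sum_eq_single i]
  · rw [Matrix.diagonal_apply_eq, h]
  · intro j _ hj; simp [Ne.symm hj]
  · simp

omit [Module.Finite K A] [Fintype ι] [DecidableEq ι] in
/-- `A` acts faithfully. -/
theorem eq_zero_of_forall_smul [Nonempty ι] (hl : IsDualBasis K A l) {a : A}
    (ha : ∀ m : M, a • m = 0) : a = 0 := by
  classical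
  refine (Module.forall_dual_apply_eq_zero_iff K a).mp fun φ => ?_
  obtain ⟨i⟩ := ‹Nonempty ι›
  obtain ⟨m, hm⟩ := hl.2 (Pi.single i φ)
  have h := LinearMap.congr_fun (congrFun hm i) a
  rw [dualEval_apply, ha, map_zero, Pi.single_eq_same] at h
  exact h.symm

end IsDualBasis

end Fermat.Agent.HK
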