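import Fermat.Agent.HK.HeckeHom
import Fermat.Agent.MF.ParHom.Main

/-!
`H(R) = Hom_par(Γ₀(N), R)` for torsion free coefficients: a natural basis, in which the Hecke
operators and the involution have integral matrices independent of `R`.
-/

set_option autoImplicit false

noncomputable section

open CongruenceSubgroup ModularCurve.Period
open scoped MatrixGroups

namespace Fermat.Agent.HK

variable (N : ℕ) [NeZero N]

/-- `Hom_par(Γ₀(N), R)`, as a type of its own (it will carry a Hecke module structure). -/
def HSpace (R : Type) [CommRing R] : Type := ↥(parabolicHoms R (Gamma0 N) R)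

instance HSpace.instAddCommGroup (R : Type) [CommRing R] : AddCommGroup (HSpace N R) :=
  inferInstanceAs (AddCommGroup ↥(parabolicHoms R (Gamma0 N) R))

instance HSpace.instModule (R : Type) [CommRing R] : Module R (HSpace N R) :=
  inferInstanceAs (Module R ↥(parabolicHoms R (Gamma0 N) R))

/-- The identification of `HSpace N R` with the parabolic homomorphisms. -/
def HSpace.toParHom (R : Type) [CommRing R] :
    HSpace N R ≃ₗ[R] ↥(parabolicHoms R (Gamma0 N) R) :=
  LinearEquiv.refl R _

/-- The homomorphism underlying an element of `HSpace N R`. -/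
def HSpace.hom {N : ℕ} [NeZero N] {R : Type} [CommRing R] (x : HSpace N R) :
    Additive (Gamma0 N) →+ R :=
  (HSpace.toParHom N R x).1

/-- The inclusion into all homomorphisms, linearly. -/
def HSpace.homLin (R : Type) [CommRing R] : HSpace N R →ₗ[R] (Additive (Gamma0 N) →+ R) :=
  (parabolicHoms R (Gamma0 N) R).subtype.comp (HSpace.toParHom N R).toLinearMap

variable {N} in
theorem HSpace.hom_injective {R : Type} [CommRing R] :
    Function.Injective (HSpace.hom : HSpace N R → _) :=
  fun _ _ h => (HSpace.toParHom N R).injective (Subtype.ext h)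

variable {N} in
/-- Constructor. -/
def HSpace.mk {R : Type} [CommRing R] (φ : Additive (Gamma0 N) →+ R)
    (h : φ ∈ parabolicHoms R (Gamma0 N) R) : HSpace N R :=
  (HSpace.toParHom N R).symm ⟨φ, h⟩

@[simp] theorem HSpace.hom_mk {R : Type} [CommRing R] (φ : Additive (Gamma0 N) →+ R)
    (h : φ ∈ parabolicHoms R (Gamma0 N) R) : (HSpace.mk φ h).hom = φ := rfl

@[simp] theorem HSpace.hom_add {R : Type} [CommRing R] (x y : HSpace N R) :
    (x + y).hom = x.hom + y.hom := rfl

@[simp] theorem HSpace.hom_smul {R : Type} [CommRing R] (c : R) (x : HSpace N R) :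
    (c • x).hom = c • x.hom := rfl

section Coords

variable (R : Type) [CommRing R] [IsAddTorsionFree R]

/-- Evaluation at the generators `parGen N i`. -/
def hCoord : HSpace N R ≃ₗ[R] (Fin (MF.ParHom.parRank N) → R) :=
  (HSpace.toParHom N R).trans
    ((LinearEquiv.ofEq _ _ (MF.ParHom.ellParHoms_eq_parabolicHoms (R := R)).symm).trans
      (MF.ParHom.evalEquiv N R R))

theorem hCoord_apply (x : HSpace N R) (i : Fin (MF.ParHom.parRank N)) :
    hCoord N R x i = x.hom (Additive.ofMul (MF.ParHom.parGen N i)) :=
  MF.ParHom.evalEquiv_apply N R R _ i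

end Coords

variable {N}

/-- Change of coefficients. -/
def HSpace.map {R R' : Type} [CommRing R] [CommRing R'] (f : R →+* R') (x : HSpace N R) :
    HSpace N R' :=
  HSpace.mk (f.toAddMonoidHom.comp x.hom) fun γ hγ => by
    show f (x.hom (Additive.ofMul γ)) = 0
    rw [show x.hom (Additive.ofMul γ) = 0 from (HSpace.toParHom N R x).2 γ hγ, map_zero]

theorem hCoord_map {R R' : Type} [CommRing R] [CommRing R'] [IsAddTorsionFree R]
    [IsAddTorsionFree R'] (f : R →+* R') (x : HSpace N R) :
    hCoord N R' (x.map f) = f ∘ hCoord N R x := by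
  funext i
  rw [hCoord_apply, Function.comp_apply, hCoord_apply]
  rfl

variable (N)

/-- `T_p` / `U_p` on `H(R)`. -/
def heckeEnd (p : ℕ) [Fact p.Prime] (R : Type) [CommRing R] : Module.End R (HSpace N R) :=
  (HSpace.toParHom N R).symm.conj
    ((heckeHom N p R R).restrict fun _ h => heckeHom_mem_parabolicHoms h)

/-- The involution on `H(R)`. -/
def involEnd (R : Type) [CommRing R] : Module.End R (HSpace N R) :=
  (HSpace.toParHom N R).symm.conj
    ((charInvolution N R R).restrict fun _ h => charInvolution_mem_parabolicHoms N R R h)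

variable {N}

theorem hom_heckeEnd (p : ℕ) [Fact p.Prime] {R : Type} [CommRing R] (x : HSpace N R) :
    (heckeEnd N p R x).hom = heckeHom N p R R x.hom := rfl

theorem hom_involEnd {R : Type} [CommRing R] (x : HSpace N R) :
    (involEnd N R x).hom = charInvolution N R R x.hom := rfl

theorem involEnd_involEnd {R : Type} [CommRing R] (x : HSpace N R) :
    involEnd N R (involEnd N R x) = x :=
  HSpace.hom_injective (by rw [hom_involEnd, hom_involEnd, charInvolution_charInvolution])

theorem heckeEnd_involEnd (p : ℕ) [Fact p.Prime] {R : Type} [CommRing R] (x : HSpace N R) :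
    heckeEnd N p R (involEnd N R x) = involEnd N R (heckeEnd N p R x) :=
  HSpace.hom_injective (by simp only [hom_heckeEnd, hom_involEnd, heckeHom_charInvolution])

theorem heckeEnd_map (p : ℕ) [Fact p.Prime] {R R' : Type} [CommRing R] [CommRing R']
    (f : R →+* R') (x : HSpace N R) : heckeEnd N p R' (x.map f) = (heckeEnd N p R x).map f :=
  HSpace.hom_injective (heckeHom_comp (R := R) (R' := R') f.toAddMonoidHom x.hom)

theorem involEnd_map {R R' : Type} [CommRing R] [CommRing R'] (f : R →+* R') (x : HSpace N R) :
    involEnd N R' (x.map f) = (involEnd N R x).map f :=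
  HSpace.hom_injective rfl

variable (N)

/-- An endomorphism of `H(R)` as a matrix in the natural coordinates. -/
def hMatrix (R : Type) [CommRing R] [IsAddTorsionFree R] :
    Module.End R (HSpace N R) ≃ₐ[R]
      Matrix (Fin (MF.ParHom.parRank N)) (Fin (MF.ParHom.parRank N)) R :=
  (hCoord N R).conjAlgEquiv R |>.trans LinearMap.toMatrixAlgEquiv'

/-- The integral matrix of `T_p` / `U_p`. -/
def heckeMatZ (p : ℕ) [Fact p.Prime] :
    Matrix (Fin (MF.ParHom.parRank N)) (Fin (MF.ParHom.parRank N)) ℤ :=
  hMatrix N ℤ (heckeEnd N p ℤ)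

/-- The integral matrix of the involution. -/
def involMatZ : Matrix (Fin (MF.ParHom.parRank N)) (Fin (MF.ParHom.parRank N)) ℤ :=
  hMatrix N ℤ (involEnd N ℤ)

variable {N}

theorem hMatrix_apply (R : Type) [CommRing R] [IsAddTorsionFree R]
    (g : Module.End R (HSpace N R)) (i j : Fin (MF.ParHom.parRank N)) :
    hMatrix N R g i j = hCoord N R (g ((hCoord N R).symm (Pi.single j 1))) i := by
  simp [hMatrix, LinearMap.toMatrixAlgEquiv'_apply, LinearEquiv.conjAlgEquiv_apply]

theorem hMatrix_natural {R R' : Type} [CommRing R] [CommRing R'] [IsAddTorsionFree R]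
    [IsAddTorsionFree R'] (f : R →+* R') (g : Module.End R (HSpace N R))
    (g' : Module.End R' (HSpace N R')) (h : ∀ x, g' (x.map f) = (g x).map f) :
    hMatrix N R' g' = (hMatrix N R g).map f := by
  ext i j
  have hs : ((hCoord N R).symm (Pi.single j 1)).map f = (hCoord N R').symm (Pi.single j 1) := by
    rw [LinearEquiv.eq_symm_apply, hCoord_map, LinearEquiv.apply_symm_apply]
    exact funext fun i => (Pi.apply_single (fun _ => f) (fun _ => map_zero f) j 1 i).trans
      (by rw [map_one])
  rw [Matrix.map_apply, hMatrix_apply, hMatrix_apply, ← hs, h, hCoord_map]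
  rfl

theorem hMatrix_heckeEnd (p : ℕ) [Fact p.Prime] (R : Type) [CommRing R] [IsAddTorsionFree R] :
    hMatrix N R (heckeEnd N p R) = (heckeMatZ N p).map (Int.castRingHom R) :=
  hMatrix_natural _ _ _ (heckeEnd_map p _)

theorem hMatrix_involEnd (R : Type) [CommRing R] [IsAddTorsionFree R] :
    hMatrix N R (involEnd N R) = (involMatZ N).map (Int.castRingHom R) :=
  hMatrix_natural _ _ _ (involEnd_map _)

end Fermat.Agent.HK
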