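/-
`heckeOperatorBar` and complex conjugation on the Kummer coordinates of `JZero N [n]`.
-/
import Fermat.Agent.HK.KummerHecke
import Fermat.Agent.HK.Kummer.JZero
import Fermat.Prelude.Def_ModularCurve_HeckeModule

set_option autoImplicit false

noncomputable section

open CongruenceSubgroup Function ModularCurve AlgebraicCurve

namespace Fermat.Agent.HK

variable (N : ℕ) [NeZero N] (n : ℕ) [NeZero n]

local notation "Qbar" => AlgebraicClosure ℚ

theorem jKummer_heckeOperatorBar (p : Nat.Primes)
    (z w : Pic0.torsion Qbar (modularFunctionFieldBar N) n)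
    (h : (w : JZero N) = heckeOperatorBar N p (z : JZero N)) :
    (jKummer N n w : Additive (Gamma0 N) →+ ZMod n) =
      (haveI : NeZero (p : ℕ) := ⟨p.2.ne_zero⟩
       heckeStarHom N (ZMod n) (p : ℕ) (jKummer N n z : Additive (Gamma0 N) →+ ZMod n)) := by
  have : NeZero (p : ℕ) := ⟨p.2.ne_zero⟩
  have e : w = ⟨_, heckeOperatorAlong_mem_torsion N n p z⟩ := Subtype.ext h
  rw [e]
  exact kummerMap_heckeOperatorAlong qbarEmb N n p p.2 z

/-- The Kummer coordinates in which `heckeOperatorBar` is `heckeHom`. -/
def jAtkinKummer : Pic0.torsion Qbar (modularFunctionFieldBar N) n →+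
    (Additive (Gamma0 N) →+ ZMod n) :=
  atkinKummer qbarEmb N n

theorem jAtkinKummer_apply (z : Pic0.torsion Qbar (modularFunctionFieldBar N) n) :
    jAtkinKummer N n z =
      atkinChar N (ZMod n) (jKummer N n z : Additive (Gamma0 N) →+ ZMod n) := rfl

theorem jAtkinKummer_injective : Injective (jAtkinKummer N n) := atkinKummer_injective qbarEmb N n

theorem jAtkinKummer_mem_parEllHoms (z : Pic0.torsion Qbar (modularFunctionFieldBar N) n) :
    jAtkinKummer N n z ∈ parEllHoms N (ZMod n) := atkinKummer_mem_parEllHoms qbarEmb N n z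

theorem jAtkinKummer_heckeOperatorBar (R : Type*) [Semiring R] [Module R (ZMod n)]
    (p : Nat.Primes) [Fact (p : ℕ).Prime]
    (z w : Pic0.torsion Qbar (modularFunctionFieldBar N) n)
    (h : (w : JZero N) = heckeOperatorBar N p (z : JZero N)) :
    jAtkinKummer N n w = heckeHom N (p : ℕ) R (ZMod n) (jAtkinKummer N n z) := by
  have : NeZero (p : ℕ) := ⟨p.2.ne_zero⟩
  have e : w = ⟨_, heckeOperatorAlong_mem_torsion N n p z⟩ := Subtype.ext h
  rw [e]
  exact atkinKummer_heckeOperatorAlong qbarEmb N n R p z

theorem jAtkinKummer_complexConjugation (z : Pic0.torsion Qbar (modularFunctionFieldBar N) n)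
    (g : Gamma0 N) :
    jAtkinKummer N n (JZero.torsionGaloisRep N n complexConjugation z) (Additive.ofMul g) =
      -jAtkinKummer N n z (Additive.ofMul (Period.jConjGamma0 N g)) := by
  rw [jAtkinKummer_apply, jAtkinKummer_apply, atkinChar_apply, atkinChar_apply,
    jKummer_complexConjugation, ← jConjGamma0_atkinGamma0]
  rfl

end Fermat.Agent.HK
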