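import Fermat.Agent.HK.Multiplier.Eisenstein

/-!
# Existence of forms with a parabolic-elliptic multiplier
-/

set_option autoImplicit false

noncomputable section

open UpperHalfPlane CongruenceSubgroup Filter Topology Manifold
open scoped MatrixGroups ModularForm

namespace Fermat.Agent.HK

open Multiplier

/-- For every parabolic-elliptic character `φ : Γ₀(N) → ℤ/n` there is a holomorphic function of
weight `4` with multiplier `charValue φ`, bounded at all cusps and tending to `1` at `i∞`. -/
theorem exists_form_with_multiplier {N n : ℕ} [NeZero N] [NeZero n]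
    (φ : parEllHoms N (ZMod n)) :
    ∃ E : ℍ → ℂ, MDiff E ∧ E ≠ 0 ∧ Tendsto E atImInfty (𝓝 1) ∧
      (∀ γ : Gamma0 N, E ∣[(4 : ℤ)] (γ : SL(2, ℤ)) = charValue N φ γ • E) ∧
      ∀ A : SL(2, ℤ), IsBoundedAtImInfty (E ∣[(4 : ℤ)] A) := by
  have hχ := isMultiplier_charValue φ
  have h4 : 3 ≤ 4 := by norm_num
  have he : Even 4 := by decide
  exact ⟨multSeries N (charValue N φ) 4, multSeries_mdifferentiable hχ h4,
    multSeries_ne_zero hχ h4 he, multSeries_tendsto hχ h4 he,
    fun γ ↦ multSeries_slash (k := 4) hχ γ,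
    fun A ↦ multSeries_slash_isBoundedAtImInfty hχ h4 A⟩

end Fermat.Agent.HK
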