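import Fermat.Agent.HK.RootBasic
import Mathlib.Analysis.SpecialFunctions.Complex.Analytic

/-!
# Multipliers at fixed points and at cusps
-/

set_option autoImplicit false

noncomputable section

open UpperHalfPlane CongruenceSubgroup Filter Topology
open scoped MatrixGroups ModularForm Manifold

namespace Fermat.Agent.HK

open Fermat.Agent.MF (MForm)

variable {N : ℕ} {k : ℤ}

/-- The multiplier at a fixed point is read off from the leading term. -/
theorem mult_eq_denom_zpow_of_fixed {f : ℍ → ℂ} (hf : MDiff f) (hf0 : f ≠ 0) {γ : SL(2, ℤ)}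
    {τ : ℍ} (hfix : γ • τ = τ) {c : ℂ} (hc : f ∣[k] γ = c • f) :
    c = denom (γ : GL (Fin 2) ℝ) τ ^ (-(2 * MF.ordAtH f τ + k)) := by
  have han := MF.analyticAt_ofComplex_comp hf τ
  have hne := MF.analyticOrderAt_ne_top hf hf0 τ
  obtain ⟨g, hg, hg0, hfg⟩ := (han.analyticOrderAt_ne_top).1 hne
  set a := analyticOrderNatAt (f ∘ ofComplex) (τ : ℂ) with ha
  have hord : MF.ordAtH f τ = (a : ℤ) := rfl
  let j : ℂ → ℂ := fun z => (γ 1 0 : ℂ) * z + (γ 1 1 : ℂ)
  let M : ℂ → ℂ := fun z => ((γ 0 0 : ℂ) * z + (γ 0 1 : ℂ)) / j z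
  have hjd : ∀ z : ℍ, denom (γ : GL (Fin 2) ℝ) z = j z := fun z => ModularGroup.denom_apply γ z
  have hM : ∀ z : ℍ, ((γ • z : ℍ) : ℂ) = M z := fun z => by
    rw [UpperHalfPlane.coe_specialLinearGroup_apply]
    simp [M, j]
  have hj0 : ∀ z : ℍ, j z ≠ 0 := fun z => hjd z ▸ denom_ne_zero _ z
  have hMτ : M τ = τ := by rw [← hM, hfix]
  have hdet : (γ 0 0 : ℂ) * (γ 1 1 : ℂ) - (γ 0 1 : ℂ) * (γ 1 0 : ℂ) = 1 := by
    have h := Matrix.det_fin_two (γ : Matrix (Fin 2) (Fin 2) ℤ)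
    rw [γ.det_coe] at h
    exact_mod_cast h.symm
  have hjc : ContinuousAt j τ := by fun_prop
  have hMc : ContinuousAt M τ := (by fun_prop : ContinuousAt
    (fun z => (γ 0 0 : ℂ) * z + (γ 0 1 : ℂ)) τ).div hjc (hj0 τ)
  have htend : Tendsto M (𝓝 (τ : ℂ)) (𝓝 (τ : ℂ)) := by
    have h := hMc.tendsto
    rwa [hMτ] at h
  let L : ℂ → ℂ := fun z => g (M z) * ((j z * j τ) ^ a)⁻¹ * j z ^ (-k)
  have hLc : ContinuousAt L τ := by
    have hgM : ContinuousAt (fun z => g (M z)) τ :=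
      ContinuousAt.comp (by rw [hMτ]; exact hg.continuousAt) hMc
    exact (hgM.mul (((hjc.mul continuousAt_const).pow a).inv₀
      (pow_ne_zero _ (mul_ne_zero (hj0 τ) (hj0 τ))))).mul (hjc.zpow₀ _ (Or.inl (hj0 τ)))
  have hev : L =ᶠ[𝓝[≠] (τ : ℂ)] fun z => c * g z := by
    filter_upwards [nhdsWithin_le_nhds hfg, nhdsWithin_le_nhds (htend.eventually hfg),
      nhdsWithin_le_nhds (isOpen_upperHalfPlaneSet.mem_nhds τ.im_pos), self_mem_nhdsWithin]
      with z h1 h2 hz hzne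
    have h := congrFun hc ⟨z, hz⟩
    rw [ModularForm.SL_slash_apply, Pi.smul_apply, hjd] at h
    simp only [Function.comp_apply, smul_eq_mul, ofComplex_apply_of_im_pos hz] at h1 h2 h
    rw [show M z = ((γ • (⟨z, hz⟩ : ℍ) : ℍ) : ℂ) from (hM ⟨z, hz⟩).symm, ofComplex_apply] at h2
    rw [h1, h2, hM] at h
    have hsub : M z - τ = (z - τ) / (j z * j τ) := by
      conv_lhs => rw [← hMτ]
      simp only [M]
      rw [div_sub_div _ _ (hj0 ⟨z, hz⟩) (hj0 τ)]
      congr 1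
      simp only [j]
      linear_combination (z - (τ : ℂ)) * hdet
    simp only [hsub, div_pow] at h
    have hz0 : (z - τ) ^ a ≠ 0 := pow_ne_zero _ (sub_ne_zero.2 hzne)
    refine mul_left_cancel₀ hz0 ?_
    simp only [L]
    linear_combination h
  have hfin := ((hLc.eventuallyEq_nhds_iff_eventuallyEq_nhdsNE
    (continuousAt_const.mul hg.continuousAt)).1 hev).eq_of_nhds
  simp only [L, hMτ] at hfin
  rw [hord, hjd, neg_add, zpow_add₀ (hj0 τ), zpow_neg, show 2 * (a : ℤ) = ((a + a : ℕ) : ℤ) by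
    push_cast; ring, zpow_natCast, pow_add, ← mul_pow]
  refine mul_right_cancel₀ hg0 ?_
  simp only [Pi.mul_apply] at hfin
  linear_combination -hfin

/-- If the order of `G / v` at a fixed point is compatible with the stabiliser, the multiplier of
`G` there is trivial. -/
theorem mult_eq_one_of_fixed {G v : ℍ → ℂ} (hG : MDiff G) (hv : MDiff v) (hG0 : G ≠ 0)
    (hv0 : v ≠ 0) {γ : SL(2, ℤ)} {τ : ℍ} (hfix : γ • τ = τ) {c : ℂ} (hc : G ∣[k] γ = c • G)
    (hvγ : v ∣[k] γ = v)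
    (hd : denom (γ : GL (Fin 2) ℝ) τ ^ (2 * (MF.ordAtH G τ - MF.ordAtH v τ)) = 1) : c = 1 := by
  have h1 := mult_eq_denom_zpow_of_fixed hG hG0 hfix hc
  have h2 := mult_eq_denom_zpow_of_fixed hv hv0 hfix (c := 1) (by rw [hvγ, one_smul])
  have hj := denom_ne_zero (γ : GL (Fin 2) ℝ) τ
  rw [show -(2 * MF.ordAtH G τ + k) = -(2 * (MF.ordAtH G τ - MF.ordAtH v τ)) +
    -(2 * MF.ordAtH v τ + k) by ring, zpow_add₀ hj, zpow_neg, hd, inv_one, one_mul, ← h2] at h1
  exact h1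

/-- An element of trace `t`, `t² < 4`, fixes a point of `ℍ`. -/
theorem exists_fixed_of_trace_sq_lt_four {γ : SL(2, ℤ)}
    (h : (γ : Matrix (Fin 2) (Fin 2) ℤ).trace ^ 2 < 4) : ∃ τ : ℍ, γ • τ = τ := by
  have hdet : γ 0 0 * γ 1 1 - γ 0 1 * γ 1 0 = 1 :=
    ((Matrix.det_fin_two (γ : Matrix (Fin 2) (Fin 2) ℤ)).symm.trans γ.det_coe)
  rw [Matrix.trace_fin_two] at h
  have hc : γ 1 0 ≠ 0 := by
    intro h0
    rw [h0] at hdet
    nlinarith [sq_nonneg (γ 0 0 - γ 1 1)]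
  have hcR : (γ 1 0 : ℝ) ≠ 0 := by exact_mod_cast hc
  set D : ℝ := 4 - ((γ 0 0 : ℝ) + γ 1 1) ^ 2 with hD
  have hDpos : 0 < D := by
    have : (((γ 0 0 + γ 1 1) ^ 2 : ℤ) : ℝ) < 4 := by exact_mod_cast h
    push_cast at this
    linarith
  set y : ℝ := Real.sqrt D / (2 * |(γ 1 0 : ℝ)|) with hy
  set x : ℝ := ((γ 0 0 : ℝ) - γ 1 1) / (2 * (γ 1 0 : ℝ)) with hx
  refine ⟨⟨⟨x, y⟩, by positivity⟩, UpperHalfPlane.ext ?_⟩
  have hj := denom_ne_zero (γ : GL (Fin 2) ℝ) (⟨⟨x, y⟩, by positivity⟩ : ℍ)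
  rw [ModularGroup.denom_apply] at hj
  rw [UpperHalfPlane.coe_specialLinearGroup_apply, div_eq_iff (by simpa using hj)]
  have hy2 : (y * (γ 1 0 : ℝ)) ^ 2 = D / 4 := by
    rw [mul_pow, hy, div_pow, mul_pow, sq_abs, Real.sq_sqrt hDpos.le]
    field_simp
    ring
  have hx2 : 2 * (γ 1 0 : ℝ) * x = (γ 0 0 : ℝ) - γ 1 1 := by
    rw [hx]
    field_simp
  have hdetR : (γ 0 0 : ℝ) * γ 1 1 - γ 0 1 * γ 1 0 = 1 := by exact_mod_cast hdet
  apply Complex.ext
  · simp
    refine mul_left_cancel₀ hcR ?_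
    linear_combination -((1 : ℝ) / 4) * (2 * (γ 1 0 : ℝ) * x - (γ 0 0 : ℝ) + γ 1 1) * hx2
      + hy2 - hdetR
  · simp
    linear_combination -y * hx2

/-- `f ∣ A` is periodic with period `w` when `A T^w A⁻¹` fixes `f`. -/
theorem slash_apply_vadd {f : ℍ → ℂ} {A : SL(2, ℤ)} {w : ℤ} {c : ℂ}
    (hc : f ∣[k] (A * ModularGroup.T ^ w * A⁻¹) = c • f) (τ : ℍ) :
    (f ∣[k] A) ((w : ℝ) +ᵥ τ) = c * (f ∣[k] A) τ := by
  have h : (f ∣[k] A) ∣[k] (ModularGroup.T ^ w) = c • (f ∣[k] A) := by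
    rw [← ModularForm.SL_smul_slash, ← hc, ← SlashAction.slash_mul, ← SlashAction.slash_mul]
    congr 1
    group
  have h' := congrFun h τ
  rw [ModularForm.SL_slash_apply, UpperHalfPlane.modular_T_zpow_smul, ModularGroup.denom_apply,
    ModularGroup.coe_T_zpow] at h'
  simpa using h'

/-- Order at the cusp of a periodic function. -/
def cuspOrd (w : ℝ) (f : ℍ → ℂ) : ℤ := (analyticOrderNatAt (cuspFunction w f) 0 : ℤ)

theorem periodic_ofComplex_of_vadd {f : ℍ → ℂ} {w : ℝ}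
    (h : ∀ τ : ℍ, f (w +ᵥ τ) = f τ) : Function.Periodic (f ∘ ofComplex) (w : ℂ) := by
  intro z
  by_cases hz : 0 < z.im
  · have hz' : 0 < (z + w).im := by simpa using hz
    simp only [Function.comp_apply, ofComplex_apply_of_im_pos hz, ofComplex_apply_of_im_pos hz']
    convert h ⟨z, hz⟩ using 2
    exact UpperHalfPlane.ext (add_comm _ _)
  · have hz' : ¬ 0 < (z + w).im := by simpa using hz
    simp only [not_lt] at hz hz'
    exact congrArg f (ofComplex_apply_eq_of_im_nonpos hz' hz)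

theorem analyticOrderAt_cuspFunction_ne_top {f : ℍ → ℂ} {w : ℝ} (hw : 0 < w) (hf : MDiff f)
    (hf0 : f ≠ 0) (hper : Function.Periodic (f ∘ ofComplex) (w : ℂ))
    : analyticOrderAt (cuspFunction w f) 0 ≠ ⊤ := by
  intro htop
  apply hf0
  have h1 := analyticOrderAt_eq_top.1 htop
  have h2 : ∀ᶠ τ in atImInfty, f τ = 0 := by
    filter_upwards [(qParam_tendsto_atImInfty hw).eventually h1] with τ hτ
    rwa [eq_cuspFunction τ hw.ne' hper] at hτ
  obtain ⟨A, hA⟩ := (atImInfty_mem _).1 h2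
  obtain ⟨B, hB, hB0⟩ : ∃ B : ℝ, A < B ∧ 0 < B :=
    ⟨max A 0 + 1, by linarith [le_max_left A 0], by linarith [le_max_right A 0]⟩
  have heq : Set.EqOn (f ∘ ofComplex) 0 {z : ℂ | 0 < z.im} := by
    refine (analyticOnNhd_upper hf).eqOn_zero_of_preconnected_of_eventuallyEq_zero
      (convex_halfSpace_im_gt 0).isPreconnected (z₀ := (B : ℂ) * Complex.I) (by simpa using hB0) ?_
    filter_upwards [(isOpen_lt continuous_const Complex.continuous_im).mem_nhds
      (show A < ((B : ℂ) * Complex.I).im by simpa using hB),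
      isOpen_upperHalfPlaneSet.mem_nhds (show 0 < ((B : ℂ) * Complex.I).im by simpa using hB0)]
      with z hz hz0
    simp only [Function.comp_apply, ofComplex_apply_of_im_pos hz0, Pi.zero_apply]
    exact hA ⟨z, hz0⟩ hz.le
  funext τ
  simpa using heq τ.im_pos

/-- At a cusp where the orders of `u` and `v` agree modulo `n`, an `n`-th root of
`u * v ^ (n-1)` is periodic. -/
theorem root_periodic_at_cusp {n : ℕ} (hn : n ≠ 0) {P U V : ℍ → ℂ} {w : ℝ} (hw : 0 < w)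
    (hP : MDiff P) (hU : MDiff U) (hV : MDiff V) (hU0 : U ≠ 0) (hV0 : V ≠ 0)
    (hUp : Function.Periodic (U ∘ ofComplex) (w : ℂ))
    (hVp : Function.Periodic (V ∘ ofComplex) (w : ℂ))
    (hUb : IsBoundedAtImInfty U) (hVb : IsBoundedAtImInfty V)
    (hpow : ∀ τ, P τ ^ n = U τ * V τ ^ (n - 1))
    (hord : (n : ℤ) ∣ cuspOrd w U - cuspOrd w V) {c : ℂ}
    (hc : ∀ τ : ℍ, P (w +ᵥ τ) = c * P τ) : c = 1 := by
  have hUa := UpperHalfPlane.analyticAt_cuspFunction_zero hw hUp hU hUb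
  have hVa := UpperHalfPlane.analyticAt_cuspFunction_zero hw hVp hV hVb
  have hta := analyticOrderAt_cuspFunction_ne_top hw hU hU0 hUp
  have htb := analyticOrderAt_cuspFunction_ne_top hw hV hV0 hVp
  obtain ⟨gU, hgU, hgU0, hU'⟩ := hUa.analyticOrderAt_ne_top.1 hta
  obtain ⟨gV, hgV, hgV0, hV'⟩ := hVa.analyticOrderAt_ne_top.1 htb
  set a := analyticOrderNatAt (cuspFunction w U) 0
  set b := analyticOrderNatAt (cuspFunction w V) 0
  obtain ⟨d, hd⟩ : n ∣ a + (n - 1) * b := by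
    rw [← Int.natCast_dvd_natCast]
    obtain ⟨e, he⟩ := hord
    refine ⟨e + b, ?_⟩
    simp only [cuspOrd] at he
    push_cast [Nat.one_le_iff_ne_zero.2 hn]
    linear_combination he
  let ψ : ℂ → ℂ := fun q => gU q * gV q ^ (n - 1)
  have hψ : AnalyticAt ℂ ψ 0 := hgU.mul (hgV.pow _)
  have hψ0 : ψ 0 ≠ 0 := mul_ne_zero hgU0 (pow_ne_zero _ hgV0)
  obtain ⟨r, hr⟩ := IsAlgClosed.exists_pow_nat_eq (ψ 0) (Nat.pos_of_ne_zero hn)
  have hr0 : r ≠ 0 := fun h => hψ0 (by rw [← hr, h, zero_pow hn])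
  have hgood : ∀ᶠ q in 𝓝 (0 : ℂ), AnalyticAt ℂ ψ q ∧ ψ q / ψ 0 ∈ Complex.slitPlane ∧ ψ q ≠ 0 ∧
      cuspFunction w U q = q ^ a * gU q ∧ cuspFunction w V q = q ^ b * gV q := by
    filter_upwards [hψ.eventually_analyticAt,
      (hψ.continuousAt.div_const (ψ 0)).preimage_mem_nhds (Complex.isOpen_slitPlane.mem_nhds
        (by simp [hψ0] : ψ 0 / ψ 0 ∈ Complex.slitPlane)),
      hψ.continuousAt.eventually_ne hψ0, hU', hV'] with q h1 h2 h3 h4 h5
    exact ⟨h1, h2, h3, by simpa using h4, by simpa using h5⟩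
  obtain ⟨A, hA⟩ := (atImInfty_mem _).1 ((qParam_tendsto_atImInfty hw).eventually hgood)
  set B := max A 0 with hB
  set U' : Set ℂ := {z : ℂ | B < z.im} with hU'def
  have hU'pos : ∀ z ∈ U', 0 < z.im := fun z hz => lt_of_le_of_lt (le_max_right A 0) hz
  have hU'good : ∀ z ∈ U', AnalyticAt ℂ ψ (Function.Periodic.qParam w z) ∧
      ψ (Function.Periodic.qParam w z) / ψ 0 ∈ Complex.slitPlane ∧
      ψ (Function.Periodic.qParam w z) ≠ 0 ∧
      cuspFunction w U (Function.Periodic.qParam w z) =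
        Function.Periodic.qParam w z ^ a * gU (Function.Periodic.qParam w z) ∧
      cuspFunction w V (Function.Periodic.qParam w z) =
        Function.Periodic.qParam w z ^ b * gV (Function.Periodic.qParam w z) := fun z hz =>
    hA ⟨z, hU'pos z hz⟩ ((le_max_left A 0).trans (le_of_lt hz))
  let K : ℂ → ℂ := fun z => r * (ψ (Function.Periodic.qParam w z) / ψ 0) ^ (1 / (n : ℂ)) *
    Function.Periodic.qParam w z ^ d
  have hKa : AnalyticOnNhd ℂ K U' := by
    intro z hz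
    have hq : AnalyticAt ℂ (Function.Periodic.qParam w) z :=
      Function.Periodic.differentiable_qParam.analyticAt z
    exact (analyticAt_const.mul
      ((((hU'good z hz).1.comp hq).div analyticAt_const hψ0).cpow analyticAt_const
        (hU'good z hz).2.1)).mul (hq.pow d)
  have hKpow : ∀ z ∈ U', (P ∘ ofComplex) z ^ n = K z ^ n := by
    intro z hz
    obtain ⟨-, -, -, h4, h5⟩ := hU'good z hz
    have hz0 := hU'pos z hz
    simp only [Function.comp_apply, ofComplex_apply_of_im_pos hz0]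
    rw [hpow, ← eq_cuspFunction (⟨z, hz0⟩ : ℍ) hw.ne' hUp,
      ← eq_cuspFunction (⟨z, hz0⟩ : ℍ) hw.ne' hVp, h4, h5]
    simp only [K]
    rw [mul_pow, mul_pow, mul_pow, hr, one_div, Complex.cpow_nat_inv_pow _ hn,
      mul_div_cancel₀ _ hψ0, ← pow_mul, ← pow_mul, mul_comm d n, ← hd, pow_add, mul_comm b]
    simp only [ψ]
    ring
  have hz₀ : ((B + 1 : ℝ) : ℂ) * Complex.I ∈ U' := by simp [hU'def]
  set z₀ := ((B + 1 : ℝ) : ℂ) * Complex.I
  have hK0 : K z₀ ≠ 0 := by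
    refine mul_ne_zero (mul_ne_zero hr0 ?_) (pow_ne_zero _ (Function.Periodic.qParam_ne_zero z₀))
    rw [ne_eq, Complex.cpow_eq_zero_iff]
    exact fun h => (div_ne_zero (hU'good z₀ hz₀).2.2.1 hψ0) h.1
  set ζ := (P ∘ ofComplex) z₀ / K z₀ with hζ
  have hζn : ζ ^ n = 1 := by rw [hζ, div_pow, hKpow z₀ hz₀, div_self (pow_ne_zero n hK0)]
  have hζ0 : ζ ≠ 0 := fun h0 => by simp [h0, zero_pow hn] at hζn
  have heq := eqOn_of_pow_eq (isOpen_lt continuous_const Complex.continuous_im)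
    (convex_halfSpace_im_gt B).isPreconnected hn
    (f := P ∘ ofComplex) (g := fun z => ζ * K z)
    (fun z hz => analyticOnNhd_upper hP z (hU'pos z hz))
    (fun z hz => analyticAt_const.mul (hKa z hz))
    (fun z hz => by show _ = (ζ * K z) ^ n; rw [mul_pow, hζn, one_mul, hKpow z hz]) hz₀
    (by rw [hζ, div_mul_cancel₀ _ hK0]) (mul_ne_zero hζ0 hK0)
  have hz₁ : z₀ + w ∈ U' := by simp [hU'def, z₀]
  have hq : Function.Periodic.qParam w (z₀ + w) = Function.Periodic.qParam w z₀ := by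
    simp only [Function.Periodic.qParam]
    rw [mul_add, add_div, Complex.exp_add, mul_div_assoc (b := (w : ℂ)),
      div_self (by exact_mod_cast hw.ne' : (w : ℂ) ≠ 0), mul_one, Complex.exp_two_pi_mul_I, mul_one]
  have hK1 : K (z₀ + w) = K z₀ := by simp only [K, hq]
  have e1 : (P ∘ ofComplex) (z₀ + w) = (P ∘ ofComplex) z₀ := by
    rw [heq hz₁, heq hz₀]
    simp only [hK1]
  have e2 : (P ∘ ofComplex) (z₀ + w) = c * (P ∘ ofComplex) z₀ := by
    simp only [Function.comp_apply, ofComplex_apply_of_im_pos (hU'pos z₀ hz₀),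
      ofComplex_apply_of_im_pos (hU'pos _ hz₁)]
    rw [← hc ⟨z₀, hU'pos z₀ hz₀⟩]
    congr 1
    exact UpperHalfPlane.ext (add_comm _ _)
  have hP0 : (P ∘ ofComplex) z₀ ≠ 0 := by rw [heq hz₀]; exact mul_ne_zero hζ0 hK0
  exact mul_right_cancel₀ hP0 (by rw [← e2, e1, one_mul])

end Fermat.Agent.HK
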