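import Mathlib.Analysis.Meromorphic.FactorizedRational
import Mathlib.Analysis.Meromorphic.Order
import Mathlib.Analysis.Complex.HasPrimitives
import Mathlib.Analysis.Calculus.MeanValue
import Mathlib.Analysis.Analytic.IsolatedZeros
import Mathlib.Analysis.Complex.CauchyIntegral
import Mathlib.Analysis.SpecialFunctions.Complex.Log
import Mathlib.Analysis.Complex.Polynomial.Basic

/-!
# Holomorphic `n`-th roots on the upper half plane

If `h` is holomorphic on the upper half plane and all its zeros have order divisible by `n`, then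
`h` has a holomorphic `n`-th root there.
-/

set_option autoImplicit false

open Set Filter Topology Metric

namespace Fermat.Agent.HK

/-- A non-vanishing holomorphic function on a ball has a holomorphic `n`-th root. -/
theorem exists_root_of_ne_zero_ball {c : ℂ} {r : ℝ} {g : ℂ → ℂ} {n : ℕ} (hn : n ≠ 0)
    (hg : AnalyticOnNhd ℂ g (ball c r)) (hg0 : ∀ z ∈ ball c r, g z ≠ 0) :
    ∃ f : ℂ → ℂ, AnalyticOnNhd ℂ f (ball c r) ∧ ∀ z ∈ ball c r, f z ^ n = g z := by
  rcases le_or_gt r 0 with hr | hr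
  · exact ⟨0, by simp [ball_eq_empty.2 hr, AnalyticOnNhd]⟩
  have hd : DifferentiableOn ℂ (fun z => deriv g z / g z) (ball c r) :=
    ((hg.deriv).differentiableOn.div hg.differentiableOn hg0)
  obtain ⟨L, hL⟩ := hd.isExactOn_ball
  set φ : ℂ → ℂ := fun z => g z * Complex.exp (-L z) with hφ
  have hφd : ∀ z ∈ ball c r, HasDerivAt φ 0 z := by
    intro z hz
    have h1 : HasDerivAt g (deriv g z) z := (hg z hz).differentiableAt.hasDerivAt
    have h2 := h1.mul ((hL z hz).neg.cexp)
    refine h2.congr_deriv ?_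
    field_simp [hg0 z hz]
    simp
  obtain ⟨K, hK⟩ : ∃ K, ∀ z ∈ ball c r, φ z = K := by
    refine ⟨φ c, fun z hz => ?_⟩
    refine (convex_ball c r).is_const_of_fderivWithin_eq_zero
      (fun w hw => (hφd w hw).differentiableAt.differentiableWithinAt) (fun w hw => ?_) hz
      (mem_ball_self hr)
    rw [fderivWithin_of_isOpen isOpen_ball hw, (hφd w hw).hasFDerivAt.fderiv]
    ext
    simp
  obtain ⟨κ, hκ⟩ := IsAlgClosed.exists_pow_nat_eq K (Nat.pos_of_ne_zero hn)
  refine ⟨fun z => κ * Complex.exp (L z / n), ?_, ?_⟩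
  · refine DifferentiableOn.analyticOnNhd (fun z hz => ?_) isOpen_ball
    exact (((hL z hz).differentiableAt.div_const _).cexp.const_mul κ).differentiableWithinAt
  · intro z hz
    have h1 := hK z hz
    simp only [hφ] at h1
    rw [mul_pow, hκ, ← Complex.exp_nat_mul, mul_div_cancel₀ _ (Nat.cast_ne_zero.2 hn), ← h1,
      mul_assoc, ← Complex.exp_add, neg_add_cancel, Complex.exp_zero, mul_one]

/-- A holomorphic function on a closed disk whose orders are all divisible by `n` has an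
`n`-th root on the interior. -/
theorem exists_root_ball {c : ℂ} {r : ℝ} {h : ℂ → ℂ} {n : ℕ} (hn : n ≠ 0)
    (hh : AnalyticOnNhd ℂ h (closedBall c r))
    (hord : ∀ z ∈ closedBall c r, ∃ m : ℕ, analyticOrderAt h z = ((n * m : ℕ) : ℕ∞)) :
    ∃ f : ℂ → ℂ, AnalyticOnNhd ℂ f (ball c r) ∧ ∀ z ∈ ball c r, f z ^ n = h z := by
  have hmero : MeromorphicOn h (closedBall c r) := hh.meromorphicOn
  set D := MeromorphicOn.divisor h (closedBall c r) with hD
  have hne : ∀ u : closedBall c r, meromorphicOrderAt h u ≠ ⊤ := by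
    intro u
    obtain ⟨m, hm⟩ := hord u u.2
    rw [(hh u u.2).meromorphicOrderAt_eq, hm]
    exact WithTop.coe_ne_top
  have hfin : (Function.support ⇑D).Finite := D.finiteSupport (isCompact_closedBall c r)
  obtain ⟨g, hg, hg0, hfg⟩ := hmero.extract_zeros_poles hne hfin
  have hDdiv : ∀ z, ∃ m : ℕ, D z = ((n * m : ℕ) : ℤ) := by
    intro z
    by_cases hz : z ∈ closedBall c r
    · obtain ⟨m, hm⟩ := hord z hz
      refine ⟨m, ?_⟩
      rw [hD, MeromorphicOn.divisor_apply hmero hz, (hh z hz).meromorphicOrderAt_eq, hm]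
      simp
    · exact ⟨0, by simpa using D.apply_eq_zero_of_notMem hz⟩
  choose m hm using hDdiv
  obtain ⟨q, hq, hqg⟩ := exists_root_of_ne_zero_ball hn (hg.mono ball_subset_closedBall)
    (fun z hz => hg0 ⟨z, ball_subset_closedBall hz⟩)
  let P : ℂ → ℂ := fun z => ∏ u ∈ hfin.toFinset, (z - u) ^ (m u)
  have hP : AnalyticOnNhd ℂ P univ := by
    intro z _
    exact Finset.analyticAt_fun_prod _ (fun u _ => by fun_prop)
  refine ⟨fun z => P z * q z, fun z hz => (hP z trivial).mul (hq z hz), ?_⟩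
  have key : ∀ z, (∏ᶠ u, (· - u) ^ D u) z = P z ^ n := by
    intro z
    rw [finprod_eq_prod_of_mulSupport_subset (s := hfin.toFinset) _ (by
      intro u hu
      simp only [Function.mem_mulSupport, ne_eq] at hu
      simp only [Set.Finite.coe_toFinset, Function.mem_support, ne_eq]
      intro h0
      exact hu (by rw [h0, zpow_zero]))]
    rw [Finset.prod_apply, ← Finset.prod_pow]
    refine Finset.prod_congr rfl fun u _ => ?_
    rw [Pi.pow_apply, hm u, zpow_natCast, ← pow_mul, mul_comm]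
  have heq : h =ᶠ[codiscreteWithin (ball c r)] fun z => (P z * q z) ^ n := by
    have h1 := hfg.filter_mono (Filter.codiscreteWithin_mono (ball_subset_closedBall (x := c) (ε := r)))
    filter_upwards [h1, Filter.self_mem_codiscreteWithin (ball c r)] with z hz hzb
    rw [hz, Pi.smul_apply', key, smul_eq_mul, mul_pow, hqg z hzb]
  intro z hz
  have hc1 : ContinuousAt h z := (hh z (ball_subset_closedBall hz)).continuousAt
  have hc2 : ContinuousAt (fun z => (P z * q z) ^ n) z :=
    (((hP z trivial).mul (hq z hz)).continuousAt).pow n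
  have h3 : h =ᶠ[𝓝[≠] z] fun z => (P z * q z) ^ n :=
    (hh z (ball_subset_closedBall hz)).meromorphicAt.eventuallyEq_nhdsNE_of_eventuallyEq_codiscreteWithin
      ((((hP z trivial).mul (hq z hz)).pow n).meromorphicAt) hz
      (PerfectSpace.univ_preperfect.open_inter isOpen_ball _ (by simpa using hz) |> fun h => by simpa using h) heq
  exact ((hc1.eventuallyEq_nhds_iff_eventuallyEq_nhdsNE hc2).1 h3).eq_of_nhds.symm

/-- The disk centred at `R·I` of radius `R - 1/R`; these exhaust the upper half plane. -/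
def exhDisk (R : ℝ) : Set ℂ := ball ((R : ℂ) * Complex.I) (R - R⁻¹)

theorem closure_exhDisk_subset {R : ℝ} (hR : 1 < R) :
    closedBall ((R : ℂ) * Complex.I) (R - R⁻¹) ⊆ {z : ℂ | 0 < z.im} := by
  intro z hz
  rw [mem_closedBall, dist_eq_norm] at hz
  have h := (Complex.abs_im_le_norm (z - (R : ℂ) * Complex.I)).trans hz
  have hp : 0 < R⁻¹ := inv_pos.2 (by linarith)
  simp [abs_le] at h
  show 0 < z.im
  linarith [h.1]

theorem exhDisk_mono {R S : ℝ} (hR : 1 < R) (hS : R ≤ S) : exhDisk R ⊆ exhDisk S := by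
  refine ball_subset_ball' ?_
  have h1 : S⁻¹ ≤ R⁻¹ := inv_anti₀ (by linarith) hS
  have h2 : dist ((R : ℂ) * Complex.I) ((S : ℂ) * Complex.I) = S - R := by
    rw [dist_eq_norm, ← sub_mul, norm_mul, Complex.norm_I, mul_one, ← Complex.ofReal_sub,
      Complex.norm_real, Real.norm_eq_abs, abs_sub_comm, abs_of_nonneg (by linarith)]
  linarith

theorem exists_mem_exhDisk {z : ℂ} (hz : 0 < z.im) : ∃ R : ℝ, 2 < R ∧ z ∈ exhDisk R := by
  refine ⟨max 3 ((Complex.normSq z + 3) / (2 * z.im)), lt_of_lt_of_le (by norm_num)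
    (le_max_left _ _), ?_⟩
  set R := max 3 ((Complex.normSq z + 3) / (2 * z.im)) with hR
  have h3 : 3 ≤ R := le_max_left _ _
  have h4 : Complex.normSq z + 3 ≤ R * (2 * z.im) :=
    (div_le_iff₀ (by positivity)).1 (le_max_right _ _)
  have hp : (0 : ℝ) < R⁻¹ := inv_pos.2 (by linarith)
  have hi : R⁻¹ ≤ 1 := inv_le_one_of_one_le₀ (by linarith)
  have hRR : R * R⁻¹ = 1 := mul_inv_cancel₀ (by linarith)
  rw [exhDisk, mem_ball, dist_eq_norm]
  refine lt_of_pow_lt_pow_left₀ 2 (by nlinarith) ?_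
  rw [← Complex.normSq_eq_norm_sq]
  simp [Complex.normSq_apply] at h4 ⊢
  nlinarith

theorem ball_subset_upper {R : ℝ} (hR : 1 < R) : exhDisk R ⊆ {z : ℂ | 0 < z.im} :=
  ball_subset_closedBall.trans (closure_exhDisk_subset hR)

/-- Two analytic `n`-th roots of the same function on a connected open set which agree at a point
where they do not vanish agree everywhere. -/
theorem eqOn_of_pow_eq {U : Set ℂ} (hUo : IsOpen U) (hUc : IsPreconnected U) {n : ℕ} (hn : n ≠ 0)
    {f g : ℂ → ℂ} (hf : AnalyticOnNhd ℂ f U) (hg : AnalyticOnNhd ℂ g U)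
    (hp : ∀ z ∈ U, f z ^ n = g z ^ n) {z₀ : ℂ} (hz₀ : z₀ ∈ U) (h0 : f z₀ = g z₀)
    (hne : g z₀ ≠ 0) : EqOn f g U := by
  refine hf.eqOn_of_preconnected_of_eventuallyEq hg hUc hz₀ ?_
  have hq : ContinuousAt (fun z => f z / g z) z₀ :=
    (hf z₀ hz₀).continuousAt.div (hg z₀ hz₀).continuousAt hne
  classical
  let S : Finset ℂ := (Polynomial.nthRootsFinset n (1 : ℂ)).erase 1
  have hev : ∀ᶠ z in 𝓝 z₀, f z / g z ∉ (S : Set ℂ) :=
    hq.preimage_mem_nhds ((S.finite_toSet.isClosed.isOpen_compl).mem_nhds (by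
      simp [S, h0, hne]))
  filter_upwards [hev, hUo.mem_nhds hz₀,
    (hg z₀ hz₀).continuousAt.eventually_ne hne] with z h1 h2 h3
  by_contra h4
  refine h1 (Finset.mem_coe.2 (Finset.mem_erase.2 ⟨?_, ?_⟩))
  · rwa [ne_eq, div_eq_one_iff_eq h3]
  · rw [Polynomial.mem_nthRootsFinset (Nat.pos_of_ne_zero hn), div_pow, hp z h2,
      div_self (pow_ne_zero n h3)]

/-- **Global root.** A holomorphic function on the upper half plane, whose orders are all
divisible by `n`, is an `n`-th power of a holomorphic function. -/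
theorem exists_root_upper {h : ℂ → ℂ} {n : ℕ} (hn : n ≠ 0)
    (hh : AnalyticOnNhd ℂ h {z : ℂ | 0 < z.im})
    (hord : ∀ z : ℂ, 0 < z.im → ∃ m : ℕ, analyticOrderAt h z = ((n * m : ℕ) : ℕ∞)) :
    ∃ G : ℂ → ℂ, AnalyticOnNhd ℂ G {z : ℂ | 0 < z.im} ∧
      ∀ z : ℂ, 0 < z.im → G z ^ n = h z := by
  have hpt : (2 : ℂ) * Complex.I ∈ exhDisk 2 := by
    simp [exhDisk]; norm_num
  obtain ⟨z₀, hz₀, hne⟩ : ∃ z₀ ∈ exhDisk 2, h z₀ ≠ 0 := by
    by_contra hcon
    push Not at hcon
    obtain ⟨m, hm⟩ := hord _ (ball_subset_upper one_lt_two hpt)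
    have : analyticOrderAt h ((2 : ℂ) * Complex.I) = ⊤ := by
      rw [analyticOrderAt_eq_top]
      exact Filter.eventually_of_mem (isOpen_ball.mem_nhds hpt) hcon
    rw [this] at hm
    exact ENat.natCast_ne_top _ hm.symm
  have hroot : ∀ R : ℝ, 2 ≤ R → ∃ f : ℂ → ℂ, AnalyticOnNhd ℂ f (exhDisk R) ∧
      ∀ z ∈ exhDisk R, f z ^ n = h z := fun R hR =>
    exists_root_ball hn (hh.mono (closure_exhDisk_subset (by linarith)))
      (fun z hz => hord z (closure_exhDisk_subset (by linarith) hz))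
  choose f hfa hfp using hroot
  have hne' : ∀ R hR, f R hR z₀ ≠ 0 := by
    intro R hR h0
    refine hne ?_
    rw [← hfp R hR z₀ (exhDisk_mono one_lt_two hR hz₀), h0, zero_pow hn]
  -- normalised roots
  let g : ∀ R : ℝ, 2 ≤ R → ℂ → ℂ := fun R hR z => f 2 le_rfl z₀ / f R hR z₀ * f R hR z
  have hga : ∀ R hR, AnalyticOnNhd ℂ (g R hR) (exhDisk R) := fun R hR z hz =>
    analyticAt_const.mul (hfa R hR z hz)
  have hgp : ∀ R hR, ∀ z ∈ exhDisk R, g R hR z ^ n = h z := by
    intro R hR z hz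
    rw [mul_pow, div_pow, hfp _ _ _ hz₀, hfp R hR _ (exhDisk_mono one_lt_two hR hz₀),
      div_self hne, one_mul, hfp R hR z hz]
  have hg0 : ∀ R hR, g R hR z₀ = f 2 le_rfl z₀ := fun R hR => div_mul_cancel₀ _ (hne' R hR)
  have hcompat : ∀ R S hR hS, R ≤ S → EqOn (g S hS) (g R hR) (exhDisk R) := by
    intro R S hR hS hRS
    have hsub := exhDisk_mono (by linarith : (1 : ℝ) < R) hRS
    refine eqOn_of_pow_eq isOpen_ball (convex_ball _ _).isPreconnected hn ((hga S hS).mono hsub)
      (hga R hR) (fun z hz => ?_) (exhDisk_mono one_lt_two hR hz₀) ?_ ?_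
    · rw [hgp S hS z (hsub hz), hgp R hR z hz]
    · rw [hg0, hg0]
    · rw [hg0]; exact hne' 2 le_rfl
  have hpair : ∀ R S hR hS, ∀ z ∈ exhDisk R, z ∈ exhDisk S → g R hR z = g S hS z := by
    intro R S hR hS z hz hz'
    rcases le_total R S with hle | hle
    · exact (hcompat R S hR hS hle hz).symm
    · exact hcompat S R hS hR hle hz'
  classical
  let G : ℂ → ℂ := fun z => if hz : 0 < z.im then
    g (exists_mem_exhDisk hz).choose (exists_mem_exhDisk hz).choose_spec.1.le z else 0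
  have hG : ∀ R hR, EqOn G (g R hR) (exhDisk R) := by
    intro R hR z hz
    have him : 0 < z.im := ball_subset_upper (by linarith) hz
    simp only [G, dif_pos him]
    exact hpair _ _ _ _ z (exists_mem_exhDisk him).choose_spec.2 hz
  refine ⟨G, fun z hz => ?_, fun z hz => ?_⟩
  · obtain ⟨R, hR, hzR⟩ := exists_mem_exhDisk hz
    exact ((hga R hR.le) z hzR).congr
      ((hG R hR.le).symm.eventuallyEq_of_mem (isOpen_ball.mem_nhds hzR))
  · obtain ⟨R, hR, hzR⟩ := exists_mem_exhDisk hz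
    rw [hG R hR.le hzR, hgp R hR.le z hzR]

end Fermat.Agent.HK
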