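import Fermat.Agent.Eigen.QCoeff
import Fermat.Prelude.Def_CuspForm_HeckeAlgebra

/-!
`f ↦ (t ↦ a₁(t f))` is injective on cusp forms, for the full Hecke algebra.
-/

set_option autoImplicit false

noncomputable section

open CongruenceSubgroup ModularFormClass

namespace Fermat.Agent.HK

variable {N : ℕ} [NeZero N] {k : ℤ}

theorem qCoeff_eq_zero_of_forall_qCoeff_one {f : CuspForm (Gamma0 N) k}
    (h : ∀ t ∈ CuspForm.heckeAlgebra N k ∅, qCoeff ⇑(t f) 1 = 0) (n : ℕ) :
    ∀ t ∈ CuspForm.heckeAlgebra N k ∅, qCoeff ⇑(t f) n = 0 := by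
  induction n using Nat.strong_induction_on with
  | _ n ih =>
    intro t ht
    rcases Nat.lt_or_ge n 2 with hn | hn
    · interval_cases n
      · exact Eigen.qCoeff_zero_index _
      · exact h t ht
    · obtain ⟨p, hp, m, rfl⟩ : ∃ p, p.Prime ∧ ∃ m, n = m * p :=
        ⟨n.minFac, Nat.minFac_prime (by omega), n / n.minFac,
          (Nat.div_mul_cancel (Nat.minFac_dvd n)).symm⟩
      have hm : m < m * p := lt_mul_of_one_lt_right
        (Nat.pos_of_ne_zero fun h0 => by simp [h0] at hn) hp.one_lt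
      by_cases hpN : p ∣ N
      · have h1 := ih m hm _ (mul_mem
          (CuspForm.heckeULin_mem_heckeAlgebra hp hpN (Set.notMem_empty p)) ht)
        rwa [Module.End.mul_apply, Eigen.qCoeff_heckeULin] at h1
      · have h1 := ih m hm _ (mul_mem
          (CuspForm.heckeTLin_mem_heckeAlgebra hp hpN (Set.notMem_empty p)) ht)
        rw [Module.End.mul_apply, Eigen.qCoeff_heckeTLin] at h1
        split_ifs at h1 with hd
        · rwa [ih (m / p) ((Nat.div_le_self m p).trans_lt hm) t ht, mul_zero, add_zero] at h1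
        · rwa [add_zero] at h1

/-- A cusp form orthogonal to the Hecke algebra for `(t, f) ↦ a₁(t f)` is zero. -/
theorem eq_zero_of_forall_qCoeff_one {f : CuspForm (Gamma0 N) k}
    (h : ∀ t ∈ CuspForm.heckeAlgebra N k ∅, qCoeff ⇑(t f) 1 = 0) : f = 0 :=
  Eigen.cuspForm_ext_qCoeff fun n => by
    rw [Eigen.qCoeff_zero_form]
    exact qCoeff_eq_zero_of_forall_qCoeff_one h n 1 (one_mem _)

end Fermat.Agent.HK
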