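import Fermat.Agent.HK.TRep
import Fermat.Agent.HK.TPairing
import Fermat.Agent.HK.DualFree

/-!
Over a field of characteristic zero `H(K) ≅ (A^*)²` for `A = K ⊗ T`, the two factors being the
eigenspaces of the involution: hence `A`-linear endomorphisms are `2 × 2` matrices over `A`.
-/

set_option autoImplicit false

noncomputable section

open CongruenceSubgroup ModularFormClass
open scoped MatrixGroups TensorProduct Matrix

namespace Fermat.Agent.HK

variable (N : ℕ) [NeZero N]

instance instFiniteTFull : Module.Finite ℤ (TFull N) := moduleFinite_tFull N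

instance instFreeTFull : Module.Free ℤ (TFull N) := moduleFree_tFull N

/-- A `ℤ`-basis of the Hecke algebra. -/
def tBasis : Module.Basis (Module.Free.ChooseBasisIndex ℤ (TFull N)) ℤ (TFull N) :=
  Module.Free.chooseBasis ℤ (TFull N)

section Linear

theorem coe_sum_tBasis (c : Module.Free.ChooseBasisIndex ℤ (TFull N) → ℤ) :
    ((∑ i, c i • tBasis N i : TFull N) : Module.End ℂ (CuspForm (Gamma0 N) 2))
      = ∑ i, (c i : ℂ) • (tBasis N i : Module.End ℂ (CuspForm (Gamma0 N) 2)) := by
  simp only [AddSubmonoidClass.coe_finsetSum]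
  exact Finset.sum_congr rfl fun i _ => by
    rw [Int.cast_smul_eq_zsmul]
    rfl

/-- A `ℤ`-basis of `T` is linearly independent over `ℂ` in `End S`. -/
theorem linearIndependent_tBasis :
    LinearIndependent ℂ fun i => (tBasis N i : Module.End ℂ (CuspForm (Gamma0 N) 2)) := by
  classical
  set V : Matrix (Fin (MF.ParHom.parRank N) × Fin (MF.ParHom.parRank N))
      (Module.Free.ChooseBasisIndex ℤ (TFull N)) ℤ :=
    Matrix.of fun ij c => heckeRep N (tBasis N c) ij.1 ij.2 with hV
  have hZ : Function.Injective V.mulVec := by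
    intro c d h
    have h' : heckeRep N ((tBasis N).equivFun.symm c) = heckeRep N ((tBasis N).equivFun.symm d) := by
      ext i j
      have := congrFun h (i, j)
      simp only [hV, Matrix.mulVec, dotProduct, Matrix.of_apply] at this
      simpa only [Module.Basis.equivFun_symm_apply, map_sum, map_zsmul, Matrix.sum_apply,
        Matrix.smul_apply, smul_eq_mul, mul_comm (c _), mul_comm (d _)] using this
    exact (tBasis N).equivFun.symm.injective (heckeRep_injective N h')
  rw [Fintype.linearIndependent_iff]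
  intro g hg
  have h0 : (V.map (Int.castRingHom ℂ)).mulVec g = 0 := by
    funext ij
    have hC := congrArg (coordC N) hg
    rw [map_sum, map_zero] at hC
    have := congrFun (congrFun hC ij.1) ij.2
    simp only [coordC_smul, ← castMat_heckeRep, castMat_apply, Matrix.sum_apply, Matrix.smul_apply,
      Matrix.map_apply, smul_eq_mul, Matrix.zero_apply] at this
    simpa [hV, Matrix.mulVec, dotProduct, mul_comm] using this
  exact congrFun ((mulVec_cast_injective hZ ℂ) (h0.trans (Matrix.mulVec_zero _).symm))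

/-- `f ↦ (i ↦ a₁(bᵢ f))` is injective. -/
theorem eq_zero_of_forall_tBasis {f : CuspForm (Gamma0 N) 2}
    (h : ∀ i, qCoeff ⇑((tBasis N i : Module.End ℂ (CuspForm (Gamma0 N) 2)) f) 1 = 0) : f = 0 := by
  refine eq_zero_of_forall_qCoeff_one fun t ht => ?_
  have e : ∀ u : TFull N, qCoeff ⇑((u : Module.End ℂ (CuspForm (Gamma0 N) 2)) f) 1
      = Eigen.qCoeffLin N 2 1 ((u : Module.End ℂ (CuspForm (Gamma0 N) 2)) f) := fun _ => rfl
  rw [show t = ((⟨t, ht⟩ : TFull N) : Module.End ℂ (CuspForm (Gamma0 N) 2)) from rfl, e,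
    ← (tBasis N).sum_equivFun ⟨t, ht⟩, coe_sum_tBasis]
  simp [h]

/-- `rank T = dim S`. -/
theorem parRank_eq_two_mul_card :
    MF.ParHom.parRank N = 2 * Fintype.card (Module.Free.ChooseBasisIndex ℤ (TFull N)) := by
  classical
  have hfinH : FiniteDimensional ℂ (HSpace N ℂ) := Module.Finite.equiv (hCoord N ℂ).symm
  have : FiniteDimensional ℂ (CuspForm (Gamma0 N) 2 × CuspForm (Gamma0 N) 2) :=
    Module.Finite.equiv (periodEquiv N).symm
  have : FiniteDimensional ℂ (CuspForm (Gamma0 N) 2) :=
    Module.Finite.of_surjective (LinearMap.fst ℂ _ (CuspForm (Gamma0 N) 2)) fun f => ⟨(f, 0), rfl⟩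
  have hr : MF.ParHom.parRank N = 2 * Module.finrank ℂ (CuspForm (Gamma0 N) 2) := by
    rw [two_mul, ← Module.finrank_prod, (periodEquiv N).finrank_eq, (hCoord N ℂ).finrank_eq,
      Module.finrank_fin_fun]
  rw [hr]
  congr 1
  let P : CuspForm (Gamma0 N) 2 →ₗ[ℂ] (Module.Free.ChooseBasisIndex ℤ (TFull N) → ℂ) :=
    LinearMap.pi fun i => (Eigen.qCoeffLin N 2 1).comp
      (tBasis N i : Module.End ℂ (CuspForm (Gamma0 N) 2))
  let Q : (Module.Free.ChooseBasisIndex ℤ (TFull N) → ℂ) →ₗ[ℂ]
      Module.Dual ℂ (CuspForm (Gamma0 N) 2) :=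
    Fintype.linearCombination ℂ fun i => (Eigen.qCoeffLin N 2 1).comp
      (tBasis N i : Module.End ℂ (CuspForm (Gamma0 N) 2))
  refine le_antisymm ?_ ?_
  · have := LinearMap.finrank_le_finrank_of_injective (f := P)
      ((injective_iff_map_eq_zero P).mpr fun f hf =>
        eq_zero_of_forall_tBasis N fun i => congrFun hf i)
    rwa [Module.finrank_pi] at this
  · have hQ : Function.Injective Q := by
      refine (injective_iff_map_eq_zero Q).mpr fun g hg => ?_
      refine funext (Fintype.linearIndependent_iff.mp (linearIndependent_tBasis N) g ?_)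
      refine LinearMap.ext fun f => ?_
      refine eq_zero_of_forall_qCoeff_one fun t ht => ?_
      have hc : ∀ i, t ((tBasis N i : Module.End ℂ (CuspForm (Gamma0 N) 2)) f)
          = (tBasis N i : Module.End ℂ (CuspForm (Gamma0 N) 2)) (t f) := fun i => by
        have := congrArg Subtype.val (mul_comm (⟨t, ht⟩ : TFull N) (tBasis N i))
        exact LinearMap.congr_fun this f
      have := LinearMap.congr_fun hg (t f)
      simp only [Q, Fintype.linearCombination_apply, LinearMap.sum_apply, LinearMap.smul_apply,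
        LinearMap.comp_apply, LinearMap.zero_apply] at this
      show Eigen.qCoeffLin N 2 1 (t _) = 0
      rw [LinearMap.sum_apply, map_sum, map_sum]
      refine Eq.trans (Finset.sum_congr rfl fun i _ => ?_) this
      rw [LinearMap.smul_apply, map_smul, map_smul, hc]
    have := LinearMap.finrank_le_finrank_of_injective (f := Q) hQ
    rwa [Subspace.dual_finrank_eq, Module.finrank_pi] at this

end Linear

section Generic

/-- The two integral row vectors `μ₀ + μ₀ J`, `μ₁ - μ₁ J`. -/
def signedRow {R : Type*} [CommRing R] (μ : Fin 2 × Fin (MF.ParHom.parRank N) → R) (i : Fin 2) :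
    Fin (MF.ParHom.parRank N) → R :=
  if i = 0 then (fun k => μ (0, k)) + (fun k => μ (0, k)) ᵥ* (involMatZ N).map (Int.castRingHom R)
  else (fun k => μ (1, k)) - (fun k => μ (1, k)) ᵥ* (involMatZ N).map (Int.castRingHom R)

/-- Rows `signedRow μ i * heckeRep (b c)`. -/
def evalMat {R : Type*} [CommRing R] (μ : Fin 2 × Fin (MF.ParHom.parRank N) → R) :
    Matrix (Fin 2 × Module.Free.ChooseBasisIndex ℤ (TFull N)) (Fin (MF.ParHom.parRank N)) R :=
  Matrix.of fun ic =>
    signedRow N μ ic.1 ᵥ* (heckeRep N (tBasis N ic.2)).map (Int.castRingHom R)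

variable {N}

theorem map_vecMul_cast {R R' : Type*} [CommRing R] [CommRing R'] (f : R →+* R')
    (M : Matrix (Fin (MF.ParHom.parRank N)) (Fin (MF.ParHom.parRank N)) ℤ)
    (v : Fin (MF.ParHom.parRank N) → R) (k : Fin (MF.ParHom.parRank N)) :
    f ((v ᵥ* M.map (Int.castRingHom R)) k) = ((fun j => f (v j)) ᵥ* M.map (Int.castRingHom R')) k := by
  simp [Matrix.vecMul, dotProduct]

theorem map_signedRow {R R' : Type*} [CommRing R] [CommRing R'] (f : R →+* R')
    (μ : Fin 2 × Fin (MF.ParHom.parRank N) → R) (i : Fin 2) (k : Fin (MF.ParHom.parRank N)) :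
    f (signedRow N μ i k) = signedRow N (f ∘ μ) i k := by
  unfold signedRow
  split_ifs <;> simp only [Pi.add_apply, Pi.sub_apply, map_add, map_sub, map_vecMul_cast] <;> rfl

theorem map_evalMat {R R' : Type*} [CommRing R] [CommRing R'] (f : R →+* R')
    (μ : Fin 2 × Fin (MF.ParHom.parRank N) → R) :
    (evalMat N μ).map f = evalMat N (f ∘ μ) := by
  ext ic k
  simp only [Matrix.map_apply, evalMat, Matrix.of_apply, map_vecMul_cast, map_signedRow]

variable (N)

/-- Index bookkeeping for `evalMat`. -/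
def evalIdx : Fin 2 × Module.Free.ChooseBasisIndex ℤ (TFull N) ≃ Fin (MF.ParHom.parRank N) :=
  Fintype.equivOfCardEq
    (by rw [Fintype.card_prod, Fintype.card_fin, Fintype.card_fin, parRank_eq_two_mul_card])

/-- The determinant of `evalMat`. -/
def evalDet {R : Type*} [CommRing R] (μ : Fin 2 × Fin (MF.ParHom.parRank N) → R) : R :=
  (Matrix.reindex (evalIdx N) (Equiv.refl _) (evalMat N μ)).det

theorem map_evalDet {R R' : Type*} [CommRing R] [CommRing R'] (f : R →+* R')
    (μ : Fin 2 × Fin (MF.ParHom.parRank N) → R) : f (evalDet N μ) = evalDet N (f ∘ μ) := by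
  rw [evalDet, evalDet, RingHom.map_det, ← map_evalMat]
  rfl

/-- The coordinates of the functional `(f, g) ↦ a₁` on the `i`-th factor, halved. -/
def muC (ik : Fin 2 × Fin (MF.ParHom.parRank N)) : ℂ :=
  (1 / 2 : ℂ) * qCoeff
    ⇑(if ik.1 = 0 then ((periodEquiv N).symm ((hCoord N ℂ).symm (Pi.single ik.2 1))).1
      else ((periodEquiv N).symm ((hCoord N ℂ).symm (Pi.single ik.2 1))).2) 1

/-- `v ↦` the `i`-th component of `Φ⁻¹ v`. -/
def compLin (i : Fin 2) : (Fin (MF.ParHom.parRank N) → ℂ) →ₗ[ℂ] CuspForm (Gamma0 N) 2 :=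
  (if i = 0 then LinearMap.fst ℂ _ _ else LinearMap.snd ℂ _ _) ∘ₗ (periodEquiv N).symm.toLinearMap
    ∘ₗ (hCoord N ℂ).symm.toLinearMap

theorem muC_dotProduct (i : Fin 2) (v : Fin (MF.ParHom.parRank N) → ℂ) :
    (fun k => muC N (i, k)) ⬝ᵥ v = (1 / 2 : ℂ) * qCoeff ⇑(compLin N i v) 1 := by
  classical
  conv_rhs => rw [pi_eq_sum_univ v]
  rw [← Eigen.qCoeffLin_apply, map_sum, map_sum, Finset.mul_sum, dotProduct]
  refine Finset.sum_congr rfl fun k _ => ?_
  have hk : (fun j => if k = j then (1 : ℂ) else 0) = Pi.single k 1 :=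
    funext fun j => by rw [Pi.single_apply]; simp [eq_comm]
  rw [map_smul, map_smul, smul_eq_mul, hk]
  show muC N (i, k) * v k = _
  have hc : qCoeff ⇑(compLin N i (Pi.single k 1)) 1 * (1 / 2) = muC N (i, k) := by
    rw [muC, compLin, mul_comm]
    fin_cases i <;> simp
  rw [← hc, Eigen.qCoeffLin_apply]
  ring

theorem compLin_involMat (i : Fin 2) (v : Fin (MF.ParHom.parRank N) → ℂ) :
    compLin N i ((involMatZ N).map (Int.castRingHom ℂ) *ᵥ v)
      = (if i = 0 then (1 : ℂ) else -1) • compLin N i v := by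
  obtain ⟨x, rfl⟩ := (hCoord N ℂ).surjective v
  obtain ⟨⟨f, g⟩, rfl⟩ := (periodEquiv N).surjective x
  have : (involMatZ N).map (Int.castRingHom ℂ) *ᵥ hCoord N ℂ (periodEquiv N (f, g))
      = hCoord N ℂ (periodEquiv N (f, -g)) := by
    rw [← involEnd_periodEquiv, ← hMatrix_involEnd]
    simp [hMatrix, LinearMap.toMatrixAlgEquiv', LinearEquiv.conjAlgEquiv_apply]
  rw [this]
  fin_cases i <;> simp [compLin]

theorem compLin_heckeRep (i : Fin 2) (t : TFull N) (v : Fin (MF.ParHom.parRank N) → ℂ) :
    compLin N i ((heckeRep N t).map (Int.castRingHom ℂ) *ᵥ v)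
      = (t : Module.End ℂ (CuspForm (Gamma0 N) 2)) (compLin N i v) := by
  obtain ⟨x, rfl⟩ := (hCoord N ℂ).surjective v
  obtain ⟨⟨f, g⟩, rfl⟩ := (periodEquiv N).surjective x
  have : (heckeRep N t).map (Int.castRingHom ℂ) *ᵥ hCoord N ℂ (periodEquiv N (f, g))
      = hCoord N ℂ (periodEquiv N ((t : Module.End ℂ (CuspForm (Gamma0 N) 2)) f,
          (t : Module.End ℂ (CuspForm (Gamma0 N) 2)) g)) := by
    rw [← castMat_apply, castMat_heckeRep]
    simp [coordC, hMatrix, LinearMap.toMatrixAlgEquiv', LinearEquiv.conjAlgEquiv_apply]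
  rw [this]
  fin_cases i <;> simp [compLin]

theorem signedRow_muC (i : Fin 2) (v : Fin (MF.ParHom.parRank N) → ℂ) :
    signedRow N (muC N) i ⬝ᵥ v = qCoeff ⇑(compLin N i v) 1 := by
  unfold signedRow
  fin_cases i
  · simp only [Fin.zero_eta, if_true]
    rw [add_dotProduct, ← Matrix.dotProduct_mulVec, muC_dotProduct, muC_dotProduct,
      compLin_involMat, if_pos rfl, one_smul]
    ring
  · simp only [Fin.mk_one, one_ne_zero, if_false]
    rw [sub_dotProduct, ← Matrix.dotProduct_mulVec, muC_dotProduct, muC_dotProduct,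
      compLin_involMat, if_neg one_ne_zero, Eigen.qCoeff_smul]
    ring

theorem evalMat_muC_mulVec_injective : Function.Injective (evalMat N (muC N)).mulVec := by
  refine (injective_iff_map_eq_zero (evalMat N (muC N)).mulVecLin).mpr fun v hv => ?_
  have h : ∀ i, compLin N i v = 0 := fun i => eq_zero_of_forall_tBasis N fun c => by
    rw [← compLin_heckeRep, ← signedRow_muC, Matrix.dotProduct_mulVec]
    exact congrFun hv (i, c)
  have h0 : (periodEquiv N).symm ((hCoord N ℂ).symm v) = 0 :=
    Prod.ext (by simpa [compLin] using h 0) (by simpa [compLin] using h 1)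
  simpa using h0

theorem evalDet_muC_ne_zero : evalDet N (muC N) ≠ 0 := by
  classical
  intro h
  obtain ⟨v, hv0, hv⟩ := Matrix.exists_mulVec_eq_zero_iff.mpr h
  refine hv0 (evalMat_muC_mulVec_injective N ?_)
  rw [Matrix.mulVec_zero]
  funext ic
  simpa [Matrix.mulVec, Matrix.reindex_apply] using congrFun hv (evalIdx N ic)

/-- Some integral choice of the functionals is non-degenerate. -/
theorem exists_evalDet_ne_zero :
    ∃ μ : Fin 2 × Fin (MF.ParHom.parRank N) → ℤ, evalDet N μ ≠ 0 := by
  by_contra hne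
  simp only [not_exists, not_not] at hne
  refine evalDet_muC_ne_zero N ?_
  have h0 : evalDet N (MvPolynomial.X : _ → MvPolynomial (Fin 2 × Fin (MF.ParHom.parRank N)) ℤ) = 0 := by
    refine MvPolynomial.funext fun x => ?_
    rw [map_zero, map_evalDet]
    have : (⇑(MvPolynomial.eval x) ∘ MvPolynomial.X) = x := funext fun k => MvPolynomial.eval_X k
    rw [this, hne]
  have h1 := congrArg (MvPolynomial.eval₂Hom (Int.castRingHom ℂ) (muC N)) h0
  rw [map_zero, map_evalDet] at h1
  have : (⇑(MvPolynomial.eval₂Hom (Int.castRingHom ℂ) (muC N)) ∘ MvPolynomial.X) = muC N :=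
    funext fun k => MvPolynomial.eval₂Hom_X' _ _ k
  rwa [this] at h1

/-- Fixed integral parameters of the two functionals. -/
def muZ : Fin 2 × Fin (MF.ParHom.parRank N) → ℤ := (exists_evalDet_ne_zero N).choose

theorem evalDet_muZ : evalDet N (muZ N) ≠ 0 := (exists_evalDet_ne_zero N).choose_spec

theorem signedRow_involMat {R : Type*} [CommRing R] (μ : Fin 2 × Fin (MF.ParHom.parRank N) → R)
    (i : Fin 2) :
    signedRow N μ i ᵥ* (involMatZ N).map (Int.castRingHom R)
      = (if i = 0 then (1 : R) else -1) • signedRow N μ i := by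
  have hJZ : involMatZ N * involMatZ N = 1 := by
    rw [involMatZ, ← map_mul, show involEnd N ℤ * involEnd N ℤ = 1 from
      LinearMap.ext involEnd_involEnd, map_one]
  have hJ : (involMatZ N).map (Int.castRingHom R) * (involMatZ N).map (Int.castRingHom R) = 1 := by
    rw [← Matrix.map_mul, hJZ, Matrix.map_one _ (map_zero _) (map_one _)]
  unfold signedRow
  split_ifs with h
  · rw [Matrix.add_vecMul, Matrix.vecMul_vecMul, hJ, Matrix.vecMul_one, one_smul, add_comm]
  · rw [Matrix.sub_vecMul, Matrix.vecMul_vecMul, hJ, Matrix.vecMul_one, neg_one_smul, neg_sub]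

end Generic

section DualBasis

variable (R : Type) [CommRing R] [IsAddTorsionFree R]

/-- The two functionals on `H(R)`: the first even, the second odd for the involution. -/
def hDual (i : Fin 2) : Module.Dual R (HSpace N R) :=
  (dotProductBilin R R (signedRow N (Int.cast ∘ muZ N : _ → R) i)).comp (hCoord N R).toLinearMap

theorem hDual_apply (i : Fin 2) (x : HSpace N R) :
    hDual N R i x = signedRow N (Int.cast ∘ muZ N : _ → R) i ⬝ᵥ hCoord N R x := rfl

theorem hCoord_apply_end (g : Module.End R (HSpace N R)) (x : HSpace N R) :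
    hCoord N R (g x) = hMatrix N R g *ᵥ hCoord N R x := by
  simp [hMatrix, LinearMap.toMatrixAlgEquiv', LinearEquiv.conjAlgEquiv_apply]

theorem hDual_involEnd (i : Fin 2) (x : HSpace N R) :
    hDual N R i (involEnd N R x) = (if i = 0 then (1 : R) else -1) * hDual N R i x := by
  rw [hDual_apply, hDual_apply, hCoord_apply_end, hMatrix_involEnd, Matrix.dotProduct_mulVec,
    signedRow_involMat, smul_dotProduct, smul_eq_mul]

/-- The involution as a Hecke-linear map. -/
def involA : Module.End (R ⊗[ℤ] TFull N) (HSpace N R) where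
  toFun := involEnd N R
  map_add' := map_add _
  map_smul' a x := by
    induction a using TensorProduct.induction_on with
    | zero => simp only [HSpace.tensor_smul_def, map_zero, LinearMap.zero_apply]
    | tmul r t => rw [RingHom.id_apply, HSpace.tmul_smul, HSpace.tmul_smul, map_smul,
        heckeAct_involEnd]
    | add a b ha hb =>
      simp only [RingHom.id_apply] at ha hb ⊢
      simp only [add_smul, map_add, ha, hb]

theorem involA_apply (x : HSpace N R) : involA N R x = involEnd N R x := rfl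

/-- The pairing in coordinates. -/
theorem hDual_tmul_smul (i : Fin 2) (c : Module.Free.ChooseBasisIndex ℤ (TFull N))
    (x : HSpace N R) :
    hDual N R i (((1 : R) ⊗ₜ[ℤ] tBasis N c : R ⊗[ℤ] TFull N) • x)
      = (evalMat N (Int.cast ∘ muZ N : _ → R) *ᵥ hCoord N R x) (i, c) := by
  rw [HSpace.tmul_smul, one_smul, hDual_apply, hCoord_apply_end, hMatrix_heckeAct,
    Matrix.dotProduct_mulVec]
  rfl

end DualBasis

section Field

variable (K : Type) [Field K] [CharZero K]

/-- `H(K)` is isomorphic to `(A^*)²`, `A = K ⊗ T`, via `hDual`. -/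
theorem isDualBasis_hDual : IsDualBasis K (K ⊗[ℤ] TFull N) (hDual N K) := by
  classical
  let bA : Module.Basis (Module.Free.ChooseBasisIndex ℤ (TFull N)) K (K ⊗[ℤ] TFull N) :=
    Algebra.TensorProduct.basis K (tBasis N)
  let ev : (Fin 2 → Module.Dual K (K ⊗[ℤ] TFull N)) ≃ₗ[K]
      (Fin 2 × Module.Free.ChooseBasisIndex ℤ (TFull N) → K) :=
    (LinearEquiv.piCongrRight fun _ => (bA.constr K).symm).trans (LinearEquiv.curry K K _ _).symm
  set E := Matrix.reindex (evalIdx N) (Equiv.refl _) (evalMat N (Int.cast ∘ muZ N : _ → K))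
  have hdet : IsUnit E.det := by
    refine isUnit_iff_ne_zero.mpr ?_
    have h := map_evalDet N (Int.castRingHom K) (muZ N)
    show evalDet N (Int.cast ∘ muZ N : _ → K) ≠ 0
    rw [show (Int.cast ∘ muZ N : _ → K) = (Int.castRingHom K) ∘ muZ N from rfl, ← h]
    exact (map_ne_zero_iff _ (RingHom.injective_int _)).mpr (evalDet_muZ N)
  let e : HSpace N K ≃ₗ[K] (Fin 2 → Module.Dual K (K ⊗[ℤ] TFull N)) :=
    (hCoord N K).trans ((Matrix.toLinearEquiv' E (Matrix.invertibleOfIsUnitDet E hdet)).trans
      ((LinearEquiv.funCongrLeft K K (evalIdx N)).trans ev.symm))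
  have he : dualEval K (K ⊗[ℤ] TFull N) (hDual N K) = e.toLinearMap := by
    refine LinearMap.ext fun x => ev.injective ?_
    simp only [e, LinearEquiv.coe_coe, LinearEquiv.trans_apply, LinearEquiv.apply_symm_apply]
    funext ic
    show ((bA.constr K : _ ≃ₗ[K] (K ⊗[ℤ] TFull N →ₗ[K] K)).symm
      (dualEval K (K ⊗[ℤ] TFull N) (hDual N K) x ic.1)) ic.2 = _
    rw [Module.Basis.constr_symm_apply, dualEval_apply]
    rw [show bA ic.2 = (1 : K) ⊗ₜ[ℤ] tBasis N ic.2 from
      Algebra.TensorProduct.basis_apply _ _, hDual_tmul_smul]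
    show _ = (E *ᵥ hCoord N K x) (evalIdx N ic)
    simp [E, Matrix.mulVec, Matrix.reindex_apply]
  show Function.Bijective (dualEval K (K ⊗[ℤ] TFull N) (hDual N K))
  rw [he]
  exact e.bijective

/-- In the basis `hDual` the involution (complex conjugation) is `diag(1, -1)`. -/
theorem matrix_involA [Module.Free K (K ⊗[ℤ] TFull N)] [Module.Finite K (K ⊗[ℤ] TFull N)] :
    (isDualBasis_hDual N K).matrix (involA N K) = Matrix.diagonal ![1, -1] := by
  refine (isDualBasis_hDual N K).matrix_eq_diagonal _ fun i x => ?_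
  rw [involA_apply, hDual_involEnd]
  fin_cases i <;> simp

end Field

end Fermat.Agent.HK
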