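import Mathlib

/-!
Limits in `ℤ_[p]` of compatible residues, and the limit of a compatible family of matrix
representations modulo `p ^ k`.
-/

set_option autoImplicit false

noncomputable section

namespace Fermat.Agent.HK

variable {p : ℕ} [Fact p.Prime]

theorem exists_padic_limit (a : ∀ k : ℕ, ZMod (p ^ k))
    (h : ∀ k, ZMod.castHom (pow_dvd_pow p k.le_succ) (ZMod (p ^ k)) (a (k + 1)) = a k) :
    ∃ x : ℤ_[p], ∀ k, PadicInt.toZModPow k x = a k := by
  have h' : ∀ k k' (hk : k ≤ k'),
      ZMod.castHom (pow_dvd_pow p hk) (ZMod (p ^ k)) (a k') = a k := by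
    intro k k' hk
    induction k', hk using Nat.le_induction with
    | base => exact RingHom.congr_fun (ZMod.castHom_self (n := p ^ k)) (a k)
    | succ m hm ih =>
      conv_rhs => rw [← ih, ← h m]
      exact (RingHom.congr_fun (ZMod.castHom_comp (pow_dvd_pow p hm)
        (pow_dvd_pow p m.le_succ)) (a (m + 1))).symm
  let f : ∀ k : ℕ, Polynomial ℤ →+* ZMod (p ^ k) := fun k =>
    Polynomial.eval₂RingHom (Int.castRingHom _) (a k)
  have hf : ∀ k1 k2 (hk : k1 ≤ k2),
      (ZMod.castHom (pow_dvd_pow p hk) _).comp (f k2) = f k1 := fun k1 k2 hk =>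
    Polynomial.ringHom_ext (fun z => by simp [f]) (by simp [f, h' k1 k2 hk, -ZMod.castHom_apply])
  refine ⟨PadicInt.lift hf Polynomial.X, fun k => ?_⟩
  have := RingHom.congr_fun (PadicInt.lift_spec hf k) Polynomial.X
  simpa [f] using this

variable {r : Type*} [Fintype r] [DecidableEq r]

/-- Reduction of matrices modulo `p ^ k`. -/
def matMod (k : ℕ) : Matrix r r ℤ_[p] →+* Matrix r r (ZMod (p ^ k)) :=
  (PadicInt.toZModPow k).mapMatrix

omit [Fintype r] [DecidableEq r] in
theorem matrix_ext_of_matMod {A B : Matrix r r ℤ_[p]}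
    (h : ∀ k, A.map (PadicInt.toZModPow k) = B.map (PadicInt.toZModPow k)) : A = B :=
  Matrix.ext fun i j => PadicInt.ext_of_toZModPow.mp fun k => congrFun (congrFun (h k) i) j

variable {G : Type*} [Monoid G] (M : ∀ k : ℕ, G →* Matrix r r (ZMod (p ^ k)))
  (hM : ∀ k g, (M (k + 1) g).map (ZMod.castHom (pow_dvd_pow p k.le_succ) (ZMod (p ^ k))) = M k g)

include hM in
theorem exists_matrix_limit (g : G) : ∃ A : Matrix r r ℤ_[p], ∀ k, matMod k A = M k g := by
  choose x hx using fun ij : r × r => exists_padic_limit (fun k => M k g ij.1 ij.2)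
    fun k => congrFun (congrFun (hM k g) ij.1) ij.2
  exact ⟨Matrix.of fun i j => x (i, j), fun k => Matrix.ext fun i j => hx (i, j) k⟩

/-- The limit representation. -/
def matrixLimit : G →* Matrix r r ℤ_[p] where
  toFun g := (exists_matrix_limit M hM g).choose
  map_one' := matrix_ext_of_matMod fun k => by
    show matMod k _ = matMod k _
    rw [(exists_matrix_limit M hM 1).choose_spec k, map_one, map_one]
  map_mul' g g' := matrix_ext_of_matMod fun k => by
    show matMod k _ = matMod k _
    rw [(exists_matrix_limit M hM (g * g')).choose_spec k, map_mul, map_mul,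
      (exists_matrix_limit M hM g).choose_spec k, (exists_matrix_limit M hM g').choose_spec k]

theorem matMod_matrixLimit (k : ℕ) (g : G) : matMod k (matrixLimit M hM g) = M k g :=
  (exists_matrix_limit M hM g).choose_spec k

end Fermat.Agent.HK
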