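import Fermat.Agent.HK.TDual
import Fermat.Agent.HK.TateLimit
import Fermat.Agent.HK.HeckeGalois
import Fermat.Agent.GAL.Interface

/-!
From coordinates on the `p`-power torsion of `J₀(N)` in which the Hecke operators and complex
conjugation have the integral matrices of `H¹_par`, to the matrix form `GAL.TateRep` of the Galois
action on the rational Tate module.
-/

set_option autoImplicit false

noncomputable section

open CongruenceSubgroup ModularCurve AlgebraicCurve
open scoped MatrixGroups TensorProduct Matrix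

namespace Fermat.Agent.HK

variable (N : ℕ) [NeZero N] (p : ℕ) [Fact p.Prime]

/-- The `p ^ k`-torsion of `J₀(N)`. -/
def jTor (k : ℕ) : AddSubgroup (JZero N) := (nsmulAddMonoidHom (α := JZero N) (p ^ k)).ker

omit [NeZero N] [Fact p.Prime] in
theorem mem_jTor {k : ℕ} {x : JZero N} : x ∈ jTor N p k ↔ p ^ k • x = 0 := Iff.rfl

/-- Coordinates on all `p`-power torsion, compatible with multiplication by `p`, with the Hecke
operators and one complex conjugation given by the integral matrices of `H¹_par`. -/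
structure TorsionCoords where
  /-- The coordinates. -/
  e : ∀ k, jTor N p k ≃+ (Fin (MF.ParHom.parRank N) → ZMod (p ^ k))
  red : ∀ (k : ℕ) (z : jTor N p (k + 1)) (w : jTor N p k), (w : JZero N) = p • (z : JZero N) →
    e k w = ZMod.castHom (pow_dvd_pow p k.le_succ) (ZMod (p ^ k)) ∘ e (k + 1) z
  hecke : ∀ (k : ℕ) (ℓ : Nat.Primes) [Fact (ℓ : ℕ).Prime] (z w : jTor N p k),
    (w : JZero N) = heckeOperatorBar N ℓ z →
      e k w = (heckeMatZ N ℓ).map (Int.castRingHom (ZMod (p ^ k))) *ᵥ e k z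
  /-- A complex conjugation. -/
  conjElt : AlgebraicClosure ℚ ≃ₐ[ℚ] AlgebraicClosure ℚ
  conj : ∀ (k : ℕ) (z w : jTor N p k), (w : JZero N) = conjElt • (z : JZero N) →
    e k w = -((involMatZ N).map (Int.castRingHom (ZMod (p ^ k))) *ᵥ e k z)

variable {N p}

namespace TorsionCoords

variable (D : TorsionCoords N p)

omit [Fact p.Prime] in
theorem smul_mem_jTor {k : ℕ} (g : AlgebraicClosure ℚ ≃ₐ[ℚ] AlgebraicClosure ℚ) {x : JZero N}
    (hx : x ∈ jTor N p k) : g • x ∈ jTor N p k := by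
  rw [mem_jTor] at hx ⊢
  exact ((map_nsmul (DistribSMul.toAddMonoidHom (JZero N) g) (p ^ k) x).symm.trans
    (congrArg (g • ·) hx)).trans (smul_zero (A := JZero N) g)

omit [Fact p.Prime] in
theorem hecke_mem_jTor {k : ℕ} (ℓ : Nat.Primes) {x : JZero N}
    (hx : x ∈ jTor N p k) : heckeOperatorBar N ℓ x ∈ jTor N p k := by
  rw [mem_jTor] at hx ⊢
  rw [← map_nsmul, hx, map_zero]

/-- The action of `g` on `J[p^k]`. -/
def galHom (k : ℕ) : (AlgebraicClosure ℚ ≃ₐ[ℚ] AlgebraicClosure ℚ) →*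
    AddMonoid.End (Fin (MF.ParHom.parRank N) → ZMod (p ^ k)) where
  toFun g := ((D.e k).toAddMonoidHom.comp
    (AddMonoidHom.mk' (fun z : jTor N p k =>
        (⟨g • (z : JZero N), smul_mem_jTor g z.2⟩ : jTor N p k))
      (fun a b => Subtype.ext (smul_add g (a : JZero N) (b : JZero N))))).comp (D.e k).symm.toAddMonoidHom
  map_one' := AddMonoidHom.ext fun v => by
    show D.e k _ = v
    conv_rhs => rw [← (D.e k).apply_symm_apply v]
    exact congrArg (D.e k) (Subtype.ext (one_smul _ _))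
  map_mul' g g' := AddMonoidHom.ext fun v => by
    refine congrArg (D.e k) (Subtype.ext ?_)
    show (g * g') • _ = g • (((D.e k).symm (D.e k _) : jTor N p k) : JZero N)
    rw [AddEquiv.symm_apply_apply, mul_smul]
    rfl

/-- The matrix of `g` on `J[p^k]`. -/
def galMat (k : ℕ) : (AlgebraicClosure ℚ ≃ₐ[ℚ] AlgebraicClosure ℚ) →*
    Matrix (Fin (MF.ParHom.parRank N)) (Fin (MF.ParHom.parRank N)) (ZMod (p ^ k)) where
  toFun g := LinearMap.toMatrix' (AddMonoidHom.toZModLinearMap (p ^ k) (D.galHom k g))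
  map_one' := by
    rw [map_one, ← LinearMap.toMatrix'_id]
    rfl
  map_mul' g g' := by
    rw [map_mul, ← LinearMap.toMatrix'_comp]
    rfl

theorem galMat_mulVec (k : ℕ) (g : AlgebraicClosure ℚ ≃ₐ[ℚ] AlgebraicClosure ℚ)
    (z : jTor N p k) :
    D.galMat k g *ᵥ D.e k z = D.e k ⟨g • (z : JZero N), smul_mem_jTor g z.2⟩ := by
  show Matrix.toLin' (LinearMap.toMatrix' (AddMonoidHom.toZModLinearMap (p ^ k) (D.galHom k g)))
    (D.e k z) = _
  rw [Matrix.toLin'_toMatrix']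
  refine congrArg (D.e k) (Subtype.ext ?_)
  show g • (((D.e k).symm (D.e k z) : jTor N p k) : JZero N) = _
  rw [AddEquiv.symm_apply_apply]

theorem galMat_eq {k : ℕ} {g : AlgebraicClosure ℚ ≃ₐ[ℚ] AlgebraicClosure ℚ}
    {A : Matrix (Fin (MF.ParHom.parRank N)) (Fin (MF.ParHom.parRank N)) (ZMod (p ^ k))}
    (h : ∀ z : jTor N p k, A *ᵥ D.e k z = D.e k ⟨g • (z : JZero N), smul_mem_jTor g z.2⟩) :
    D.galMat k g = A := by
  refine Matrix.ext_iff_mulVec.mpr fun v => ?_
  obtain ⟨z, rfl⟩ := (D.e k).surjective v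
  rw [galMat_mulVec, h]

omit [NeZero N] [Fact p.Prime] in
theorem mem_jTor_pred {k : ℕ} (z : jTor N p (k + 1)) : p • (z : JZero N) ∈ jTor N p k := by
  rw [mem_jTor, ← mul_nsmul, mul_comm, ← pow_succ]
  exact z.2

theorem galMat_cast (k : ℕ) (g : AlgebraicClosure ℚ ≃ₐ[ℚ] AlgebraicClosure ℚ) :
    (D.galMat (k + 1) g).map (ZMod.castHom (pow_dvd_pow p k.le_succ) (ZMod (p ^ k)))
      = D.galMat k g := by
  symm
  refine Matrix.ext_iff_mulVec.mpr fun v => ?_
  obtain ⟨x, rfl⟩ := (ZMod.castHom_surjective (pow_dvd_pow p k.le_succ)).comp_left v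
  obtain ⟨z, rfl⟩ := (D.e (k + 1)).surjective x
  simp only
  rw [← D.red k z ⟨_, mem_jTor_pred z⟩ rfl, galMat_mulVec,
    D.red k ⟨g • (z : JZero N), smul_mem_jTor g z.2⟩
      ⟨g • (p • (z : JZero N)), smul_mem_jTor g (mem_jTor_pred z)⟩
      (map_nsmul (DistribSMul.toAddMonoidHom (JZero N) g) p (z : JZero N)),
    D.red k z ⟨_, mem_jTor_pred z⟩ rfl, ← galMat_mulVec]
  funext i
  simp only [Matrix.mulVec, dotProduct, Function.comp_apply, map_sum, map_mul, Matrix.map_apply]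

/-- The Galois action on the Tate module, in coordinates. -/
def tateMat : (AlgebraicClosure ℚ ≃ₐ[ℚ] AlgebraicClosure ℚ) →*
    Matrix (Fin (MF.ParHom.parRank N)) (Fin (MF.ParHom.parRank N)) ℤ_[p] :=
  matrixLimit D.galMat D.galMat_cast

theorem tateMat_mod (k : ℕ) (g : AlgebraicClosure ℚ ≃ₐ[ℚ] AlgebraicClosure ℚ) :
    matMod k (D.tateMat g) = D.galMat k g :=
  matMod_matrixLimit _ _ k g

theorem matMod_cast (k : ℕ)
    (A : Matrix (Fin (MF.ParHom.parRank N)) (Fin (MF.ParHom.parRank N)) ℤ) :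
    matMod (p := p) k (castMat N ℤ_[p] A) = A.map (Int.castRingHom (ZMod (p ^ k))) :=
  Matrix.ext fun i j => map_intCast (PadicInt.toZModPow k) (A i j)

theorem galMat_commute_hecke (k : ℕ) (ℓ : Nat.Primes) [Fact (ℓ : ℕ).Prime]
    (g : AlgebraicClosure ℚ ≃ₐ[ℚ] AlgebraicClosure ℚ) :
    Commute (D.galMat k g) ((heckeMatZ N ℓ).map (Int.castRingHom (ZMod (p ^ k)))) := by
  refine Matrix.ext_iff_mulVec.mpr fun v => ?_
  obtain ⟨z, rfl⟩ := (D.e k).surjective v
  rw [← Matrix.mulVec_mulVec, ← Matrix.mulVec_mulVec,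
    ← D.hecke k ℓ z ⟨_, hecke_mem_jTor ℓ z.2⟩ rfl, galMat_mulVec, galMat_mulVec,
    ← D.hecke k ℓ ⟨g • (z : JZero N), smul_mem_jTor g z.2⟩
      ⟨g • heckeOperatorBar N ℓ z, smul_mem_jTor g (hecke_mem_jTor ℓ z.2)⟩
      (Corr.heckeOperatorBar_galois_smul N g ℓ z).symm]

theorem tateMat_commute (g : AlgebraicClosure ℚ ≃ₐ[ℚ] AlgebraicClosure ℚ) (t : TFull N) :
    Commute (D.tateMat g) (castMat N ℤ_[p] (heckeRep N t)) := by
  let P : Subring (TFull N) :=
    (Subring.centralizer ({D.tateMat g} : Set _)).comap ((castMat N ℤ_[p]).comp (heckeRep N))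
  suffices ht : t ∈ P by
    exact (Subring.mem_centralizer_iff.mp ht) (D.tateMat g) rfl
  have h := coe_mem_of_heckeFormsLin_mem N (P.map (CuspForm.heckeAlgebra N 2 ∅).subtype)
    (fun ℓ hℓ => ?_) t
  · obtain ⟨u, hu, hut⟩ := h
    rwa [← Subtype.ext (a1 := u) (a2 := t) hut]
  · let L : Nat.Primes := ⟨ℓ, hℓ.out⟩
    have : Fact (L : ℕ).Prime := hℓ
    refine ⟨CuspForm.heckeFormsGen N 2 L, ?_, coe_heckeFormsGen L⟩
    refine Subring.mem_centralizer_iff.mpr fun A hA => ?_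
    rw [Set.mem_singleton_iff] at hA
    subst hA
    show D.tateMat g * castMat N ℤ_[p] (heckeRep N (CuspForm.heckeFormsGen N 2 L))
      = castMat N ℤ_[p] (heckeRep N (CuspForm.heckeFormsGen N 2 L)) * D.tateMat g
    rw [heckeRep_heckeFormsGen]
    refine matrix_ext_of_matMod fun k => ?_
    show matMod k _ = matMod k _
    rw [map_mul, map_mul, matMod_cast, tateMat_mod]
    exact D.galMat_commute_hecke k L g

theorem galMat_conj (k : ℕ) :
    D.galMat k D.conjElt = -((involMatZ N).map (Int.castRingHom (ZMod (p ^ k)))) :=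
  D.galMat_eq fun z => by
    rw [Matrix.neg_mulVec, ← D.conj k z ⟨_, smul_mem_jTor D.conjElt z.2⟩ rfl]

theorem tateMat_conj : D.tateMat D.conjElt = -(castMat N ℤ_[p] (involMatZ N)) :=
  matrix_ext_of_matMod fun k => by
    show matMod k _ = matMod k _
    rw [tateMat_mod, map_neg, matMod_cast, galMat_conj]

theorem galMat_eq_one {k : ℕ} {g : AlgebraicClosure ℚ ≃ₐ[ℚ] AlgebraicClosure ℚ}
    (h : ∀ x : JZero N, p ^ k • x = 0 → g • x = x) : D.galMat k g = 1 :=
  D.galMat_eq fun z => by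
    rw [Matrix.one_mulVec]
    exact congrArg (D.e k) (Subtype.ext (h z z.2).symm)

theorem tateMat_quad {g : AlgebraicClosure ℚ ≃ₐ[ℚ] AlgebraicClosure ℚ} (L : Nat.Primes)
    [Fact (L : ℕ).Prime]
    (h : ∀ x : JZero N, (∃ n : ℕ, p ^ n • x = 0) →
      g • g • x - heckeOperatorBar N L (g • x) + (L : ℕ) • x = 0) :
    D.tateMat g * D.tateMat g - castMat N ℤ_[p] (heckeMatZ N L) * D.tateMat g
      + ((L : ℕ) : ℤ_[p]) • (1 : Matrix (Fin (MF.ParHom.parRank N))
          (Fin (MF.ParHom.parRank N)) ℤ_[p]) = 0 := by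
  rw [Nat.cast_smul_eq_nsmul]
  refine matrix_ext_of_matMod fun k => ?_
  show matMod k _ = matMod k _
  rw [map_add, map_sub, map_mul, map_mul, map_nsmul, map_one, map_zero, tateMat_mod, matMod_cast]
  refine Matrix.ext_iff_mulVec.mpr fun v => ?_
  obtain ⟨z, rfl⟩ := (D.e k).surjective v
  rw [Matrix.add_mulVec, Matrix.sub_mulVec, Matrix.smul_mulVec, Matrix.one_mulVec,
    Matrix.zero_mulVec, ← Matrix.mulVec_mulVec, ← Matrix.mulVec_mulVec, galMat_mulVec,
    galMat_mulVec, ← D.hecke k L ⟨g • (z : JZero N), smul_mem_jTor g z.2⟩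
      ⟨_, hecke_mem_jTor L (smul_mem_jTor g z.2)⟩ rfl, ← map_nsmul, ← map_sub, ← map_add,
    ← map_zero (D.e k)]
  refine congrArg (D.e k) (Subtype.ext ?_)
  exact h z ⟨k, z.2⟩

end TorsionCoords

end Fermat.Agent.HK
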